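import Fermat.Agent.MR.C.AbsSym

/-!
# MR / C : package MR-C-ABS-1c : `E / E₀` is finite
-/

set_option autoImplicit false

open Polynomial

namespace Fermat.Agent.MR.C

variable {E₀ E : Type*} [Field E₀] [Field E] [Algebra E₀ E] {δ : E ≃ₐ[E₀] E} {p : ℕ}

/-- `E / E₀` is finite: `E₀` is the fixed field of the finite group generated by `δ`.
PROOF (one possibility): every `x` is a root of the monic `f ∈ E₀[X]` of degree `p` of `chi_descends`, so `E/E₀` is algebraic (separable: char 0) with
`(minpoly E₀ x).natDegree ≤ p`; a separable algebraic extension of bounded degree is finite (primitive element on finitely generated subextensions: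
take `x` with `finrank E₀ E₀⟮x⟯` maximal; for any `y`, `E₀⟮x, y⟯ = E₀⟮z⟯` (`Field.exists_primitive_element`), so `E₀⟮x⟯ = E₀⟮x, y⟯`).
Other possibility: `FixedPoints.subfield (Subgroup.zpowers δ) E` and Artin's theorem (`FixedPoints.finrank_le_card`). -/
theorem finiteDimensional_of_cyclic [CharZero E₀] (hp : 0 < p) (hpow : ∀ x : E, (δ ^ p) x = x)
    (hfix : ∀ x : E, δ x = x → ∃ x₀ : E₀, algebraMap E₀ E x₀ = x) : FiniteDimensional E₀ E := by
  classical
  have hδ : δ ^ p = 1 := AlgEquiv.ext hpow
  have hfo : IsOfFinOrder δ := isOfFinOrder_iff_pow_eq_one.2 ⟨p, hp, hδ⟩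
  have : Finite (Subgroup.zpowers δ) := by
    have := hfo.finite_zpowers
    exact this.to_subtype
  -- Artin
  have hA : FiniteDimensional (FixedPoints.subfield (Subgroup.zpowers δ) E) E := inferInstance
  -- a finite spanning set
  obtain ⟨s, hs⟩ := hA.fg_top
  refine ⟨⟨s, ?_⟩⟩
  rw [eq_top_iff]
  intro x _
  have hx : x ∈ Submodule.span (FixedPoints.subfield (Subgroup.zpowers δ) E) (s : Set E) := by
    rw [hs]; trivial
  refine Submodule.span_induction (p := fun y _ => y ∈ Submodule.span E₀ (s : Set E))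
    (fun y hy => Submodule.subset_span hy) (Submodule.zero_mem _)
    (fun y z _ _ hy hz => Submodule.add_mem _ hy hz) ?_ hx
  intro a y _ hy
  have ha : δ (a : E) = a := by
    have := a.2 ⟨δ, Subgroup.mem_zpowers δ⟩
    exact this
  obtain ⟨a₀, ha₀⟩ := hfix _ ha
  have : a • y = a₀ • y := by
    rw [Algebra.smul_def a₀ y, ha₀]
    rfl
  rw [this]
  exact Submodule.smul_mem _ _ hy

end Fermat.Agent.MR.C
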