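import Fermat.Agent.MR.C.AbsFrac
import Fermat.Agent.MR.C.AbsFin

/-!
# MR / C : package MR-C-ABS-7a : `B1` is noetherian; hypothesis (FG) of `NS.ns_main`
-/

set_option autoImplicit false

open Polynomial

namespace Fermat.Agent.MR.C

open Fermat.Agent.GAL Fermat.Agent.CAR

variable {E₀ E Γ₀ I₀ : Type*} [Field E₀] [Field E] [Algebra E₀ E] [LinearOrderedCommGroupWithZero Γ₀]
  {B₀ : Subring E₀} {v₀ : I₀ → Valuation E₀ Γ₀} {p₀ : I₀ → Ideal B₀} {π : B₀}
  {p : ℕ} {δ : E ≃ₐ[E₀] E} {vt : I₀ × ZMod p → Valuation E Γ₀}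

/-- PROOF. `IsFractionRing B₀ E₀` from `hB.frac` (`IsFractionRing` of a subring of a field all of whose elements are fractions: `IsLocalization` fields by hand, or
`IsFractionRing.of_field`-type lemma); `IsIntegrallyClosed B₀` from `hB.vert.ic` (`isIntegrallyClosed_iff E₀`); `hB.noeth`; `FiniteDimensional E₀ E` by
`finiteDimensional_of_cyclic`; separable since `CharZero`; `IsScalarTower B₀ E₀ E`.  Then `integralClosure.isNoetherianRing` (Mathlib, `RingTheory/DedekindDomain/IntegralClosure`);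
`B1 E B₀` is `(integralClosure B₀ E).toSubring`: same carrier, transport along the obvious `RingEquiv` (`isNoetherianRing_of_ringEquiv`) or `inferInstanceAs`. -/
theorem isNoetherianRing_B1 [CharZero E₀] (hp : 0 < p) (hB : Base B₀ v₀ p₀ π) (C : Cov p B₀ v₀ δ vt) :
    IsNoetherianRing (B1 E B₀) := by
  haveI : IsFractionRing B₀ E₀ := IsFractionRing.of_field B₀ E₀ (fun z => by
    obtain ⟨a, b, hb, h⟩ := hB.frac z
    refine ⟨a, b, ?_⟩
    have hb' : ((b : B₀) : E₀) ≠ 0 := fun h0 => hb (Subtype.ext h0)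
    exact (eq_div_iff hb').2 h)
  haveI : IsIntegrallyClosed B₀ :=
    (isIntegrallyClosed_iff E₀).2 fun {x} hx => ⟨⟨x, hB.vert.ic x hx⟩, rfl⟩
  haveI := hB.noeth
  haveI : FiniteDimensional E₀ E := finiteDimensional_of_cyclic hp C.pow C.fix
  haveI : IsNoetherianRing (integralClosure B₀ E) :=
    integralClosure.isNoetherianRing (A := B₀) (K := E₀) (L := E)
  let e : integralClosure B₀ E ≃+* B1 E B₀ :=
    { toFun := fun x => ⟨x.1, x.2⟩
      invFun := fun x => ⟨x.1, x.2⟩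
      left_inv := fun _ => rfl
      right_inv := fun _ => rfl
      map_mul' := fun _ _ => rfl
      map_add' := fun _ _ => rfl }
  exact isNoetherianRing_of_ringEquiv _ e

/-- **(FG)** : `NS.fg_of_noetherian ic_B1` + the two lemmas above. -/
theorem fg_B1 [CharZero E₀] (hp : 0 < p) (hB : Base B₀ v₀ p₀ π) (C : Cov p B₀ v₀ δ vt) {n : ℕ} (hn : 0 < n) {w : E}
    (hw : w ≠ 0) :
    ∃ (r : ℕ) (g : Fin r → E), (∀ k, g k ∈ NS.Lam (B1 E B₀) n w) ∧
      ∀ φ ∈ NS.Lam (B1 E B₀) n w, ∃ c : Fin r → B1 E B₀, φ = ∑ k, (c k : E) * g k := by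
  have := isNoetherianRing_B1 hp hB C
  obtain ⟨a, b, ha, hb, hab⟩ := exists_frac_B1 hp hB C hw
  exact NS.fg_of_noetherian ic_B1 hn ha hb hab

end Fermat.Agent.MR.C
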