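import Fermat.Agent.MR.C.AbsGen
import Fermat.Agent.MR.C.AbsNoeth

/-!
# MR / C : the abstract cover theorem `cover_ns`, `cover_out`
-/

set_option autoImplicit false

open Polynomial

namespace Fermat.Agent.MR.C

open Fermat.Agent.GAL Fermat.Agent.CAR

variable {E₀ E Γ₀ I₀ : Type*} [Field E₀] [Field E] [Algebra E₀ E] [LinearOrderedCommGroupWithZero Γ₀]
  {B₀ : Subring E₀} {v₀ : I₀ → Valuation E₀ Γ₀} {p₀ : I₀ → Ideal B₀} {π : B₀}
  {p : ℕ} [Fact p.Prime] {δ : E ≃ₐ[E₀] E} {vt : I₀ × ZMod p → Valuation E Γ₀} [Fintype I₀] [CharZero E₀]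

/-- **NS on the cover.**  `w ∈ E` with all `2p` vertical valuations `= 1` and `n`-divisible horizontal divisor (`HG`) is, near every closed point of the special
fibre of `B1`, a unit times an `n`-th power. -/
theorem cover_ns (hB : Base B₀ v₀ p₀ π) (C : Cov p B₀ v₀ δ vt) {n : ℕ} (hn : 0 < n) {w : E} (hw : ∀ b, vt b w = 1)
    (HG : ∃ (N m : ℕ) (φ : Fin m → Fin n → E), (∀ k j, φ k j ∈ NS.Lam (B1 E B₀) n w) ∧
      (∑ k, ∏ j, φ k j) * w = (algebraMap E₀ E (π : E₀)) ^ N)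
    {P : Ideal (B1 E B₀)} (hP : P.IsMaximal) (hb : ∃ b, pt B₀ vt b ≤ P) :
    ∃ φ ∈ NS.Lam (B1 E B₀) n w, ∃ u : B1 E B₀, (u : E) = φ ^ n * w ∧ u ∉ P := by
  have hp : 0 < p := (Fact.out : p.Prime).pos
  obtain ⟨b, ν, y, hbP, hy, hg⟩ := genOn_up hB C hP hb
  have hw0 : w ≠ 0 := by
    intro h
    have := hw b
    rw [h, map_zero] at this
    exact zero_ne_one this
  have hπ0 : inc E B₀ π ≠ 0 := by
    intro h
    have h1 : algebraMap E₀ E (π : E₀) = 0 := congrArg Subtype.val h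
    rw [map_eq_zero] at h1
    exact hB.π0 (Subtype.ext h1)
  exact NS.ns_main (vert_B1 hB C) (π := inc E B₀ π) hπ0 (fun z h1 h2 => kr_B1 hp hB C z h1 h2) hn hw HG
    (fg_B1 hp hB C hn hw0) (fun j => hpr_B1 hB C j) hP hbP hy hg

/-- **Output**: the reductions along the branch `b₀` of the elements `φ^n w ∈ B1` generate the unit ideal of `R = B1 / pt b₀`. -/
theorem cover_out (hB : Base B₀ v₀ p₀ π) (C : Cov p B₀ v₀ δ vt) {n : ℕ} (hn : 0 < n) {w : E} (hw : ∀ b, vt b w = 1)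
    (HG : ∃ (N m : ℕ) (φ : Fin m → Fin n → E), (∀ k j, φ k j ∈ NS.Lam (B1 E B₀) n w) ∧
      (∑ k, ∏ j, φ k j) * w = (algebraMap E₀ E (π : E₀)) ^ N)
    {R : Type*} [CommRing R] (r : B1 E B₀ →+* R) (hr : Function.Surjective r) (b₀ : I₀ × ZMod p)
    (hker : RingHom.ker r = pt B₀ vt b₀) :
    Ideal.span {x : R | ∃ u : B1 E B₀, (∃ φ : E, (u : E) = φ ^ n * w) ∧ x = r u} = ⊤ := by
  by_contra hne
  obtain ⟨𝔪, h𝔪, hle⟩ := Ideal.exists_le_maximal _ hne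
  have hP : (𝔪.comap r).IsMaximal := Ideal.comap_isMaximal_of_surjective r hr
  have hb : pt B₀ vt b₀ ≤ 𝔪.comap r := by
    rw [← hker]
    intro z hz
    rw [Ideal.mem_comap, (RingHom.mem_ker).1 hz]
    exact 𝔪.zero_mem
  obtain ⟨φ, -, u, hu, huP⟩ := cover_ns hB C hn hw HG hP ⟨b₀, hb⟩
  exact huP (Ideal.mem_comap.2 (hle (Ideal.subset_span ⟨u, ⟨φ, hu⟩, rfl⟩)))

end Fermat.Agent.MR.C
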