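import Fermat.Agent.MR.C.NearLamInf
import Fermat.Agent.ORD.P2.LamDp
import Fermat.Agent.ORD.P4.Count

/-!
# MR / C : Artin-Schreier lifting on the chart ring of level `M₁ p` and the base data of (SEP)

* `asLift1`, `asLift2` : each branch of the reduced chart is normal, so a root `φ` of `T^n - T - ψ`, `ψ` the reduction (on that branch)
  of an element of the chart ring, is itself the reduction of an element of the chart ring.
* `sepData` : `W` deep at both valuations (`≡ 1 mod λ^p 𝔪`), `p ∣ div W`.  Then there are `G`, `f` with `G^p W = 1 + λ^p f`,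
  `f` in the chart ring, `G = 1 + λ g`, and `θ_∞, θ_0` in the chart ring with `θ_∞ ≡ g` at `v`, `θ_0 ≡ g` at `v ∘ w_p`.
-/

set_option autoImplicit false

open Polynomial ModularCurve AlgebraicCurve

noncomputable section

namespace Fermat.Agent.MR.C

open Fermat.Agent.GR Fermat.Agent.GAL Fermat.Agent.GAL.KL Fermat.Agent.GAL.KLC Fermat.Agent.S24
open Fermat.Agent.GR.HeckeField Fermat.Agent.TOR.GB Fermat.Agent.TOR Fermat.Agent.TOR.T1C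
open Fermat.Agent.TOR.KL2 Fermat.Agent.TOR.T1 Fermat.Agent.ORD Fermat.Agent.ORD.P4 Fermat.Agent.ORD.P5
open Fermat.Agent.S24.FF

section T1

variable {K F₀ F k Γ' Γ₀ : Type*} [Field K] [Field F₀] [Field F] [Algebra K F₀]
  [Algebra K F] [Field k] [LinearOrderedCommGroupWithZero Γ'] [LinearOrderedCommGroupWithZero Γ₀]
  {v₀ : Valuation F₀ Γ'} {ρ₀ : v₀.integer →+* LaurentSeries k} {v : Valuation F Γ₀}
  {ρ : v.integer →+* LaurentSeries k} {α β : F₀ →ₐ[K] F} {w : F ≃ₐ[K] F} {q : ℕ} [NeZero q]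

/-- Artin-Schreier lifting, first branch. -/
theorem asLift1 (H : Lvl K ρ₀ ρ α β w q) {u₀ : F₀} {u : F} {η : LaurentSeries k}
    (I : ChartIn K ρ₀ ρ α w u₀ u η) {n : ℕ} (hn : 2 ≤ n) {b X : F} {φ ψ : LaurentSeries k}
    (hb : IsInt K u b) (hbψ : Rd ρ b ψ) (hb2 : v (w b) ≤ 1) (hX : Rd ρ X φ)
    (h : φ ^ n - φ - ψ = 0) :
    ∃ b' : F, IsInt K u b' ∧ Rd ρ b' φ ∧ v (w b') ≤ 1 := by
  have h2 : IsInt k η φ :=
    isInt_of_as hn IsInt.one (I.ir b ψ hb hbψ hb2) (by rw [one_mul]; exact h)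
  obtain ⟨c, hc⟩ := I.res X φ hX
  obtain ⟨c', hc'int, hc'⟩ := I.lift c φ hc h2
  refine ⟨α c', I.intα c' hc'int, H.ρα c' φ hc', ?_⟩
  rw [H.wα]
  exact (H.ρβ c' φ hc').le_one

/-- Artin-Schreier lifting, second branch. -/
theorem asLift2 (H : Lvl K ρ₀ ρ α β w q) {u₀ : F₀} {u : F} {η : LaurentSeries k}
    (I : ChartIn K ρ₀ ρ α w u₀ u η) {n : ℕ} (hn : 2 ≤ n) {b X : F} {φ ψ : LaurentSeries k}
    (hb : IsInt K u b) (hbψ : Rd ρ (w b) ψ) (hb2 : v b ≤ 1) (hX : Rd ρ (w X) φ)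
    (h : φ ^ n - φ - ψ = 0) :
    ∃ b' : F, IsInt K u b' ∧ Rd ρ (w b') φ ∧ v b' ≤ 1 := by
  obtain ⟨b', h1, h2, h3⟩ := asLift1 H I hn (isInt_w I.wu hb) hbψ (by rw [H.ww]; exact hb2) hX h
  exact ⟨w b', isInt_w I.wu h1, by rw [H.ww]; exact h2, h3⟩

end T1

variable (M₁ p : ℕ) [NeZero M₁] [NeZero p]

/-- **Artin-Schreier lifting at level `M₁ p`**, chart `t`, branch `∞`. -/
theorem asLift_oo (hM : AdmLevel M₁) (hp : p.Prime) (hpM : ¬ p ∣ M₁)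
    (A : ValuationSubring Qb) (hA : A.LiesOverPrime p) {b X : FN (M₁ * p)}
    {φ ψ : LaurentSeries (kA A)} (hb : IsInt Qb (tP M₁ p) b)
    (hbψ : HasRed A (b : LaurentSeries Qb) ψ) (hb2 : vG A (M₁ * p) (wq M₁ p b) ≤ 1)
    (hX : HasRed A (X : LaurentSeries Qb) φ) (h : φ ^ p - φ - ψ = 0) :
    ∃ θ : FN (M₁ * p), IsInt Qb (tP M₁ p) θ ∧ HasRed A (θ : LaurentSeries Qb) φ ∧
      vG A (M₁ * p) (wq M₁ p θ) ≤ 1 := by
  have hchar : CharP (kA A) p := charP_residueField hp hA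
  have : ExpChar (kA A) p := ExpChar.prime hp
  have H := lvl A M₁ p hp hpM
  have X' := xDat M₁ p hp A hA (spansStatement M₁) (riStatement M₁) (ctStatement M₁ p hM hp hpM A hA)
  obtain ⟨P₀, hP₀⟩ := exists_place_Q M₁
  obtain ⟨P₁, hP₁⟩ := exists_place_Q (M₁ * p)
  have C := cusp M₁ p hp hpM P₀ hP₀ P₁ hP₁
  have hArch := arch A (M₁ * p) hp hA
  obtain ⟨θ, h1, h2, h3⟩ := asLift1 H (chartIn_t H X' hp.two_le hArch C) hp.two_le hb
    ((rd_iff (M₁ * p) A).2 hbψ) hb2 ((rd_iff (M₁ * p) A).2 hX) h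
  exact ⟨θ, h1, (rd_iff (M₁ * p) A).1 h2, h3⟩

/-- **Artin-Schreier lifting at level `M₁ p`**, chart `t`, branch `0`. -/
theorem asLift_zr (hM : AdmLevel M₁) (hp : p.Prime) (hpM : ¬ p ∣ M₁)
    (A : ValuationSubring Qb) (hA : A.LiesOverPrime p) {b X : FN (M₁ * p)}
    {φ ψ : LaurentSeries (kA A)} (hb : IsInt Qb (tP M₁ p) b)
    (hbψ : HasRed A ((wq M₁ p b : FN (M₁ * p)) : LaurentSeries Qb) ψ) (hb2 : vG A (M₁ * p) b ≤ 1)
    (hX : HasRed A ((wq M₁ p X : FN (M₁ * p)) : LaurentSeries Qb) φ) (h : φ ^ p - φ - ψ = 0) :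
    ∃ θ : FN (M₁ * p), IsInt Qb (tP M₁ p) θ ∧
      HasRed A ((wq M₁ p θ : FN (M₁ * p)) : LaurentSeries Qb) φ ∧ vG A (M₁ * p) θ ≤ 1 := by
  have hchar : CharP (kA A) p := charP_residueField hp hA
  have : ExpChar (kA A) p := ExpChar.prime hp
  have H := lvl A M₁ p hp hpM
  have X' := xDat M₁ p hp A hA (spansStatement M₁) (riStatement M₁) (ctStatement M₁ p hM hp hpM A hA)
  obtain ⟨P₀, hP₀⟩ := exists_place_Q M₁
  obtain ⟨P₁, hP₁⟩ := exists_place_Q (M₁ * p)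
  have C := cusp M₁ p hp hpM P₀ hP₀ P₁ hP₁
  have hArch := arch A (M₁ * p) hp hA
  obtain ⟨θ, h1, h2, h3⟩ := asLift2 H (chartIn_t H X' hp.two_le hArch C) hp.two_le hb
    ((rd_iff (M₁ * p) A).2 hbψ) hb2 ((rd_iff (M₁ * p) A).2 hX) h
  exact ⟨θ, h1, (rd_iff (M₁ * p) A).1 h2, h3⟩

/-- the Artin-Schreier relation between the reductions of `g = (G - 1)/λ` and of the remainder `f`. -/
theorem as_rel (hp : p.Prime) (hp2 : p ≠ 2) (A : ValuationSubring Qb) (hA : A.LiesOverPrime p)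
    {ζ : Qbˣ} (hζ : IsPrimitiveRoot ζ p) {G W f : LaurentSeries Qb} {a φ : LaurentSeries (kA A)}
    (hW : P2.Dp A (P2.lam ζ ^ p) W 0) (hG : P2.Dp A (P2.lam ζ) G a) (hf : HasRed A f φ)
    (h : G ^ p * W = 1 + HahnSeries.C (P2.lam ζ ^ p) * f) : a ^ p - a - φ = 0 := by
  have hchar : CharP (kA A) p := charP_residueField hp hA
  have : ExpChar (kA A) p := ExpChar.prime hp
  have hl : P2.lam ζ ≠ 0 := P2.lam_ne_zero hp hζ
  have hlp : P2.lam ζ ^ p ≠ 0 := pow_ne_zero p hl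
  have hm : P2.lam ζ ^ p ∈ A.nonunits :=
    P2.LamDp_pow_mem_nonunits (P2.lam_mem_nonunits hp hA hζ.pow_eq_one) hp.ne_zero
  have h1 := (hG.pow_p_lam_one hp hp2 hA hζ).mul hlp hm hW
  have h2 : P2.Dp A (P2.lam ζ ^ p) (G ^ p * W) φ := (P2.dp_iff hlp).2 ⟨f, hf, h⟩
  rw [← h1.unique h2]
  ring

/-- **the base data of (SEP).** -/
theorem sepData (hM : AdmLevel M₁) (hp : p.Prime) (hp2 : p ≠ 2) (hpM : ¬ p ∣ M₁)
    (A : ValuationSubring Qb) (hA : A.LiesOverPrime p) {ζ : Qbˣ} (hζ : IsPrimitiveRoot ζ p)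
    (W : FN (M₁ * p))
    (hW1 : P2.Dp A (P2.lam ζ ^ p) (W : LaurentSeries Qb) 0)
    (hW2 : P2.Dp A (P2.lam ζ ^ p) ((wq M₁ p W : FN (M₁ * p)) : LaurentSeries Qb) 0)
    (hdiv : ∀ P : Place Qb (FL Qb (M₁ * p)), (p : ℤ) ∣ P.ord W) :
    ∃ (G f θ θ' : FN (M₁ * p)) (a a' : LaurentSeries (kA A)), G ≠ 0 ∧
      G ^ p * W = 1 + algebraMap Qb (FL Qb (M₁ * p)) (P2.lam ζ ^ p) * f ∧
      IsInt Qb (tP M₁ p) f ∧ vG A (M₁ * p) f ≤ 1 ∧ vG A (M₁ * p) (wq M₁ p f) ≤ 1 ∧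
      P2.Dp A (P2.lam ζ) (G : LaurentSeries Qb) a ∧
      P2.Dp A (P2.lam ζ) ((wq M₁ p G : FN (M₁ * p)) : LaurentSeries Qb) a' ∧
      IsInt Qb (tP M₁ p) θ ∧ HasRed A (θ : LaurentSeries Qb) a ∧ vG A (M₁ * p) (wq M₁ p θ) ≤ 1 ∧
      IsInt Qb (tP M₁ p) θ' ∧ HasRed A ((wq M₁ p θ' : FN (M₁ * p)) : LaurentSeries Qb) a' ∧
      vG A (M₁ * p) θ' ≤ 1 := by
  have hl : P2.lam ζ ≠ 0 := P2.lam_ne_zero hp hζ
  obtain ⟨G, f, a, a', hG0, hGf, hfi, hf1, hf2, hGa, hGa'⟩ :=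
    nearLam_rem M₁ p hM hp hpM A hA hζ W hW1 hW2 hdiv
  obtain ⟨φ, hφ⟩ := (ValThm_le_one_iff A (M₁ * p)).1 hf1
  obtain ⟨φ', hφ'⟩ := (ValThm_le_one_iff A (M₁ * p)).1 hf2
  -- the elements `g`, `w g`
  have e1 : (G : LaurentSeries Qb) ^ p * (W : LaurentSeries Qb)
      = 1 + HahnSeries.C (P2.lam ζ ^ p) * (f : LaurentSeries Qb) := by
    have := congrArg (fun z : FL Qb (M₁ * p) => (z : LaurentSeries Qb)) hGf
    rw [← ValThm_coe_algebraMap (M₁ * p) (P2.lam ζ ^ p)]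
    exact this
  have e2 : ((wq M₁ p G : FN (M₁ * p)) : LaurentSeries Qb) ^ p
        * ((wq M₁ p W : FN (M₁ * p)) : LaurentSeries Qb)
      = 1 + HahnSeries.C (P2.lam ζ ^ p) * ((wq M₁ p f : FN (M₁ * p)) : LaurentSeries Qb) := by
    have h0 := congrArg (wq M₁ p) hGf
    rw [map_mul, map_pow, map_add, map_one, map_mul, AlgEquiv.commutes] at h0
    have := congrArg (fun z : FL Qb (M₁ * p) => (z : LaurentSeries Qb)) h0
    rw [← ValThm_coe_algebraMap (M₁ * p) (P2.lam ζ ^ p)]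
    exact this
  have r1 := as_rel p hp hp2 A hA hζ hW1 hGa hφ e1
  have r2 := as_rel p hp hp2 A hA hζ hW2 hGa' hφ' e2
  set g : FN (M₁ * p) := (G - 1) / algebraMap Qb (FL Qb (M₁ * p)) (P2.lam ζ) with hg
  have hga : HasRed A (g : LaurentSeries Qb) a := by
    have e : (g : LaurentSeries Qb) = ((G : LaurentSeries Qb) - 1) / HahnSeries.C (P2.lam ζ) := by
      rw [← ValThm_coe_algebraMap (M₁ * p) (P2.lam ζ)]
      rfl
    rw [e]; exact hGa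
  have hga' : HasRed A ((wq M₁ p g : FN (M₁ * p)) : LaurentSeries Qb) a' := by
    have e : ((wq M₁ p g : FN (M₁ * p)) : LaurentSeries Qb)
        = (((wq M₁ p G : FN (M₁ * p)) : LaurentSeries Qb) - 1) / HahnSeries.C (P2.lam ζ) := by
      rw [hg, map_div₀, map_sub, map_one, AlgEquiv.commutes,
        ← ValThm_coe_algebraMap (M₁ * p) (P2.lam ζ)]
      rfl
    rw [e]; exact hGa'
  obtain ⟨θ, t1, t2, t3⟩ := asLift_oo M₁ p hM hp hpM A hA hfi hφ hf2 hga r1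
  obtain ⟨θ', t1', t2', t3'⟩ := asLift_zr M₁ p hM hp hpM A hA hfi hφ' hf1 hga' r2
  exact ⟨G, f, θ, θ', a, a', hG0, hGf, hfi, hf1, hf2, hGa, hGa', t1, t2, t3, t1', t2', t3'⟩

end Fermat.Agent.MR.C
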