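import Fermat.Agent.MR.C.AbsSym

/-!
# MR / C : package MR-C-ABS-2 : basic properties of `B1` = integral closure of `B₀` in `E`
-/

set_option autoImplicit false

open Polynomial

namespace Fermat.Agent.MR.C

open Fermat.Agent.GAL Fermat.Agent.CAR

variable {E₀ E Γ₀ I₀ : Type*} [Field E₀] [Field E] [Algebra E₀ E] [LinearOrderedCommGroupWithZero Γ₀]
  {B₀ : Subring E₀} {v₀ : I₀ → Valuation E₀ Γ₀} {p₀ : I₀ → Ideal B₀} {π : B₀}
  {p : ℕ} {δ : E ≃ₐ[E₀] E} {vt : I₀ × ZMod p → Valuation E Γ₀}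

theorem map_mem_B1 (b : B₀) : algebraMap E₀ E (b : E₀) ∈ B1 E B₀ :=
  isIntegral_algebraMap (R := B₀) (A := E) (x := b)

/-- `IsIntegral.map` for the `B₀`-algebra hom `δ` (restrict scalars), or directly: the same monic polynomial. -/
theorem δ_mem_B1 {x : E} (hx : x ∈ B1 E B₀) : δ x ∈ B1 E B₀ := by
  have hx' : IsIntegral B₀ x := hx
  exact hx'.map δ

theorem δ_pow_mem_B1 {x : E} (hx : x ∈ B1 E B₀) (m : ℕ) : (δ ^ m) x ∈ B1 E B₀ := by
  induction m with
  | zero => simpa using hx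
  | succ m ih =>
    rw [pow_succ', AlgEquiv.mul_apply]
    exact δ_mem_B1 ih

/-- `B1 ∩ E₀ = B₀` (`isIntegral_algebraMap_iff`, `Vert.ic`). -/
theorem mem_of_map_mem_B1 (ic : ∀ x : E₀, IsIntegral B₀ x → x ∈ B₀) {x₀ : E₀}
    (h : algebraMap E₀ E x₀ ∈ B1 E B₀) : x₀ ∈ B₀ := by
  have h' : IsIntegral B₀ (algebraMap E₀ E x₀) := h
  exact ic x₀ ((isIntegral_algebraMap_iff (algebraMap E₀ E).injective).mp h')

/-- transitivity of integrality (`isIntegral_trans`; cf. `CAR.BK.Vert_isIntegralElem_trans`). -/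
theorem ic_B1 (x : E) (hx : IsIntegral (B1 E B₀) x) : x ∈ B1 E B₀ := by
  have hx' : IsIntegral (integralClosure B₀ E) x := hx
  exact isIntegral_trans x hx'

/-- valuation rings are integrally closed: from `x^N = -∑_{s<N} b_s x^s`, `v b_s ≤ 1`, `v x > 1` is impossible
(`Valuation.Integers.mem_of_integral`, cf. `CAR.BK.ic`). -/
theorem val_le_one_of_mem_B1 (v : Valuation E Γ₀) (hv : ∀ b : B₀, v (algebraMap E₀ E (b : E₀)) ≤ 1) {x : E}
    (hx : x ∈ B1 E B₀) : v x ≤ 1 := by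
  have hx' : IsIntegral B₀ x := hx
  let φ : B₀ →+* v.integer :=
    { toFun := fun b => ⟨algebraMap E₀ E (b : E₀), hv b⟩
      map_one' := Subtype.ext (by simp)
      map_mul' := fun a b => Subtype.ext (by simp)
      map_zero' := Subtype.ext (by simp)
      map_add' := fun a b => Subtype.ext (by simp) }
  have h1 : IsIntegral v.integer x :=
    IsIntegral.map_of_comp_eq φ (RingHom.id E) (RingHom.ext fun b => rfl) hx'
  exact (Valuation.integer.integers v).mem_of_integral h1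

theorem vt_le_one (hB : Base B₀ v₀ p₀ π) (C : Cov p B₀ v₀ δ vt) (b : I₀ × ZMod p) {x : E} (hx : x ∈ B1 E B₀) :
    vt b x ≤ 1 :=
  val_le_one_of_mem_B1 (vt b) (fun c => by rw [C.ext]; exact hB.vert.le_one _ _) hx

theorem mem_pt (hB : Base B₀ v₀ p₀ π) (C : Cov p B₀ v₀ δ vt) (b : I₀ × ZMod p) (z : B1 E B₀) :
    z ∈ pt B₀ vt b ↔ vt b (z : E) < 1 := by
  constructor
  · intro h
    simpa using h 1
  · intro h c
    rw [map_mul]
    exact lt_of_le_of_lt (mul_le_of_le_one_left' (vt_le_one hB C b c.2)) h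

/-- iterated shift. -/
theorem Cov.shift_pow (C : Cov p B₀ v₀ δ vt) (i : I₀) (k : ZMod p) (m : ℕ) (x : E) :
    vt (i, k) ((δ ^ m) x) = vt (i, k + m) x := by
  induction m generalizing k with
  | zero => simp
  | succ m ih =>
    have e : k + 1 + (m : ZMod p) = k + ((m + 1 : ℕ) : ZMod p) := by
      push_cast
      ring
    rw [pow_succ', AlgEquiv.mul_apply, C.shift, ih, e]

end Fermat.Agent.MR.C
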