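import Fermat.Agent.MR.C.AbsVert

/-!
# MR / C : package MR-C-ABS-6b : lying over
-/

set_option autoImplicit false

open Polynomial

namespace Fermat.Agent.MR.C

open Fermat.Agent.GAL Fermat.Agent.CAR

variable {E₀ E Γ₀ I₀ : Type*} [Field E₀] [Field E] [Algebra E₀ E] [LinearOrderedCommGroupWithZero Γ₀]
  {B₀ : Subring E₀} {v₀ : I₀ → Valuation E₀ Γ₀} {p₀ : I₀ → Ideal B₀} {π : B₀}
  {p : ℕ} [Fact p.Prime] {δ : E ≃ₐ[E₀] E} {vt : I₀ × ZMod p → Valuation E Γ₀}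

/-- **lying over.**
PROOF. By contradiction choose `z k ∈ pt (i,k)`, `z k ∉ P`; `Z := ∏_k z k ∉ P` (`Ideal.IsPrime.prod_mem_iff`), `vt (i,k) Z < 1` for all `k` (one factor `< 1`, the others `≤ 1`).
`chi_descends C.pow C.fix Z` gives `f`; `chi_coeff_mem (B1 E B₀)` (`δ_pow_mem_B1`) + `mem_of_map_mem_B1 hB.vert.ic`: `f.coeff n ∈ B₀`;
`chi_coeff_lt (vt (i,0))` (`Cov.shift_pow`) + `C.ext` + `hB.vert.mem_p`: `f.coeff n ∈ p₀ i` for `n < p`, so `inc (f.coeff n) ∈ P`.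
`0 = (chi δ p Z).eval Z = Z^p + ∑_{n<p} (f.coeff n) Z^n` (`chi_eval_self`, `Polynomial.eval_eq_sum_range`, `chi_natDegree`, monic), so `Z^p ∈ P`, `Z ∈ P`. -/
theorem exists_branch (hB : Base B₀ v₀ p₀ π) (C : Cov p B₀ v₀ δ vt) {P : Ideal (B1 E B₀)} (hP : P.IsPrime) {i : I₀}
    (h : p₀ i ≤ P.comap (inc E B₀)) : ∃ k : ZMod p, pt B₀ vt (i, k) ≤ P := by
  classical
  have hp0 : 0 < p := (Fact.out : p.Prime).pos
  have : NeZero p := ⟨hp0.ne'⟩
  by_contra hcon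
  push Not at hcon
  have hex : ∀ k : ZMod p, ∃ z ∈ pt B₀ vt (i, k), z ∉ P :=
    fun k => SetLike.not_le_iff_exists.1 (hcon k)
  choose z hz hzP using hex
  set Z : B1 E B₀ := ∏ k : ZMod p, z k with hZ
  have hZP : Z ∉ P := by
    rw [hZ, hP.prod_mem_iff]
    rintro ⟨k, -, hk⟩
    exact hzP k hk
  have hZv : ∀ k : ZMod p, vt (i, k) (Z : E) < 1 := by
    intro k
    rw [← mem_pt hB C (i, k) Z]
    exact Ideal.mem_of_dvd _ (Finset.dvd_prod_of_mem z (Finset.mem_univ k)) (hz k)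
  obtain ⟨f, -, -, hf⟩ := chi_descends C.pow C.fix (Z : E)
  have hcoef : ∀ n, algebraMap E₀ E (f.coeff n) = (chi δ p (Z : E)).coeff n := by
    intro n
    rw [← hf, coeff_map]
  have hB0 : ∀ n, f.coeff n ∈ B₀ := by
    intro n
    apply mem_of_map_mem_B1 (E := E) hB.vert.ic
    rw [hcoef]
    exact chi_coeff_mem (B1 E B₀) (fun m => δ_pow_mem_B1 Z.2 m) n
  have hP' : ∀ n, n < p → inc E B₀ ⟨f.coeff n, hB0 n⟩ ∈ P := by
    intro n hn
    apply h
    rw [hB.vert.mem_p, ← C.ext i 0, hcoef]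
    exact chi_coeff_lt (vt (i, 0)) (fun m => by rw [C.shift_pow]; exact hZv _) hn
  have heval := chi_eval_self δ hp0 (Z : E)
  rw [eval_eq_sum_range, chi_natDegree, Finset.sum_range_succ] at heval
  have hlead : (chi δ p (Z : E)).coeff p = 1 := by
    have := chi_monic δ p (Z : E)
    rwa [Monic, leadingCoeff, chi_natDegree] at this
  rw [hlead, one_mul] at heval
  have hB1 : ∑ n ∈ Finset.range p, inc E B₀ ⟨f.coeff n, hB0 n⟩ * Z ^ n + Z ^ p = 0 := by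
    apply Subtype.ext
    rw [Subring.coe_add, Subring.coe_zero, Subring.coe_pow, ← heval]
    congr 1
    rw [← Subring.subtype_apply, map_sum]
    refine Finset.sum_congr rfl fun n _ => ?_
    rw [Subring.subtype_apply, Subring.coe_mul, Subring.coe_pow, coe_inc, hcoef]
  have hZp : Z ^ p ∈ P := by
    rw [eq_neg_of_add_eq_zero_right hB1]
    exact P.neg_mem (P.sum_mem fun n hn => P.mul_mem_right _ (hP' n (Finset.mem_range.1 hn)))
  exact hZP (hP.mem_of_pow_mem p hZp)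

end Fermat.Agent.MR.C
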