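import Fermat.Agent.CAR.NS.Chart
import Fermat.Agent.CAR.NS.FG

/-!
# MR / C : the abstract cyclic cover.  Definitions (no sorry).

`E₀` (= `F_K`, the `K`-rational functions of level `pN'`, `K = ℚ̄^I`), `B₀ ⊆ E₀` the chart ring, `v₀ i` (`i ∈ I₀ = {∞, 0}`) the
vertical valuations, `p₀ i` the vertical primes, `π = p`.
`E` (= `F1_K`) a cyclic extension of degree `p` of `E₀` with generator `δ` of the Galois group; every `v₀ i` has the `p` extensions
`vt (i, k)`, `k ∈ ℤ/p`, permuted by `δ`.   `B1` := the integral closure of `B₀` in `E`.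
The only non formal hypothesis is `Cov.sep` ("the components `(i, k)`, `(i, l)` are disjoint" = the cover is étale).
-/

set_option autoImplicit false

open Polynomial

namespace Fermat.Agent.MR.C

open Fermat.Agent.GAL Fermat.Agent.CAR

variable {E₀ Γ₀ I₀ : Type*} [Field E₀] [LinearOrderedCommGroupWithZero Γ₀]

/-- the hypotheses on the base chart. -/
structure Base (B₀ : Subring E₀) (v₀ : I₀ → Valuation E₀ Γ₀) (p₀ : I₀ → Ideal B₀) (π : B₀) : Prop where
  vert : NS.Vert B₀ v₀ p₀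
  π0 : π ≠ 0
  /-- `B₀ = B₀[1/π] ∩ ⋂ O_(v₀ i)` -/
  kr : ∀ z : E₀, (∃ N : ℕ, (π : E₀) ^ N * z ∈ B₀) → (∀ i, v₀ i z ≤ 1) → z ∈ B₀
  /-- `π` is a uniformiser of every vertical valuation (reduced special fibre) -/
  πlt : ∀ i, v₀ i (π : E₀) < 1
  πunif : ∀ (i : I₀) (x : E₀), v₀ i x < 1 → v₀ i x ≤ v₀ i (π : E₀)
  /-- thickness one: through every closed point of the special fibre one vertical prime is principal -/
  pr : ∀ P : Ideal B₀, P.IsMaximal → (∃ i, p₀ i ≤ P) →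
    ∃ (i : I₀) (ν y : B₀), p₀ i ≤ P ∧ y ∉ P ∧ NS.GenOn B₀ (v₀ i) (p₀ i) ν y
  frac : ∀ x : E₀, ∃ a b : B₀, b ≠ 0 ∧ x * b = a
  noeth : IsNoetherianRing B₀

variable (E : Type*) [Field E] [Algebra E₀ E]

/-- the integral closure of `B₀` in `E`. -/
def B1 (B₀ : Subring E₀) : Subring E := (integralClosure B₀ E).toSubring

variable {E}

theorem mem_B1 {B₀ : Subring E₀} {x : E} : x ∈ B1 E B₀ ↔ IsIntegral B₀ x := Iff.rfl

/-- the vertical primes of `B1` (`z ∈ pt b ↔ vt b z < 1`, see `mem_pt`). -/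
def pt {J : Type*} (B₀ : Subring E₀) (vt : J → Valuation E Γ₀) (b : J) : Ideal (B1 E B₀) where
  carrier := {z | ∀ c : B1 E B₀, vt b ((c : E) * (z : E)) < 1}
  add_mem' := by
    intro x y hx hy c
    rw [Subring.coe_add, mul_add]
    exact lt_of_le_of_lt (Valuation.map_add _ _ _) (max_lt (hx c) (hy c))
  zero_mem' := by
    intro c
    rw [Subring.coe_zero, mul_zero, map_zero]
    exact zero_lt_one
  smul_mem' := by
    intro c x hx c'
    rw [smul_eq_mul, Subring.coe_mul, ← mul_assoc, ← Subring.coe_mul]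
    exact hx (c' * c)

/-- **the cyclic cover.** -/
structure Cov (p : ℕ) (B₀ : Subring E₀) (v₀ : I₀ → Valuation E₀ Γ₀) (δ : E ≃ₐ[E₀] E)
    (vt : I₀ × ZMod p → Valuation E Γ₀) : Prop where
  pow : ∀ x : E, (δ ^ p) x = x
  fix : ∀ x : E, δ x = x → ∃ x₀ : E₀, algebraMap E₀ E x₀ = x
  ext : ∀ (i : I₀) (k : ZMod p) (x : E₀), vt (i, k) (algebraMap E₀ E x) = v₀ i x
  shift : ∀ (i : I₀) (k : ZMod p) (x : E), vt (i, k) (δ x) = vt (i, k + 1) x
  arch : ∀ b, KL.Arch (vt b)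
  /-- sibling separation -/
  sep : ∀ (i : I₀) (k l : ZMod p), k ≠ l →
    ∃ b : E, IsIntegral B₀ b ∧ vt (i, l) b < 1 ∧ vt (i, k) (b - 1) < 1

/-- the characteristic polynomial `∏_{m < p} (X - δ^m x)`. -/
noncomputable def chi (δ : E ≃ₐ[E₀] E) (p : ℕ) (x : E) : E[X] :=
  ∏ m ∈ Finset.range p, (X - C ((δ ^ m) x))

/-- the trace `∑_{m < p} δ^m x`. -/
def tr (δ : E ≃ₐ[E₀] E) (p : ℕ) (x : E) : E := ∑ m ∈ Finset.range p, (δ ^ m) x

end Fermat.Agent.MR.C
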