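import Fermat.Agent.MR.C.AbsB1

/-!
# MR / C : package MR-C-ABS-7b : `E = Frac B1`
-/

set_option autoImplicit false

open Polynomial

namespace Fermat.Agent.MR.C

open Fermat.Agent.GAL Fermat.Agent.CAR

variable {E₀ E Γ₀ I₀ : Type*} [Field E₀] [Field E] [Algebra E₀ E] [LinearOrderedCommGroupWithZero Γ₀]
  {B₀ : Subring E₀} {v₀ : I₀ → Valuation E₀ Γ₀} {p₀ : I₀ → Ideal B₀} {π : B₀}
  {p : ℕ} {δ : E ≃ₐ[E₀] E} {vt : I₀ × ZMod p → Valuation E Γ₀}

/-- `E₀ = Frac B₀`. -/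
theorem AbsFrac_isFractionRing (hfrac : ∀ x : E₀, ∃ a b : B₀, b ≠ 0 ∧ x * b = a) :
    IsFractionRing B₀ E₀ := by
  refine IsFractionRing.of_field B₀ E₀ fun z => ?_
  obtain ⟨a, b, hb, h⟩ := hfrac z
  refine ⟨a, b, ?_⟩
  have hb' : (b : E₀) ≠ 0 := fun h0 => hb (Subtype.ext h0)
  change z = (a : E₀) / (b : E₀)
  rw [eq_div_iff hb', h]

/-- every `w ≠ 0` is a quotient of nonzero elements of `B1`.
PROOF. `w` is a root of the monic `f ∈ E₀[X]` of `chi_descends`; clear the denominators of the coefficients by `hB.frac`: there is `b₀ ∈ B₀`, `b₀ ≠ 0`, with `b₀ w` integral over `B₀`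
(`exists_integral_multiple` with `IsFractionRing`/`IsAlgebraic B₀ w`, or by hand with `Polynomial.scaleRoots`).  `b := inc b₀`, `a := b₀ w`. -/
theorem exists_frac_B1 (hp : 0 < p) (hB : Base B₀ v₀ p₀ π) (C : Cov p B₀ v₀ δ vt) {w : E} (hw : w ≠ 0) :
    ∃ a b : B1 E B₀, a ≠ 0 ∧ b ≠ 0 ∧ w * b = a := by
  have := AbsFrac_isFractionRing hB.frac
  obtain ⟨f, hf, -, hfm⟩ := chi_descends (p := p) C.pow C.fix w
  have hint : IsIntegral E₀ w := by
    refine ⟨f, hf, ?_⟩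
    rw [← eval_map, hfm]
    exact chi_eval_self δ hp w
  have halg : IsAlgebraic B₀ w := (IsFractionRing.isAlgebraic_iff B₀ E₀ E).mpr hint.isAlgebraic
  obtain ⟨y, hy, hyw⟩ := halg.exists_integral_multiple
  have hy' : algebraMap E₀ E (y : E₀) ≠ 0 := by
    intro h0
    apply hy
    apply Subtype.ext
    exact (map_eq_zero (algebraMap E₀ E)).mp h0
  have hsm : y • w = algebraMap E₀ E (y : E₀) * w := by
    rw [Algebra.smul_def]
    rfl
  refine ⟨⟨y • w, hyw⟩, ⟨algebraMap E₀ E (y : E₀), map_mem_B1 y⟩, ?_, ?_, ?_⟩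
  · intro h0
    have h1 : y • w = 0 := congrArg Subtype.val h0
    rw [hsm] at h1
    exact (mul_ne_zero hy' hw) h1
  · intro h0
    exact hy' (congrArg Subtype.val h0)
  · change w * algebraMap E₀ E (y : E₀) = y • w
    rw [hsm, mul_comm]

end Fermat.Agent.MR.C
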