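import Fermat.Agent.MR.C.AbsB1

/-!
# MR / C : package MR-C-ABS-2b : `δ`-stable subrings are contained in `B1`; (KR) for `B1`
-/

set_option autoImplicit false

open Polynomial

namespace Fermat.Agent.MR.C

open Fermat.Agent.GAL Fermat.Agent.CAR

variable {E₀ E Γ₀ I₀ : Type*} [Field E₀] [Field E] [Algebra E₀ E] [LinearOrderedCommGroupWithZero Γ₀]
  {B₀ : Subring E₀} {v₀ : I₀ → Valuation E₀ Γ₀} {p₀ : I₀ → Ideal B₀} {π : B₀}
  {p : ℕ} {δ : E ≃ₐ[E₀] E} {vt : I₀ × ZMod p → Valuation E Γ₀}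

/-- a `δ`-stable subring `S` of `E` with `S ∩ E₀ ⊆ B₀` is contained in `B1`.
PROOF. `x ∈ S`; `chi_descends` gives `f ∈ E₀[X]` monic with `f.map = chi δ p x`; `chi_coeff_mem S` : `algebraMap (f.coeff n) ∈ S`, so
`f.coeff n ∈ B₀`; `f` lifts to a monic polynomial over `B₀` (`Polynomial.lifts_and_natDegree_eq_and_monic` or `toSubring`) killing `x` (`chi_eval_self`). -/
theorem le_B1_of_stable (hp : 0 < p) (C : Cov p B₀ v₀ δ vt) (S : Subring E) (hδ : ∀ x ∈ S, δ x ∈ S)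
    (hS : ∀ x₀ : E₀, algebraMap E₀ E x₀ ∈ S → x₀ ∈ B₀) : S ≤ B1 E B₀ := by
  intro x hx
  have hm : ∀ m : ℕ, (δ ^ m) x ∈ S := by
    intro m
    induction m with
    | zero => simpa using hx
    | succ m ih =>
      rw [← absSym_apply_pow]
      exact hδ _ ih
  obtain ⟨f, hf, -, hmap⟩ := chi_descends C.pow C.fix x
  have hc : ∀ n, f.coeff n ∈ B₀ := by
    intro n
    apply hS
    rw [← coeff_map, hmap]
    exact chi_coeff_mem S hm n
  have hsub : ((f.coeffs : Finset E₀) : Set E₀) ⊆ B₀ := by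
    intro a ha
    obtain ⟨n, -, rfl⟩ := (mem_coeffs_iff).1 (Finset.mem_coe.1 ha)
    exact hc n
  rw [mem_B1]
  refine ⟨f.toSubring B₀ hsub, (monic_toSubring f B₀ hsub).2 hf, ?_⟩
  have h1 : (f.toSubring B₀ hsub).map (algebraMap B₀ E) = chi δ p x := by
    have h2 : algebraMap B₀ E = (algebraMap E₀ E).comp B₀.subtype := rfl
    rw [h2, ← Polynomial.map_map, map_toSubring, hmap]
  rw [← eval_map, h1]
  exact chi_eval_self δ hp x

/-- **(KR) for `B1`.**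
PROOF. `S := {y | (∃ N, π^N y ∈ B1) ∧ ∀ b, vt b y ≤ 1}` is a subring of `E`, `δ`-stable (`δ_mem_B1`, `δ π = π`, `C.shift`: `vt (i,k) (δ y) = vt (i,k+1) y`);
if `algebraMap x₀ ∈ S` then `π^N x₀ ∈ B₀` (`mem_of_map_mem_B1`) and `v₀ i x₀ ≤ 1` (`C.ext`), so `x₀ ∈ B₀` by `hB.kr`.  `le_B1_of_stable`. -/
theorem kr_B1 (hp : 0 < p) (hB : Base B₀ v₀ p₀ π) (C : Cov p B₀ v₀ δ vt) (z : E)
    (h1 : ∃ N : ℕ, (algebraMap E₀ E (π : E₀)) ^ N * z ∈ B1 E B₀) (h2 : ∀ b, vt b z ≤ 1) : z ∈ B1 E B₀ := by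
  have hϖ : algebraMap E₀ E (π : E₀) ∈ B1 E B₀ := map_mem_B1 π
  let S : Subring E :=
    { carrier := {y | (∃ N : ℕ, (algebraMap E₀ E (π : E₀)) ^ N * y ∈ B1 E B₀) ∧ ∀ b, vt b y ≤ 1}
      mul_mem' := by
        rintro a b ⟨⟨N, hN⟩, ha⟩ ⟨⟨M, hM⟩, hb⟩
        refine ⟨⟨N + M, ?_⟩, fun c => ?_⟩
        · have := (B1 E B₀).mul_mem hN hM
          have e : algebraMap E₀ E (π : E₀) ^ (N + M) * (a * b)
              = algebraMap E₀ E (π : E₀) ^ N * a * (algebraMap E₀ E (π : E₀) ^ M * b) := by ring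
          rw [e]
          exact this
        · rw [map_mul]
          exact mul_le_one' (ha c) (hb c)
      one_mem' := ⟨⟨0, by simp⟩, fun c => by rw [map_one]⟩
      add_mem' := by
        rintro a b ⟨⟨N, hN⟩, ha⟩ ⟨⟨M, hM⟩, hb⟩
        refine ⟨⟨N + M, ?_⟩, fun c => ?_⟩
        · have h3 := (B1 E B₀).add_mem ((B1 E B₀).mul_mem ((B1 E B₀).pow_mem hϖ M) hN)
            ((B1 E B₀).mul_mem ((B1 E B₀).pow_mem hϖ N) hM)
          have e : algebraMap E₀ E (π : E₀) ^ (N + M) * (a + b)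
              = algebraMap E₀ E (π : E₀) ^ M * (algebraMap E₀ E (π : E₀) ^ N * a)
                + algebraMap E₀ E (π : E₀) ^ N * (algebraMap E₀ E (π : E₀) ^ M * b) := by ring
          rw [e]
          exact h3
        · exact (Valuation.map_add _ _ _).trans (max_le (ha c) (hb c))
      zero_mem' := ⟨⟨0, by simp⟩, fun c => by
        rw [map_zero]; exact zero_le_one⟩
      neg_mem' := by
        rintro a ⟨⟨N, hN⟩, ha⟩
        refine ⟨⟨N, ?_⟩, fun c => ?_⟩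
        · rw [mul_neg]
          exact (B1 E B₀).neg_mem hN
        · rw [Valuation.map_neg]
          exact ha c }
  have hmem : ∀ y : E, y ∈ S ↔
      (∃ N : ℕ, (algebraMap E₀ E (π : E₀)) ^ N * y ∈ B1 E B₀) ∧ ∀ b, vt b y ≤ 1 := fun _ => Iff.rfl
  refine le_B1_of_stable hp C S ?_ ?_ ((hmem z).2 ⟨h1, h2⟩)
  · intro y hy
    obtain ⟨⟨N, hN⟩, hy2⟩ := (hmem y).1 hy
    refine (hmem _).2 ⟨⟨N, ?_⟩, ?_⟩
    · have h3 := δ_mem_B1 (δ := δ) hN
      rwa [map_mul, map_pow, AlgEquiv.commutes] at h3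
    · rintro ⟨i, k⟩
      rw [C.shift]
      exact hy2 _
  · intro x₀ hx₀
    obtain ⟨⟨N, hN⟩, hy2⟩ := (hmem _).1 hx₀
    refine hB.kr x₀ ⟨N, ?_⟩ ?_
    · apply mem_of_map_mem_B1 (E := E) hB.vert.ic
      rwa [map_mul, map_pow]
    · intro i
      rw [← C.ext i 0]
      exact hy2 _

end Fermat.Agent.MR.C
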