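import Fermat.Agent.MR.C.AbsGenA
import Fermat.Agent.MR.C.AbsBranch
import Fermat.Agent.MR.C.AbsKR

/-!
# MR / C : package MR-C-ABS-6c : local generators of the vertical primes of `B1`
-/

set_option autoImplicit false

open Polynomial

namespace Fermat.Agent.MR.C

open Fermat.Agent.GAL Fermat.Agent.CAR

variable {E₀ E Γ₀ I₀ : Type*} [Field E₀] [Field E] [Algebra E₀ E] [LinearOrderedCommGroupWithZero Γ₀]
  {B₀ : Subring E₀} {v₀ : I₀ → Valuation E₀ Γ₀} {p₀ : I₀ → Ideal B₀} {π : B₀}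
  {p : ℕ} [Fact p.Prime] {δ : E ≃ₐ[E₀] E} {vt : I₀ × ZMod p → Valuation E Γ₀}

variable [Fintype I₀]

theorem AbsGen_inc_ne_zero {π : B₀} (hπ : π ≠ 0) : inc E B₀ π ≠ 0 := by
  intro h
  have h1 := congrArg Subtype.val h
  rw [coe_inc] at h1
  have h2 : algebraMap E₀ E (π : E₀) = 0 := h1
  rw [map_eq_zero] at h2
  exact hπ (Subtype.ext h2)

theorem AbsGen_kr (hB : Base B₀ v₀ p₀ π) (C : Cov p B₀ v₀ δ vt) (z : E)
    (h1 : ∃ N : ℕ, ((inc E B₀ π : B1 E B₀) : E) ^ N * z ∈ B1 E B₀) (h2 : ∀ b, vt b z ≤ 1) :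
    z ∈ B1 E B₀ := by
  refine kr_B1 (Fact.out : p.Prime).pos hB C z ?_ h2
  obtain ⟨N, hN⟩ := h1
  rw [coe_inc] at hN
  exact ⟨N, hN⟩

/-- **thickness one on the cover.**
PROOF. `P₀ := P.comap inc` is maximal and contains some `p₀ i'` (`le_comap_of_pt_le`).  `hB.pr P₀` gives `i ν y`, `p₀ i ≤ P₀`, `y ∉ P₀`, `GenOn`.  `exists_branch`: `k` with `pt (i,k) ≤ P`.
Apply `NS.genOn_of_dvd (vert_B1 hB C) (π := inc π) _ (kr_B1 ..) hP.isPrime (i := (i,k)) (ν := inc ν)`: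
* `vt (i,k) ν < 1` and uniformiser: `C.ext`, `hg.1`, `unif_up` with `hg.2.1`;
* `hoth (j,l)`: if `j ≠ i`: `p₀ j ≤ P₀`, `genOn_unit_other hB.vert`, `C.ext`; if `j = i`, `l ≠ k`: impossible by `branch_unique`;
* `hdvd`: `π ∈ p₀ i` (`hB.πlt`), so `hg.2.2 π` gives `b` with `y π = ν b`: `β := inc b`, `y₀ := inc y ∉ P`, `N := 1`. -/
theorem genOn_up (hB : Base B₀ v₀ p₀ π) (C : Cov p B₀ v₀ δ vt) {P : Ideal (B1 E B₀)} (hP : P.IsMaximal)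
    (hb : ∃ b, pt B₀ vt b ≤ P) :
    ∃ (b : I₀ × ZMod p) (ν y : B1 E B₀), pt B₀ vt b ≤ P ∧ y ∉ P ∧ NS.GenOn (B1 E B₀) (vt b) (pt B₀ vt b) ν y := by
  obtain ⟨⟨i', k'⟩, hb'⟩ := hb
  have hP₀ := comap_inc_isMaximal hP
  obtain ⟨i, ν, y, hi, hy, hg⟩ := hB.pr _ hP₀ ⟨i', le_comap_of_pt_le hB C hb'⟩
  obtain ⟨k, hk⟩ := exists_branch hB C hP.isPrime hi
  obtain ⟨b, hb⟩ := hg.2.2 π ((hB.vert.mem_p i π).2 (hB.πlt i))
  obtain ⟨y', hy', hg'⟩ := NS.genOn_of_dvd (vert_B1 hB C) (AbsGen_inc_ne_zero hB.π0)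
    (AbsGen_kr hB C) hP.isPrime (i := (i, k)) (ν := inc E B₀ ν)
    (by rw [coe_inc, C.ext]; exact hg.1)
    (fun x hx => by rw [coe_inc]; exact unif_up hB C i k hg.2.1 x hx)
    (by
      rintro ⟨j, l⟩ hne hjl
      by_cases hji : j = i
      · subst hji
        have hlk : l = k := branch_unique hB C hP.ne_top hjl hk
        exact absurd (by rw [hlk]) hne
      · rw [coe_inc, C.ext]
        exact genOn_unit_other hB.vert hji (le_comap_of_pt_le hB C hjl) hy hg)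
    (β := inc E B₀ b) (y₀ := inc E B₀ y) (N := 1) hy
    (by rw [pow_one, ← map_mul, ← map_mul, hb])
  exact ⟨(i, k), inc E B₀ ν, y', hk, hy', hg'⟩

/-- generic principality: `NS.genOn_generic (vert_B1 hB C)` with `ν = π`, `e = 1` (`hB.πlt`, `unif_up` with `hB.πunif`). -/
theorem hpr_B1 (hB : Base B₀ v₀ p₀ π) (C : Cov p B₀ v₀ δ vt) (b : I₀ × ZMod p) :
    ∃ ν y : B1 E B₀, y ∉ pt B₀ vt b ∧ NS.GenOn (B1 E B₀) (vt b) (pt B₀ vt b) ν y := by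
  obtain ⟨i, k⟩ := b
  obtain ⟨y, hy, hg⟩ := NS.genOn_generic (vert_B1 hB C) (AbsGen_inc_ne_zero hB.π0)
    (AbsGen_kr hB C) (j := (i, k)) (ν := inc E B₀ π) (e := 1) one_pos
    (by rw [coe_inc, C.ext]; exact hB.πlt i)
    (fun x hx => by rw [coe_inc]; exact unif_up hB C i k (hB.πunif i) x hx)
    (pow_one _)
  exact ⟨inc E B₀ π, y, hy, hg⟩

end Fermat.Agent.MR.C
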