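import Fermat.Agent.MR.C.AbsVert

/-!
# MR / C : package MR-C-ABS-6a : contraction of maximal ideals, disjointness of siblings, units on the other branches
-/

set_option autoImplicit false

open Polynomial

namespace Fermat.Agent.MR.C

open Fermat.Agent.GAL Fermat.Agent.CAR

variable {E₀ E Γ₀ I₀ : Type*} [Field E₀] [Field E] [Algebra E₀ E] [LinearOrderedCommGroupWithZero Γ₀]
  {B₀ : Subring E₀} {v₀ : I₀ → Valuation E₀ Γ₀} {p₀ : I₀ → Ideal B₀} {π : B₀}
  {p : ℕ} [Fact p.Prime] {δ : E ≃ₐ[E₀] E} {vt : I₀ × ZMod p → Valuation E Γ₀}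

/-- `B1` is integral over `B₀`: the contraction of a maximal ideal is maximal.
PROOF. `(inc E B₀).IsIntegral` (each `z : B1` is a root of a monic polynomial over `B₀`: from `z.2`, push the equation from `E` to `B1` by injectivity of the coercion);
`Ideal.isMaximal_comap_of_isIntegral_of_isMaximal'` (ring hom version). -/
theorem comap_inc_isMaximal {P : Ideal (B1 E B₀)} (hP : P.IsMaximal) : (P.comap (inc E B₀)).IsMaximal := by
  have hint : (inc E B₀).IsIntegral := by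
    intro z
    obtain ⟨g, hg, h0⟩ := z.2
    refine ⟨g, hg, ?_⟩
    apply Subtype.ext
    have h1 : ((eval₂ (inc E B₀) z g : B1 E B₀) : E) = eval₂ (algebraMap B₀ E) (z : E) g := by
      have h2 := Polynomial.hom_eval₂ g (inc E B₀) (B1 E B₀).subtype z
      exact h2
    rw [h1, h0]
    rfl
  exact Ideal.isMaximal_comap_of_isIntegral_of_isMaximal' (inc E B₀) hint P

theorem le_comap_of_pt_le (hB : Base B₀ v₀ p₀ π) (C : Cov p B₀ v₀ δ vt) {P : Ideal (B1 E B₀)} {i : I₀} {k : ZMod p}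
    (h : pt B₀ vt (i, k) ≤ P) : p₀ i ≤ P.comap (inc E B₀) := by
  intro z hz
  rw [Ideal.mem_comap]
  apply h
  rw [mem_pt hB C, coe_inc, C.ext]
  exact (hB.vert.mem_p i z).1 hz

/-- **siblings are disjoint**: `C.sep i k l` gives `c ∈ pt (i,l)`, `1 - c ∈ pt (i,k)`. -/
theorem branch_unique (hB : Base B₀ v₀ p₀ π) (C : Cov p B₀ v₀ δ vt) {P : Ideal (B1 E B₀)} (hP : P ≠ ⊤) {i : I₀}
    {k l : ZMod p} (hk : pt B₀ vt (i, k) ≤ P) (hl : pt B₀ vt (i, l) ≤ P) : k = l := by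
  by_contra hkl
  obtain ⟨b, hb, h1, h2⟩ := C.sep i k l hkl
  apply hP
  rw [Ideal.eq_top_iff_one]
  have hc : (⟨b, hb⟩ : B1 E B₀) ∈ P := hl ((mem_pt hB C _ _).2 h1)
  have hc1 : (⟨b, hb⟩ : B1 E B₀) - 1 ∈ P := hk ((mem_pt hB C _ _).2 h2)
  have := P.sub_mem hc hc1
  rwa [sub_sub_cancel] at this

section NS

variable {F ι : Type*} [Field F] {B : Subring F} {v : ι → Valuation F Γ₀} {q : ι → Ideal B}

/-- a local generator of `q i` near `P` is a unit on the other branches through `P`.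
PROOF. Suppose `v j ν < 1`, i.e. `ν ∈ q j`.  `V.ne j i` gives `z ∈ q i`, `z ∉ q j`.  `y z = ν b ∈ q j`, `q j` prime (`NS.Vert.isPrime`): `y ∈ q j ≤ P`.  Contradiction; `v j ν ≤ 1` by `V.le_one`. -/
theorem genOn_unit_other (V : NS.Vert B v q) {P : Ideal B} {i j : ι} (hij : j ≠ i) (hj : q j ≤ P) {ν y : B}
    (hy : y ∉ P) (hg : NS.GenOn B (v i) (q i) ν y) : v j (ν : F) = 1 := by
  rw [← V.notMem_iff]
  intro hν
  obtain ⟨z, hzi, hzj⟩ := SetLike.not_le_iff_exists.1 (V.ne j i hij)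
  obtain ⟨b, hb⟩ := hg.2.2 z hzi
  have h1 : y * z ∈ q j := by
    rw [hb]
    exact (q j).mul_mem_right b hν
  rcases (V.isPrime j).mem_or_mem h1 with h | h
  · exact hy (hj h)
  · exact hzj h

end NS

end Fermat.Agent.MR.C
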