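import Fermat.Agent.MR.C.AbsB1

/-!
# MR / C : package MR-C-ABS-3a : approximate idempotents
-/

set_option autoImplicit false

open Polynomial

namespace Fermat.Agent.MR.C

open Fermat.Agent.GAL Fermat.Agent.CAR

variable {E₀ E Γ₀ I₀ : Type*} [Field E₀] [Field E] [Algebra E₀ E] [LinearOrderedCommGroupWithZero Γ₀]
  {B₀ : Subring E₀} {v₀ : I₀ → Valuation E₀ Γ₀} {p₀ : I₀ → Ideal B₀} {π : B₀}
  {p : ℕ} [Fact p.Prime] {δ : E ≃ₐ[E₀] E} {vt : I₀ × ZMod p → Valuation E Γ₀}

/-- approximate idempotent of the branch `(i, k)` among its siblings.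
PROOF. `ε := ∏_{l ∈ univ.erase k} b l`, `b l` from `C.sep i k l`.  At `(i,k)`: all factors `≡ 1` (`NS.cong_mul`, induction on the finset; factors are `≤ 1` by `vt_le_one`).
At `(i,l)`: the factor `b l` is `< 1`, the others `≤ 1`. -/
theorem exists_idem (hB : Base B₀ v₀ p₀ π) (C : Cov p B₀ v₀ δ vt) (i : I₀) (k : ZMod p) :
    ∃ ε ∈ B1 E B₀, vt (i, k) (ε - 1) < 1 ∧ ∀ l, l ≠ k → vt (i, l) ε < 1 := by
  classical
  have hsep : ∀ l : ZMod p, ∃ b : E, b ∈ B1 E B₀ ∧ vt (i, k) (b - 1) < 1 ∧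
      (l ≠ k → vt (i, l) b < 1) := by
    intro l
    by_cases hl : l = k
    · exact ⟨1, one_mem _, by rw [sub_self, map_zero]; exact zero_lt_one, fun h => absurd hl h⟩
    · obtain ⟨b, h1, h2, h3⟩ := C.sep i k l (Ne.symm hl)
      exact ⟨b, h1, h3, fun _ => h2⟩
  choose b hb1 hb2 hb3 using hsep
  have hmem : ∀ s : Finset (ZMod p), ∏ l ∈ s, b l ∈ B1 E B₀ := fun s =>
    Subring.prod_mem _ fun l _ => hb1 l
  refine ⟨∏ l, b l, hmem _, ?_, ?_⟩
  · have key : ∀ s : Finset (ZMod p), vt (i, k) (∏ l ∈ s, b l - 1) < 1 := by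
      intro s
      induction s using Finset.induction_on with
      | empty => rw [Finset.prod_empty, sub_self, map_zero]; exact zero_lt_one
      | insert a s ha ih =>
        rw [Finset.prod_insert ha]
        have := NS.cong_mul (vt (i, k)) (vt_le_one hB C (i, k) (hb1 a))
          (le_of_eq (map_one (vt (i, k)))) (hb2 a) ih
        rwa [mul_one] at this
    exact key _
  · intro l hl
    rw [← Finset.mul_prod_erase Finset.univ b (Finset.mem_univ l), map_mul]
    exact lt_of_le_of_lt (mul_le_of_le_one_right' (vt_le_one hB C (i, l) (hmem _))) (hb3 l hl)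

end Fermat.Agent.MR.C
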