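import Fermat.Agent.MR.C.AbsIdem

/-!
# MR / C : package MR-C-ABS-3b : `vt (i, k)` is an immediate extension of `v₀ i`
-/

set_option autoImplicit false

open Polynomial

namespace Fermat.Agent.MR.C

open Fermat.Agent.GAL Fermat.Agent.CAR

variable {E₀ E Γ₀ I₀ : Type*} [Field E₀] [Field E] [Algebra E₀ E] [LinearOrderedCommGroupWithZero Γ₀]
  {B₀ : Subring E₀} {v₀ : I₀ → Valuation E₀ Γ₀} {p₀ : I₀ → Ideal B₀} {π : B₀}
  {p : ℕ} [Fact p.Prime] {δ : E ≃ₐ[E₀] E} {vt : I₀ × ZMod p → Valuation E Γ₀}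

/-- **`E₀` is dense in `E` for `vt (i, k)`** (first step).
PROOF. `ε` from `exists_idem`.  By `C.arch (i,l)` choose `N` with `vt (i,l) ε ^ N * vt (i,l) x < vt (i,k) x` for all `l ≠ k` (finitely many; `vt (i,k) x ≠ 0`; if `N` works so does every
`N' ≥ N` since `vt (i,l) ε < 1`).  `a` := `tr_descends` of `x ε^N`.   `x - tr δ p (x ε^N) = x (1 - ε^N) - ∑_{0<m<p} δ^m (x ε^N)` (`Finset.sum_range_succ'`);
`vt (i,k) (1 - ε^N) < 1` (`NS.cong_pow`);  `vt (i,k) (δ^m (x ε^N)) = vt (i,k+m) (x ε^N)` (`Cov.shift_pow`) and `k + m ≠ k` for `0 < m < p` (`ZMod.natCast_self_eq_zero`/`ZMod.natCast_eq_zero_iff`). -/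
theorem exists_approx (hB : Base B₀ v₀ p₀ π) (C : Cov p B₀ v₀ δ vt) (i : I₀) (k : ZMod p) {x : E} (hx : x ≠ 0) :
    ∃ a : E₀, vt (i, k) (x - algebraMap E₀ E a) < vt (i, k) x := by
  classical
  obtain ⟨ε, hε, hε1, hεl⟩ := exists_idem hB C i k
  have hγ : vt (i, k) x ≠ 0 := (Valuation.ne_zero_iff _).2 hx
  -- the exponent
  have hN : ∀ l : ZMod p, ∃ N₀ : ℕ, l ≠ k → ∀ N, N₀ ≤ N →
      vt (i, l) ε ^ N * vt (i, l) x < vt (i, k) x := by
    intro l
    by_cases hl : l = k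
    · exact ⟨0, fun h => absurd hl h⟩
    · have hxl : vt (i, l) x ≠ 0 := (Valuation.ne_zero_iff _).2 hx
      obtain ⟨m, hm⟩ := C.arch (i, l) ε (hεl l hl) (vt (i, k) x / vt (i, l) x)
        (div_ne_zero hγ hxl)
      refine ⟨m, fun _ N hN => ?_⟩
      rw [← lt_div_iff₀ (zero_lt_iff.2 hxl)]
      exact lt_of_le_of_lt (pow_le_pow_right_of_le_one' (hεl l hl).le hN) hm
  choose N₀ hN₀ using hN
  set N : ℕ := Finset.univ.sup N₀ with hNdef
  have hNl : ∀ l : ZMod p, l ≠ k → vt (i, l) ε ^ N * vt (i, l) x < vt (i, k) x := fun l hl =>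
    hN₀ l hl N (Finset.le_sup (Finset.mem_univ l))
  obtain ⟨a, ha⟩ := tr_descends C.pow C.fix (x * ε ^ N)
  refine ⟨a, ?_⟩
  obtain ⟨q, hq⟩ : ∃ q, p = q + 1 :=
    Nat.exists_eq_succ_of_ne_zero (Fact.out : p.Prime).ne_zero
  have htr : tr δ p (x * ε ^ N) =
      ∑ m ∈ Finset.range q, (δ ^ (m + 1)) (x * ε ^ N) + x * ε ^ N := by
    unfold tr
    rw [hq, Finset.sum_range_succ']
    rfl
  have hdec : x - algebraMap E₀ E a =
      x * (1 - ε ^ N) - ∑ m ∈ Finset.range q, (δ ^ (m + 1)) (x * ε ^ N) := by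
    rw [ha, htr]
    ring
  rw [hdec]
  refine lt_of_le_of_lt (Valuation.map_sub _ _ _) (max_lt ?_ ?_)
  · have h1 : vt (i, k) (1 - ε ^ N) < 1 := by
      have h2 := NS.cong_pow (vt (i, k)) (vt_le_one hB C (i, k) hε) hε1 N
      rwa [one_pow, Valuation.map_sub_swap] at h2
    rw [map_mul]
    calc vt (i, k) x * vt (i, k) (1 - ε ^ N) < vt (i, k) x * 1 :=
          mul_lt_mul_of_pos_left h1 (zero_lt_iff.2 hγ)
      _ = vt (i, k) x := mul_one _
  · refine Valuation.map_sum_lt _ hγ fun m hm => ?_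
    have hm' : m + 1 < p := by
      have := Finset.mem_range.1 hm
      omega
    have hne : k + ((m + 1 : ℕ) : ZMod p) ≠ k := by
      intro h
      have h0 : ((m + 1 : ℕ) : ZMod p) = 0 := by
        simpa using h
      rw [ZMod.natCast_eq_zero_iff] at h0
      exact absurd (Nat.le_of_dvd (Nat.succ_pos m) h0) (not_le.2 hm')
    rw [C.shift_pow, map_mul, map_pow, mul_comm]
    exact hNl _ hne

/-- same value group. -/
theorem exists_val_eq (hB : Base B₀ v₀ p₀ π) (C : Cov p B₀ v₀ δ vt) (i : I₀) (k : ZMod p) (x : E) :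
    ∃ a : E₀, vt (i, k) x = v₀ i a := by
  by_cases hx : x = 0
  · exact ⟨0, by rw [hx, map_zero, map_zero]⟩
  · obtain ⟨a, ha⟩ := exists_approx hB C i k hx
    refine ⟨a, ?_⟩
    rw [Valuation.map_sub_swap] at ha
    rw [← C.ext i k a, Valuation.map_eq_of_sub_lt _ ha]

/-- same residue field. -/
theorem exists_imm (hB : Base B₀ v₀ p₀ π) (C : Cov p B₀ v₀ δ vt) (i : I₀) (k : ZMod p) {x : E}
    (hx : vt (i, k) x ≤ 1) : ∃ a : E₀, v₀ i a ≤ 1 ∧ vt (i, k) (x - algebraMap E₀ E a) < 1 := by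
  by_cases hx0 : x = 0
  · exact ⟨0, by rw [map_zero]; exact zero_le_one, by
      rw [hx0, map_zero, sub_zero, map_zero]; exact zero_lt_one⟩
  · obtain ⟨a, ha⟩ := exists_approx hB C i k hx0
    refine ⟨a, ?_, lt_of_lt_of_le ha hx⟩
    have ha' := ha
    rw [Valuation.map_sub_swap] at ha'
    rw [← C.ext i k a, Valuation.map_eq_of_sub_lt _ ha']
    exact hx

/-- a uniformiser of `v₀ i` is a uniformiser of `vt (i, k)`. -/
theorem unif_up (hB : Base B₀ v₀ p₀ π) (C : Cov p B₀ v₀ δ vt) (i : I₀) (k : ZMod p) {ν : E₀}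
    (hν : ∀ x : E₀, v₀ i x < 1 → v₀ i x ≤ v₀ i ν) (x : E) (hx : vt (i, k) x < 1) :
    vt (i, k) x ≤ vt (i, k) (algebraMap E₀ E ν) := by
  obtain ⟨a, ha⟩ := exists_val_eq hB C i k x
  rw [C.ext, ha]
  exact hν a (ha ▸ hx)

end Fermat.Agent.MR.C
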