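import Fermat.Agent.CAR.NS.VR

/-!
# MR / C : package MR-C-ABS-4a : normality of a branch (general form of `NS.exists_cong_of_pow`)
-/

set_option autoImplicit false

open Polynomial

namespace Fermat.Agent.MR.C

open Fermat.Agent.GAL Fermat.Agent.CAR


variable {F Γ₀ ι : Type*} [Field F] [LinearOrderedCommGroupWithZero Γ₀]
  {B : Subring F} {v : ι → Valuation F Γ₀} {p : ι → Ideal B}

/-- polynomials over `B` respect congruences modulo the maximal ideal of `v i`. -/
theorem AbsNorm_cong_aeval (V : NS.Vert B v p) (i : ι) (G : B[X]) {x y : F} (hx : v i x ≤ 1)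
    (h : v i (x - y) < 1) : v i (aeval x G - aeval y G) < 1 := by
  rw [aeval_eq_sum_range, aeval_eq_sum_range]
  refine NS.cong_sum (v i) _ _ _ fun n _ => ?_
  rw [Algebra.smul_def, Algebra.smul_def]
  exact NS.cong_mul_left (v i) (V.le_one i _) (NS.cong_pow (v i) hx h n)

/-- **normality of the branch** (general form of `NS.exists_cong_of_pow`): an element of the residue field of `v i` which is integral over `B / p i` lies in `B / p i`.
PROOF (copy the structure of `NS.exists_cong_of_pow` in `CAR/NS/VR.lean`).  `V.frac i x hx` gives `b₁ s`, `s ∉ p i`, `v i (s x - b₁) < 1`.  `d := g.natDegree`.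
`s^d g(x) = ∑_n g_n s^(d-n) (s x)^n ≡ ∑_n g_n s^(d-n) b₁^n =: T ∈ B`, so `v i T < 1`, `T ∈ p i`.  In `R := B ⧸ p i` (Dedekind, so integrally closed in `K := FractionRing R`) the element
`b̄₁ / s̄ ∈ K` is a root of the monic `ḡ`, so it is `algebraMap R K c̄`: `b₁ - s c ∈ p i`; `v i (s (x - c)) < 1` and `v i s = 1`. -/
theorem exists_cong_of_monic (V : NS.Vert B v p) {i : ι} {x : F} (hx : v i x ≤ 1) (g : B[X]) (hg : g.Monic)
    (h : v i (aeval x g) < 1) : ∃ b : B, v i (x - b) < 1 := by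
  obtain ⟨b₁, s, hs, hsb⟩ := V.frac i x hx
  have hs1 : v i (s : F) = 1 := (V.notMem_iff i s).1 hs
  have hsx : v i ((s : F) * x) ≤ 1 := by rw [map_mul, hs1, one_mul]; exact hx
  -- `T = (scaleRoots g s)(b₁) ∈ p i`
  have hmem : eval b₁ (g.scaleRoots s) ∈ p i := by
    rw [V.mem_p]
    have e1 : aeval ((s : F) * x) (g.scaleRoots s) = (s : F) ^ g.natDegree * aeval x g :=
      scaleRoots_eval₂_mul (algebraMap B F) x s
    have e2 : v i (aeval ((s : F) * x) (g.scaleRoots s)) < 1 := by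
      rw [e1, map_mul, map_pow, hs1, one_pow, one_mul]
      exact h
    have e3 := AbsNorm_cong_aeval V i (g.scaleRoots s) hsx hsb
    have e4 : aeval (b₁ : F) (g.scaleRoots s) = ((eval b₁ (g.scaleRoots s) : B) : F) :=
      eval₂_at_apply (algebraMap B F) b₁
    rw [← e4]
    have e5 : aeval (b₁ : F) (g.scaleRoots s) = aeval ((s : F) * x) (g.scaleRoots s) -
        (aeval ((s : F) * x) (g.scaleRoots s) - aeval (b₁ : F) (g.scaleRoots s)) := by ring
    rw [e5]
    exact (v i).map_sub_lt e2 e3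
  have := V.ded i
  have hs0 : Ideal.Quotient.mk (p i) s ≠ 0 := by rwa [Ne, Ideal.Quotient.eq_zero_iff_mem]
  have hinj := IsFractionRing.injective (B ⧸ p i) (FractionRing (B ⧸ p i))
  set φ : B →+* FractionRing (B ⧸ p i) :=
    (algebraMap (B ⧸ p i) (FractionRing (B ⧸ p i))).comp (Ideal.Quotient.mk (p i)) with hφ
  have hsK : φ s ≠ 0 := (map_ne_zero_iff _ hinj).2 hs0
  have hroot : eval₂ φ (φ b₁ / φ s) g = 0 := by
    have e1 := scaleRoots_eval₂_mul (p := g) φ (φ b₁ / φ s) s
    rw [mul_div_cancel₀ _ hsK, eval₂_at_apply] at e1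
    have e2 : φ (eval b₁ (g.scaleRoots s)) = 0 := by
      rw [hφ, RingHom.comp_apply, Ideal.Quotient.eq_zero_iff_mem.2 hmem, map_zero]
    rw [e2] at e1
    exact (mul_eq_zero.1 e1.symm).resolve_left (pow_ne_zero _ hsK)
  have hint : IsIntegral (B ⧸ p i) (φ b₁ / φ s) :=
    ⟨g.map (Ideal.Quotient.mk (p i)), hg.map _, by rw [eval₂_map]; exact hroot⟩
  obtain ⟨bb, hbb⟩ := IsIntegrallyClosed.isIntegral_iff.1 hint
  obtain ⟨b, rfl⟩ := Ideal.Quotient.mk_surjective bb
  rw [eq_div_iff hsK] at hbb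
  have hbb' : algebraMap (B ⧸ p i) (FractionRing (B ⧸ p i)) (Ideal.Quotient.mk (p i) (b * s)) =
      algebraMap (B ⧸ p i) (FractionRing (B ⧸ p i)) (Ideal.Quotient.mk (p i) b₁) := by
    rw [map_mul, map_mul]
    exact hbb
  have hb : b * s - b₁ ∈ p i := (Ideal.Quotient.eq).1 (hinj hbb')
  rw [V.mem_p] at hb
  refine ⟨b, ?_⟩
  have e6 : v i ((b₁ : F) - (s : F) * b) < 1 := by
    rw [Valuation.map_sub_swap]
    have e7 : ((b * s - b₁ : B) : F) = (s : F) * b - b₁ := by push_cast; ring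
    rwa [e7] at hb
  have e8 := NS.cong_trans (v i) hsb e6
  rwa [← mul_sub, map_mul, hs1, one_mul] at e8

end Fermat.Agent.MR.C
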