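import Fermat.Agent.MR.C.AbsIdem

/-!
# MR / C : the abstract normalisation of `w`
`w ∈ E` whose `2p` vertical valuations are `n`-th powers of values of `π` becomes, after multiplication by an `n`-th power, a unit at all vertical valuations.
-/

set_option autoImplicit false

namespace Fermat.Agent.MR.C

open Fermat.Agent.GAL Fermat.Agent.CAR

variable {E₀ E Γ₀ I₀ : Type*} [Field E₀] [Field E] [Algebra E₀ E] [LinearOrderedCommGroupWithZero Γ₀]
  {B₀ : Subring E₀} {v₀ : I₀ → Valuation E₀ Γ₀} {p₀ : I₀ → Ideal B₀} {π : B₀}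
  {p : ℕ} [Fact p.Prime] {δ : E ≃ₐ[E₀] E} {vt : I₀ × ZMod p → Valuation E Γ₀} [Fintype I₀]

/-- an element of `B₀` which is a unit at `v₀ i` and small at the other vertical valuations. -/
theorem absNormW_base (hB : Base B₀ v₀ p₀ π) (i : I₀) :
    ∃ Z : B₀, v₀ i (Z : E₀) = 1 ∧ ∀ j, j ≠ i → v₀ j (Z : E₀) < 1 := by
  classical
  have h : ∀ j : I₀, ∃ z : B₀, v₀ i (z : E₀) = 1 ∧ (j ≠ i → v₀ j (z : E₀) < 1) := by
    intro j
    by_cases hj : j = i
    · exact ⟨1, by rw [Subring.coe_one, map_one], fun h => absurd hj h⟩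
    · obtain ⟨z, hz, hz'⟩ := SetLike.not_le_iff_exists.1 (hB.vert.ne i j (Ne.symm hj))
      refine ⟨z, ?_, fun _ => (hB.vert.mem_p j z).1 hz⟩
      refine le_antisymm (hB.vert.le_one i z) (not_lt.1 fun hlt => hz' ((hB.vert.mem_p i z).2 hlt))
  choose z hz1 hz2 using h
  refine ⟨∏ j, z j, ?_, fun j hj => ?_⟩
  · show v₀ i (B₀.subtype (∏ j, z j)) = 1
    rw [map_prod, map_prod]
    exact Finset.prod_eq_one fun j _ => hz1 j
  · rw [← Finset.mul_prod_erase Finset.univ z (Finset.mem_univ j), Subring.coe_mul, map_mul]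
    exact lt_of_le_of_lt (mul_le_of_le_one_right' (hB.vert.le_one j _)) (hz2 j hj)

/-- **full separation** of the `2p` branches. -/
theorem exists_sep_full (hB : Base B₀ v₀ p₀ π) (C : Cov p B₀ v₀ δ vt) (b : I₀ × ZMod p) :
    ∃ θ : E, vt b θ = 1 ∧ ∀ b', b' ≠ b → vt b' θ < 1 := by
  obtain ⟨i, k⟩ := b
  obtain ⟨ε, hε, hε1, hεl⟩ := exists_idem hB C i k
  obtain ⟨Z, hZ1, hZ2⟩ := absNormW_base hB i
  have hεv : vt (i, k) ε = 1 := by
    have := Valuation.map_one_add_of_lt (vt (i, k)) hε1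
    rwa [add_sub_cancel] at this
  refine ⟨ε * algebraMap E₀ E (Z : E₀), ?_, ?_⟩
  · rw [map_mul, C.ext, hεv, hZ1, one_mul]
  · rintro ⟨j, l⟩ hne
    rw [map_mul, C.ext]
    by_cases hj : j = i
    · subst hj
      have hl : l ≠ k := fun h => hne (by rw [h])
      rw [hZ1, mul_one]
      exact hεl l hl
    · exact lt_of_le_of_lt (mul_le_of_le_one_left' (vt_le_one hB C (j, l) hε)) (hZ2 j hj)

/-- **weak approximation for the values.** -/
theorem exists_val_zpow (hB : Base B₀ v₀ p₀ π) (C : Cov p B₀ v₀ δ vt) (m : I₀ × ZMod p → ℤ) :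
    ∃ e : E, e ≠ 0 ∧ ∀ b, vt b e = vt b (algebraMap E₀ E (π : E₀)) ^ m b := by
  classical
  by_cases hne : Nonempty (I₀ × ZMod p)
  swap
  · exact ⟨1, one_ne_zero, fun b => (hne ⟨b⟩).elim⟩
  set ϖ : E := algebraMap E₀ E (π : E₀) with hϖ
  have hϖ0 : ϖ ≠ 0 := by
    rw [hϖ]
    intro h
    rw [map_eq_zero] at h
    exact hB.π0 (Subtype.ext h)
  have hv0 : ∀ b, vt b ϖ ≠ 0 := fun b => (Valuation.ne_zero_iff _).2 hϖ0
  choose θ hθ1 hθ2 using fun b => exists_sep_full hB C b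
  -- the exponent
  have hN : ∀ b b' : I₀ × ZMod p, ∃ N₀ : ℕ, b' ≠ b → ∀ N, N₀ ≤ N →
      vt b ϖ ^ m b' * vt b (θ b') ^ N < vt b ϖ ^ m b := by
    intro b b'
    by_cases hb : b' = b
    · exact ⟨0, fun h => absurd hb h⟩
    · have h1 : vt b ϖ ^ m b' ≠ 0 := zpow_ne_zero _ (hv0 b)
      have h2 : vt b ϖ ^ m b ≠ 0 := zpow_ne_zero _ (hv0 b)
      obtain ⟨N₀, hN₀⟩ := C.arch b (θ b') (hθ2 b' b (Ne.symm hb)) (vt b ϖ ^ m b / vt b ϖ ^ m b')
        (div_ne_zero h2 h1)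
      refine ⟨N₀, fun _ N hN => ?_⟩
      rw [mul_comm, ← lt_div_iff₀ (zero_lt_iff.2 h1)]
      exact lt_of_le_of_lt (pow_le_pow_right_of_le_one' (hθ2 b' b (Ne.symm hb)).le hN) hN₀
  choose N₀ hN₀ using hN
  set N : ℕ := Finset.univ.sup fun b => Finset.univ.sup fun b' => N₀ b b' with hNdef
  have hle : ∀ b b', N₀ b b' ≤ N := fun b b' =>
    (Finset.le_sup (f := fun b' => N₀ b b') (Finset.mem_univ b')).trans
      (Finset.le_sup (f := fun b => Finset.univ.sup fun b' => N₀ b b') (Finset.mem_univ b))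
  have hval : ∀ b, vt b (∑ b', ϖ ^ m b' * θ b' ^ N) = vt b ϖ ^ m b := by
    intro b
    rw [← Finset.add_sum_erase Finset.univ (fun b' => ϖ ^ m b' * θ b' ^ N) (Finset.mem_univ b)]
    have h1 : vt b (ϖ ^ m b * θ b ^ N) = vt b ϖ ^ m b := by
      rw [map_mul, map_zpow₀, map_pow, hθ1, one_pow, mul_one]
    have h2 : vt b (∑ b' ∈ Finset.univ.erase b, ϖ ^ m b' * θ b' ^ N) < vt b (ϖ ^ m b * θ b ^ N) := by
      rw [h1]
      refine Valuation.map_sum_lt _ (zpow_ne_zero _ (hv0 b)) fun b' hb' => ?_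
      rw [map_mul, map_zpow₀, map_pow]
      exact hN₀ b b' (Finset.ne_of_mem_erase hb') N (hle b b')
    rw [Valuation.map_add_eq_of_lt_left _ h2, h1]
  refine ⟨∑ b', ϖ ^ m b' * θ b' ^ N, ?_, hval⟩
  intro h0
  obtain ⟨b⟩ := hne
  have := hval b
  rw [h0, map_zero] at this
  exact zpow_ne_zero _ (hv0 b) this.symm

/-- **the normalisation of `w`.** -/
theorem exists_norm_w (hB : Base B₀ v₀ p₀ π) (C : Cov p B₀ v₀ δ vt) (n : ℕ) {w : E}
    (hw : ∀ b, ∃ m : ℤ, vt b w = vt b (algebraMap E₀ E (π : E₀)) ^ ((n : ℤ) * m)) :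
    ∃ e : E, e ≠ 0 ∧ ∀ b, vt b (w * e ^ n) = 1 := by
  choose m hm using hw
  obtain ⟨e, he0, he⟩ := exists_val_zpow hB C (fun b => -m b)
  refine ⟨e, he0, fun b => ?_⟩
  have hϖ0 : algebraMap E₀ E (π : E₀) ≠ 0 := by
    intro h
    rw [map_eq_zero] at h
    exact hB.π0 (Subtype.ext h)
  have hv0 : vt b (algebraMap E₀ E (π : E₀)) ≠ 0 := (Valuation.ne_zero_iff _).2 hϖ0
  rw [map_mul, map_pow, hm b, he b, ← zpow_natCast, ← zpow_mul, ← zpow_add₀ hv0]
  have : (n : ℤ) * m b + -m b * (n : ℤ) = 0 := by ring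
  rw [this, zpow_zero]

end Fermat.Agent.MR.C
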