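import Fermat.Agent.MR.C.AbsKR
import Fermat.Agent.GAL.KL.BasicInt

/-!
# MR / C : `PreCov` = `Cov` without `sep`.

`Cov.sep` asks for elements which are INTEGRAL over `B₀`; the criterion "integral over `ℚ̄[t]` + all vertical valuations `≤ 1` ⟹ in `B1`"
(`le_B1_of_stable`, `HGc.hgc_mem_B1`) must therefore be available BEFORE `Cov` is constructed: here it is, from `PreCov` only.
-/

set_option autoImplicit false

open Polynomial

namespace Fermat.Agent.MR.C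

open Fermat.Agent.GAL Fermat.Agent.GAL.KL Fermat.Agent.CAR

variable {E₀ E Γ₀ I₀ : Type*} [Field E₀] [Field E] [Algebra E₀ E] [LinearOrderedCommGroupWithZero Γ₀]
  {B₀ : Subring E₀} {v₀ : I₀ → Valuation E₀ Γ₀}
  {p : ℕ} {δ : E ≃ₐ[E₀] E} {vt : I₀ × ZMod p → Valuation E Γ₀}

/-- the cyclic cover, without sibling separation. -/
structure PreCov (p : ℕ) (v₀ : I₀ → Valuation E₀ Γ₀) (δ : E ≃ₐ[E₀] E)
    (vt : I₀ × ZMod p → Valuation E Γ₀) : Prop where
  pow : ∀ x : E, (δ ^ p) x = x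
  fix : ∀ x : E, δ x = x → ∃ x₀ : E₀, algebraMap E₀ E x₀ = x
  ext : ∀ (i : I₀) (k : ZMod p) (x : E₀), vt (i, k) (algebraMap E₀ E x) = v₀ i x
  shift : ∀ (i : I₀) (k : ZMod p) (x : E), vt (i, k) (δ x) = vt (i, k + 1) x
  arch : ∀ b, KL.Arch (vt b)

theorem PreCov.cov (P : PreCov p v₀ δ vt) (B₀ : Subring E₀)
    (sep : ∀ (i : I₀) (k l : ZMod p), k ≠ l →
      ∃ b : E, IsIntegral B₀ b ∧ vt (i, l) b < 1 ∧ vt (i, k) (b - 1) < 1) :
    Cov p B₀ v₀ δ vt :=
  ⟨P.pow, P.fix, P.ext, P.shift, P.arch, sep⟩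

theorem Cov.pre (C : Cov p B₀ v₀ δ vt) : PreCov p v₀ δ vt :=
  ⟨C.pow, C.fix, C.ext, C.shift, C.arch⟩

/-- `le_B1_of_stable` from `PreCov`. -/
theorem PreCov.le_B1_of_stable (hp : 0 < p) (P : PreCov p v₀ δ vt) (S : Subring E)
    (hδ : ∀ x ∈ S, δ x ∈ S) (hS : ∀ x₀ : E₀, algebraMap E₀ E x₀ ∈ S → x₀ ∈ B₀) : S ≤ B1 E B₀ := by
  intro x hx
  have hm : ∀ m : ℕ, (δ ^ m) x ∈ S := by
    intro m
    induction m with
    | zero => simpa using hx
    | succ m ih =>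
      rw [← absSym_apply_pow]
      exact hδ _ ih
  obtain ⟨f, hf, -, hmap⟩ := chi_descends P.pow P.fix x
  have hc : ∀ n, f.coeff n ∈ B₀ := by
    intro n
    apply hS
    rw [← coeff_map, hmap]
    exact chi_coeff_mem S hm n
  have hsub : ((f.coeffs : Finset E₀) : Set E₀) ⊆ B₀ := by
    intro a ha
    obtain ⟨n, -, rfl⟩ := (mem_coeffs_iff).1 (Finset.mem_coe.1 ha)
    exact hc n
  rw [mem_B1]
  refine ⟨f.toSubring B₀ hsub, (monic_toSubring f B₀ hsub).2 hf, ?_⟩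
  have h1 : (f.toSubring B₀ hsub).map (algebraMap B₀ E) = chi δ p x := by
    have h2 : algebraMap B₀ E = (algebraMap E₀ E).comp B₀.subtype := rfl
    rw [h2, ← Polynomial.map_map, map_toSubring, hmap]
  rw [← eval_map, h1]
  exact chi_eval_self δ hp x

/-- elements of `E` which are integral over `L[t]` with all vertical valuations `≤ 1` are integral over `B₀` (from `PreCov` only:
usable in the construction of `Cov.sep`). -/
theorem PreCov.isIntegral_of_isInt {L Λ : Type*} [Field L] [Field Λ] [Algebra L Λ] (hp : 0 < p)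
    (P : PreCov p v₀ δ vt) (ι : E →+* Λ) (t : Λ)
    (hδ : ∀ x : E, IsInt L t (ι x) → IsInt L t (ι (δ x)))
    (hS : ∀ x₀ : E₀, IsInt L t (ι (algebraMap E₀ E x₀)) → (∀ i, v₀ i x₀ ≤ 1) → x₀ ∈ B₀)
    {x : E} (hx : IsInt L t (ι x)) (hv : ∀ b, vt b x ≤ 1) : IsIntegral B₀ x := by
  let S : Subring E :=
    { carrier := {y | IsInt L t (ι y) ∧ ∀ b, vt b y ≤ 1}
      mul_mem' := by
        rintro a b ⟨ha, ha'⟩ ⟨hb, hb'⟩
        refine ⟨by rw [map_mul]; exact ha.mul hb, fun c => ?_⟩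
        rw [map_mul]
        exact mul_le_one' (ha' c) (hb' c)
      one_mem' := ⟨by rw [map_one]; exact IsInt.one, fun c => by rw [map_one]⟩
      add_mem' := by
        rintro a b ⟨ha, ha'⟩ ⟨hb, hb'⟩
        exact ⟨by rw [map_add]; exact ha.add hb, fun c => Valuation.map_add_le _ (ha' c) (hb' c)⟩
      zero_mem' := ⟨by rw [map_zero]; exact IsInt.zero, fun c => by rw [map_zero]; exact zero_le⟩
      neg_mem' := by
        rintro a ⟨ha, ha'⟩
        exact ⟨by rw [map_neg]; exact ha.neg, fun c => by rw [Valuation.map_neg]; exact ha' c⟩ }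
  have hle : S ≤ B1 E B₀ := P.le_B1_of_stable hp S
    (fun y hy => ⟨hδ y hy.1, fun b => by
      obtain ⟨i, k⟩ := b
      rw [P.shift]
      exact hy.2 _⟩)
    (fun x₀ hx₀ => hS x₀ hx₀.1 fun i => by
      have := hx₀.2 (i, 0)
      rwa [P.ext] at this)
  exact mem_B1.1 (hle ⟨hx, hv⟩)

end Fermat.Agent.MR.C
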