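import Fermat.Agent.MR.C.AbsImm
import Fermat.Agent.MR.C.AbsNorm

/-!
# MR / C : package MR-C-ABS-4b : `B1 / pt (i, k) = B₀ / p₀ i`
-/

set_option autoImplicit false

open Polynomial

namespace Fermat.Agent.MR.C

open Fermat.Agent.GAL Fermat.Agent.CAR


variable {E₀ E Γ₀ I₀ : Type*} [Field E₀] [Field E] [Algebra E₀ E] [LinearOrderedCommGroupWithZero Γ₀]
  {B₀ : Subring E₀} {v₀ : I₀ → Valuation E₀ Γ₀} {p₀ : I₀ → Ideal B₀} {π : B₀}
  {p : ℕ} [Fact p.Prime] {δ : E ≃ₐ[E₀] E} {vt : I₀ × ZMod p → Valuation E Γ₀}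

variable (E) in
/-- the inclusion `B₀ → B1`. -/
def inc (B₀ : Subring E₀) : B₀ →+* B1 E B₀ :=
  ((algebraMap E₀ E).comp B₀.subtype).codRestrict (B1 E B₀) (fun b => map_mem_B1 b)

@[simp] theorem coe_inc (b : B₀) : ((inc E B₀ b : B1 E B₀) : E) = algebraMap E₀ E (b : E₀) := rfl

/-- polynomial congruence: `u (x - y) < 1`, `u x ≤ 1`, coefficients `≤ 1` ⟹ `u (g(x) - g(y)) < 1` (`NS.cong_sum`, `NS.cong_mul_left`, `NS.cong_pow`; `aeval_eq_sum_range`). -/
theorem cong_aeval (u : Valuation E Γ₀) (hu : ∀ b : B₀, u (algebraMap E₀ E (b : E₀)) ≤ 1) (g : B₀[X]) {x y : E}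
    (hx : u x ≤ 1) (h : u (x - y) < 1) : u (aeval x g - aeval y g) < 1 := by
  rw [aeval_eq_sum_range, aeval_eq_sum_range]
  apply NS.cong_sum
  intro n _
  rw [Algebra.smul_def, Algebra.smul_def]
  exact NS.cong_mul_left u (hu _) (NS.cong_pow u hx h n)

/-- every element of `B1` is congruent to an element of `B₀` along every branch.
PROOF. `exists_imm` (`vt_le_one`): `a ∈ E₀`, `v₀ i a ≤ 1`, `vt (x - a) < 1`.  `hx` : monic `g ∈ B₀[X]`, `aeval x g = 0`.  `cong_aeval`: `vt (aeval (algebraMap a) g) < 1`;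
`aeval (algebraMap E₀ E a) g = algebraMap E₀ E (aeval a g)` (`Polynomial.aeval_algebraMap_apply`), `C.ext`: `v₀ i (aeval a g) < 1`.  `exists_cong_of_monic hB.vert`. -/
theorem exists_base_cong (hB : Base B₀ v₀ p₀ π) (C : Cov p B₀ v₀ δ vt) (i : I₀) (k : ZMod p) {x : E}
    (hx : x ∈ B1 E B₀) : ∃ c : B₀, vt (i, k) (x - algebraMap E₀ E (c : E₀)) < 1 := by
  have hle : vt (i, k) x ≤ 1 := vt_le_one hB C (i, k) hx
  obtain ⟨a, ha1, ha2⟩ := exists_imm hB C i k hle
  obtain ⟨g, hg, hg0⟩ := hx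
  have h1 := cong_aeval (vt (i, k)) (fun b => by rw [C.ext]; exact hB.vert.le_one _ _) g hle ha2
  rw [aeval_def, hg0, zero_sub, Valuation.map_neg, aeval_algebraMap_apply, C.ext] at h1
  obtain ⟨c, hc⟩ := exists_cong_of_monic hB.vert ha1 g hg h1
  refine ⟨c, ?_⟩
  have h2 : vt (i, k) (algebraMap E₀ E a - algebraMap E₀ E (c : E₀)) < 1 := by
    rw [← map_sub, C.ext]; exact hc
  exact NS.cong_trans _ ha2 h2

/-- `B₀ → B1 / pt (i,k)` is surjective with kernel `p₀ i`. -/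
theorem mk_inc_surjective (hB : Base B₀ v₀ p₀ π) (C : Cov p B₀ v₀ δ vt) (i : I₀) (k : ZMod p) :
    Function.Surjective ((Ideal.Quotient.mk (pt B₀ vt (i, k))).comp (inc E B₀)) := by
  intro y
  obtain ⟨z, rfl⟩ := Ideal.Quotient.mk_surjective y
  obtain ⟨c, hc⟩ := exists_base_cong hB C i k z.2
  refine ⟨c, ?_⟩
  rw [RingHom.comp_apply, Ideal.Quotient.eq, mem_pt hB C, AddSubgroupClass.coe_sub, coe_inc,
    Valuation.map_sub_swap]
  exact hc

theorem ker_mk_inc (hB : Base B₀ v₀ p₀ π) (C : Cov p B₀ v₀ δ vt) (i : I₀) (k : ZMod p) :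
    RingHom.ker ((Ideal.Quotient.mk (pt B₀ vt (i, k))).comp (inc E B₀)) = p₀ i := by
  ext b
  rw [RingHom.mem_ker, RingHom.comp_apply, Ideal.Quotient.eq_zero_iff_mem, mem_pt hB C, coe_inc,
    C.ext, hB.vert.mem_p]

/-- transport of `IsDedekindDomain` along a ring isomorphism. -/
theorem AbsQuot_isDedekindDomain_of_ringEquiv {R S : Type*} [CommRing R] [CommRing S] (e : R ≃+* S)
    [IsDedekindDomain R] : IsDedekindDomain S := by
  have : IsDomain S := e.isDomain_iff.mp inferInstance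
  have : IsNoetherianRing S := isNoetherianRing_of_ringEquiv R e
  have : Ring.DimensionLEOne S := Ring.DimensionLEOne.of_ringEquiv e.symm
  have : IsIntegrallyClosed S := IsIntegrallyClosed.of_equiv e
  exact { }

/-- PROOF. `RingHom.quotientKerEquivOfSurjective`, `Ideal.quotEquivOfEq (ker_mk_inc ..)`; a ring isomorphic to a Dedekind domain is a Dedekind domain
(see `CAR/BK/Quot.lean` for the transport lemma: copy it, or `RingEquiv.isDedekindDomain` if Mathlib has it). -/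
theorem ded_B1 (hB : Base B₀ v₀ p₀ π) (C : Cov p B₀ v₀ δ vt) (b : I₀ × ZMod p) :
    IsDedekindDomain (B1 E B₀ ⧸ pt B₀ vt b) := by
  obtain ⟨i, k⟩ := b
  haveI := hB.vert.ded i
  exact AbsQuot_isDedekindDomain_of_ringEquiv
    ((Ideal.quotEquivOfEq (ker_mk_inc hB C i k).symm).trans
      (RingHom.quotientKerEquivOfSurjective (mk_inc_surjective hB C i k)))

end Fermat.Agent.MR.C
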