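import Fermat.Agent.MR.C.AbsDefs

/-!
# MR / C : package MR-C-ABS-1 : the characteristic polynomial `chi δ p x = ∏_{m<p} (X - δ^m x)` and the trace
(Mathlib only; `Cov` is used only through `pow` and `fix`.)
-/

set_option autoImplicit false

open Polynomial

namespace Fermat.Agent.MR.C

variable {E₀ E Γ₀ : Type*} [Field E₀] [Field E] [Algebra E₀ E] [LinearOrderedCommGroupWithZero Γ₀]
  {δ : E ≃ₐ[E₀] E} {p : ℕ}

theorem chi_monic (δ : E ≃ₐ[E₀] E) (p : ℕ) (x : E) : (chi δ p x).Monic :=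
  monic_prod_of_monic _ _ fun _ _ => monic_X_sub_C _

theorem chi_natDegree (δ : E ≃ₐ[E₀] E) (p : ℕ) (x : E) : (chi δ p x).natDegree = p := by
  unfold chi
  rw [natDegree_prod_of_monic _ _ fun _ _ => monic_X_sub_C _]
  simp

/-- the factor `m = 0`. -/
theorem chi_eval_self (δ : E ≃ₐ[E₀] E) {p : ℕ} (hp : 0 < p) (x : E) : (chi δ p x).eval x = 0 := by
  unfold chi
  rw [eval_prod]
  exact Finset.prod_eq_zero (Finset.mem_range.2 hp) (by simp)

/-- the coefficients lie in every subring containing the conjugates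
(`Polynomial.lifts` / `Subring.prod_mem` in `S[X]`: `X - C a` lifts to `S[X]`, so does the product). -/
theorem chi_coeff_mem (S : Subring E) {x : E} (h : ∀ m : ℕ, (δ ^ m) x ∈ S) (n : ℕ) :
    (chi δ p x).coeff n ∈ S := by
  have hl : chi δ p x ∈ Polynomial.lifts S.subtype := by
    unfold chi
    refine prod_mem fun m _ => ?_
    exact (mem_lifts _).2 ⟨X - C ⟨(δ ^ m) x, h m⟩, by simp⟩
  obtain ⟨a, ha⟩ := (lifts_iff_coeff_lifts _).1 hl n
  rw [← ha]
  exact a.2

theorem absSym_coeff_aux (v : Valuation E Γ₀) (a : ℕ → E) (h : ∀ m : ℕ, v (a m) < 1) (p : ℕ) :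
    (∀ n, v ((∏ m ∈ Finset.range p, (X - C (a m))).coeff n) ≤ 1) ∧
      ∀ n, n < p → v ((∏ m ∈ Finset.range p, (X - C (a m))).coeff n) < 1 := by
  induction p with
  | zero =>
    refine ⟨fun n => ?_, fun n hn => absurd hn (Nat.not_lt_zero n)⟩
    rw [Finset.prod_range_zero, coeff_one]
    split_ifs
    · rw [map_one]
    · rw [map_zero]; exact zero_le_one
  | succ p ih =>
    obtain ⟨ih1, ih2⟩ := ih
    set g := ∏ m ∈ Finset.range p, (X - C (a m)) with hg
    have hmul : ∀ c : E, v c ≤ 1 → v (c * a p) < 1 := by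
      intro c hc
      rw [map_mul]
      calc v c * v (a p) ≤ 1 * v (a p) := mul_le_mul_left hc _
        _ = v (a p) := one_mul _
        _ < 1 := h p
    have h0 : v ((g * (X - C (a p))).coeff 0) < 1 := by
      rw [mul_coeff_zero, coeff_sub, coeff_X_zero, coeff_C_zero, zero_sub, mul_neg, Valuation.map_neg]
      exact hmul _ (ih1 0)
    rw [Finset.prod_range_succ]
    constructor
    · intro n
      rcases n with _ | n
      · exact h0.le
      · rw [coeff_mul_X_sub_C]
        exact (Valuation.map_sub _ _ _).trans (max_le (ih1 n) (hmul _ (ih1 (n + 1))).le)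
    · intro n hn
      rcases n with _ | n
      · exact h0
      · rw [coeff_mul_X_sub_C]
        exact lt_of_le_of_lt (Valuation.map_sub _ _ _)
          (max_lt (ih2 n (by omega)) (hmul _ (ih1 (n + 1))))

/-- if all conjugates are `< 1` then all coefficients except the leading one are `< 1`.
PROOF: induction on `p` for the statement "`g` monic of degree `d`, `v (g.coeff n) < 1` for `n < d`, `≤ 1` for all `n`" under multiplication
by `X - C a`, `v a < 1` (`coeff_mul_X_sub_C`, `coeff_X_sub_C_mul`);  or: esymm. -/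
theorem chi_coeff_lt (v : Valuation E Γ₀) {x : E} (h : ∀ m : ℕ, v ((δ ^ m) x) < 1) {n : ℕ} (hn : n < p) :
    v ((chi δ p x).coeff n) < 1 :=
  (absSym_coeff_aux v (fun m => (δ ^ m) x) h p).2 n hn

theorem absSym_prod_shift {M : Type*} [CommMonoid M] (f : ℕ → M) (p : ℕ) (h : f p = f 0) :
    ∏ m ∈ Finset.range p, f (m + 1) = ∏ m ∈ Finset.range p, f m := by
  rcases p with _ | q
  · simp
  · rw [Finset.prod_range_succ, Finset.prod_range_succ' f q, h]

theorem absSym_sum_shift {M : Type*} [AddCommMonoid M] (f : ℕ → M) (p : ℕ) (h : f p = f 0) :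
    ∑ m ∈ Finset.range p, f (m + 1) = ∑ m ∈ Finset.range p, f m := by
  rcases p with _ | q
  · simp
  · rw [Finset.sum_range_succ, Finset.sum_range_succ' f q, h]

theorem absSym_apply_pow (δ : E ≃ₐ[E₀] E) (m : ℕ) (x : E) : δ ((δ ^ m) x) = (δ ^ (m + 1)) x := by
  rw [pow_succ', AlgEquiv.mul_apply]

/-- `δ` permutes the factors cyclically (`Finset.prod_range_succ'`/`prod_range_succ_comm`, `δ^p x = x`), so `chi` has `δ`-fixed coefficients, which lie in `E₀`.
`(chi δ p x).map δ = ∏_{m<p} (X - C (δ^(m+1) x)) = chi δ p x`. -/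
theorem chi_descends (hpow : ∀ x : E, (δ ^ p) x = x) (hfix : ∀ x : E, δ x = x → ∃ x₀ : E₀, algebraMap E₀ E x₀ = x)
    (x : E) : ∃ f : E₀[X], f.Monic ∧ f.natDegree = p ∧ f.map (algebraMap E₀ E) = chi δ p x := by
  have hmap : (chi δ p x).map (δ : E →+* E) = chi δ p x := by
    unfold chi
    rw [Polynomial.map_prod]
    have : ∀ m, (X - C ((δ ^ m) x)).map (δ : E →+* E) = X - C ((δ ^ (m + 1)) x) := by
      intro m
      rw [Polynomial.map_sub, map_X, map_C, ← absSym_apply_pow]
      rfl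
    simp only [this]
    exact absSym_prod_shift (fun m => X - C ((δ ^ m) x)) p (by simp [hpow])
  have hl : chi δ p x ∈ Polynomial.lifts (algebraMap E₀ E) := by
    rw [lifts_iff_coeff_lifts]
    intro n
    have h1 : δ ((chi δ p x).coeff n) = (chi δ p x).coeff n := by
      conv_rhs => rw [← hmap, coeff_map]
      rfl
    obtain ⟨a, ha⟩ := hfix _ h1
    exact ⟨a, ha⟩
  obtain ⟨f, hf, hd, hm⟩ := lifts_and_natDegree_eq_and_monic hl (chi_monic δ p x)
  exact ⟨f, hm, by rw [hd, chi_natDegree], hf⟩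

/-- the trace lies in `E₀`. -/
theorem tr_descends (hpow : ∀ x : E, (δ ^ p) x = x) (hfix : ∀ x : E, δ x = x → ∃ x₀ : E₀, algebraMap E₀ E x₀ = x)
    (x : E) : ∃ a : E₀, algebraMap E₀ E a = tr δ p x := by
  apply hfix
  unfold tr
  rw [map_sum]
  simp only [absSym_apply_pow]
  exact absSym_sum_shift (fun m => (δ ^ m) x) p (by simp [hpow])

/-- the norm lies in `E₀`. -/
theorem nm_descends (hpow : ∀ x : E, (δ ^ p) x = x) (hfix : ∀ x : E, δ x = x → ∃ x₀ : E₀, algebraMap E₀ E x₀ = x)
    (x : E) : ∃ a : E₀, algebraMap E₀ E a = ∏ m ∈ Finset.range p, (δ ^ m) x := by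
  apply hfix
  rw [map_prod]
  simp only [absSym_apply_pow]
  exact absSym_prod_shift (fun m => (δ ^ m) x) p (by simp [hpow])

end Fermat.Agent.MR.C
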