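import Fermat.Agent.MR.C.AbsImm

/-!
# MR / C : propagation of the `n`-divisibility of the vertical valuations along the branches

`Ht ∈ E` with `δ Ht = c * g ^ n * Ht`, the values of `c` are `n`-th powers of values of `π`, and the values of `Ht` at the two branches `(i, 0)`
are `n`-th powers of values of `π`.  Then ALL `2p` vertical values of `Ht` are `n`-th powers of values of `π`
(= the hypothesis `hw` of `AbsNormW.exists_norm_w`).
-/

set_option autoImplicit false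

namespace Fermat.Agent.MR.C

open Fermat.Agent.GAL Fermat.Agent.CAR

variable {E₀ E Γ₀ I₀ : Type*} [Field E₀] [Field E] [Algebra E₀ E] [LinearOrderedCommGroupWithZero Γ₀]
  {B₀ : Subring E₀} {v₀ : I₀ → Valuation E₀ Γ₀} {p₀ : I₀ → Ideal B₀} {π : B₀}
  {p : ℕ} [Fact p.Prime] {δ : E ≃ₐ[E₀] E} {vt : I₀ × ZMod p → Valuation E Γ₀}

/-- an archimedean valuation with a uniformiser `ϖ` has value group `(v ϖ)^ℤ`; integral case. -/
theorem absValHt_pow {F : Type*} [Field F] (v : Valuation F Γ₀) (hA : KL.Arch v) {ϖ : F}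
    (h1 : v ϖ < 1) (h0 : ϖ ≠ 0) (hu : ∀ x, v x < 1 → v x ≤ v ϖ) {x : F} (hx : x ≠ 0)
    (hx1 : v x ≤ 1) : ∃ m : ℕ, v x = v ϖ ^ m := by
  classical
  have hvx : v x ≠ 0 := (Valuation.ne_zero_iff _).2 hx
  have hvϖ : v ϖ ≠ 0 := (Valuation.ne_zero_iff _).2 h0
  have hex : ∃ n : ℕ, v ϖ ^ n < v x := hA ϖ h1 (v x) hvx
  have hn0 : Nat.find hex ≠ 0 := by
    intro h
    have := Nat.find_spec hex
    rw [h, pow_zero] at this
    exact absurd hx1 (not_le.2 this)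
  obtain ⟨m, hm⟩ := Nat.exists_eq_succ_of_ne_zero hn0
  have hlt : v ϖ ^ (m + 1) < v x := by
    have := Nat.find_spec hex
    rwa [hm] at this
  have hle : v x ≤ v ϖ ^ m := by
    have := Nat.find_min hex (m := m) (by rw [hm]; exact Nat.lt_succ_self m)
    exact not_lt.1 this
  refine ⟨m, le_antisymm hle ?_⟩
  by_contra hcon
  have hlt2 : v x < v ϖ ^ m := not_le.1 hcon
  have hpm : v ϖ ^ m ≠ 0 := pow_ne_zero _ hvϖ
  have hy : v (x / ϖ ^ m) < 1 := by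
    rw [map_div₀, map_pow]
    exact (div_lt_one₀ (zero_lt_iff.2 hpm)).2 hlt2
  have hy2 := hu _ hy
  rw [map_div₀, map_pow, div_le_iff₀ (zero_lt_iff.2 hpm), ← pow_succ'] at hy2
  exact absurd hlt (not_lt.2 hy2)

/-- an archimedean valuation with a uniformiser `ϖ` has value group `(v ϖ)^ℤ`. -/
theorem absValHt_zpow {F : Type*} [Field F] (v : Valuation F Γ₀) (hA : KL.Arch v) {ϖ : F}
    (h1 : v ϖ < 1) (h0 : ϖ ≠ 0) (hu : ∀ x, v x < 1 → v x ≤ v ϖ) {x : F} (hx : x ≠ 0) :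
    ∃ m : ℤ, v x = v ϖ ^ m := by
  rcases le_total (v x) 1 with h | h
  · obtain ⟨m, hm⟩ := absValHt_pow v hA h1 h0 hu hx h
    exact ⟨m, by rw [hm, zpow_natCast]⟩
  · have hvx : v x ≠ 0 := (Valuation.ne_zero_iff _).2 hx
    have h' : v x⁻¹ ≤ 1 := by
      rw [map_inv₀]
      exact (inv_le_one₀ (zero_lt_iff.2 hvx)).2 h
    obtain ⟨m, hm⟩ := absValHt_pow v hA h1 h0 hu (inv_ne_zero hx) h'
    refine ⟨-(m : ℤ), ?_⟩
    rw [zpow_neg, zpow_natCast, ← hm, map_inv₀, inv_inv]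

/-- the value group of the base valuations is generated by the value of `π`. -/
theorem base_val_zpow (hB : Base B₀ v₀ p₀ π) (i : I₀) {x : E₀} (hx : x ≠ 0) :
    ∃ m : ℤ, v₀ i x = v₀ i (π : E₀) ^ m :=
  absValHt_zpow (v₀ i) (hB.vert.arch i) (hB.πlt i) (fun h => hB.π0 (Subtype.ext h)) (hB.πunif i) hx

/-- the value group of the `2p` valuations of the cover is generated by the value of `π`. -/
theorem cov_val_zpow (hB : Base B₀ v₀ p₀ π) (C : Cov p B₀ v₀ δ vt) (b : I₀ × ZMod p) {x : E}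
    (hx : x ≠ 0) : ∃ m : ℤ, vt b x = vt b (algebraMap E₀ E (π : E₀)) ^ m := by
  obtain ⟨i, k⟩ := b
  obtain ⟨a, ha⟩ := exists_val_eq hB C i k x
  have ha0 : a ≠ 0 := by
    rintro rfl
    rw [map_zero] at ha
    exact hx ((map_eq_zero _).1 ha)
  obtain ⟨m, hm⟩ := base_val_zpow hB i ha0
  exact ⟨m, by rw [ha, hm, C.ext]⟩

/-- **propagation along the branches.** -/
theorem exists_zpow_of_shift (hB : Base B₀ v₀ p₀ π) (C : Cov p B₀ v₀ δ vt) (n : ℕ) {Ht g c : E}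
    (hg : g ≠ 0) (hδ : δ Ht = c * g ^ n * Ht)
    (hc : ∀ b, ∃ m : ℤ, vt b c = vt b (algebraMap E₀ E (π : E₀)) ^ ((n : ℤ) * m))
    (h0 : ∀ i, ∃ m : ℤ, vt (i, 0) Ht = vt (i, 0) (algebraMap E₀ E (π : E₀)) ^ ((n : ℤ) * m)) :
    ∀ b, ∃ m : ℤ, vt b Ht = vt b (algebraMap E₀ E (π : E₀)) ^ ((n : ℤ) * m) := by
  have hp : NeZero p := ⟨(Fact.out : p.Prime).ne_zero⟩
  have key : ∀ (i : I₀) (k : ℕ), ∃ m : ℤ,
      vt (i, (k : ZMod p)) Ht = v₀ i (π : E₀) ^ ((n : ℤ) * m) := by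
    intro i k
    induction k with
    | zero =>
      obtain ⟨m, hm⟩ := h0 i
      refine ⟨m, ?_⟩
      rw [Nat.cast_zero, hm, C.ext]
    | succ k ih =>
      obtain ⟨m, hm⟩ := ih
      obtain ⟨mc, hmc⟩ := hc (i, (k : ZMod p))
      obtain ⟨mg, hmg⟩ := cov_val_zpow hB C (i, (k : ZMod p)) hg
      rw [C.ext] at hmc hmg
      have hπ0 : v₀ i (π : E₀) ≠ 0 :=
        (Valuation.ne_zero_iff _).2 (fun h => hB.π0 (Subtype.ext h))
      refine ⟨mc + mg + m, ?_⟩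
      rw [Nat.cast_succ, ← C.shift i (k : ZMod p) Ht, hδ, map_mul, map_mul, map_pow, hmc, hmg, hm,
        ← zpow_natCast, ← zpow_mul, ← zpow_add₀ hπ0, ← zpow_add₀ hπ0]
      congr 1
      ring
  rintro ⟨i, k⟩
  obtain ⟨m, hm⟩ := key i k.val
  refine ⟨m, ?_⟩
  rw [ZMod.natCast_zmod_val] at hm
  rw [hm, C.ext]

end Fermat.Agent.MR.C
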