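import Fermat.Agent.MR.C.AbsImm
import Fermat.Agent.MR.C.AbsNormW

/-!
# MR / C : the value groups of the `2p` vertical valuations are `|π|^ℤ`;  propagation of "`n ∣ v(W)`" along the deck transformation
-/

set_option autoImplicit false

namespace Fermat.Agent.MR.C

open Fermat.Agent.GAL Fermat.Agent.CAR

variable {E₀ E Γ₀ I₀ : Type*} [Field E₀] [Field E] [Algebra E₀ E] [LinearOrderedCommGroupWithZero Γ₀]
  {B₀ : Subring E₀} {v₀ : I₀ → Valuation E₀ Γ₀} {p₀ : I₀ → Ideal B₀} {π : B₀}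
  {p : ℕ} [Fact p.Prime] {δ : E ≃ₐ[E₀] E} {vt : I₀ × ZMod p → Valuation E Γ₀}

omit [Fact p.Prime] in
theorem absValW_pi_ne (hB : Base B₀ v₀ p₀ π) (i : I₀) : v₀ i (π : E₀) ≠ 0 :=
  (Valuation.ne_zero_iff _).2 fun h => hB.π0 (Subtype.ext h)

omit [Fact p.Prime] in
/-- integral case. -/
theorem absValW_le_one (hB : Base B₀ v₀ p₀ π) (i : I₀) {x : E₀} (hx : x ≠ 0) (h1 : v₀ i x ≤ 1) :
    ∃ m : ℕ, v₀ i x = v₀ i (π : E₀) ^ m := by
  classical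
  have hγ0 := absValW_pi_ne hB i
  have hx0 : v₀ i x ≠ 0 := (Valuation.ne_zero_iff _).2 hx
  obtain ⟨n, hn⟩ := hB.vert.arch i _ (hB.πlt i) (v₀ i x) hx0
  -- the least `n` with `γ ^ n < v x`
  have hex : ∃ n, v₀ i (π : E₀) ^ n < v₀ i x := ⟨n, hn⟩
  set n₀ := Nat.find hex with hn₀
  have hlt : v₀ i (π : E₀) ^ n₀ < v₀ i x := Nat.find_spec hex
  have hpos : n₀ ≠ 0 := by
    intro h0
    rw [h0, pow_zero] at hlt
    exact absurd h1 (not_le.2 hlt)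
  obtain ⟨m, hm⟩ := Nat.exists_eq_succ_of_ne_zero hpos
  have hle : v₀ i x ≤ v₀ i (π : E₀) ^ m := by
    have := Nat.find_min hex (m := m) (by omega)
    exact not_lt.1 this
  refine ⟨m, le_antisymm hle ?_⟩
  by_contra hcon
  rw [not_le] at hcon
  have hπm : v₀ i ((π : E₀) ^ m) ≠ 0 := by rw [map_pow]; exact pow_ne_zero _ hγ0
  have h2 : v₀ i (x / (π : E₀) ^ m) < 1 := by
    rw [map_div₀, div_lt_one₀ (zero_lt_iff.2 hπm), map_pow]
    exact hcon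
  have h3 := hB.πunif i _ h2
  rw [map_div₀, div_le_iff₀ (zero_lt_iff.2 hπm), map_pow, ← pow_succ', ← Nat.succ_eq_add_one, ← hm] at h3
  exact absurd h3 (not_le.2 hlt)

omit [Fact p.Prime] in
/-- the value group of `v₀ i` is `|π|^ℤ`. -/
theorem exists_zpow_base (hB : Base B₀ v₀ p₀ π) (i : I₀) {x : E₀} (hx : x ≠ 0) :
    ∃ m : ℤ, v₀ i x = v₀ i (π : E₀) ^ m := by
  rcases le_total (v₀ i x) 1 with h | h
  · obtain ⟨m, hm⟩ := absValW_le_one hB i hx h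
    exact ⟨m, by rw [zpow_natCast]; exact hm⟩
  · have h' : v₀ i x⁻¹ ≤ 1 := by
      rw [map_inv₀]
      exact inv_le_one_of_one_le₀ h
    obtain ⟨m, hm⟩ := absValW_le_one hB i (inv_ne_zero hx) h'
    refine ⟨-m, ?_⟩
    rw [zpow_neg, zpow_natCast, ← hm, map_inv₀, inv_inv]

/-- the value group of `vt b` is `|π|^ℤ`. -/
theorem exists_zpow_up (hB : Base B₀ v₀ p₀ π) (C : Cov p B₀ v₀ δ vt) (b : I₀ × ZMod p) {x : E}
    (hx : x ≠ 0) : ∃ m : ℤ, vt b x = vt b (algebraMap E₀ E (π : E₀)) ^ m := by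
  obtain ⟨i, k⟩ := b
  obtain ⟨a, ha⟩ := exists_val_eq hB C i k x
  have ha0 : a ≠ 0 := by
    rintro rfl
    rw [map_zero] at ha
    exact hx ((Valuation.zero_iff _).1 ha)
  obtain ⟨m, hm⟩ := exists_zpow_base hB i ha0
  exact ⟨m, by rw [ha, hm, C.ext]⟩

/-- **propagation along the deck transformation.** -/
theorem val_all_of_deck (hB : Base B₀ v₀ p₀ π) (C : Cov p B₀ v₀ δ vt) (n : ℕ) {W g c : E}
    (hg : g ≠ 0)
    (hc : ∀ b, ∃ m : ℤ, vt b c = vt b (algebraMap E₀ E (π : E₀)) ^ ((n : ℤ) * m))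
    (hδ : δ W = c * g ^ n * W)
    (h0 : ∀ i, ∃ m : ℤ, vt (i, 0) W = vt (i, 0) (algebraMap E₀ E (π : E₀)) ^ ((n : ℤ) * m)) :
    ∀ b, ∃ m : ℤ, vt b W = vt b (algebraMap E₀ E (π : E₀)) ^ ((n : ℤ) * m) := by
  have : NeZero p := ⟨(Fact.out : p.Prime).ne_zero⟩
  have key : ∀ (i : I₀) (j : ℕ), ∃ m : ℤ, vt (i, (j : ZMod p)) W = v₀ i (π : E₀) ^ ((n : ℤ) * m) := by
    intro i j
    induction j with
    | zero =>
      obtain ⟨m, hm⟩ := h0 i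
      refine ⟨m, ?_⟩
      rw [Nat.cast_zero, hm, C.ext]
    | succ j ih =>
      obtain ⟨m, hm⟩ := ih
      obtain ⟨mc, hmc⟩ := hc (i, (j : ZMod p))
      obtain ⟨mg, hmg⟩ := exists_zpow_up hB C (i, (j : ZMod p)) hg
      refine ⟨mc + mg + m, ?_⟩
      have hγ0 := absValW_pi_ne hB i
      rw [Nat.cast_succ, ← C.shift, hδ, map_mul, map_mul, map_pow, hm, hmc, hmg, C.ext,
        ← zpow_natCast, ← zpow_mul, ← zpow_add₀ hγ0, ← zpow_add₀ hγ0]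
      congr 1
      ring
  rintro ⟨i, k⟩
  obtain ⟨m, hm⟩ := key i k.val
  refine ⟨m, ?_⟩
  rw [ZMod.natCast_zmod_val] at hm
  rw [hm, C.ext]

/-- **normalisation of `W`** from the two base branches and the deck relation. -/
theorem exists_norm_of_deck [Fintype I₀] (hB : Base B₀ v₀ p₀ π) (C : Cov p B₀ v₀ δ vt) (n : ℕ)
    {W g c : E} (hg : g ≠ 0)
    (hc : ∀ b, ∃ m : ℤ, vt b c = vt b (algebraMap E₀ E (π : E₀)) ^ ((n : ℤ) * m))
    (hδ : δ W = c * g ^ n * W)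
    (h0 : ∀ i, ∃ m : ℤ, vt (i, 0) W = vt (i, 0) (algebraMap E₀ E (π : E₀)) ^ ((n : ℤ) * m)) :
    ∃ e : E, e ≠ 0 ∧ ∀ b, vt b (W * e ^ n) = 1 :=
  exists_norm_w hB C n (val_all_of_deck hB C n hg hc hδ h0)

end Fermat.Agent.MR.C
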