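import Fermat.Agent.MR.C.AbsQuot

/-!
# MR / C : package MR-C-ABS-5 : the instance `NS.Vert (B1 E B₀) vt (pt B₀ vt)`
-/

set_option autoImplicit false

open Polynomial

namespace Fermat.Agent.MR.C

open Fermat.Agent.GAL Fermat.Agent.CAR

variable {E₀ E Γ₀ I₀ : Type*} [Field E₀] [Field E] [Algebra E₀ E] [LinearOrderedCommGroupWithZero Γ₀]
  {B₀ : Subring E₀} {v₀ : I₀ → Valuation E₀ Γ₀} {p₀ : I₀ → Ideal B₀} {π : B₀}
  {p : ℕ} [Fact p.Prime] {δ : E ≃ₐ[E₀] E} {vt : I₀ × ZMod p → Valuation E Γ₀}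

/-- PROOF. `exists_imm`: `a ∈ E₀`, `v₀ i a ≤ 1`, `vt (x - a) < 1`; `hB.vert.frac i a` gives `b s ∈ B₀`, `s ∉ p₀ i`, `v₀ i (s a - b) < 1`.  Take `inc b`, `inc s`:
`inc s ∉ pt` (`mem_pt`, `C.ext`, `hB.vert.mem_p`);  `s x - b = s (x - a) + (s a - b)`. -/
theorem frac_B1 (hB : Base B₀ v₀ p₀ π) (C : Cov p B₀ v₀ δ vt) (b : I₀ × ZMod p) (x : E) (hx : vt b x ≤ 1) :
    ∃ c s : B1 E B₀, s ∉ pt B₀ vt b ∧ vt b ((s : E) * x - c) < 1 := by
  obtain ⟨i, k⟩ := b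
  obtain ⟨a, ha1, ha2⟩ := exists_imm hB C i k hx
  obtain ⟨c, s, hs, hc⟩ := hB.vert.frac i a ha1
  refine ⟨inc E B₀ c, inc E B₀ s, ?_, ?_⟩
  · rw [mem_pt hB C, coe_inc, C.ext, ← hB.vert.mem_p]
    exact hs
  · rw [coe_inc, coe_inc]
    have e : algebraMap E₀ E (s : E₀) * x - algebraMap E₀ E (c : E₀)
        = algebraMap E₀ E (s : E₀) * (x - algebraMap E₀ E a)
          + algebraMap E₀ E ((s : E₀) * a - c) := by
      rw [map_sub, map_mul]; ring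
    rw [e]
    refine Valuation.map_add_lt _ ?_ ?_
    · rw [map_mul, C.ext]
      exact lt_of_le_of_lt (mul_le_of_le_one_left' (hB.vert.le_one i s)) ha2
    · rw [C.ext]; exact hc

/-- PROOF. `b = (i,k)`, `b' = (j,l)`.  If `i ≠ j`: `hB.vert.ne i j` gives `z ∈ p₀ j`, `z ∉ p₀ i` (`SetLike.not_le_iff_exists`); `inc z ∈ pt b'`, `∉ pt b`.
If `i = j`, `k ≠ l`: `C.sep i k l` gives `c ∈ B1`, `vt (i,l) c < 1`, `vt (i,k) (c - 1) < 1`, so `vt (i,k) c = 1` (`NS.val_one_of_sub`). -/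
theorem ne_B1 (hB : Base B₀ v₀ p₀ π) (C : Cov p B₀ v₀ δ vt) (b b' : I₀ × ZMod p) (h : b ≠ b') :
    ¬ pt B₀ vt b' ≤ pt B₀ vt b := by
  obtain ⟨i, k⟩ := b
  obtain ⟨j, l⟩ := b'
  rw [SetLike.not_le_iff_exists]
  by_cases hij : i = j
  · subst hij
    have hkl : k ≠ l := fun h' => h (by rw [h'])
    obtain ⟨c, hc, h1, h2⟩ := C.sep i k l hkl
    refine ⟨⟨c, hc⟩, ?_, ?_⟩
    · rw [mem_pt hB C]; exact h1
    · rw [mem_pt hB C, NS.val_one_of_sub _ h2]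
      exact lt_irrefl _
  · obtain ⟨z, hz1, hz2⟩ := SetLike.not_le_iff_exists.1 (hB.vert.ne i j hij)
    refine ⟨inc E B₀ z, ?_, ?_⟩
    · rw [mem_pt hB C, coe_inc, C.ext, ← hB.vert.mem_p]; exact hz1
    · rw [mem_pt hB C, coe_inc, C.ext, ← hB.vert.mem_p]; exact hz2

/-- **the instance of `NS.Vert` for the cover.** -/
theorem vert_B1 (hB : Base B₀ v₀ p₀ π) (C : Cov p B₀ v₀ δ vt) :
    NS.Vert (B1 E B₀) vt (pt B₀ vt) where
  ic := ic_B1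
  le_one := fun b z => vt_le_one hB C b z.2
  mem_p := fun b z => mem_pt hB C b z
  arch := C.arch
  ded := fun b => ded_B1 hB C b
  frac := fun b x hx => frac_B1 hB C b x hx
  ne := fun b b' h => ne_B1 hB C b b' h

end Fermat.Agent.MR.C
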