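import Fermat.Agent.MR.C.NearLam

/-!
# MR / C : the section `G ≡ 1 mod λ` of a deep class at level `M₁ p`, on the chart `t⁻¹` (regular at the two cusps)

Same as `NearLam.lean` on the other chart, together with the remainder `f = (G^p W - 1)/λ^p`, which is integral over `ℚ̄[t⁻¹]` and
of sup norm `≤ 1`.  (Both charts are treated for the remainder.)
-/

set_option autoImplicit false

open Polynomial ModularCurve AlgebraicCurve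

noncomputable section

namespace Fermat.Agent.MR.C

open Fermat.Agent.GR Fermat.Agent.GAL Fermat.Agent.GAL.KL Fermat.Agent.GAL.KLC Fermat.Agent.S24
open Fermat.Agent.GR.HeckeField Fermat.Agent.TOR.GB Fermat.Agent.TOR Fermat.Agent.TOR.T1C
open Fermat.Agent.TOR.KL2 Fermat.Agent.TOR.T1 Fermat.Agent.ORD Fermat.Agent.ORD.P4 Fermat.Agent.ORD.P5
open Fermat.Agent.S24.FF

section Val

variable {F Γ₀ : Type*} [Field F] [LinearOrderedCommGroupWithZero Γ₀]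
variable {v : Valuation F Γ₀} {p : ℕ} {γ₀ : Γ₀}

/-- `G ≡ 1 mod γ₀`  ⟹  `G^p ≡ 1 mod γ₀^p`. -/
theorem v_pow_sub_one_le (D : PData v p γ₀) {G : F} (hG : v (G - 1) ≤ γ₀) :
    v (G ^ p - 1) ≤ γ₀ ^ p := by
  obtain ⟨κ, hκ, h⟩ := binom_p2 Γ₀ D.prime (1 : F) (G - 1)
  have hy1 : v (G - 1) ≤ 1 := hG.trans D.γ_lt.le
  have hκ1 := hκ v (by rw [map_one]) hy1
  have e : G ^ p - 1 = (G - 1) ^ p + p * (G - 1) * κ := by
    have : G = 1 + (G - 1) := by ring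
    calc G ^ p - 1 = (1 + (G - 1)) ^ p - 1 := by rw [← this]
      _ = _ := by rw [h]; ring
  rw [e]
  refine Valuation.map_add_le v ?_ ?_
  · rw [map_pow]
    exact pow_le_pow_left₀ zero_le hG p
  · rw [map_mul, map_mul, D.pow_eq, mul_comm γ₀]
    calc v (p : F) * v (G - 1) * v κ ≤ v (p : F) * γ₀ * 1 :=
          mul_le_mul' (mul_le_mul' le_rfl hG) hκ1
      _ = _ := mul_one _

/-- `G ≡ 1 mod γ₀`, `W ≡ 1 mod γ₀^p`  ⟹  `G^p W ≡ 1 mod γ₀^p`. -/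
theorem v_pow_mul_sub_one_le (D : PData v p γ₀) {G W : F} (hG : v (G - 1) ≤ γ₀)
    (hW : v (W - 1) ≤ γ₀ ^ p) : v (G ^ p * W - 1) ≤ γ₀ ^ p := by
  have h1 := v_pow_sub_one_le D hG
  have hGp : v (G ^ p) ≤ 1 := by
    have : G ^ p = (G ^ p - 1) + 1 := by ring
    rw [this]
    exact Valuation.map_add_le v (h1.trans (D.pow_lt.trans D.γ_lt).le) (by rw [map_one])
  have e : G ^ p * W - 1 = G ^ p * (W - 1) + (G ^ p - 1) := by ring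
  rw [e]
  refine Valuation.map_add_le v ?_ h1
  rw [map_mul]
  calc v (G ^ p) * v (W - 1) ≤ 1 * γ₀ ^ p := mul_le_mul' hGp hW
    _ = _ := one_mul _

end Val

section T1

variable {K F₀ F k Γ' Γ₀ : Type*} [Field K] [Field F₀] [Field F] [Algebra K F₀]
  [Algebra K F] [Field k] [LinearOrderedCommGroupWithZero Γ'] [LinearOrderedCommGroupWithZero Γ₀]
  {v₀ : Valuation F₀ Γ'} {ρ₀ : v₀.integer →+* LaurentSeries k} {v : Valuation F Γ₀}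
  {ρ : v.integer →+* LaurentSeries k} {α β : F₀ →ₐ[K] F} {w : F ≃ₐ[K] F} {q : ℕ} [NeZero q]
  {x x' : F₀} {ξ ξ' : LaurentSeries k} {m : ℕ}

variable [IsAlgClosed K] [CharZero K] [IsFF1 K F₀] [IsFF1 K F]
variable {sK : K ≃+* K} {s₀ : F₀ ≃+* F₀} {s : F ≃+* F}

/-- two-level form, chart `t⁻¹`. -/
theorem nearLamInf_T1 [ExpChar k q] (H : Lvl K ρ₀ ρ α β w q) (X : XDat K ρ₀ x x' ξ ξ' m q)
    (hq : 2 ≤ q) (hA : Arch v) {P₀ : Place K F₀} {P₁ : Place K F} (C : Cusp α β x m q P₀ P₁)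
    (hs : Semi ρ₀ ρ α β sK s₀ s (coeffMap (frobenius k q))) (hsw : ∀ z, s (w z) = w (s z))
    (hsx : s₀ x = x) {γ₀ : Γ₀} (D : PData v q γ₀)
    {W : F} (hW1 : v (W - 1) ≤ γ₀ ^ q) (hW2 : v (w W - 1) ≤ γ₀ ^ q)
    (hdiv : ∀ P : Place K F, (q : ℤ) ∣ P.ord W) :
    ∃ G : F, IsInt K (tt α β x)⁻¹ (G ^ q * W) ∧ v (G - 1) ≤ γ₀ ∧ v (w G - 1) ≤ γ₀ := by
  have hn : 0 < q := by omega
  have htr := transcendental_tt H X
  have htr' : Transcendental K (tt α β x)⁻¹ := transcendental_inv htr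
  have S := setup H X
  have hW0 : W ≠ 0 := by
    rintro rfl
    rw [zero_sub, Valuation.map_neg, map_one] at hW1
    exact absurd (lt_of_le_of_lt hW1 (D.pow_lt.trans D.γ_lt)) (lt_irrefl _)
  have hNN : NN v (vw K v w) (W - 1) ≤ γ₀ ^ q := by
    rw [NN_le_iff]
    refine ⟨hW1, ?_⟩
    rw [vw_apply, map_sub, map_one]
    exact hW2
  obtain ⟨G, hG, hG1⟩ := nearLam_abs hA (arch_vw hA w) S.inv _ ((on2_ee H X hq).inv S)
    ((spans_ee H X hq C).inv S.G1.ne_zero) D (chart_t_inv H X hq hA C hs hsw hsx hn) hNN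
    (fun c => locPow_of_dvd htr' hn hW0 hdiv c)
  rw [NN_le_iff] at hG1
  refine ⟨G, hG, hG1.1, ?_⟩
  have h2 := hG1.2
  rwa [vw_apply, map_sub w, map_one w] at h2

end T1

variable (M₁ p : ℕ) [NeZero M₁] [NeZero p]

/-- **concrete form, valuations, chart `t⁻¹`.** -/
theorem nearLamInf_val (hM : AdmLevel M₁) (hp : p.Prime) (hpM : ¬ p ∣ M₁)
    (A : ValuationSubring Qb) (hA : A.LiesOverPrime p) {lam : Qb}
    (hlam : A.valuation lam ^ (p - 1) = A.valuation (p : Qb))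
    (W : FN (M₁ * p))
    (hW1 : vG A (M₁ * p) (W - 1) ≤ vG A (M₁ * p) (algebraMap Qb (FL Qb (M₁ * p)) lam) ^ p)
    (hW2 : vG A (M₁ * p) (wq M₁ p W - 1) ≤ vG A (M₁ * p) (algebraMap Qb (FL Qb (M₁ * p)) lam) ^ p)
    (hdiv : ∀ P : Place Qb (FL Qb (M₁ * p)), (p : ℤ) ∣ P.ord W) :
    ∃ G : FN (M₁ * p), IsInt Qb (tP M₁ p)⁻¹ (G ^ p * W) ∧
      vG A (M₁ * p) (G - 1) ≤ vG A (M₁ * p) (algebraMap Qb (FL Qb (M₁ * p)) lam) ∧
      vG A (M₁ * p) (wq M₁ p G - 1) ≤ vG A (M₁ * p) (algebraMap Qb (FL Qb (M₁ * p)) lam) := by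
  have hchar : CharP (kA A) p := charP_residueField hp hA
  have : ExpChar (kA A) p := ExpChar.prime hp
  have H := lvl A M₁ p hp hpM
  have X := xDat M₁ p hp A hA (spansStatement M₁) (riStatement M₁) (ctStatement M₁ p hM hp hpM A hA)
  obtain ⟨P₀, hP₀⟩ := exists_place_Q M₁
  obtain ⟨P₁, hP₁⟩ := exists_place_Q (M₁ * p)
  have C := cusp M₁ p hp hpM P₀ hP₀ P₁ hP₁
  have hArch := arch A (M₁ * p) hp hA
  have hwg : ∀ (σ : GQ) (z : FN (M₁ * p)),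
      galF (M₁ * p) σ (wq M₁ p z) = wq M₁ p (galF (M₁ * p) σ z) :=
    fun σ z => (wq_galF hp hpM σ z).symm
  obtain ⟨σ, hσ⟩ := Fermat.Agent.Lib.FrobeniusExists.exists_isFrobeniusAt_rat A hp hA
  exact nearLamInf_T1 H X hp.two_le hArch C (semi_frob M₁ p hσ) (hwg σ) (galF_xF M₁ σ)
    (pData_of_val A (M₁ * p) hp hA hlam) hW1 hW2 hdiv

/-- the remainder: on any chart `s`, from `G ≡ 1 mod λ`, `W ≡ 1 mod λ^p` at both valuations and `G^p W` integral over `ℚ̄[s]`: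
`G^p W = 1 + λ^p f`, `f` integral over `ℚ̄[s]` and of sup norm `≤ 1`. -/
theorem exists_remainder (hp : p.Prime)
    (A : ValuationSubring Qb) (hA : A.LiesOverPrime p) {lam : Qb}
    (hlam : A.valuation lam ^ (p - 1) = A.valuation (p : Qb)) (s : FN (M₁ * p))
    {W G : FN (M₁ * p)}
    (hW1 : vG A (M₁ * p) (W - 1) ≤ vG A (M₁ * p) (algebraMap Qb (FL Qb (M₁ * p)) lam) ^ p)
    (hW2 : vG A (M₁ * p) (wq M₁ p W - 1) ≤ vG A (M₁ * p) (algebraMap Qb (FL Qb (M₁ * p)) lam) ^ p)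
    (hG : IsInt Qb s (G ^ p * W))
    (hG1 : vG A (M₁ * p) (G - 1) ≤ vG A (M₁ * p) (algebraMap Qb (FL Qb (M₁ * p)) lam))
    (hG2 : vG A (M₁ * p) (wq M₁ p G - 1) ≤ vG A (M₁ * p) (algebraMap Qb (FL Qb (M₁ * p)) lam)) :
    ∃ f : FN (M₁ * p), G ^ p * W = 1 + algebraMap Qb (FL Qb (M₁ * p)) (lam ^ p) * f ∧
      IsInt Qb s f ∧ vG A (M₁ * p) f ≤ 1 ∧ vG A (M₁ * p) (wq M₁ p f) ≤ 1 := by
  have D := pData_of_val A (M₁ * p) hp hA hlam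
  have hl0 : algebraMap Qb (FL Qb (M₁ * p)) lam ≠ 0 := (Valuation.ne_zero_iff _).1 D.γ_ne
  have hlp0 : algebraMap Qb (FL Qb (M₁ * p)) (lam ^ p) ≠ 0 := by
    rw [map_pow]; exact pow_ne_zero _ hl0
  have hv0 : vG A (M₁ * p) (algebraMap Qb (FL Qb (M₁ * p)) (lam ^ p)) ≠ 0 :=
    (Valuation.ne_zero_iff _).2 hlp0
  have hvp : vG A (M₁ * p) (algebraMap Qb (FL Qb (M₁ * p)) (lam ^ p))
      = vG A (M₁ * p) (algebraMap Qb (FL Qb (M₁ * p)) lam) ^ p := by rw [map_pow, map_pow]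
  refine ⟨algebraMap Qb (FL Qb (M₁ * p)) (lam ^ p)⁻¹ * (G ^ p * W - 1), ?_, ?_, ?_, ?_⟩
  · rw [map_inv₀, ← mul_assoc, mul_inv_cancel₀ hlp0]; ring
  · exact (IsInt.algebraMap _).mul (hG.sub IsInt.one)
  · rw [map_inv₀, map_mul, map_inv₀, inv_mul_le_iff₀ (zero_lt_iff.2 hv0), mul_one, hvp]
    exact v_pow_mul_sub_one_le D hG1 hW1
  · rw [map_mul, AlgEquiv.commutes, map_inv₀, map_mul, map_inv₀,
      inv_mul_le_iff₀ (zero_lt_iff.2 hv0), mul_one, hvp, map_sub, map_mul, map_pow, map_one]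
    exact v_pow_mul_sub_one_le D hG2 hW2

/-- **concrete form, depth language, chart `t⁻¹`, with remainder.**  `W ≡ 1 mod λ^p` at both cusps, `p ∣ div W`  ⟹  `G`, `f`
with `G^p W = 1 + λ^p f`, `f` integral over `ℚ̄[t⁻¹]`, Gauss-integral at both cusps, `G = 1 + λ θ_∞`, `w_p G = 1 + λ θ_0`. -/
theorem nearLamInf (hM : AdmLevel M₁) (hp : p.Prime) (hpM : ¬ p ∣ M₁)
    (A : ValuationSubring Qb) (hA : A.LiesOverPrime p) {ζ : Qbˣ} (hζ : IsPrimitiveRoot ζ p)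
    (W : FN (M₁ * p)) {b b' : LaurentSeries (kA A)}
    (hW1 : P2.Dp A (P2.lam ζ ^ p) (W : LaurentSeries Qb) b)
    (hW2 : P2.Dp A (P2.lam ζ ^ p) ((wq M₁ p W : FN (M₁ * p)) : LaurentSeries Qb) b')
    (hdiv : ∀ P : Place Qb (FL Qb (M₁ * p)), (p : ℤ) ∣ P.ord W) :
    ∃ (G f : FN (M₁ * p)) (θ θ' : LaurentSeries (kA A)), G ≠ 0 ∧
      G ^ p * W = 1 + algebraMap Qb (FL Qb (M₁ * p)) (P2.lam ζ ^ p) * f ∧
      IsInt Qb (tP M₁ p)⁻¹ f ∧ vG A (M₁ * p) f ≤ 1 ∧ vG A (M₁ * p) (wq M₁ p f) ≤ 1 ∧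
      P2.Dp A (P2.lam ζ) (G : LaurentSeries Qb) θ ∧
      P2.Dp A (P2.lam ζ) ((wq M₁ p G : FN (M₁ * p)) : LaurentSeries Qb) θ' := by
  have hl : P2.lam ζ ≠ 0 := P2.lam_ne_zero hp hζ
  have hlp : P2.lam ζ ^ p ≠ 0 := pow_ne_zero p hl
  have hζ' : IsPrimitiveRoot (ζ : Qb) p := IsPrimitiveRoot.coe_units_iff.2 hζ
  have hlam : A.valuation (P2.lam ζ) ^ (p - 1) = A.valuation (p : Qb) :=
    (P3.valuation_natCast_eq A hp hA hζ').symm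
  have D := pData_of_val A (M₁ * p) hp hA hlam
  have hW1' : vG A (M₁ * p) (W - 1)
      ≤ vG A (M₁ * p) (algebraMap Qb (FL Qb (M₁ * p)) (P2.lam ζ)) ^ p := by
    have := vG_sub_one_le_of_dp' A (M₁ * p) hlp hW1; rwa [map_pow, map_pow] at this
  have hW2' : vG A (M₁ * p) (wq M₁ p W - 1)
      ≤ vG A (M₁ * p) (algebraMap Qb (FL Qb (M₁ * p)) (P2.lam ζ)) ^ p := by
    have := vG_sub_one_le_of_dp' A (M₁ * p) hlp hW2; rwa [map_pow, map_pow] at this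
  obtain ⟨G, hG, h1, h2⟩ := nearLamInf_val M₁ p hM hp hpM A hA hlam W hW1' hW2' hdiv
  obtain ⟨f, hf, hfi, hf1, hf2⟩ := exists_remainder M₁ p hp A hA hlam _ hW1' hW2' hG h1 h2
  obtain ⟨θ, hθ⟩ := exists_dp_of_vG_le A (M₁ * p) hl h1
  obtain ⟨θ', hθ'⟩ := exists_dp_of_vG_le A (M₁ * p) hl h2
  refine ⟨G, f, θ, θ', ?_, hf, hfi, hf1, hf2, hθ, hθ'⟩
  rintro rfl
  rw [zero_sub, Valuation.map_neg, map_one] at h1
  exact absurd (lt_of_le_of_lt h1 D.γ_lt) (lt_irrefl _)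

/-- the same on the chart `t` (with remainder). -/
theorem nearLam_rem (hM : AdmLevel M₁) (hp : p.Prime) (hpM : ¬ p ∣ M₁)
    (A : ValuationSubring Qb) (hA : A.LiesOverPrime p) {ζ : Qbˣ} (hζ : IsPrimitiveRoot ζ p)
    (W : FN (M₁ * p)) {b b' : LaurentSeries (kA A)}
    (hW1 : P2.Dp A (P2.lam ζ ^ p) (W : LaurentSeries Qb) b)
    (hW2 : P2.Dp A (P2.lam ζ ^ p) ((wq M₁ p W : FN (M₁ * p)) : LaurentSeries Qb) b')
    (hdiv : ∀ P : Place Qb (FL Qb (M₁ * p)), (p : ℤ) ∣ P.ord W) :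
    ∃ (G f : FN (M₁ * p)) (θ θ' : LaurentSeries (kA A)), G ≠ 0 ∧
      G ^ p * W = 1 + algebraMap Qb (FL Qb (M₁ * p)) (P2.lam ζ ^ p) * f ∧
      IsInt Qb (tP M₁ p) f ∧ vG A (M₁ * p) f ≤ 1 ∧ vG A (M₁ * p) (wq M₁ p f) ≤ 1 ∧
      P2.Dp A (P2.lam ζ) (G : LaurentSeries Qb) θ ∧
      P2.Dp A (P2.lam ζ) ((wq M₁ p G : FN (M₁ * p)) : LaurentSeries Qb) θ' := by
  have hl : P2.lam ζ ≠ 0 := P2.lam_ne_zero hp hζ
  have hlp : P2.lam ζ ^ p ≠ 0 := pow_ne_zero p hl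
  have hζ' : IsPrimitiveRoot (ζ : Qb) p := IsPrimitiveRoot.coe_units_iff.2 hζ
  have hlam : A.valuation (P2.lam ζ) ^ (p - 1) = A.valuation (p : Qb) :=
    (P3.valuation_natCast_eq A hp hA hζ').symm
  have D := pData_of_val A (M₁ * p) hp hA hlam
  have hW1' : vG A (M₁ * p) (W - 1)
      ≤ vG A (M₁ * p) (algebraMap Qb (FL Qb (M₁ * p)) (P2.lam ζ)) ^ p := by
    have := vG_sub_one_le_of_dp' A (M₁ * p) hlp hW1; rwa [map_pow, map_pow] at this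
  have hW2' : vG A (M₁ * p) (wq M₁ p W - 1)
      ≤ vG A (M₁ * p) (algebraMap Qb (FL Qb (M₁ * p)) (P2.lam ζ)) ^ p := by
    have := vG_sub_one_le_of_dp' A (M₁ * p) hlp hW2; rwa [map_pow, map_pow] at this
  obtain ⟨G, hG, h1, h2⟩ := nearLam_val M₁ p hM hp hpM A hA hlam W hW1' hW2' hdiv
  obtain ⟨f, hf, hfi, hf1, hf2⟩ := exists_remainder M₁ p hp A hA hlam _ hW1' hW2' hG h1 h2
  obtain ⟨θ, hθ⟩ := exists_dp_of_vG_le A (M₁ * p) hl h1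
  obtain ⟨θ', hθ'⟩ := exists_dp_of_vG_le A (M₁ * p) hl h2
  refine ⟨G, f, θ, θ', ?_, hf, hfi, hf1, hf2, hθ, hθ'⟩
  rintro rfl
  rw [zero_sub, Valuation.map_neg, map_one] at h1
  exact absurd (lt_of_le_of_lt h1 D.γ_lt) (lt_irrefl _)

end Fermat.Agent.MR.C
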