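import Fermat.Agent.MR.TH.BL2
import Fermat.Agent.MR.C.NearLamInf

/-!
# MR / C / BLoo : (BL) on the chart `t⁻¹` at level `M₁ p`

A function integral over `ℚ̄[t⁻¹]` (regular at the cusps) with both Gauss norms `≤ 1` has its `q`-expansion in `A[[q]]`.
-/

set_option autoImplicit false

open Polynomial ModularCurve AlgebraicCurve

noncomputable section

namespace Fermat.Agent.MR.C

open Fermat.Agent.GR Fermat.Agent.GAL Fermat.Agent.GAL.KL Fermat.Agent.GAL.KLC Fermat.Agent.S24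
open Fermat.Agent.GR.HeckeField Fermat.Agent.TOR.GB Fermat.Agent.TOR Fermat.Agent.TOR.T1C
open Fermat.Agent.TOR.KL2 Fermat.Agent.CAR Fermat.Agent.CAR.BK Fermat.Agent.CAR.CNT
open Fermat.Agent.S24.FF

/-- `x` is a unit of `ℤ((q))`. -/
theorem BLoo_exists_inv_XZ (M : ℕ) [NeZero M] : ∃ Y : LaurentSeries ℤ, XZ M * Y = 1 := by
  obtain ⟨u, hu, h⟩ := XZ_eq M
  have hu' : IsUnit u := by
    rw [PowerSeries.isUnit_iff_constantCoeff, hu]
    exact isUnit_one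
  obtain ⟨u', hu'⟩ := hu'.exists_right_inv
  refine ⟨HahnSeries.single ((mX M : ℤ)) 1 * HahnSeries.ofPowerSeries ℤ ℤ u', ?_⟩
  rw [h]
  calc HahnSeries.single (-(mX M : ℤ)) (1 : ℤ) * HahnSeries.ofPowerSeries ℤ ℤ u
        * (HahnSeries.single ((mX M : ℤ)) 1 * HahnSeries.ofPowerSeries ℤ ℤ u')
      = (HahnSeries.single (-(mX M : ℤ)) (1 : ℤ) * HahnSeries.single ((mX M : ℤ)) 1)
        * (HahnSeries.ofPowerSeries ℤ ℤ u * HahnSeries.ofPowerSeries ℤ ℤ u') := by ring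
    _ = 1 := by
      rw [← map_mul (HahnSeries.ofPowerSeries ℤ ℤ), hu', map_one (HahnSeries.ofPowerSeries ℤ ℤ),
        HahnSeries.single_mul_single, neg_add_cancel, mul_one, mul_one]
      rfl

variable {M₁ p : ℕ} [NeZero M₁] [NeZero p]

/-- `t⁻¹` has integer coefficients. -/
theorem coeff_tP_inv_mem (A : ValuationSubring Qb) (n : ℤ) :
    (((tP M₁ p)⁻¹ : FN (M₁ * p)) : LaurentSeries Qb).coeff n ∈ A := by
  obtain ⟨Y, hY⟩ := BLoo_exists_inv_XZ M₁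
  have e : ((tP M₁ p : FN (M₁ * p)) : LaurentSeries Qb)
      = coeffMap (Int.castRingHom Qb) (XZ M₁ * qExpand ℤ p (XZ M₁)) := by
    have e1 : ((tP M₁ p : FN (M₁ * p)) : LaurentSeries Qb)
        = ((alp M₁ p (xF M₁) : FN (M₁ * p)) : LaurentSeries Qb)
          * ((bet M₁ p (xF M₁) : FN (M₁ * p)) : LaurentSeries Qb) := rfl
    rw [e1, coe_heckeAlphaBar, coe_heckeBetaBar, map_mul, GR.coeffMap_qExpand]
    rfl
  have e2 : (((tP M₁ p)⁻¹ : FN (M₁ * p)) : LaurentSeries Qb)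
      = coeffMap (Int.castRingHom Qb) (Y * qExpand ℤ p Y) := by
    have h1 : (((tP M₁ p)⁻¹ : FN (M₁ * p)) : LaurentSeries Qb)
        = ((tP M₁ p : FN (M₁ * p)) : LaurentSeries Qb)⁻¹ := rfl
    rw [h1, e]
    apply inv_eq_of_mul_eq_one_right
    rw [← map_mul]
    have : XZ M₁ * qExpand ℤ p (XZ M₁) * (Y * qExpand ℤ p Y) = 1 := by
      calc XZ M₁ * qExpand ℤ p (XZ M₁) * (Y * qExpand ℤ p Y)
          = (XZ M₁ * Y) * qExpand ℤ p (XZ M₁ * Y) := by rw [map_mul]; ring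
        _ = 1 := by rw [hY, map_one, one_mul]
    rw [this, map_one]
  rw [e2]
  exact Lift_coeff_int_mem A _ n

/-- **(BL) on the chart `t⁻¹`.** -/
theorem coeff_mem_of_isInt_inv (hM : AdmLevel M₁) (hp : p.Prime) (hpM : ¬ p ∣ M₁)
    (A : ValuationSubring Qb) (hA : A.LiesOverPrime p) {z : FN (M₁ * p)}
    (hz : IsInt Qb (tP M₁ p)⁻¹ z) (h1 : vG A (M₁ * p) z ≤ 1)
    (h2 : vG A (M₁ * p) (wq M₁ p z) ≤ 1) : ∀ n, (z : LaurentSeries Qb).coeff n ∈ A := by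
  have H := lvl A M₁ p hp hpM
  have X := xDat M₁ p hp A hA (spansStatement M₁) (riStatement M₁) (ctStatement M₁ p hM hp hpM A hA)
  obtain ⟨P₀, P₁, C⟩ := exists_cusp M₁ p hp hpM
  have S := T1.setup H X
  exact TH.coeff_mem_of_ON2 hp A hA (M₁ * p) (coeff_tP_inv_mem A) S.inv _
    ((T1.on2_ee H X hp.two_le).inv S) ((T1.spans_ee H X hp.two_le C).inv S.G1.ne_zero) hz h1 h2

/-- a function integral over `ℚ̄[t⁻¹]` is regular at the cusp `∞`. -/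
theorem coeff_eq_zero_of_isInt_inv (hp : p.Prime) (hpM : ¬ p ∣ M₁) {z : FN (M₁ * p)}
    (hz : IsInt Qb (tP M₁ p)⁻¹ z) : ∀ n < 0, (z : LaurentSeries Qb).coeff n = 0 := by
  obtain ⟨P₀, hP₀⟩ := exists_place_Q M₁
  obtain ⟨P₁, hP₁⟩ := exists_place_Q (M₁ * p)
  have C := cusp M₁ p hp hpM P₀ hP₀ P₁ hP₁
  have hx0 : xF M₁ ≠ 0 := by
    intro h
    have h1 := C.ordx
    rw [h, Place.ord_zero] at h1
    have := mX_pos M₁
    omega
  have ht : P₁.ord (tP M₁ p) = -(mX M₁ : ℤ) + p * (-(mX M₁ : ℤ)) := by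
    show P₁.ord (alp M₁ p (xF M₁) * bet M₁ p (xF M₁)) = _
    rw [P₁.ord_mul ((_root_.map_ne_zero _).2 hx0) ((_root_.map_ne_zero _).2 hx0), C.ordα, C.ordβ,
      C.ordx]
  have ht' : 0 ≤ P₁.ord (tP M₁ p)⁻¹ := by
    rw [P₁.ord_inv, ht]
    have h1 : (0 : ℤ) ≤ mX M₁ := Int.natCast_nonneg _
    have h2 : (0 : ℤ) ≤ (p : ℤ) * mX M₁ := mul_nonneg (Int.natCast_nonneg _) h1
    linarith
  have h := T1.IntTransfer_ord_nonneg hz P₁ ht'
  rw [hP₁] at h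
  intro n hn
  exact HahnSeries.coeff_eq_zero_of_lt_order (lt_of_lt_of_le hn h)

end Fermat.Agent.MR.C
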