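import Fermat.Agent.MR.C.Desc

/-!
# MR / C / CovField : the field theory of the cyclic cover (formal part)

`Λ` a field, `F ⊆ Λ` a subfield containing a primitive `p`-th root of unity `z`, `h ∈ Λ`, `h ^ p ∈ F`, `h ∉ F`.
* `adjF F h` : the subfield `F(h)`.
* `adjF_hom_ext` : ring homs out of `F(h)` are determined by their values on `F` and `h`.
* `exists_lift` : every ring hom `φ : F → Λ'` and every `y` with `y ^ p = φ (h ^ p)` define a ring hom `F(h) → Λ'`.
-/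

set_option autoImplicit false
noncomputable section

namespace Fermat.Agent.MR.C

open Polynomial

section Abstract

variable {Λ : Type*} [Field Λ] (F : Subfield Λ) (h : Λ)

/-- `F(h)` as a subfield of `Λ`. -/
def adjF : Subfield Λ := (IntermediateField.adjoin F {h}).toSubfield

theorem le_adjF : F ≤ adjF F h := fun x hx =>
  (IntermediateField.adjoin F {h}).algebraMap_mem (⟨x, hx⟩ : F)

theorem self_mem_adjF : h ∈ adjF F h := IntermediateField.mem_adjoin_simple_self F h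

theorem adjF_eq_closure : adjF F h = Subfield.closure ((F : Set Λ) ∪ {h}) := by
  rw [adjF, IntermediateField.adjoin_toSubfield]
  congr 2
  exact Subtype.range_coe

theorem adjF_le {S : Subfield Λ} (hF : F ≤ S) (hh : h ∈ S) : adjF F h ≤ S := by
  rw [adjF_eq_closure, Subfield.closure_le]
  rintro x (hx | hx)
  · exact hF hx
  · rw [Set.mem_singleton_iff.mp hx]; exact hh

variable {F h}

theorem adjF_induction {P : ∀ x : Λ, x ∈ adjF F h → Prop}
    (hh : P h (self_mem_adjF F h)) (hF : ∀ f : F, P f (le_adjF F h f.2))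
    (hadd : ∀ x y hx hy, P x hx → P y hy → P (x + y) (add_mem hx hy))
    (hinv : ∀ x hx, P x hx → P x⁻¹ (inv_mem hx))
    (hmul : ∀ x y hx hy, P x hx → P y hy → P (x * y) (mul_mem hx hy))
    {x : Λ} (hx : x ∈ adjF F h) : P x hx := by
  refine IntermediateField.adjoin_induction F (p := fun x hx => P x hx) ?_ hF hadd hinv hmul hx
  intro y hy
  have : y = h := Set.mem_singleton_iff.mp hy
  subst this
  exact hh

/-- ring homs out of `F(h)` are determined by their values on `F` and `h`. -/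
theorem adjF_hom_ext {Λ' : Type*} [Field Λ'] {Φ Ψ : adjF F h →+* Λ'}
    (hF : ∀ f : F, Φ ⟨f, le_adjF F h f.2⟩ = Ψ ⟨f, le_adjF F h f.2⟩)
    (hh : Φ ⟨h, self_mem_adjF F h⟩ = Ψ ⟨h, self_mem_adjF F h⟩) : Φ = Ψ := by
  ext ⟨x, hx⟩
  refine adjF_induction (P := fun x hx => Φ ⟨x, hx⟩ = Ψ ⟨x, hx⟩) hh hF ?_ ?_ ?_ hx
  · intro x y hx hy h1 h2
    have e : (⟨x + y, add_mem hx hy⟩ : adjF F h) = ⟨x, hx⟩ + ⟨y, hy⟩ := rfl
    rw [e, map_add, map_add, h1, h2]
  · intro x hx h1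
    have e : (⟨x⁻¹, inv_mem hx⟩ : adjF F h) = (⟨x, hx⟩ : adjF F h)⁻¹ := rfl
    rw [e, map_inv₀, map_inv₀, h1]
  · intro x y hx hy h1 h2
    have e : (⟨x * y, mul_mem hx hy⟩ : adjF F h) = ⟨x, hx⟩ * ⟨y, hy⟩ := rfl
    rw [e, map_mul, map_mul, h1, h2]

variable {p : ℕ}

theorem isIntegral_of_pow_mem (hp : 0 < p) (A : F) (hA : h ^ p = A) : IsIntegral F h := by
  refine ⟨X ^ p - C A, monic_X_pow_sub_C A hp.ne', ?_⟩
  rw [eval₂_sub, eval₂_pow, eval₂_X, eval₂_C, hA]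
  exact sub_self _

/-- polynomial representation of the elements of `F(h)`. -/
theorem exists_aeval_of_mem_adjF (hp : 0 < p) (A : F) (hA : h ^ p = A) {x : Λ}
    (hx : x ∈ adjF F h) : ∃ P : (F)[X], aeval h P = x := by
  have h1 : x ∈ (IntermediateField.adjoin F {h}).toSubalgebra := hx
  rw [IntermediateField.adjoin_simple_toSubalgebra_of_isAlgebraic
    (isIntegral_of_pow_mem hp A hA).isAlgebraic, Algebra.adjoin_singleton_eq_range_aeval] at h1
  exact h1

theorem minpoly_eq (hp : p.Prime) {z : Λ} (hz : IsPrimitiveRoot z p) (hzF : z ∈ F) (A : F)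
    (hA : h ^ p = A) (hh : h ∉ F) : minpoly F h = X ^ p - C A := by
  have : NeZero p := ⟨hp.ne_zero⟩
  have hirr : Irreducible (X ^ p - C A) := by
    refine X_pow_sub_C_irreducible_of_prime hp fun b hb => hh ?_
    have hh0 : h ≠ 0 := fun h0 => hh (h0 ▸ F.zero_mem)
    have hb0 : (b : Λ) ≠ 0 := by
      intro h0
      have h1 : (A : Λ) = 0 := by rw [← hb]; push_cast; rw [h0, zero_pow hp.ne_zero]
      rw [← hA] at h1
      exact hh0 (pow_eq_zero_iff hp.ne_zero |>.mp h1)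
    have h1 : (h / b) ^ p = 1 := by
      rw [div_pow, hA, ← hb]
      push_cast
      exact div_self (pow_ne_zero _ hb0)
    obtain ⟨i, -, hi⟩ := hz.eq_pow_of_pow_eq_one h1
    have h2 : h = z ^ i * b := by rw [hi, div_mul_cancel₀ _ hb0]
    rw [h2]
    exact F.mul_mem (F.pow_mem hzF i) b.2
  refine (minpoly.eq_of_irreducible_of_monic hirr ?_ (monic_X_pow_sub_C A hp.ne_zero)).symm
  rw [map_sub, map_pow, aeval_X, aeval_C, hA]
  exact sub_self _

/-- **lifting**: a ring hom `φ : F → Λ'` and `y` with `y ^ p = φ (h ^ p)` define a ring hom on `F(h)`. -/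
theorem exists_lift (hp : p.Prime) {z : Λ} (hz : IsPrimitiveRoot z p) (hzF : z ∈ F) (A : F)
    (hA : h ^ p = A) (hh : h ∉ F) {Λ' : Type*} [Field Λ'] (φ : F →+* Λ') (y : Λ')
    (hy : y ^ p = φ A) :
    ∃ Φ : adjF F h →+* Λ', (∀ f : F, Φ ⟨f, le_adjF F h f.2⟩ = φ f) ∧
      Φ ⟨h, self_mem_adjF F h⟩ = y := by
  have hint := isIntegral_of_pow_mem hp.pos A hA
  have hev : eval₂ φ y (minpoly F h) = 0 := by
    rw [minpoly_eq hp hz hzF A hA hh, eval₂_sub, eval₂_pow, eval₂_X, eval₂_C, hy, sub_self]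
  let e := IntermediateField.adjoinRootEquivAdjoin F hint
  let ι : adjF F h →+* IntermediateField.adjoin F {h} :=
    { toFun := fun x => ⟨x.1, x.2⟩
      map_one' := rfl
      map_mul' := fun _ _ => rfl
      map_zero' := rfl
      map_add' := fun _ _ => rfl }
  let Φ : adjF F h →+* Λ' :=
    ((AdjoinRoot.lift φ y hev).comp (e.symm : IntermediateField.adjoin F {h} →+* _)).comp ι
  refine ⟨Φ, fun f => ?_, ?_⟩
  · have h1 : e.symm (⟨f, le_adjF F h f.2⟩ : IntermediateField.adjoin F {h})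
        = AdjoinRoot.of (minpoly F h) f := by
      rw [AlgEquiv.symm_apply_eq]
      exact (e.commutes f).symm
    exact (congrArg (AdjoinRoot.lift φ y hev) h1).trans (AdjoinRoot.lift_of hev)
  · have h1 : e.symm (⟨h, self_mem_adjF F h⟩ : IntermediateField.adjoin F {h})
        = AdjoinRoot.root (minpoly F h) := by
      rw [AlgEquiv.symm_apply_eq, IntermediateField.adjoinRootEquivAdjoin_apply_root]
      rfl
    exact (congrArg (AdjoinRoot.lift φ y hev) h1).trans (AdjoinRoot.lift_root hev)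

/-! ### the deck transformation -/

/-- Kummer data: `F ∋ z` a primitive `p`-th root of unity, `h ^ p ∈ F`, `h ∉ F`. -/
structure KumDat (F : Subfield Λ) (h z : Λ) (p : ℕ) : Prop where
  prime : p.Prime
  prim : IsPrimitiveRoot z p
  z_mem : z ∈ F
  pow_mem : h ^ p ∈ F
  not_mem : h ∉ F

variable {z : Λ}

theorem KumDat.h_ne (D : KumDat F h z p) : h ≠ 0 := fun h0 => D.not_mem (h0 ▸ F.zero_mem)

theorem KumDat.lift (D : KumDat F h z p) {Λ' : Type*} [Field Λ'] (φ : F →+* Λ') (y : Λ')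
    (hy : y ^ p = φ ⟨h ^ p, D.pow_mem⟩) :
    ∃ Φ : adjF F h →+* Λ', (∀ f : F, Φ ⟨f, le_adjF F h f.2⟩ = φ f) ∧
      Φ ⟨h, self_mem_adjF F h⟩ = y :=
  exists_lift D.prime D.prim D.z_mem ⟨h ^ p, D.pow_mem⟩ rfl D.not_mem φ y hy

theorem KumDat.zh_mem (D : KumDat F h z p) : z * h ∈ adjF F h :=
  mul_mem (le_adjF F h D.z_mem) (self_mem_adjF F h)

theorem KumDat.exists_deck (D : KumDat F h z p) :
    ∃ δ : adjF F h →+* adjF F h, (∀ f : F, δ ⟨f, le_adjF F h f.2⟩ = ⟨f, le_adjF F h f.2⟩) ∧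
      δ ⟨h, self_mem_adjF F h⟩ = ⟨z * h, D.zh_mem⟩ := by
  obtain ⟨Φ, hΦF, hΦh⟩ := D.lift F.subtype (z * h) (by
    rw [mul_pow, D.prim.pow_eq_one, one_mul]; rfl)
  have hmem : ∀ x, Φ x ∈ adjF F h := by
    rintro ⟨x, hx⟩
    refine adjF_induction (P := fun x hx => Φ ⟨x, hx⟩ ∈ adjF F h) ?_ ?_ ?_ ?_ ?_ hx
    · rw [hΦh]; exact D.zh_mem
    · intro f; rw [hΦF]; exact le_adjF F h f.2
    · intro x y hx hy h1 h2
      have e : (⟨x + y, add_mem hx hy⟩ : adjF F h) = ⟨x, hx⟩ + ⟨y, hy⟩ := rfl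
      rw [e, map_add]; exact add_mem h1 h2
    · intro x hx h1
      have e : (⟨x⁻¹, inv_mem hx⟩ : adjF F h) = (⟨x, hx⟩ : adjF F h)⁻¹ := rfl
      rw [e, map_inv₀]; exact inv_mem h1
    · intro x y hx hy h1 h2
      have e : (⟨x * y, mul_mem hx hy⟩ : adjF F h) = ⟨x, hx⟩ * ⟨y, hy⟩ := rfl
      rw [e, map_mul]; exact mul_mem h1 h2
  refine ⟨Φ.codRestrict (adjF F h) hmem, fun f => Subtype.ext ?_, Subtype.ext ?_⟩
  · exact hΦF f
  · exact hΦh

/-- the deck transformation `δ : F(h) → F(h)`, `δ|F = id`, `δ h = z h`. -/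
def KumDat.deck (D : KumDat F h z p) : adjF F h →+* adjF F h := D.exists_deck.choose

theorem KumDat.deck_F (D : KumDat F h z p) (f : F) :
    D.deck ⟨f, le_adjF F h f.2⟩ = ⟨f, le_adjF F h f.2⟩ := D.exists_deck.choose_spec.1 f

theorem KumDat.deck_h (D : KumDat F h z p) :
    D.deck ⟨h, self_mem_adjF F h⟩ = ⟨z * h, D.zh_mem⟩ := D.exists_deck.choose_spec.2

theorem KumDat.deck_pow_F (D : KumDat F h z p) (k : ℕ) (f : F) :
    (D.deck ^ k) ⟨f, le_adjF F h f.2⟩ = ⟨f, le_adjF F h f.2⟩ := by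
  induction k with
  | zero => rfl
  | succ k ih => rw [pow_succ, RingHom.mul_def, RingHom.comp_apply, D.deck_F, ih]

theorem KumDat.deck_pow_h (D : KumDat F h z p) (k : ℕ) :
    (((D.deck ^ k) ⟨h, self_mem_adjF F h⟩ : adjF F h) : Λ) = z ^ k * h := by
  induction k with
  | zero => simp
  | succ k ih =>
    rw [pow_succ, RingHom.mul_def, RingHom.comp_apply, D.deck_h]
    have e : (⟨z * h, D.zh_mem⟩ : adjF F h)
        = ⟨z, le_adjF F h D.z_mem⟩ * ⟨h, self_mem_adjF F h⟩ := rfl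
    rw [e, map_mul, D.deck_pow_F k ⟨z, D.z_mem⟩, Subfield.coe_mul, ih, pow_succ]
    ring

theorem KumDat.deck_pow_p (D : KumDat F h z p) : D.deck ^ p = RingHom.id _ := by
  refine adjF_hom_ext (fun f => D.deck_pow_F p f) (Subtype.ext ?_)
  rw [D.deck_pow_h, D.prim.pow_eq_one, one_mul]
  rfl

theorem KumDat.deck_pow_aeval (D : KumDat F h z p) (k : ℕ) (P : (F)[X])
    (hP : aeval h P ∈ adjF F h) :
    (((D.deck ^ k) ⟨aeval h P, hP⟩ : adjF F h) : Λ) = aeval (z ^ k * h) P := by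
  have e : (⟨aeval h P, hP⟩ : adjF F h)
      = eval₂ (Subfield.inclusion (le_adjF F h)) ⟨h, self_mem_adjF F h⟩ P := by
    apply Subtype.ext
    have := hom_eval₂ P (Subfield.inclusion (le_adjF F h)) (adjF F h).subtype
      ⟨h, self_mem_adjF F h⟩
    exact this.symm
  rw [e, hom_eval₂]
  have := hom_eval₂ P ((D.deck ^ k).comp (Subfield.inclusion (le_adjF F h))) (adjF F h).subtype
    ((D.deck ^ k) ⟨h, self_mem_adjF F h⟩)
  refine this.trans ?_
  have h1 : (adjF F h).subtype ((D.deck ^ k) ⟨h, self_mem_adjF F h⟩) = z ^ k * h :=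
    D.deck_pow_h k
  rw [h1, aeval_def]
  congr 1
  ext f
  exact congrArg Subtype.val (D.deck_pow_F k f)

/-- the trace of `F(h) / F` takes values in `F`. -/
theorem KumDat.sum_deck_mem (D : KumDat F h z p) (x : adjF F h) :
    ∑ k ∈ Finset.range p, (((D.deck ^ k) x : adjF F h) : Λ) ∈ F := by
  obtain ⟨x, hx⟩ := x
  obtain ⟨P, rfl⟩ := exists_aeval_of_mem_adjF D.prime.pos ⟨h ^ p, D.pow_mem⟩ rfl hx
  simp only [D.deck_pow_aeval]
  induction P using Polynomial.induction_on' with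
  | add P Q hP hQ =>
    simp only [map_add, Finset.sum_add_distrib]
    have hP' : aeval h P ∈ adjF F h := by
      have := IntermediateField.aeval_coe (IntermediateField.adjoin F {h})
        (⟨h, self_mem_adjF F h⟩ : IntermediateField.adjoin F {h}) P
      exact this ▸ Subtype.mem _
    have hQ' : aeval h Q ∈ adjF F h := by
      have := IntermediateField.aeval_coe (IntermediateField.adjoin F {h})
        (⟨h, self_mem_adjF F h⟩ : IntermediateField.adjoin F {h}) Q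
      exact this ▸ Subtype.mem _
    exact F.add_mem (hP hP') (hQ hQ')
  | monomial i a =>
    simp only [aeval_monomial, mul_pow, ← pow_mul]
    have e : ∑ k ∈ Finset.range p, algebraMap F Λ a * (z ^ (k * i) * h ^ i)
        = (a : Λ) * h ^ i * ∑ k ∈ Finset.range p, (z ^ i) ^ k := by
      rw [Finset.mul_sum]
      refine Finset.sum_congr rfl fun k _ => ?_
      rw [← pow_mul, mul_comm i k]
      show (a : Λ) * _ = _
      ring
    rw [e]
    by_cases hi : p ∣ i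
    · obtain ⟨j, rfl⟩ := hi
      refine F.mul_mem (F.mul_mem a.2 ?_) (F.sum_mem fun k _ => F.pow_mem (F.pow_mem D.z_mem _) _)
      rw [pow_mul]
      exact F.pow_mem D.pow_mem j
    · have hcop : i.Coprime p := ((Nat.Prime.coprime_iff_not_dvd D.prime).mpr hi).symm
      rw [(D.prim.pow_of_coprime i hcop).geom_sum_eq_zero D.prime.one_lt, mul_zero]
      exact F.zero_mem

/-- the fixed field of the deck transformation is `F`. -/
theorem KumDat.mem_of_deck_eq (D : KumDat F h z p) (hchar : (p : Λ) ≠ 0) {x : adjF F h}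
    (hx : D.deck x = x) : (x : Λ) ∈ F := by
  have h1 : ∀ k : ℕ, (D.deck ^ k) x = x := by
    intro k
    induction k with
    | zero => rfl
    | succ k ih => rw [pow_succ, RingHom.mul_def, RingHom.comp_apply, hx, ih]
  have h2 := D.sum_deck_mem x
  simp only [h1, Finset.sum_const, Finset.card_range, nsmul_eq_mul] at h2
  have h3 : (x : Λ) = (p : Λ)⁻¹ * ((p : Λ) * x) := by
    rw [← mul_assoc, inv_mul_cancel₀ hchar, one_mul]
  rw [h3]
  exact F.mul_mem (F.inv_mem (natCast_mem F p)) h2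

end Abstract

/-! ### the cover inside `ℚ̄((q))` -/

section Concrete

open HahnSeries Fermat.Agent.GAL Fermat.Agent.DSC

/-- the hypotheses of the concrete cover `F1 = F(h₁) ⊆ ℚ̄((q))`. -/
structure CovHyp (I : Subgroup GQ) (F : Subfield (LaurentSeries Qb)) (w : F →+* LaurentSeries Qb)
    (p : ℕ) (ζ : Qb) (h1 h10 : LaurentSeries Qb) : Prop where
  prime : p.Prime
  prim : IsPrimitiveRoot ζ p
  C_mem : ∀ c : Qb, (HahnSeries.C c : LaurentSeries Qb) ∈ F
  pow_mem : h1 ^ p ∈ F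
  not_mem : h1 ∉ F
  pow0 : h10 ^ p = w ⟨h1 ^ p, pow_mem⟩
  gal_F : ∀ τ ∈ I, ∀ f : F, galS τ f ∈ F
  gal_w : ∀ τ (hτ : τ ∈ I) (f : F), galS τ (w f) = w ⟨galS τ f, gal_F τ hτ f⟩
  gal_h : ∀ τ ∈ I, ∃ (e : ℕ) (f : F),
    galS τ h1 = h1 ^ e * f ∧ galS τ h10 = h10 ^ e * w f ∧ τ ζ = ζ ^ e

variable {I : Subgroup GQ} {F : Subfield (LaurentSeries Qb)} {w : F →+* LaurentSeries Qb}
  {p : ℕ} {ζ : Qb} {h1 h10 : LaurentSeries Qb}

theorem CovHyp.kum (H : CovHyp I F w p ζ h1 h10) :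
    KumDat F h1 (HahnSeries.C ζ : LaurentSeries Qb) p where
  prime := H.prime
  prim := H.prim.map_of_injective (f := (HahnSeries.C : Qb →+* LaurentSeries Qb))
    HahnSeries.C_injective
  z_mem := H.C_mem ζ
  pow_mem := H.pow_mem
  not_mem := H.not_mem

/-- the deck transformation, with values in `ℚ̄((q))`. -/
def CovHyp.δ (H : CovHyp I F w p ζ h1 h10) : adjF F h1 →+* LaurentSeries Qb :=
  (adjF F h1).subtype.comp H.kum.deck

/-- the expansion at the cusp above `0`. -/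
def CovHyp.ι0 (H : CovHyp I F w p ζ h1 h10) : adjF F h1 →+* LaurentSeries Qb :=
  (H.kum.lift w h10 H.pow0).choose

theorem CovHyp.ι0_F (H : CovHyp I F w p ζ h1 h10) (f : F) :
    H.ι0 ⟨f, le_adjF F h1 f.2⟩ = w f := (H.kum.lift w h10 H.pow0).choose_spec.1 f

theorem CovHyp.ι0_h (H : CovHyp I F w p ζ h1 h10) :
    H.ι0 ⟨h1, self_mem_adjF F h1⟩ = h10 := (H.kum.lift w h10 H.pow0).choose_spec.2

theorem CovHyp.gal_mem (H : CovHyp I F w p ζ h1 h10) (τ : GQ) (hτ : τ ∈ I) (x : adjF F h1) :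
    galS τ x ∈ adjF F h1 := by
  have h : adjF F h1 ≤ (adjF F h1).comap (galS τ) := by
    refine adjF_le F h1 (fun f hf => ?_) ?_
    · exact le_adjF F h1 (H.gal_F τ hτ ⟨f, hf⟩)
    · obtain ⟨e, f, he, -, -⟩ := H.gal_h τ hτ
      show galS τ h1 ∈ adjF F h1
      rw [he]
      exact mul_mem (_root_.pow_mem (self_mem_adjF F h1) e) (le_adjF F h1 f.2)
  exact h x.2

/-- the Galois action on `F1`. -/
def CovHyp.gal (H : CovHyp I F w p ζ h1 h10) (τ : GQ) (hτ : τ ∈ I) : adjF F h1 →+* adjF F h1 :=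
  ((galS τ).comp (adjF F h1).subtype).codRestrict (adjF F h1) (H.gal_mem τ hτ)

theorem CovHyp.gal_δ (H : CovHyp I F w p ζ h1 h10) (τ : GQ) (hτ : τ ∈ I) (x : adjF F h1) :
    galS τ (H.δ x) = H.δ ⟨galS τ x, H.gal_mem τ hτ x⟩ := by
  have h : (galS τ).comp H.δ = H.δ.comp (H.gal τ hτ) := by
    refine adjF_hom_ext (fun f => ?_) ?_
    · show galS τ ((H.kum.deck ⟨f, le_adjF F h1 f.2⟩ : adjF F h1) : LaurentSeries Qb)
        = ((H.kum.deck ⟨galS τ f, _⟩ : adjF F h1) : LaurentSeries Qb)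
      rw [H.kum.deck_F f]
      exact (congrArg Subtype.val (H.kum.deck_F ⟨galS τ f, H.gal_F τ hτ f⟩)).symm
    · obtain ⟨e, f, he, -, hζ⟩ := H.gal_h τ hτ
      show galS τ ((H.kum.deck ⟨h1, self_mem_adjF F h1⟩ : adjF F h1) : LaurentSeries Qb)
        = ((H.kum.deck ⟨galS τ h1, _⟩ : adjF F h1) : LaurentSeries Qb)
      have e1 : (⟨galS τ h1, H.gal_mem τ hτ ⟨h1, self_mem_adjF F h1⟩⟩ : adjF F h1)
          = ⟨h1, self_mem_adjF F h1⟩ ^ e * ⟨f, le_adjF F h1 f.2⟩ := Subtype.ext he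
      rw [e1, map_mul, map_pow, H.kum.deck_F, H.kum.deck_h]
      show galS τ (HahnSeries.C ζ * h1) = (HahnSeries.C ζ * h1) ^ e * (f : LaurentSeries Qb)
      rw [map_mul, he, DSC.galS_C, hζ, map_pow, mul_pow]
      ring
  exact RingHom.congr_fun h x

theorem CovHyp.gal_ι (H : CovHyp I F w p ζ h1 h10) (τ : GQ) (hτ : τ ∈ I) (x : adjF F h1) :
    galS τ (H.ι0 x) = H.ι0 ⟨galS τ x, H.gal_mem τ hτ x⟩ := by
  have h : (galS τ).comp H.ι0 = H.ι0.comp (H.gal τ hτ) := by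
    refine adjF_hom_ext (fun f => ?_) ?_
    · show galS τ (H.ι0 ⟨f, le_adjF F h1 f.2⟩) = H.ι0 ⟨galS τ f, _⟩
      rw [H.ι0_F, H.gal_w τ hτ]
      exact (H.ι0_F ⟨galS τ f, H.gal_F τ hτ f⟩).symm
    · obtain ⟨e, f, he, he0, -⟩ := H.gal_h τ hτ
      show galS τ (H.ι0 ⟨h1, self_mem_adjF F h1⟩) = H.ι0 ⟨galS τ h1, _⟩
      have e1 : (⟨galS τ h1, H.gal_mem τ hτ ⟨h1, self_mem_adjF F h1⟩⟩ : adjF F h1)
          = ⟨h1, self_mem_adjF F h1⟩ ^ e * ⟨f, le_adjF F h1 f.2⟩ := Subtype.ext he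
      rw [e1, map_mul, map_pow, H.ι0_F, H.ι0_h, he0]
  exact RingHom.congr_fun h x

/-- **the formal data of the cover** (hypothesis of `desc_main`). -/
theorem CovHyp.coverDat (H : CovHyp I F w p ζ h1 h10) :
    CoverDat I F (adjF F h1) w H.δ H.ι0 ζ h1 h10 where
  le := le_adjF F h1
  C_mem := fun c => le_adjF F h1 (H.C_mem c)
  h1_mem := self_mem_adjF F h1
  h1_ne := H.kum.h_ne
  ζ_ne := H.prim.ne_zero H.prime.ne_zero
  δ_mem := fun x => (H.kum.deck x).2
  δ_F := fun f => congrArg Subtype.val (H.kum.deck_F f)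
  δ_h1 := congrArg Subtype.val H.kum.deck_h
  ι_F := H.ι0_F
  ι_h1 := H.ι0_h
  gal_mem := H.gal_mem
  gal_δ := H.gal_δ
  gal_ι := H.gal_ι

end Concrete

end Fermat.Agent.MR.C
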