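import Fermat.Agent.CAR.DESC.Gens
import Fermat.Agent.CAR.DESC.IntO
import Fermat.Agent.CAR.FG.HG
import Fermat.Agent.MR.C.AbsKR
import Fermat.Agent.GAL.KL.BasicInt
import Fermat.Agent.GAL.KLC.LocPow
import Fermat.Agent.MR.C.CovField

/-!
# MR / C / HGc : hypothesis (HG) of `cover_ns` / `cover_out` for an element `w` of the cover

* (A) `hgc_fixed` : series level descent.  `F1` a subfield of `ℚ̄((q))`, stable under `H`, with finite `H`-orbits; `t, w` fixed by `H`: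
  an identity `(∑ ∏ φ) w = 1` with `φ ∈ F1 ∩ I_t(w)` descends to `ψ ∈ F1 ∩ Fix(H) ∩ I_t(w)`.
* (B) `hgc_twist` : `w = H₀ b ^ n`: an identity for `H₀` gives an identity for `w`.
* (C) `hgc_cov` : adapter to `MR.C.Cov`.
-/

set_option autoImplicit false
noncomputable section

namespace Fermat.Agent.MR.C

open ModularCurve Polynomial Fermat.Agent.GAL Fermat.Agent.GAL.KL Fermat.Agent.GR Fermat.Agent.DSC
  Fermat.Agent.CAR Fermat.Agent.CAR.DESC

local notation "Λ" => LaurentSeries Qb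

theorem hgc_algebraMap (a : Qb) : algebraMap Qb Λ a = HahnSeries.C a :=
  Fermat.Agent.GAL.CT.theta_algebraMap_eq_C a

/-- Galois conjugation preserves integrality (series level). -/
theorem hgc_isInt_gal (τ : GQ) {u y : Λ} (h : IsInt Qb u y) : IsInt Qb (galS τ u) (galS τ y) := by
  obtain ⟨p, hp, h0⟩ := h
  have key : (galS τ).comp ((aeval u : Qb[X] →ₐ[Qb] Λ) : Qb[X] →+* Λ) =
      ((aeval (galS τ u) : Qb[X] →ₐ[Qb] Λ) : Qb[X] →+* Λ).comp (mapRingHom (τ : Qb →+* Qb)) := by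
    apply Polynomial.ringHom_ext
    · intro a
      simp only [RingHom.comp_apply, coe_mapRingHom, map_C, RingHom.coe_coe, aeval_C]
      rw [hgc_algebraMap, hgc_algebraMap, GAL.galS_C]
    · simp only [RingHom.comp_apply, coe_mapRingHom, map_X, RingHom.coe_coe, aeval_X]
  refine ⟨p.map (mapRingHom (τ : Qb →+* Qb)), hp.map _, ?_⟩
  have h1 := congrArg (galS τ) h0
  rw [map_zero, hom_eval₂, key] at h1
  rw [eval₂_map]
  exact h1

variable {H : Subgroup GQ}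

/-- generalisation of `DESC.exists_fixed_gens`: only the finiteness of the orbits is used. -/
theorem hgc_exists_fixed_gens (S : Submodule Qb Λ) (hS : ∀ τ ∈ H, ∀ y ∈ S, galS τ y ∈ S) {r : ℕ}
    (φ : Fin r → Λ) (hφ : ∀ k, φ k ∈ S) (hfin : ∀ k, {y | ∃ τ ∈ H, galS τ (φ k) = y}.Finite) :
    ∃ (s : ℕ) (ψ : Fin s → Λ) (c : Fin r → Fin s → Qb),
      (∀ a, ψ a ∈ S ∧ FixS (H : Set GQ) (ψ a)) ∧ ∀ k, φ k = ∑ a, HahnSeries.C (c k a) * ψ a := by
  classical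
  let T : Set Λ := ⋃ k, {y | ∃ τ ∈ H, galS τ (φ k) = y}
  have hT : T.Finite := Set.finite_iUnion fun k => hfin k
  let W : Submodule Qb Λ := Submodule.span Qb T
  have hWS : W ≤ S := Submodule.span_le.2 (by
    intro y hy
    obtain ⟨k, τ, hτ, rfl⟩ := Set.mem_iUnion.1 hy
    exact hS τ hτ _ (hφ k))
  have hWfin : Module.Finite Qb W := FiniteDimensional.span_of_finite Qb hT
  have hWst : ∀ τ ∈ (H : Set GQ), ∀ f ∈ W, galS τ f ∈ W := by
    intro σ hσ f hf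
    induction hf using Submodule.span_induction with
    | mem x hx =>
      obtain ⟨k, τ, hτ, rfl⟩ := Set.mem_iUnion.1 hx
      apply Submodule.subset_span
      exact Set.mem_iUnion.2 ⟨k, σ * τ, H.mul_mem hσ hτ, GAL.galS_mul σ τ _⟩
    | zero => rw [map_zero]; exact W.zero_mem
    | add x y _ _ hx hy => rw [map_add]; exact W.add_mem hx hy
    | smul a x _ hx => rw [galS_smul]; exact W.smul_mem _ hx
  have hsp := span_fixed W hWfin hWst
  have hG : Submodule.span Qb {f | f ∈ W ∧ FixS (H : Set GQ) f} = W :=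
    le_antisymm (Submodule.span_le.2 fun f hf => hf.1) hsp
  have hfg : (Submodule.span Qb {f | f ∈ W ∧ FixS (H : Set GQ) f}).FG := by
    rw [hG]
    exact Submodule.fg_span hT
  obtain ⟨s', hs', hspan⟩ := (Submodule.fg_span_iff_fg_span_finset_subset _).1 hfg
  have hφW : ∀ k, φ k ∈ Submodule.span Qb (s' : Set Λ) := by
    intro k
    rw [← hspan, hG]
    apply Submodule.subset_span
    exact Set.mem_iUnion.2 ⟨k, 1, H.one_mem, GAL.galS_one _⟩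
  choose f hf using fun k => Submodule.mem_span_finset'.1 (hφW k)
  refine ⟨s'.card, fun a => (s'.equivFin.symm a : Λ),
    fun k a => f k (s'.equivFin.symm a), fun a => ?_, fun k => ?_⟩
  · have := hs' (s'.equivFin.symm a).2
    exact ⟨hWS this.1, this.2⟩
  · rw [← hf k, ← Equiv.sum_comp s'.equivFin.symm]
    exact Finset.sum_congr rfl fun a _ => (HahnSeries.C_mul_eq_smul).symm

/-- `F1 ∩ I_t(w)` as a `ℚ̄`-subspace of `ℚ̄((q))`. -/
def hgcS (F1 : Subfield Λ) (hC : ∀ a : Qb, HahnSeries.C a ∈ F1) (t : Λ) (n : ℕ) (hn : 0 < n)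
    (w : Λ) : Submodule Qb Λ where
  carrier := {y | y ∈ F1 ∧ y ∈ II Qb t n w}
  add_mem' := by
    rintro x y ⟨hx1, hx⟩ ⟨hy1, hy⟩
    exact ⟨add_mem hx1 hy1, II.add hn hx hy⟩
  zero_mem' := ⟨zero_mem _, by
    show IsInt Qb t ((0 : Λ) ^ n * w)
    rw [zero_pow hn.ne', zero_mul]; exact IsInt.zero⟩
  smul_mem' := by
    rintro a x ⟨hx1, hx⟩
    rw [← HahnSeries.C_mul_eq_smul]
    refine ⟨mul_mem (hC a) hx1, II.mul ?_ hx⟩
    rw [← hgc_algebraMap]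
    exact IsInt.algebraMap a

/-- **(A)** descent of the identity `(∑ ∏ φ) w = 1` to `H`-fixed sections. -/
theorem hgc_fixed (F1 : Subfield Λ) (hC : ∀ a : Qb, HahnSeries.C a ∈ F1)
    (hst : ∀ τ ∈ H, ∀ y ∈ F1, galS τ y ∈ F1)
    (hfin : ∀ y ∈ F1, {z | ∃ τ ∈ H, galS τ y = z}.Finite)
    {t w : Λ} (ht : FixS (H : Set GQ) t) (hw : FixS (H : Set GQ) w) {n : ℕ} (hn : 0 < n) {m : ℕ}
    (φ : Fin m → Fin n → Λ) (hφ1 : ∀ k j, φ k j ∈ F1) (hφ : ∀ k j, φ k j ∈ II Qb t n w)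
    (h : (∑ k, ∏ j, φ k j) * w = 1) :
    ∃ (m' : ℕ) (ψ : Fin m' → Fin n → Λ),
      (∀ k j, ψ k j ∈ F1 ∧ FixS (H : Set GQ) (ψ k j) ∧ ψ k j ∈ II Qb t n w) ∧
      (∑ k, ∏ j, ψ k j) * w = 1 := by
  classical
  have hSst : ∀ τ ∈ H, ∀ y ∈ hgcS F1 hC t n hn w, galS τ y ∈ hgcS F1 hC t n hn w := by
    rintro τ hτ y ⟨hy1, hy⟩
    refine ⟨hst τ hτ y hy1, ?_⟩
    have h1 := hgc_isInt_gal τ hy
    rw [ht τ hτ, map_mul, map_pow, hw τ hτ] at h1
    exact h1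
  obtain ⟨s, ψ, c, hψ, hc⟩ := hgc_exists_fixed_gens (H := H) (hgcS F1 hC t n hn w) hSst
    (fun i : Fin (m * n) => φ (finProdFinEquiv.symm i).1 (finProdFinEquiv.symm i).2)
    (fun i => ⟨hφ1 _ _, hφ _ _⟩) (fun i => hfin _ (hφ1 _ _))
  have hc' : ∀ k j, φ k j = ∑ a, HahnSeries.C (c (finProdFinEquiv (k, j)) a) * ψ a := by
    intro k j
    have := hc (finProdFinEquiv (k, j))
    simpa only [Equiv.symm_apply_apply] using this
  have hprod : ∀ k, ∏ j, φ k j = ∑ σ : Fin n → Fin s,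
      HahnSeries.C (∏ j, c (finProdFinEquiv (k, j)) (σ j)) * ∏ j, ψ (σ j) := by
    intro k
    simp only [hc' k]
    rw [Finset.prod_univ_sum, Fintype.piFinset_univ]
    refine Finset.sum_congr rfl fun σ _ => ?_
    rw [Finset.prod_mul_distrib, map_prod]
  have h1 : (1 : Λ) = ∑ σ : Fin n → Fin s,
      HahnSeries.C (∑ k, ∏ j, c (finProdFinEquiv (k, j)) (σ j)) * ((∏ j, ψ (σ j)) * w) := by
    rw [← h]
    simp only [hprod]
    rw [Finset.sum_comm, Finset.sum_mul]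
    refine Finset.sum_congr rfl fun σ _ => ?_
    rw [map_sum, Finset.sum_mul, Finset.sum_mul]
    refine Finset.sum_congr rfl fun k _ => ?_
    rw [mul_assoc]
  let e : (Fin n → Fin s) ≃ Fin (Fintype.card (Fin n → Fin s)) := Fintype.equivFin _
  obtain ⟨c', hc'fix, h3⟩ := exists_fixed_coeffs (H := (H : Set GQ))
    (fun i : Fin (Fintype.card (Fin n → Fin s)) => (∏ j, ψ (e.symm i j)) * w)
    (fun i => (FixS.prod _ fun j _ => (hψ _).2).mul hw) FixS.one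
    (fun i => ∑ k, ∏ j, c (finProdFinEquiv (k, j)) (e.symm i j))
    (by
      rw [h1]
      exact (Equiv.sum_comp e.symm (fun σ : Fin n → Fin s =>
        HahnSeries.C (∑ k, ∏ j, c (finProdFinEquiv (k, j)) (σ j)) * ((∏ j, ψ (σ j)) * w))).symm)
  refine ⟨Fintype.card (Fin n → Fin s),
    fun i j => (if j = ⟨0, hn⟩ then HahnSeries.C (c' i) else 1) * ψ (e.symm i j),
    fun i j => ⟨?_, ?_, ?_⟩, ?_⟩
  · refine mul_mem ?_ (hψ _).1.1
    split_ifs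
    · exact hC _
    · exact one_mem _
  · refine FixS.mul ?_ (hψ _).2
    split_ifs
    · exact (hc'fix i).C
    · exact FixS.one
  · refine II.mul ?_ (hψ _).1.2
    split_ifs
    · rw [← hgc_algebraMap]; exact IsInt.algebraMap _
    · exact IsInt.one
  · refine Eq.trans ?_ h3.symm
    rw [Finset.sum_mul]
    refine Finset.sum_congr rfl fun i _ => ?_
    rw [Finset.prod_mul_distrib,
      Finset.prod_ite_eq' Finset.univ (⟨0, hn⟩ : Fin n) (fun _ => HahnSeries.C (c' i)),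
      if_pos (Finset.mem_univ _), mul_assoc]

/-- **(B)** twisting by an `n`-th power. -/
theorem hgc_twist {t H₀ b w : Λ} {n : ℕ} (hb : b ≠ 0) (hw : w = H₀ * b ^ n) {m : ℕ}
    (φ : Fin m → Fin n → Λ) (hφ : ∀ k j, φ k j ∈ II Qb t n H₀) (h : (∑ k, ∏ j, φ k j) * H₀ = 1) :
    (∀ k j, φ k j / b ∈ II Qb t n w) ∧ (∑ k, ∏ j, φ k j / b) * w = 1 := by
  constructor
  · intro k j
    show IsInt Qb t ((φ k j / b) ^ n * w)
    have : (φ k j / b) ^ n * w = φ k j ^ n * H₀ := by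
      rw [hw, div_pow]
      field_simp
    rw [this]
    exact hφ k j
  · have h1 : ∀ k, ∏ j, φ k j / b = (∏ j, φ k j) / b ^ n := by
      intro k
      rw [Finset.prod_div_distrib, Finset.prod_const, Finset.card_univ, Fintype.card_fin]
    simp only [h1]
    rw [← Finset.sum_div, hw, ← h]
    field_simp

/-! ### finite orbits -/

/-- the `H`-orbit of `y` is finite. -/
def HgcFin (H : Subgroup GQ) (y : Λ) : Prop := {z | ∃ τ ∈ H, galS τ y = z}.Finite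

theorem HgcFin.add {x y : Λ} (hx : HgcFin H x) (hy : HgcFin H y) : HgcFin H (x + y) := by
  refine (Set.Finite.image2 (fun a b => a + b) hx hy).subset ?_
  rintro _ ⟨τ, hτ, rfl⟩
  exact ⟨_, ⟨τ, hτ, rfl⟩, _, ⟨τ, hτ, rfl⟩, (map_add _ _ _).symm⟩

theorem HgcFin.mul {x y : Λ} (hx : HgcFin H x) (hy : HgcFin H y) : HgcFin H (x * y) := by
  refine (Set.Finite.image2 (fun a b => a * b) hx hy).subset ?_
  rintro _ ⟨τ, hτ, rfl⟩
  exact ⟨_, ⟨τ, hτ, rfl⟩, _, ⟨τ, hτ, rfl⟩, (map_mul _ _ _).symm⟩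

theorem HgcFin.inv {x : Λ} (hx : HgcFin H x) : HgcFin H x⁻¹ := by
  refine (hx.image fun a => a⁻¹).subset ?_
  rintro _ ⟨τ, hτ, rfl⟩
  exact ⟨_, ⟨τ, hτ, rfl⟩, (map_inv₀ _ _).symm⟩

theorem hgcFin_of_mem_FL {N : ℕ} {y : Λ} (hy : y ∈ FL Qb N) : HgcFin H y := by
  obtain ⟨L, hL, hLf⟩ := exists_level_of_mem_FL hy
  refine (finite_orbit L hLf).subset ?_
  rintro _ ⟨τ, -, rfl⟩
  exact ⟨τ, rfl⟩

theorem HgcFin.of_pow {x : Λ} {n : ℕ} (hn : 0 < n) (hx : HgcFin H (x ^ n)) : HgcFin H x := by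
  classical
  have h1 : (⋃ c ∈ {z | ∃ τ ∈ H, galS τ (x ^ n) = z}, {z : Λ | z ^ n = c}).Finite := by
    refine Set.Finite.biUnion hx fun c _ => ?_
    have h2 : (X ^ n - C c : Λ[X]) ≠ 0 := X_pow_sub_C_ne_zero hn c
    refine ((X ^ n - C c : Λ[X]).roots.toFinset.finite_toSet).subset ?_
    intro z hz
    rw [Finset.mem_coe, Multiset.mem_toFinset, mem_roots h2, IsRoot.def, eval_sub, eval_pow, eval_X,
      eval_C, sub_eq_zero]
    exact hz
  refine h1.subset ?_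
  rintro _ ⟨τ, hτ, rfl⟩
  refine Set.mem_biUnion (⟨τ, hτ, rfl⟩ : galS τ (x ^ n) ∈ {z | ∃ τ ∈ H, galS τ (x ^ n) = z}) ?_
  exact (map_pow _ _ _).symm

/-- all elements of `F(h)` have finite orbits. -/
theorem hgcFin_adjF {F : Subfield Λ} {h : Λ} (hF : ∀ y ∈ F, HgcFin H y) (hh : HgcFin H h) {y : Λ}
    (hy : y ∈ adjF F h) : HgcFin H y :=
  adjF_induction (P := fun x _ => HgcFin H x) hh (fun f => hF f f.2)
    (fun _ _ _ _ h1 h2 => h1.add h2) (fun _ _ h1 => h1.inv) (fun _ _ _ _ h1 h2 => h1.mul h2) hy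

/-! ### (C) the adapter to `Cov` -/

section Adapter

variable {E₀ E Γ₀ I₀ : Type*} [Field E₀] [Field E] [Algebra E₀ E] [LinearOrderedCommGroupWithZero Γ₀]
  {B₀ : Subring E₀} {v₀ : I₀ → Valuation E₀ Γ₀} {p₀ : I₀ → Ideal B₀} {π : B₀}
  {p : ℕ} [Fact p.Prime] {δ : E ≃ₐ[E₀] E} {vt : I₀ × ZMod p → Valuation E Γ₀} [Fintype I₀]

omit [Fintype I₀] in
/-- elements of `E` which are integral over `ℚ̄[t]` with all vertical valuations `≤ 1` lie in `B1`. -/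
theorem hgc_mem_B1 (C : Cov p B₀ v₀ δ vt) (ι : E →+* Λ) (t : Λ)
    (hδ : ∀ x : E, IsInt Qb t (ι x) → IsInt Qb t (ι (δ x)))
    (hS : ∀ x₀ : E₀, IsInt Qb t (ι (algebraMap E₀ E x₀)) → (∀ i, v₀ i x₀ ≤ 1) → x₀ ∈ B₀)
    {x : E} (hx : IsInt Qb t (ι x)) (hv : ∀ b, vt b x ≤ 1) : x ∈ B1 E B₀ := by
  have hp : 0 < p := (Fact.out : p.Prime).pos
  let S : Subring E :=
    { carrier := {y | IsInt Qb t (ι y) ∧ ∀ b, vt b y ≤ 1}
      mul_mem' := by
        rintro a b ⟨ha, ha'⟩ ⟨hb, hb'⟩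
        refine ⟨by rw [map_mul]; exact ha.mul hb, fun c => ?_⟩
        rw [map_mul]
        exact mul_le_one' (ha' c) (hb' c)
      one_mem' := ⟨by rw [map_one]; exact IsInt.one, fun c => by rw [map_one]⟩
      add_mem' := by
        rintro a b ⟨ha, ha'⟩ ⟨hb, hb'⟩
        exact ⟨by rw [map_add]; exact ha.add hb, fun c => Valuation.map_add_le _ (ha' c) (hb' c)⟩
      zero_mem' := ⟨by rw [map_zero]; exact IsInt.zero, fun c => by rw [map_zero]; exact zero_le⟩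
      neg_mem' := by
        rintro a ⟨ha, ha'⟩
        exact ⟨by rw [map_neg]; exact ha.neg, fun c => by rw [Valuation.map_neg]; exact ha' c⟩ }
  have hle : S ≤ B1 E B₀ := le_B1_of_stable hp C S
    (fun y hy => ⟨hδ y hy.1, fun b => by
      obtain ⟨i, k⟩ := b
      rw [C.shift]
      exact hy.2 _⟩)
    (fun x₀ hx₀ => hS x₀ hx₀.1 fun i => by
      have := hx₀.2 (i, 0)
      rwa [C.ext] at this)
  exact hle ⟨hx, hv⟩

/-- **(C)** an identity on the generic fibre gives (HG). -/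
theorem hgc_cov (hB : Base B₀ v₀ p₀ π) (C : Cov p B₀ v₀ δ vt) (ι : E →+* Λ) (t : Λ)
    (hδ : ∀ x : E, IsInt Qb t (ι x) → IsInt Qb t (ι (δ x)))
    (hS : ∀ x₀ : E₀, IsInt Qb t (ι (algebraMap E₀ E x₀)) → (∀ i, v₀ i x₀ ≤ 1) → x₀ ∈ B₀)
    (hπ : IsInt Qb t (ι (algebraMap E₀ E (π : E₀))))
    {n : ℕ} (hn : 0 < n) {w : E} {m : ℕ} (ψ : Fin m → Fin n → E)
    (hψ : ∀ k j, ι (ψ k j) ∈ II Qb t n (ι w)) (h : (∑ k, ∏ j, ψ k j) * w = 1) :
    ∃ (N m : ℕ) (φ : Fin m → Fin n → E), (∀ k j, φ k j ∈ NS.Lam (B1 E B₀) n w) ∧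
      (∑ k, ∏ j, φ k j) * w = (algebraMap E₀ E (π : E₀)) ^ N := by
  classical
  have hϖ : algebraMap E₀ E (π : E₀) ∈ B1 E B₀ := map_mem_B1 π
  refine NS.hg_of_generic (B := B1 E B₀) (π := ⟨_, hϖ⟩) hn (N₀ := 0) ψ (fun k j => ?_)
    (by rw [pow_zero]; exact h)
  set y : E := ψ k j ^ n * w with hy
  have hyI : IsInt Qb t (ι y) := by
    have := hψ k j
    rw [hy, map_mul, map_pow]
    exact this
  have hlt : ∀ b, vt b (algebraMap E₀ E (π : E₀)) < 1 := by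
    rintro ⟨i, k⟩
    rw [C.ext]
    exact hB.πlt i
  have hex : ∀ b, ∃ a : ℕ, vt b (algebraMap E₀ E (π : E₀)) ^ a * vt b y ≤ 1 := by
    intro b
    by_cases h0 : vt b y = 0
    · exact ⟨0, by rw [h0, mul_zero]; exact zero_le⟩
    · obtain ⟨a, ha⟩ := C.arch b _ (hlt b) (vt b y)⁻¹ (inv_ne_zero h0)
      refine ⟨a, ?_⟩
      have h2 := mul_le_mul_left ha.le (vt b y)
      rwa [inv_mul_cancel₀ h0] at h2
  choose a ha using hex
  refine ⟨Finset.univ.sup a, hgc_mem_B1 C ι t hδ hS ?_ fun b => ?_⟩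
  · rw [map_mul, map_pow]
    exact (hπ.pow _).mul hyI
  · rw [map_mul, map_pow]
    refine le_trans ?_ (ha b)
    exact mul_le_mul_left (pow_le_pow_of_le_one zero_le (hlt b).le
      (Finset.le_sup (Finset.mem_univ b))) _

/-- **(A) + (B) + (C).**  `ι w = H₀ b ^ n` with `b ∈ F1`; an identity for `H₀` in `F1`. -/
theorem hgc_main (hB : Base B₀ v₀ p₀ π) (C : Cov p B₀ v₀ δ vt) (ι : E →+* Λ) (t : Λ)
    (hδ : ∀ x : E, IsInt Qb t (ι x) → IsInt Qb t (ι (δ x)))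
    (hS : ∀ x₀ : E₀, IsInt Qb t (ι (algebraMap E₀ E x₀)) → (∀ i, v₀ i x₀ ≤ 1) → x₀ ∈ B₀)
    (hπ : IsInt Qb t (ι (algebraMap E₀ E (π : E₀))))
    (F1 : Subfield Λ) (hC : ∀ a : Qb, HahnSeries.C a ∈ F1)
    (hst : ∀ τ ∈ H, ∀ y ∈ F1, galS τ y ∈ F1) (hfin : ∀ y ∈ F1, HgcFin H y)
    (hι : ∀ y ∈ F1, FixS (H : Set GQ) y → ∃ x : E, ι x = y)
    (ht : FixS (H : Set GQ) t) {n : ℕ} (hn : 0 < n) {w : E} (hw : FixS (H : Set GQ) (ι w))
    {H₀ b : Λ} (hb : b ∈ F1) (hb0 : b ≠ 0) (hwb : ι w = H₀ * b ^ n) {m : ℕ}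
    (φ : Fin m → Fin n → Λ) (hφ1 : ∀ k j, φ k j ∈ F1) (hφ : ∀ k j, φ k j ∈ II Qb t n H₀)
    (h : (∑ k, ∏ j, φ k j) * H₀ = 1) :
    ∃ (N m : ℕ) (φ : Fin m → Fin n → E), (∀ k j, φ k j ∈ NS.Lam (B1 E B₀) n w) ∧
      (∑ k, ∏ j, φ k j) * w = (algebraMap E₀ E (π : E₀)) ^ N := by
  obtain ⟨h1, h2⟩ := hgc_twist hb0 hwb φ hφ h
  obtain ⟨m', ψ, hψ, h3⟩ := hgc_fixed F1 hC hst hfin ht hw hn (fun k j => φ k j / b)
    (fun k j => div_mem (hφ1 k j) hb) h1 h2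
  choose x hx using fun k j => hι (ψ k j) (hψ k j).1 (hψ k j).2.1
  refine hgc_cov hB C ι t hδ hS hπ hn x (fun k j => by rw [hx]; exact (hψ k j).2.2) ?_
  apply ι.injective
  rw [map_mul, map_sum, map_one, ← h3]
  congr 1
  refine Finset.sum_congr rfl fun k _ => ?_
  rw [map_prod]
  exact Finset.prod_congr rfl fun j _ => hx k j

end Adapter

/-! ### (E) the identity on the base, over `ℚ̄` -/

theorem hgc_isInt_coe {N : ℕ} {t x : FL Qb N} (h : IsInt Qb t x) : IsInt Qb (t : Λ) (x : Λ) := by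
  obtain ⟨P, hP, h0⟩ := h
  refine ⟨P, hP, ?_⟩
  have key : ((FL Qb N).val : FL Qb N →+* Λ).comp ((aeval t : Qb[X] →ₐ[Qb] FL Qb N) : Qb[X] →+* FL Qb N)
      = ((aeval (t : Λ) : Qb[X] →ₐ[Qb] Λ) : Qb[X] →+* Λ) := by
    apply Polynomial.ringHom_ext
    · intro a
      simp only [RingHom.comp_apply, RingHom.coe_coe, aeval_C]
      rfl
    · simp only [RingHom.comp_apply, RingHom.coe_coe, aeval_X]
      rfl
  have h1 := congrArg ((FL Qb N).val : FL Qb N →+* Λ) h0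
  rw [map_zero, hom_eval₂, key] at h1
  exact h1

/-- a Kummer generator of level `N` satisfies the identity (HG) over `ℚ̄` on every chart. -/
theorem hgc_base {N n : ℕ} [S24.FF.IsFF1 Qb (FL Qb N)] {t : FL Qb N} (ht : Transcendental Qb t)
    (hn : 0 < n) {u : Λ} (hu : IsKum Qb N n u) :
    ∃ (m : ℕ) (φ : Fin m → Fin n → Λ), (∀ k j, φ k j ∈ FL Qb N) ∧
      (∀ k j, φ k j ∈ II Qb (t : Λ) n (u ^ n)) ∧ (∑ k, ∏ j, φ k j) * u ^ n = 1 := by
  obtain ⟨hu0, hf, hdiv⟩ := hu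
  have hW0 : (⟨u ^ n, hf⟩ : FL Qb N) ≠ 0 := fun h0 =>
    pow_ne_zero n hu0 (congrArg Subtype.val h0)
  obtain ⟨m, φ, hφ, h⟩ := FG.hg_of_locPow hn hW0
    (fun c => Fermat.Agent.GAL.KLC.locPow_of_dvd ht hn hW0 hdiv c)
  refine ⟨m, fun k j => (φ k j : Λ), fun k j => (φ k j).2, fun k j => ?_, ?_⟩
  · exact hgc_isInt_coe (hφ k j)
  · have h1 := congrArg ((FL Qb N).val : FL Qb N →+* Λ) h
    rw [map_mul, map_sum, map_one] at h1
    simp only [map_prod] at h1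
    exact h1

end Fermat.Agent.MR.C
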