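import Fermat.Agent.MR.C.CovFieldK
import Fermat.Agent.MR.C.HGc
import Fermat.Agent.CAR.DESC.EF

/-!
# MR / C / CovEC : the cyclic cover `E = F1^I` as an algebra over `E₀ = DESC.EF I N` (`= BK.EC A N` for `I = IA A`)

`F = (FL ℚ̄ N).toSubfield`.  `CovFieldK` uses `E₀ = fixS I F` (a subfield of `ℚ̄((q))`); the base chart ring of `MR/TH` lives in
`DESC.EF I N` (a subfield of `FL ℚ̄ N`).  This file transports the deck transformation.
-/

set_option autoImplicit false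
noncomputable section

namespace Fermat.Agent.MR.C

open HahnSeries Polynomial Fermat.Agent.GAL Fermat.Agent.GAL.KL Fermat.Agent.DSC Fermat.Agent.CAR
  Fermat.Agent.CAR.DESC

local notation "Λ" => LaurentSeries Qb

/-- `F = FL ℚ̄ N` as a subfield of `ℚ̄((q))`. -/
abbrev FS (N : ℕ) : Subfield Λ := (FL Qb N).toSubfield

variable (I : Subgroup GQ) (N : ℕ) (h1 : Λ)

/-- the inclusion `E₀ = (FL ℚ̄ N)^I → E = F1^I`. -/
def ecInc : EF I N →+* fixS I (adjF (FS N) h1) where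
  toFun z := ⟨((z : FL Qb N) : Λ), le_adjF (FS N) h1 (z : FL Qb N).2, z.2⟩
  map_one' := rfl
  map_mul' _ _ := rfl
  map_zero' := rfl
  map_add' _ _ := rfl

instance ecAlgebra : Algebra (EF I N) (fixS I (adjF (FS N) h1)) := (ecInc I N h1).toAlgebra

variable {I N h1}

theorem coe_algebraMap_ec (z : EF I N) :
    ((algebraMap (EF I N) (fixS I (adjF (FS N) h1)) z : fixS I (adjF (FS N) h1)) : Λ)
      = ((z : FL Qb N) : Λ) := rfl

/-- `EF I N ≃ fixS I F`. -/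
def ecToFix (z : EF I N) : fixS I (FS N) := ⟨((z : FL Qb N) : Λ), (z : FL Qb N).2, z.2⟩

theorem algebraMap_ec_eq (z : EF I N) :
    algebraMap (EF I N) (fixS I (adjF (FS N) h1)) z
      = algebraMap (fixS I (FS N)) (fixS I (adjF (FS N) h1)) (ecToFix z) := rfl

variable {w : FS N →+* Λ} {p : ℕ} {ζ : Qb} {h10 : Λ}

/-- **the deck transformation over `EF I N`.** -/
def CovHyp.δC (H : CovHyp I (FS N) w p ζ h1 h10) :
    fixS I (adjF (FS N) h1) ≃ₐ[EF I N] fixS I (adjF (FS N) h1) :=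
  AlgEquiv.ofRingEquiv (f := H.δK.toRingEquiv) (fun z => by
    rw [algebraMap_ec_eq]
    exact H.δK.commutes (ecToFix z))

theorem CovHyp.δC_apply (H : CovHyp I (FS N) w p ζ h1 h10) (x : fixS I (adjF (FS N) h1)) :
    H.δC x = H.δK x := rfl

theorem CovHyp.coe_δC (H : CovHyp I (FS N) w p ζ h1 h10) (x : fixS I (adjF (FS N) h1)) :
    ((H.δC x : fixS I (adjF (FS N) h1)) : Λ) = H.δ (toF1 x) := rfl

theorem CovHyp.δC_pow_apply (H : CovHyp I (FS N) w p ζ h1 h10) (k : ℕ)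
    (x : fixS I (adjF (FS N) h1)) : (H.δC ^ k) x = (H.δK ^ k) x := by
  induction k generalizing x with
  | zero => rfl
  | succ k ih => rw [pow_succ, pow_succ, AlgEquiv.mul_apply, AlgEquiv.mul_apply, ih, H.δC_apply]

theorem CovHyp.δC_pow_p (H : CovHyp I (FS N) w p ζ h1 h10) : H.δC ^ p = 1 := by
  refine AlgEquiv.ext fun x => ?_
  rw [H.δC_pow_apply, H.δK_pow_p]
  rfl

/-- `Cov.pow`. -/
theorem CovHyp.δC_pow (H : CovHyp I (FS N) w p ζ h1 h10) (x : fixS I (adjF (FS N) h1)) :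
    (H.δC ^ p) x = x := by
  rw [H.δC_pow_p]
  rfl

/-- `Cov.fix`. -/
theorem CovHyp.δC_fix (H : CovHyp I (FS N) w p ζ h1 h10) (x : fixS I (adjF (FS N) h1))
    (hx : H.δC x = x) : ∃ x₀ : EF I N, algebraMap (EF I N) (fixS I (adjF (FS N) h1)) x₀ = x := by
  obtain ⟨x₀, hx₀⟩ := H.δK_fix x hx
  exact ⟨⟨⟨(x₀ : Λ), x₀.2.1⟩, x₀.2.2⟩, hx₀⟩

/-- `δ ^ k` on series. -/
theorem CovHyp.coe_δC_pow (H : CovHyp I (FS N) w p ζ h1 h10) (k : ℕ)
    (x : fixS I (adjF (FS N) h1)) :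
    (((H.δC ^ k) x : fixS I (adjF (FS N) h1)) : Λ) = (((H.kum.deck ^ k) (toF1 x) : adjF (FS N) h1) : Λ) := by
  rw [H.δC_pow_apply, H.δK_pow_apply]
  exact congrArg Subtype.val (H.toF1_δE_pow k x)

/-! ### the inputs of `hgc_main` -/

/-- a ring hom `S → ℚ̄((q))` which fixes the constants and `t` preserves integrality over `ℚ̄[t]`. -/
theorem covEC_isInt_hom (S : Subfield Λ) (φ : S →+* Λ) (hC : ∀ a : Qb, HahnSeries.C a ∈ S)
    (hφC : ∀ a : Qb, φ ⟨HahnSeries.C a, hC a⟩ = HahnSeries.C a) {t : Λ} (ht : t ∈ S)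
    (hφt : φ ⟨t, ht⟩ = t) (y : S) (h : IsInt Qb t (y : Λ)) : IsInt Qb t (φ y) := by
  obtain ⟨P, hP, h0⟩ := h
  have hmem : ∀ c : Qb[X], ((aeval t : Qb[X] →ₐ[Qb] Λ) : Qb[X] →+* Λ) c ∈ S := by
    intro c
    induction c using Polynomial.induction_on' with
    | add a b ha hb => rw [map_add]; exact add_mem ha hb
    | monomial n a =>
      rw [RingHom.coe_coe, aeval_monomial, hgc_algebraMap]
      exact mul_mem (hC a) (pow_mem ht n)
  let a' : Qb[X] →+* S := (((aeval t : Qb[X] →ₐ[Qb] Λ) : Qb[X] →+* Λ)).codRestrict S hmem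
  have h1 : S.subtype.comp a' = ((aeval t : Qb[X] →ₐ[Qb] Λ) : Qb[X] →+* Λ) := rfl
  have h2 : eval₂ a' y P = 0 := by
    apply S.subtype_injective
    rw [map_zero, hom_eval₂, h1]
    exact h0
  have key : φ.comp a' = ((aeval t : Qb[X] →ₐ[Qb] Λ) : Qb[X] →+* Λ) := by
    apply Polynomial.ringHom_ext
    · intro a
      have e1 : a' (C a) = ⟨HahnSeries.C a, hC a⟩ := by
        apply Subtype.ext
        show ((aeval t : Qb[X] →ₐ[Qb] Λ) : Qb[X] →+* Λ) (C a) = HahnSeries.C a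
        rw [RingHom.coe_coe, aeval_C, hgc_algebraMap]
      rw [RingHom.comp_apply, e1, hφC, RingHom.coe_coe, aeval_C, hgc_algebraMap]
    · have e1 : a' X = ⟨t, ht⟩ := by
        apply Subtype.ext
        show ((aeval t : Qb[X] →ₐ[Qb] Λ) : Qb[X] →+* Λ) X = t
        rw [RingHom.coe_coe, aeval_X]
      rw [RingHom.comp_apply, e1, hφt, RingHom.coe_coe, aeval_X]
  refine ⟨P, hP, ?_⟩
  have h3 := congrArg φ h2
  rw [map_zero, hom_eval₂, key] at h3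
  exact h3

/-- `hδ` of `hgc_main`. -/
theorem CovHyp.isInt_δC (H : CovHyp I (FS N) w p ζ h1 h10) {t : Λ} (ht : t ∈ FS N)
    (x : fixS I (adjF (FS N) h1)) (h : IsInt Qb t (x : Λ)) : IsInt Qb t ((H.δC x : _) : Λ) := by
  rw [H.coe_δC]
  refine covEC_isInt_hom (adjF (FS N) h1) H.δ (fun a => le_adjF _ _ (H.C_mem a)) (fun a => ?_)
    (le_adjF _ _ ht) ?_ (toF1 x) h
  · exact congrArg Subtype.val (H.kum.deck_F ⟨_, H.C_mem a⟩)
  · exact congrArg Subtype.val (H.kum.deck_F ⟨t, ht⟩)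

/-- integrality in `FL ℚ̄ N` and in `ℚ̄((q))`. -/
theorem covEC_isInt_coe_iff {t x : FL Qb N} : IsInt Qb (t : Λ) (x : Λ) ↔ IsInt Qb t x := by
  refine ⟨fun h => ?_, hgc_isInt_coe⟩
  obtain ⟨P, hP, h0⟩ := h
  refine ⟨P, hP, ?_⟩
  have key : ((FL Qb N).val : FL Qb N →+* Λ).comp ((aeval t : Qb[X] →ₐ[Qb] FL Qb N) : Qb[X] →+* FL Qb N)
      = ((aeval (t : Λ) : Qb[X] →ₐ[Qb] Λ) : Qb[X] →+* Λ) := by
    apply Polynomial.ringHom_ext
    · intro a
      simp only [RingHom.comp_apply, RingHom.coe_coe, aeval_C]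
      rfl
    · simp only [RingHom.comp_apply, RingHom.coe_coe, aeval_X]
      rfl
  apply (FL Qb N).val.injective
  have h1 : ((FL Qb N).val : FL Qb N →+* Λ) (eval₂ ((aeval t : Qb[X] →ₐ[Qb] FL Qb N) : Qb[X] →+* FL Qb N) x P) = 0 := by
    rw [hom_eval₂, key]
    exact h0
  rw [map_zero]
  exact h1

/-- `hst` of `hgc_main`. -/
theorem CovHyp.hst (H : CovHyp I (FS N) w p ζ h1 h10) :
    ∀ τ ∈ I, ∀ y ∈ adjF (FS N) h1, galS τ y ∈ adjF (FS N) h1 :=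
  fun τ hτ y hy => H.gal_mem τ hτ ⟨y, hy⟩

/-- `hfin` of `hgc_main`. -/
theorem CovHyp.hfin (H : CovHyp I (FS N) w p ζ h1 h10) : ∀ y ∈ adjF (FS N) h1, HgcFin I y :=
  fun _ hy => hgcFin_adjF (fun _ hf => hgcFin_of_mem_FL (N := N) hf)
    (HgcFin.of_pow H.prime.pos (hgcFin_of_mem_FL (N := N) H.pow_mem)) hy

/-- `hι` of `hgc_main`. -/
theorem covEC_hι : ∀ y ∈ adjF (FS N) h1, FixS (I : Set GQ) y →
    ∃ x : fixS I (adjF (FS N) h1), (fixS I (adjF (FS N) h1)).subtype x = y :=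
  fun y hy hfix => ⟨⟨y, hy, hfix⟩, rfl⟩

/-- **(HG) for the concrete cover**: `W = u ^ p * b ^ p` with `u` a Kummer root of level `N` and `b ∈ F1`. -/
theorem CovHyp.hg (H : CovHyp I (FS N) w p ζ h1 h10) [Fact p.Prime] {Γ₀ I₀ : Type*}
    [LinearOrderedCommGroupWithZero Γ₀] [Fintype I₀] [S24.FF.IsFF1 Qb (FL Qb N)]
    {B₀ : Subring (EF I N)} {v₀ : I₀ → Valuation (EF I N) Γ₀} {p₀ : I₀ → Ideal B₀} {π : B₀}
    {vt : I₀ × ZMod p → Valuation (fixS I (adjF (FS N) h1)) Γ₀}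
    (hB : Base B₀ v₀ p₀ π) (C : Cov p B₀ v₀ H.δC vt)
    {t : FL Qb N} (htr : Transcendental Qb t) (htfix : FixS (I : Set GQ) (t : Λ))
    (hB₀ : ∀ z : EF I N, IsInt Qb t (z : FL Qb N) → (∀ i, v₀ i z ≤ 1) → z ∈ B₀)
    (hπ : IsInt Qb t ((π : EF I N) : FL Qb N))
    {u : Λ} (hu : IsKum Qb N p u) {W : fixS I (adjF (FS N) h1)} {b : Λ}
    (hb : b ∈ adjF (FS N) h1) (hb0 : b ≠ 0) (hW : (W : Λ) = u ^ p * b ^ p) :
    ∃ (n m : ℕ) (φ : Fin m → Fin p → fixS I (adjF (FS N) h1)),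
      (∀ k j, φ k j ∈ NS.Lam (B1 (fixS I (adjF (FS N) h1)) B₀) p W) ∧
      (∑ k, ∏ j, φ k j) * W = (algebraMap (EF I N) (fixS I (adjF (FS N) h1)) (π : EF I N)) ^ n := by
  obtain ⟨m, φ, hφ1, hφ, h⟩ := hgc_base htr H.prime.pos hu
  exact hgc_main (H := I) hB C (fixS I (adjF (FS N) h1)).subtype (t : Λ)
    (fun x hx => H.isInt_δC t.2 x hx)
    (fun x₀ hx₀ hv => hB₀ x₀ (covEC_isInt_coe_iff.1 hx₀) hv)
    (hgc_isInt_coe hπ) (adjF (FS N) h1) (fun a => le_adjF _ _ (H.C_mem a)) H.hst H.hfin covEC_hι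
    htfix H.prime.pos W.2.2 hb hb0 hW φ (fun k j => le_adjF _ _ (hφ1 k j)) hφ h

end Fermat.Agent.MR.C
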