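import Fermat.Agent.MR.C.CovField
import Fermat.Agent.MR.C.AbsDefs

/-!
# MR / C / CovFieldK : the `K`-rational cyclic cover (`K = ℚ̄^I`), field theoretic part

* `fixS I S` : the `I`-fixed part of a subfield `S ⊆ ℚ̄((q))` (`fixS I (FL ℚ̄ N) = DSC.FH I N`).
* `E₀ = fixS I F`, `E = fixS I (adjF F h₁)`, `Algebra E₀ E`, `CovHyp.δK : E ≃ₐ[E₀] E`
  with `δK_pow` (`Cov.pow`) and `δK_fix` (`Cov.fix`).
* `vtOf p δ V (i, k) = (V i).comap (δ ^ k)` with `vtOf_shift`, `vtOf_ext`, `vtOf_arch`.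
-/

set_option autoImplicit false
noncomputable section

namespace Fermat.Agent.MR.C

open HahnSeries Fermat.Agent.GAL Fermat.Agent.DSC

/-- the `I`-fixed part of a subfield of `ℚ̄((q))`. -/
def fixS (I : Subgroup GQ) (S : Subfield (LaurentSeries Qb)) : Subfield (LaurentSeries Qb) where
  carrier := {x | x ∈ S ∧ ∀ τ ∈ I, galS τ x = x}
  mul_mem' := fun ha hb => ⟨mul_mem ha.1 hb.1, fun τ hτ => by rw [map_mul, ha.2 τ hτ, hb.2 τ hτ]⟩
  one_mem' := ⟨one_mem _, fun τ _ => map_one _⟩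
  add_mem' := fun ha hb => ⟨add_mem ha.1 hb.1, fun τ hτ => by rw [map_add, ha.2 τ hτ, hb.2 τ hτ]⟩
  zero_mem' := ⟨zero_mem _, fun τ _ => map_zero _⟩
  neg_mem' := fun ha => ⟨neg_mem ha.1, fun τ hτ => by rw [map_neg, ha.2 τ hτ]⟩
  inv_mem' := fun _ ha => ⟨inv_mem ha.1, fun τ hτ => by rw [map_inv₀, ha.2 τ hτ]⟩

theorem mem_fixS {I : Subgroup GQ} {S : Subfield (LaurentSeries Qb)} {x : LaurentSeries Qb} :
    x ∈ fixS I S ↔ x ∈ S ∧ ∀ τ ∈ I, galS τ x = x := Iff.rfl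

theorem fixS_le (I : Subgroup GQ) (S : Subfield (LaurentSeries Qb)) : fixS I S ≤ S :=
  fun _ hx => hx.1

theorem fixS_mono (I : Subgroup GQ) {S T : Subfield (LaurentSeries Qb)} (h : S ≤ T) :
    fixS I S ≤ fixS I T := fun _ hx => ⟨h hx.1, hx.2⟩

theorem fixS_FL (I : Subgroup GQ) (M : ℕ) : fixS I (FL Qb M).toSubfield = FH I M := rfl

variable {I : Subgroup GQ} {F : Subfield (LaurentSeries Qb)} {w : F →+* LaurentSeries Qb}
  {p : ℕ} {ζ : Qb} {h1 h10 : LaurentSeries Qb}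

/-- `E = F1_K` is an algebra over `E₀ = F_K`. -/
instance covAlgebra (I : Subgroup GQ) (F : Subfield (LaurentSeries Qb)) (h1 : LaurentSeries Qb) :
    Algebra (fixS I F) (fixS I (adjF F h1)) :=
  (Subfield.inclusion (fixS_mono I (le_adjF F h1))).toAlgebra

theorem coe_algebraMap_cov (x : fixS I F) :
    ((algebraMap (fixS I F) (fixS I (adjF F h1)) x : fixS I (adjF F h1)) : LaurentSeries Qb) = x :=
  rfl

/-- an element of `E` as an element of `F1`. -/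
def toF1 (x : fixS I (adjF F h1)) : adjF F h1 := ⟨x, x.2.1⟩

theorem CovHyp.δ_mem_fixS (H : CovHyp I F w p ζ h1 h10) (x : fixS I (adjF F h1)) :
    H.δ (toF1 x) ∈ fixS I (adjF F h1) := by
  refine ⟨(H.kum.deck (toF1 x)).2, fun τ hτ => ?_⟩
  rw [H.gal_δ τ hτ]
  congr 1
  exact Subtype.ext (x.2.2 τ hτ)

/-- the deck transformation on `E`, as an algebra endomorphism. -/
def CovHyp.δE (H : CovHyp I F w p ζ h1 h10) :
    fixS I (adjF F h1) →ₐ[fixS I F] fixS I (adjF F h1) where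
  toFun x := ⟨H.δ (toF1 x), H.δ_mem_fixS x⟩
  map_one' := Subtype.ext (map_one H.δ)
  map_mul' x y := Subtype.ext (map_mul H.δ (toF1 x) (toF1 y))
  map_zero' := Subtype.ext (map_zero H.δ)
  map_add' x y := Subtype.ext (map_add H.δ (toF1 x) (toF1 y))
  commutes' x := by
    apply Subtype.ext
    have h := congrArg (Subtype.val : adjF F h1 → LaurentSeries Qb) (H.kum.deck_F ⟨x, x.2.1⟩)
    exact h

theorem CovHyp.coe_δE (H : CovHyp I F w p ζ h1 h10) (x : fixS I (adjF F h1)) :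
    ((H.δE x : fixS I (adjF F h1)) : LaurentSeries Qb) = H.δ (toF1 x) := rfl

theorem CovHyp.toF1_δE (H : CovHyp I F w p ζ h1 h10) (x : fixS I (adjF F h1)) :
    toF1 (H.δE x) = H.kum.deck (toF1 x) := rfl

theorem CovHyp.toF1_δE_pow (H : CovHyp I F w p ζ h1 h10) (k : ℕ) (x : fixS I (adjF F h1)) :
    toF1 ((H.δE ^ k) x) = (H.kum.deck ^ k) (toF1 x) := by
  induction k generalizing x with
  | zero => rfl
  | succ k ih =>
    rw [pow_succ, pow_succ, AlgHom.mul_apply, RingHom.mul_def, RingHom.comp_apply, ih, H.toF1_δE]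

theorem CovHyp.δE_pow_p (H : CovHyp I F w p ζ h1 h10) : H.δE ^ p = 1 := by
  refine AlgHom.ext fun x => Subtype.ext ?_
  have h := H.toF1_δE_pow p x
  rw [H.kum.deck_pow_p] at h
  have h' := congrArg (Subtype.val : adjF F h1 → LaurentSeries Qb) h
  exact h'

/-- **the deck transformation** `δ : E ≃ₐ[E₀] E`. -/
def CovHyp.δK (H : CovHyp I F w p ζ h1 h10) :
    fixS I (adjF F h1) ≃ₐ[fixS I F] fixS I (adjF F h1) :=
  AlgEquiv.ofAlgHom H.δE (H.δE ^ (p - 1))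
    (by
      have h : H.δE * H.δE ^ (p - 1) = 1 := by
        rw [← pow_succ', Nat.sub_add_cancel H.prime.one_le, H.δE_pow_p]
      exact h)
    (by
      have h : H.δE ^ (p - 1) * H.δE = 1 := by
        rw [← pow_succ, Nat.sub_add_cancel H.prime.one_le, H.δE_pow_p]
      exact h)

theorem CovHyp.δK_apply (H : CovHyp I F w p ζ h1 h10) (x : fixS I (adjF F h1)) :
    H.δK x = H.δE x := rfl

theorem CovHyp.coe_δK (H : CovHyp I F w p ζ h1 h10) (x : fixS I (adjF F h1)) :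
    ((H.δK x : fixS I (adjF F h1)) : LaurentSeries Qb) = H.δ (toF1 x) := rfl

theorem CovHyp.δK_pow_apply (H : CovHyp I F w p ζ h1 h10) (k : ℕ) (x : fixS I (adjF F h1)) :
    (H.δK ^ k) x = (H.δE ^ k) x := by
  induction k generalizing x with
  | zero => rfl
  | succ k ih => rw [pow_succ, pow_succ, AlgEquiv.mul_apply, AlgHom.mul_apply, ih, H.δK_apply]

theorem CovHyp.δK_pow_p (H : CovHyp I F w p ζ h1 h10) : H.δK ^ p = 1 := by
  refine AlgEquiv.ext fun x => ?_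
  rw [H.δK_pow_apply, H.δE_pow_p]
  rfl

/-- `Cov.pow`. -/
theorem CovHyp.δK_pow (H : CovHyp I F w p ζ h1 h10) (x : fixS I (adjF F h1)) :
    (H.δK ^ p) x = x := by
  rw [H.δK_pow_p]
  rfl

/-- `Cov.fix`. -/
theorem CovHyp.δK_fix (H : CovHyp I F w p ζ h1 h10) (x : fixS I (adjF F h1)) (hx : H.δK x = x) :
    ∃ x₀ : fixS I F, algebraMap (fixS I F) (fixS I (adjF F h1)) x₀ = x := by
  have hchar : ((p : ℕ) : LaurentSeries Qb) ≠ 0 := by
    have h1 : ((p : ℕ) : LaurentSeries Qb) = HahnSeries.C (p : Qb) := (map_natCast _ p).symm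
    rw [h1, Ne, map_eq_zero_iff _ HahnSeries.C_injective]
    exact_mod_cast H.prime.ne_zero
  have h1 : H.kum.deck (toF1 x) = toF1 x := congrArg toF1 hx
  have h2 := H.kum.mem_of_deck_eq hchar h1
  exact ⟨⟨x, h2, x.2.2⟩, rfl⟩

/-! ### the valuations `vt (i, k) = V i ∘ δ ^ k` -/

section Vt

variable {E₀ E Γ₀ I₀ : Type*} [Field E₀] [Field E] [Algebra E₀ E]
  [LinearOrderedCommGroupWithZero Γ₀]

/-- `vt (i, k) = V i ∘ δ ^ k`. -/
def vtOf (p : ℕ) (δ : E ≃ₐ[E₀] E) (V : I₀ → Valuation E Γ₀) (b : I₀ × ZMod p) : Valuation E Γ₀ :=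
  (V b.1).comap ((δ ^ b.2.val : E ≃ₐ[E₀] E) : E →+* E)

theorem vtOf_apply (p : ℕ) (δ : E ≃ₐ[E₀] E) (V : I₀ → Valuation E Γ₀) (i : I₀) (k : ZMod p)
    (x : E) : vtOf p δ V (i, k) x = V i ((δ ^ k.val) x) := rfl

theorem vtOf_shift {p : ℕ} [Fact p.Prime] {δ : E ≃ₐ[E₀] E} (hδ : δ ^ p = 1)
    (V : I₀ → Valuation E Γ₀) (i : I₀) (k : ZMod p) (x : E) :
    vtOf p δ V (i, k) (δ x) = vtOf p δ V (i, k + 1) x := by
  have : Fact (1 < p) := ⟨(Fact.out : p.Prime).one_lt⟩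
  rw [vtOf_apply, vtOf_apply, ZMod.val_add, ZMod.val_one, ← pow_eq_pow_mod _ hδ, pow_succ,
    AlgEquiv.mul_apply]

theorem vtOf_ext (p : ℕ) (δ : E ≃ₐ[E₀] E) {V : I₀ → Valuation E Γ₀} {v₀ : I₀ → Valuation E₀ Γ₀}
    (h : ∀ i x, V i (algebraMap E₀ E x) = v₀ i x) (i : I₀) (k : ZMod p) (x : E₀) :
    vtOf p δ V (i, k) (algebraMap E₀ E x) = v₀ i x := by
  rw [vtOf_apply, AlgEquiv.commutes, h]

theorem vtOf_arch (p : ℕ) (δ : E ≃ₐ[E₀] E) {V : I₀ → Valuation E Γ₀} (h : ∀ i, KL.Arch (V i))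
    (b : I₀ × ZMod p) : KL.Arch (vtOf p δ V b) :=
  fun _ hx γ hγ => h b.1 _ hx γ hγ

end Vt

end Fermat.Agent.MR.C
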