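import Fermat.Agent.MR.C.Split0
import Fermat.Agent.ORD.P3.TopCore
import Fermat.Agent.ORD.P2.K1
import Fermat.Agent.ORD.P1.Inertia

/-!
# MR / C : the toric line has a root `h₁` whose `p`-th power is `≡ 1 mod λ^p 𝔪` at BOTH valuations

`deep_kum` : input = exactly the hypotheses of `MR.CStatement` on `u₁` (Kummer, inertia acts by the
cyclotomic character, `U_p`-periodic, new in the norm form (R2)); output = `h₁` in the same class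
(`h₁ / u₁ ∈ FL`) with `Dp A (λ^p) (h₁^p) 0`, `Dp A (λ^p) (w (h₁^p)) 0`.
-/

set_option autoImplicit false
noncomputable section

namespace Fermat.Agent.MR.C

open ModularCurve AlgebraicCurve HahnSeries Fermat.Agent.GR Fermat.Agent.GAL Fermat.Agent.GAL.KLC
open Fermat.Agent.S24 Fermat.Agent.TOR.GB Fermat.Agent.ORD.P2 Fermat.Agent.ORD.P3

variable {A : ValuationSubring Qb} {M₁ p : ℕ} [NeZero M₁] [NeZero p]

theorem DeepKum_iterate_NmL_mem (hp : p.Prime) (hpM : ¬ p ∣ M₁) {r : LaurentSeries Qb}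
    (hr : r ∈ FL Qb (M₁ * p)) (n : ℕ) : (NmL Qb p)^[n] r ∈ FL Qb (M₁ * p) := by
  induction n with
  | zero => exact hr
  | succ n ih =>
    rw [Function.iterate_succ_apply']
    exact NmL_mem_FL hp hpM ih

/-- `U_p`-periodicity only depends on the class. -/
theorem DeepKum_periodic (hp : p.Prime) (hpM : ¬ p ∣ M₁) {u v : LaurentSeries Qb} (hu0 : u ≠ 0)
    (hv0 : v ≠ 0) (hvu : v / u ∈ FL Qb (M₁ * p)) {n : ℕ}
    (hU : (NmL Qb p)^[n] u / u ∈ FL Qb (M₁ * p)) : (NmL Qb p)^[n] v / v ∈ FL Qb (M₁ * p) := by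
  have e1 : v = u * (v / u) := by rw [mul_div_cancel₀ _ hu0]
  have e2 : (NmL Qb p)^[n] v = (NmL Qb p)^[n] u * (NmL Qb p)^[n] (v / u) := by
    conv_lhs => rw [e1]
    exact iterate_map_mul (NmL Qb p) n _ _
  have e3 : (NmL Qb p)^[n] v / v
      = ((NmL Qb p)^[n] u / u) * ((NmL Qb p)^[n] (v / u) / (v / u)) := by
    rw [e2]
    field_simp
  rw [e3]
  exact mul_mem hU (div_mem (DeepKum_iterate_NmL_mem hp hpM hvu n) hvu)

/-- **(R2) only depends on the class.** -/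
theorem new_of_div (hp : p.Prime) (hpM : ¬ p ∣ M₁) {u v : LaurentSeries Qb} (hu0 : u ≠ 0)
    (hvu : v / u ∈ FL Qb (M₁ * p)) (hu : u ^ p ∈ FL Qb (M₁ * p)) (hv : v ^ p ∈ FL Qb (M₁ * p))
    (hnew : ∃ (c : Qb) (g : LaurentSeries Qb), g ∈ FL Qb M₁ ∧
      ((wq M₁ p ⟨u ^ p, hu⟩ : FN (M₁ * p)) : LaurentSeries Qb) * NmL Qb p (u ^ p)
        = HahnSeries.C c * g ^ p) :
    ∃ (c : Qb) (g : LaurentSeries Qb), g ∈ FL Qb M₁ ∧
      ((wq M₁ p ⟨v ^ p, hv⟩ : FN (M₁ * p)) : LaurentSeries Qb) * NmL Qb p (v ^ p)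
        = HahnSeries.C c * g ^ p := by
  obtain ⟨c, g, hg, h⟩ := hnew
  set r : FN (M₁ * p) := ⟨v / u, hvu⟩ with hr
  have e1 : (⟨v ^ p, hv⟩ : FN (M₁ * p)) = ⟨u ^ p, hu⟩ * r ^ p := by
    apply Subtype.ext
    show v ^ p = u ^ p * (v / u) ^ p
    rw [← mul_pow, mul_div_cancel₀ _ hu0]
  have e2 : v ^ p = u ^ p * (r : LaurentSeries Qb) ^ p := congrArg Subtype.val e1
  refine ⟨c, g * (((wq M₁ p r : FN (M₁ * p)) : LaurentSeries Qb) * NmL Qb p (r : LaurentSeries Qb)),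
    mul_mem hg (wq_mul_NmL_mem hp hpM r), ?_⟩
  have e3 : ((wq M₁ p (⟨u ^ p, hu⟩ * r ^ p) : FN (M₁ * p)) : LaurentSeries Qb)
      = ((wq M₁ p ⟨u ^ p, hu⟩ : FN (M₁ * p)) : LaurentSeries Qb)
        * ((wq M₁ p r : FN (M₁ * p)) : LaurentSeries Qb) ^ p := by
    rw [map_mul, map_pow]; rfl
  have e4 : NmL Qb p (v ^ p) = NmL Qb p (u ^ p) * NmL Qb p (r : LaurentSeries Qb) ^ p := by
    rw [e2, map_mul, map_pow (NmL Qb p) (r : LaurentSeries Qb) p]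
  rw [e1, e3, e4]
  linear_combination (((wq M₁ p r : FN (M₁ * p)) : LaurentSeries Qb) ^ p
    * NmL Qb p (r : LaurentSeries Qb) ^ p) * h

/-- **a root of the toric line which is deep at both valuations.** -/
theorem deep_kum (hM : AdmLevel M₁) (hp : p.Prime) (hp2 : p ≠ 2) (hpM : ¬ p ∣ M₁)
    (hA : A.LiesOverPrime p) {ζ : Qbˣ} (hζ : IsPrimitiveRoot ζ p)
    {u : LaurentSeries Qb} (hu : IsKum Qb (M₁ * p) p u)
    (hgal : ∀ τ ∈ A.inertiaSubgroupIn ℚ, ∀ e : ℕ, (∀ ξ : Qb, ξ ^ p = 1 → τ ξ = ξ ^ e) →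
      galS τ u / u ^ e ∈ FL Qb (M₁ * p))
    {n : ℕ} (hn : 1 ≤ n) (hU : (NmL Qb p)^[n] u / u ∈ FL Qb (M₁ * p))
    (hnew : ∃ (c : Qb) (g : LaurentSeries Qb), g ∈ FL Qb M₁ ∧
      ((wq M₁ p ⟨u ^ p, hu.pow_mem⟩ : FN (M₁ * p)) : LaurentSeries Qb) * NmL Qb p (u ^ p)
        = HahnSeries.C c * g ^ p) :
    ∃ h1 : LaurentSeries Qb, h1 ≠ 0 ∧ h1 / u ∈ FL Qb (M₁ * p) ∧
      ∃ hh : h1 ^ p ∈ FL Qb (M₁ * p), Dp A (lam ζ ^ p) (h1 ^ p) 0 ∧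
        Dp A (lam ζ ^ p) ((wq M₁ p ⟨h1 ^ p, hh⟩ : FN (M₁ * p)) : LaurentSeries Qb) 0 := by
  have hu0 := hu.ne_zero
  have hp2' : ¬ p ∣ 2 := fun h => hp2 ((Nat.prime_dvd_prime_iff_eq hp Nat.prime_two).1 h)
  -- (a) a representative which reduces to `1`
  obtain ⟨s0, hs0, hs0ζ'⟩ := ORD.P1.exists_inertia_pow A hp hA 1 2 hp2'
  have hs0ζ : ∀ ξ : Qb, ξ ^ p = 1 → s0 ξ = ξ ^ 2 := fun ξ hξ => hs0ζ' ξ (by rwa [pow_one])
  have hf := hgal s0 hs0 2 hs0ζ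
  obtain ⟨c, hc0, hred⟩ := k1a hp.ne_zero hs0 hu
  set v0 : LaurentSeries Qb := HahnSeries.C c * (galS s0 u / u) with hv0
  have hCc : (HahnSeries.C c : LaurentSeries Qb) ∈ FL Qb (M₁ * p) := by
    rw [← ValThm_coe_algebraMap (M₁ * p) c]
    exact (algebraMap Qb (FL Qb (M₁ * p)) c).2
  have hv0u : v0 / u ∈ FL Qb (M₁ * p) := by
    have e : v0 / u = HahnSeries.C c * (galS s0 u / u ^ 2) := by
      rw [hv0]; field_simp
    rw [e]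
    exact mul_mem hCc hf
  have hv00 : v0 ≠ 0 :=
    mul_ne_zero (C_ne_zero' hc0) (div_ne_zero (galS_ne_zero s0 hu0) hu0)
  have hv0K : IsKum Qb (M₁ * p) p v0 := by
    have e1 : v0 = u * (v0 / u) := by rw [mul_div_cancel₀ _ hu0]
    rw [e1]
    exact hu.mul (isKum_of_mem hv0u (div_ne_zero hv00 hu0))
  have hU0 := DeepKum_periodic hp hpM hu0 hv00 hv0u hU
  -- (b) `core_field_gen`
  obtain ⟨K, π, e₁, s, hKfd, hKgal, -, hζK, hπK, huK, CD, -, S⟩ :=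
    exists_coreData hM hp hpM A hA hζ ⊥ hp.ne_zero hv0K.pow_mem
  have huK' : v0 ∈ coeffField (fixF K.fixingSubgroup) := by rwa [fixF_fixingSubgroup]
  have hh : v0 ^ p ∈ FF (fixF K.fixingSubgroup) (M₁ * p) :=
    mem_FF_iff.mpr ⟨hv0K.pow_mem, pow_mem huK' p⟩
  have hg : (NmL Qb p)^[n] v0 / v0 ∈ FF (fixF K.fixingSubgroup) (M₁ * p) :=
    mem_FF_iff.mpr ⟨hU0, div_mem (iterate_NmL_mem_coeffField p huK' n) huK'⟩
  obtain ⟨v, hvv0, hv, h1, b, h2⟩ := core_field_gen hp hp2 hpM hA hζ CD S (fun x => x.2.1)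
    (fun x => rfl) hv00 hred hn (h := ⟨_, hh⟩) (g₀ := ⟨_, hg⟩) rfl rfl
  have hvu : v / u ∈ FL Qb (M₁ * p) := by
    have e : v / u = (v / v0) * (v0 / u) := by field_simp
    rw [e]
    exact mul_mem hvv0 hv0u
  -- (c) newness, (d) `deep_both`
  obtain ⟨c', g, hg', hR2⟩ := new_of_div hp hpM hu0 hvu hu.pow_mem hv hnew
  obtain ⟨Y, hY0, -, h3, h4⟩ := deep_both hM hp hp2 hpM hA hζ ⟨v ^ p, hv⟩ h1 h2 hg' hR2
  have hY0' : (Y : LaurentSeries Qb) ≠ 0 := fun h => hY0 (Subtype.ext h)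
  have hl0 : lam ζ ^ p ≠ 0 := pow_ne_zero _ (lam_ne_zero hp hζ)
  have hlm : lam ζ ^ p ∈ A.nonunits :=
    LamDp_pow_mem_nonunits (lam_mem_nonunits hp hA hζ.pow_eq_one) hp.ne_zero
  have hv0' : v ≠ 0 := by
    intro h0
    exact (h1.ne_zero hl0 hlm) (by rw [h0, zero_pow hp.ne_zero])
  have e5 : (v / (Y : LaurentSeries Qb)) ^ p
      = (((⟨v ^ p, hv⟩ : FN (M₁ * p)) / Y ^ p : FN (M₁ * p)) : LaurentSeries Qb) := by
    rw [div_pow]; rfl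
  have hmem : (v / (Y : LaurentSeries Qb)) ^ p ∈ FL Qb (M₁ * p) := by
    rw [e5]; exact ((⟨v ^ p, hv⟩ : FN (M₁ * p)) / Y ^ p).2
  have e6 : (⟨(v / (Y : LaurentSeries Qb)) ^ p, hmem⟩ : FN (M₁ * p))
      = (⟨v ^ p, hv⟩ : FN (M₁ * p)) / Y ^ p := Subtype.ext e5
  refine ⟨v / Y, div_ne_zero hv0' hY0', ?_, hmem, ?_, ?_⟩
  · have e : v / (Y : LaurentSeries Qb) / u = (v / u) / Y := by field_simp
    rw [e]
    exact div_mem hvu Y.2
  · rw [e5]; exact h3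
  · rw [e6]; exact h4

end Fermat.Agent.MR.C
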