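import Fermat.Agent.DSC.OrbitSum
import Fermat.Agent.DSC.ClassDesc

/-!
# MR / C / Desc : descent on the cover (formal part)

Everything happens inside `ℚ̄((q))`.  `F ⊆ F1` subfields (`F` = function field of level `N`, `F1 = F(h₁)` the cover),
`δ : F1 → ℚ̄((q))` the deck transformation (`δ h₁ = ζ h₁`), `ι0 : F1 → ℚ̄((q))` the expansion at a cusp above `0`
(`ι0 f = w f`, `ι0 h₁ = h₁₀`), `I ≤ G_ℚ` a subgroup stabilising `F1` and commuting with `δ`, `ι0`.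

`u` (leading coefficient `1`, finite level) and `u0 ≠ 0` satisfy, for every `τ ∈ I`,
`τ u = u h₁ ^ k f`, `τ u0 = u0 h₁₀ ^ k w f` (`Pairs.lean : Good.transfer`).

`desc_main` : the orbit sum `S = u a₁` (`a₁ ∈ F1`), `S0 = u0 ι0(a₁)`; both are `I`-fixed and nonzero;
`δ a₁ = η g a₁` with `g ∈ F1` fixed by `I` and `τ η * ζ ^ k = η`.
-/

set_option autoImplicit false
noncomputable section

namespace Fermat.Agent.MR.C

open HahnSeries Fermat.Agent.GAL Fermat.Agent.DSC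

/-- the formal data of the cover. -/
structure CoverDat (I : Subgroup GQ) (F F1 : Subfield (LaurentSeries Qb))
    (w : F →+* LaurentSeries Qb) (δ ι0 : F1 →+* LaurentSeries Qb) (ζ : Qb)
    (h1 h10 : LaurentSeries Qb) : Prop where
  le : F ≤ F1
  C_mem : ∀ c : Qb, (HahnSeries.C c : LaurentSeries Qb) ∈ F1
  h1_mem : h1 ∈ F1
  h1_ne : h1 ≠ 0
  ζ_ne : ζ ≠ 0
  δ_mem : ∀ x, δ x ∈ F1
  δ_F : ∀ f : F, δ ⟨f, le f.2⟩ = f
  δ_h1 : δ ⟨h1, h1_mem⟩ = HahnSeries.C ζ * h1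
  ι_F : ∀ f : F, ι0 ⟨f, le f.2⟩ = w f
  ι_h1 : ι0 ⟨h1, h1_mem⟩ = h10
  gal_mem : ∀ τ ∈ I, ∀ x : F1, galS τ x ∈ F1
  gal_δ : ∀ τ (hτ : τ ∈ I) (x : F1), galS τ (δ x) = δ ⟨galS τ x, gal_mem τ hτ x⟩
  gal_ι : ∀ τ (hτ : τ ∈ I) (x : F1), galS τ (ι0 x) = ι0 ⟨galS τ x, gal_mem τ hτ x⟩

variable {I : Subgroup GQ} {F F1 : Subfield (LaurentSeries Qb)}
  {w : F →+* LaurentSeries Qb} {δ ι0 : F1 →+* LaurentSeries Qb} {ζ : Qb}
  {u u0 h1 h10 : LaurentSeries Qb}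

theorem leadingCoeff_C' (c : Qb) : (HahnSeries.C c : LaurentSeries Qb).leadingCoeff = c :=
  HahnSeries.leadingCoeff_of_single

/-- **descent on the cover**. -/
theorem desc_main (D : CoverDat I F F1 w δ ι0 ζ h1 h10) (hu : u.leadingCoeff = 1) (hu0 : u0 ≠ 0)
    (L0 : IntermediateField ℚ Qb) [FiniteDimensional ℚ L0]
    (hL : ∀ σ : GQ, (∀ a ∈ L0, σ a = a) → galS σ u = u)
    (hτ : ∀ τ ∈ I, ∃ (k : ℕ) (f : F), f ≠ 0 ∧ galS τ u = u * h1 ^ k * f ∧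
      galS τ u0 = u0 * h10 ^ k * w f) :
    ∃ (a1 : F1) (S S0 g : LaurentSeries Qb) (η : Qb), a1 ≠ 0 ∧ η ≠ 0 ∧
      S = u * a1 ∧ S0 = u0 * ι0 a1 ∧ S ≠ 0 ∧ S0 ≠ 0 ∧
      (∀ τ ∈ I, galS τ S = S) ∧ (∀ τ ∈ I, galS τ S0 = S0) ∧
      g ∈ F1 ∧ g ≠ 0 ∧ (∀ τ ∈ I, galS τ g = g) ∧ δ a1 = HahnSeries.C η * g * (a1 : LaurentSeries Qb) ∧
      (∀ τ ∈ I, ∀ (k : ℕ) (f : F), f ≠ 0 → galS τ u = u * h1 ^ k * f → τ η * ζ ^ k = η) := by
  classical
  have hune : u ≠ 0 := ClassDesc_ne_zero_of_leadingCoeff hu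
  -- the additive monoid `u F1`
  let 𝒮 : AddSubmonoid (LaurentSeries Qb) :=
    { carrier := {y | ∃ a : F1, y = u * a}
      add_mem' := by
        rintro _ _ ⟨a, rfl⟩ ⟨b, rfl⟩
        exact ⟨a + b, by push_cast; ring⟩
      zero_mem' := ⟨0, by simp⟩ }
  have hstab : ∀ τ ∈ I, ∀ y ∈ 𝒮, galS τ y ∈ 𝒮 := by
    rintro τ hτI _ ⟨a, rfl⟩
    obtain ⟨k, f, -, h, -⟩ := hτ τ hτI
    refine ⟨⟨h1, D.h1_mem⟩ ^ k * ⟨f, D.le f.2⟩ * ⟨galS τ a, D.gal_mem τ hτI a⟩, ?_⟩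
    rw [map_mul, h]
    push_cast
    ring
  obtain ⟨S, ⟨a1, hS⟩, hS0, hSfix⟩ :=
    exists_fixed_of_stable I 𝒮 hstab (y := u) ⟨1, by simp⟩ hu L0 hL
  have ha1 : a1 ≠ 0 := by
    rintro rfl
    apply hS0
    rw [hS]; simp
  have ha1' : (a1 : LaurentSeries Qb) ≠ 0 := fun h => ha1 (Subtype.ext h)
  -- the action of `τ` on `a1`
  have hact : ∀ τ (hτI : τ ∈ I) (k : ℕ) (f : F), galS τ u = u * h1 ^ k * f →
      (⟨h1, D.h1_mem⟩ ^ k * ⟨f, D.le f.2⟩ * ⟨galS τ a1, D.gal_mem τ hτI a1⟩ : F1) = a1 := by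
    intro τ hτI k f h
    apply Subtype.ext
    apply mul_left_cancel₀ hune
    have := hSfix τ hτI
    rw [hS, map_mul, h] at this
    push_cast
    rw [← this]
    ring
  have hδa1 : δ a1 ≠ 0 := (map_ne_zero δ).2 ha1
  set g0 : LaurentSeries Qb := δ a1 / a1 with hg0
  have hg0ne : g0 ≠ 0 := div_ne_zero hδa1 ha1'
  have hg0act : ∀ τ (_ : τ ∈ I) (k : ℕ) (f : F), f ≠ 0 → galS τ u = u * h1 ^ k * f →
      galS τ g0 * HahnSeries.C ζ ^ k = g0 := by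
    intro τ hτI k f hf h
    have h1' := hact τ hτI k f h
    have h2 : δ (⟨h1, D.h1_mem⟩ ^ k * ⟨f, D.le f.2⟩ * ⟨galS τ a1, D.gal_mem τ hτI a1⟩ : F1)
        = δ a1 := by rw [h1']
    rw [map_mul, map_mul, map_pow, D.δ_h1, D.δ_F, ← D.gal_δ τ hτI] at h2
    have h3 : h1 ^ k * (f : LaurentSeries Qb) * galS τ a1 = a1 := by
      have := congrArg (Subtype.val) h1'
      push_cast at this
      exact this
    have hf' : (f : LaurentSeries Qb) ≠ 0 := fun h => hf (Subtype.ext h)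
    have hτa1 : galS τ (a1 : LaurentSeries Qb) ≠ 0 := (map_ne_zero _).2 ha1'
    have hh1k : h1 ^ k ≠ 0 := pow_ne_zero _ D.h1_ne
    rw [hg0, map_div₀]
    conv_rhs => rw [← h2, ← h3]
    rw [mul_pow]
    field_simp
  set η : Qb := g0.leadingCoeff with hη
  have hηne : η ≠ 0 := HahnSeries.leadingCoeff_ne_zero.2 hg0ne
  have hηact : ∀ τ ∈ I, ∀ (k : ℕ) (f : F), f ≠ 0 → galS τ u = u * h1 ^ k * f →
      τ η * ζ ^ k = η := by
    intro τ hτI k f hf h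
    have := congrArg HahnSeries.leadingCoeff (hg0act τ hτI k f hf h)
    rw [HahnSeries.leadingCoeff_mul, galS_leadingCoeff, ← map_pow, leadingCoeff_C'] at this
    exact this
  have hCη : (HahnSeries.C η : LaurentSeries Qb) ≠ 0 := by
    intro h
    apply hηne
    have := congrArg HahnSeries.leadingCoeff h
    rwa [leadingCoeff_C', HahnSeries.leadingCoeff_zero] at this
  refine ⟨a1, S, u0 * ι0 a1, (HahnSeries.C η)⁻¹ * g0, η, ha1, hηne, hS, rfl, hS0,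
    mul_ne_zero hu0 ((map_ne_zero ι0).2 ha1), hSfix, ?_, ?_, mul_ne_zero (inv_ne_zero hCη) hg0ne,
    ?_, ?_, hηact⟩
  · intro τ hτI
    obtain ⟨k, f, -, h, h'⟩ := hτ τ hτI
    have h1' := hact τ hτI k f h
    rw [map_mul, h', D.gal_ι τ hτI]
    conv_rhs => rw [← h1']
    rw [map_mul, map_mul, map_pow, D.ι_h1, D.ι_F]
    ring
  · exact F1.mul_mem (F1.inv_mem (D.C_mem η)) (F1.div_mem (D.δ_mem a1) a1.2)
  · intro τ hτI
    obtain ⟨k, f, hf, h, -⟩ := hτ τ hτI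
    have e1 := hg0act τ hτI k f hf h
    have e2 := hηact τ hτI k f hf h
    have hζk : (HahnSeries.C ζ : LaurentSeries Qb) ^ k ≠ 0 := by
      rw [← map_pow]
      intro h0
      have := congrArg HahnSeries.leadingCoeff h0
      rw [leadingCoeff_C', HahnSeries.leadingCoeff_zero] at this
      exact pow_ne_zero k D.ζ_ne this
    have hτη : (HahnSeries.C (τ η) : LaurentSeries Qb) ≠ 0 := by
      intro h0
      have := congrArg HahnSeries.leadingCoeff h0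
      rw [leadingCoeff_C', HahnSeries.leadingCoeff_zero] at this
      exact hηne ((map_eq_zero τ).1 this)
    rw [map_mul, map_inv₀, DSC.galS_C]
    have e3 : (HahnSeries.C η : LaurentSeries Qb) = HahnSeries.C (τ η) * HahnSeries.C ζ ^ k := by
      rw [← map_pow, ← map_mul, e2]
    rw [e3]
    conv_rhs => rw [← e1]
    field_simp
  · rw [hg0]
    field_simp

end Fermat.Agent.MR.C
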