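import Fermat.Agent.MR.C.RootIntA
import Fermat.Agent.ORD.P2.Lam

/-!
# MR / C : `p`-th roots of deep integral power series are integral power series.

`x^p = 1 + λ^p f`, `f ∈ A[[q]]`  ⟹  `x = 1 + λ z`, `z ∈ A[[q]]`   (`λ = ζ_p - 1`, `A ∣ p`).
-/

set_option autoImplicit false

open Polynomial

noncomputable section

namespace Fermat.Agent.MR.C

open Fermat.Agent.ORD.P2

variable {L : Type*} [Field L] {A : ValuationSubring L} {p : ℕ} {ζ : Lˣ}

/-- the polynomial `((1 + λ T)^p - 1)/λ^p`. -/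
def rootPoly (p : ℕ) (l : L) : L[X] := C (l⁻¹ ^ p) * ((1 + C l * X) ^ p - 1)

theorem rootPoly_coeff (p : ℕ) (l : L) (i : ℕ) :
    (rootPoly p l).coeff i = l⁻¹ ^ p * ((p.choose i : L) * l ^ i - if i = 0 then 1 else 0) := by
  have h1 : (1 + C l * X : L[X]) ^ p = ((1 + X : L[X]) ^ p).comp (C l * X) := by
    simp
  rw [rootPoly, coeff_C_mul, coeff_sub, h1, comp_C_mul_X_coeff, coeff_one_add_X_pow, coeff_one]

theorem rootPoly_coeff_mem (hp : p.Prime) (hp2 : p ≠ 2) (hA : A.LiesOverPrime p)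
    (hζ : IsPrimitiveRoot ζ p) (i : ℕ) : (rootPoly p (lam ζ)).coeff i ∈ A := by
  have hl := lam_ne_zero hp hζ
  have hlA : lam ζ ∈ A := (cRed_zero_iff.2 (lam_mem_nonunits hp hA hζ.pow_eq_one)).mem
  rw [rootPoly_coeff]
  rcases Nat.eq_zero_or_pos i with rfl | hi
  · simp [A.zero_mem]
  rw [if_neg hi.ne', sub_zero]
  rcases lt_trichotomy i p with h | rfl | h
  · obtain ⟨m, hm⟩ := hp.dvd_choose_self hi.ne' h
    have e : (lam ζ)⁻¹ ^ p * ((p.choose i : L) * lam ζ ^ i)
        = (m : L) * ((p : L) / lam ζ ^ (p - 1)) * lam ζ ^ (i - 1) := by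
      rw [hm]
      obtain ⟨j, rfl⟩ : ∃ j, i = j + 1 := ⟨i - 1, (Nat.sub_add_cancel hi).symm⟩
      obtain ⟨n, rfl⟩ : ∃ n, p = n + 1 := ⟨p - 1, (Nat.sub_add_cancel hp.one_le).symm⟩
      rw [Nat.add_sub_cancel, Nat.add_sub_cancel, inv_pow]
      push_cast
      field_simp
      ring
    rw [e]
    exact A.mul_mem _ _ (A.mul_mem _ _ (natCast_mem A m) (cRed_p_div_lam hp hp2 hA hζ).mem)
      (pow_mem hlA _)
  · rw [Nat.choose_self, Nat.cast_one, one_mul, ← mul_pow, inv_mul_cancel₀ hl, one_pow]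
    exact A.one_mem
  · rw [Nat.choose_eq_zero_of_lt h, Nat.cast_zero, zero_mul, mul_zero]
    exact A.zero_mem

theorem rootPoly_monic (hp : p.Prime) {l : L} (hl : l ≠ 0) (c : L) :
    (rootPoly p l - C c).Monic := by
  refine monic_of_natDegree_le_of_coeff_eq_one p ?_ ?_
  · rw [natDegree_le_iff_coeff_eq_zero]
    intro N hN
    rw [coeff_sub, rootPoly_coeff, coeff_C, if_neg (by omega), if_neg (by omega),
      Nat.choose_eq_zero_of_lt hN]
    simp
  · rw [coeff_sub, rootPoly_coeff, coeff_C, if_neg hp.ne_zero, if_neg hp.ne_zero, Nat.choose_self,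
      Nat.cast_one, one_mul, sub_zero, sub_zero, ← mul_pow, inv_mul_cancel₀ hl, one_pow]

theorem rootPoly_eval₂ {S : Type*} [CommRing S] (φ : L →+* S) (p : ℕ) (l : L) (z : S) :
    (rootPoly p l).eval₂ φ z = φ (l⁻¹ ^ p) * ((1 + φ l * z) ^ p - 1) := by
  simp [rootPoly, eval₂_mul, eval₂_sub, eval₂_pow, eval₂_add]

theorem rootPoly_derivative_eval (p : ℕ) (l z : L) :
    (rootPoly p l).derivative.eval z = l⁻¹ ^ p * ((p : L) * (1 + l * z) ^ (p - 1) * l) := by
  simp [rootPoly, derivative_pow]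

/-- a root of a monic polynomial with coefficients in `A` lies in `A`. -/
theorem RootInt_mem_of_monic {P : L[X]} (hP : P.Monic) (hc : ∀ i, P.coeff i ∈ A) {z : L}
    (hz : P.eval z = 0) : z ∈ A := by
  have hs : (↑P.coeffs : Set L) ⊆ A.toSubring := by
    intro x hx
    obtain ⟨i, -, rfl⟩ := Polynomial.mem_coeffs_iff.1 hx
    exact hc i
  have hint : IsIntegral A z := by
    refine ⟨P.toSubring A.toSubring hs, (monic_toSubring P _ hs).2 hP, ?_⟩
    have h1 : (P.toSubring A.toSubring hs).map (A.toSubring.subtype) = P := map_toSubring P _ hs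
    have h2 : (algebraMap A L) = A.toSubring.subtype := rfl
    rw [h2, ← eval_map, h1, hz]
  obtain ⟨y, hy⟩ := IsIntegrallyClosed.isIntegral_iff.1 hint
  rw [← hy]
  exact y.2

/-- **power series form.** -/
theorem rootInt_ps (hp : p.Prime) (hp2 : p ≠ 2) (hA : A.LiesOverPrime p)
    (hζ : IsPrimitiveRoot ζ p) {z f : PowerSeries L} (hf : ∀ n, PowerSeries.coeff n f ∈ A)
    (hx : (1 + PowerSeries.C (lam ζ) * z) ^ p = 1 + PowerSeries.C (lam ζ ^ p) * f) :
    ∀ n, PowerSeries.coeff n z ∈ A := by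
  have hl := lam_ne_zero hp hζ
  have hpL : (p : L) ≠ 0 := natCast_ne_zero_of_isPrimitiveRoot hp hζ
  have hR : (rootPoly p (lam ζ)).eval₂ PowerSeries.C z = f := by
    rw [rootPoly_eval₂, hx, add_sub_cancel_left, ← mul_assoc, ← map_mul, ← mul_pow,
      inv_mul_cancel₀ hl, one_pow, map_one, one_mul]
  set z0 := PowerSeries.constantCoeff z with hz0
  have hR0 : (rootPoly p (lam ζ)).eval z0 = PowerSeries.constantCoeff f := by
    have h1 := congrArg (PowerSeries.constantCoeff (R := L)) hR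
    rw [Polynomial.hom_eval₂] at h1
    have : (PowerSeries.constantCoeff (R := L)).comp PowerSeries.C = RingHom.id L := by
      ext c
      simp
    rwa [this, Polynomial.eval₂_id] at h1
  have hf0 : PowerSeries.constantCoeff f ∈ A := by
    rw [← PowerSeries.coeff_zero_eq_constantCoeff_apply]
    exact hf 0
  have hz0A : z0 ∈ A := by
    refine RootInt_mem_of_monic (rootPoly_monic hp hl (PowerSeries.constantCoeff f)) ?_ ?_
    · intro i
      rw [coeff_sub, coeff_C]
      refine A.sub_mem (rootPoly_coeff_mem hp hp2 hA hζ i) ?_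
      split_ifs
      · exact hf0
      · exact A.zero_mem
    · rw [eval_sub, eval_C, hR0, sub_self]
  -- the derivative is a unit
  have hw : CRed A (1 + lam ζ * z0) 1 := by
    have h1 : CRed A (lam ζ * z0) 0 := by
      have := (cRed_zero_iff.2 (lam_mem_nonunits hp hA hζ.pow_eq_one)).mul (CRed.mk ⟨z0, hz0A⟩)
      rwa [zero_mul] at this
    have := CRed.one.add h1
    rwa [add_zero] at this
  have hw0 : 1 + lam ζ * z0 ≠ 0 := by
    intro h
    rw [h] at hw
    exact zero_ne_one (CRed.zero.unique hw)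
  have hwi : (1 + lam ζ * z0)⁻¹ ∈ A := (hw.inv one_ne_zero).mem
  refine hensel_coeff A.toSubring (rootPoly p (lam ζ)) (rootPoly_coeff_mem hp hp2 hA hζ) z f hf hR
    hz0A (lam ζ ^ (p - 1) / (p : L) * (1 + lam ζ * z0)⁻¹ ^ (p - 1))
    (A.mul_mem _ _ (cRed_lam_div_p hp hp2 hA hζ).mem (pow_mem hwi _)) ?_
  rw [rootPoly_derivative_eval, ← hz0]
  obtain ⟨n, rfl⟩ : ∃ n, p = n + 1 := ⟨p - 1, (Nat.sub_add_cancel hp.one_le).symm⟩
  rw [Nat.add_sub_cancel, inv_pow, inv_pow]
  field_simp
  ring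

/-- **Laurent series form.** -/
theorem rootInt (hp : p.Prime) (hp2 : p ≠ 2) (hA : A.LiesOverPrime p)
    (hζ : IsPrimitiveRoot ζ p) {x f : LaurentSeries L} (hf : ∀ n, f.coeff n ∈ A)
    (hf0 : ∀ n < 0, f.coeff n = 0) (hx : x ^ p = 1 + HahnSeries.C (lam ζ ^ p) * f) :
    ∃ z : LaurentSeries L, x = 1 + HahnSeries.C (lam ζ) * z ∧ (∀ n, z.coeff n ∈ A) ∧
      ∀ n < 0, z.coeff n = 0 := by
  have hl := lam_ne_zero hp hζ
  -- `f`, `x` are power series
  have key : ∀ y : LaurentSeries L, (∀ n < 0, y.coeff n = 0) →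
      ((PowerSeries.mk fun n : ℕ => y.coeff n : PowerSeries L) : LaurentSeries L) = y := by
    intro y hy
    ext n
    rw [PowerSeries.coeff_coe]
    split_ifs with h
    · exact (hy n h).symm
    · rw [PowerSeries.coeff_mk, Int.natAbs_of_nonneg (not_lt.1 h)]
  set f' : PowerSeries L := PowerSeries.mk fun n : ℕ => f.coeff n with hf'
  have hff : (f' : LaurentSeries L) = f := key f hf0
  have hg : x ^ p = ((1 + PowerSeries.C (lam ζ ^ p) * f' : PowerSeries L) : LaurentSeries L) := by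
    rw [hx, PowerSeries.coe_add, PowerSeries.coe_mul, PowerSeries.coe_one, PowerSeries.coe_C, hff]
  have hg0 : (1 + PowerSeries.C (lam ζ ^ p) * f' : PowerSeries L) ≠ 0 := by
    intro h
    have h1 := congrArg (PowerSeries.constantCoeff (R := L)) h
    rw [map_add, map_mul, map_one, map_zero, PowerSeries.constantCoeff_C] at h1
    have h2 : CRed A (1 + lam ζ ^ p * PowerSeries.constantCoeff f') 1 := by
      have h3 : PowerSeries.constantCoeff f' ∈ A := by
        rw [← PowerSeries.coeff_zero_eq_constantCoeff_apply, hf', PowerSeries.coeff_mk]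
        exact hf _
      have h4 := ((cRed_zero_iff.2 (lam_mem_nonunits hp hA hζ.pow_eq_one)).pow p).mul
        (CRed.mk ⟨_, h3⟩)
      rw [zero_pow hp.ne_zero, zero_mul] at h4
      have := CRed.one.add h4
      rwa [add_zero] at this
    rw [h1] at h2
    exact zero_ne_one (CRed.zero.unique h2)
  have hxp0 : x ^ p ≠ 0 := by
    rw [hg]
    intro h
    exact hg0 (HahnSeries.ofPowerSeries_injective (by rw [h, map_zero]))
  have hord : 0 ≤ (x ^ p).order := by
    by_contra h
    have h1 := HahnSeries.coeff_order_eq_zero.not.2 hxp0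
    apply h1
    have h2 : ∀ n < 0, (x ^ p).coeff n = 0 := by
      intro n hn
      rw [hg, PowerSeries.coeff_coe, if_pos hn]
    exact h2 _ (not_le.1 h)
  have hxord : 0 ≤ x.order := by
    rw [HahnSeries.order_pow] at hord
    by_contra h
    have : p • x.order < 0 := by
      rw [nsmul_eq_mul]
      exact mul_neg_of_pos_of_neg (by exact_mod_cast hp.pos) (not_le.1 h)
    omega
  have hx0 : ∀ n < 0, x.coeff n = 0 := fun n hn =>
    HahnSeries.coeff_eq_zero_of_lt_order (lt_of_lt_of_le hn hxord)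
  set x' : PowerSeries L := PowerSeries.mk fun n : ℕ => x.coeff n with hx'
  have hxx : (x' : LaurentSeries L) = x := key x hx0
  set z' : PowerSeries L := PowerSeries.C (lam ζ)⁻¹ * (x' - 1) with hz'
  have hxz : x' = 1 + PowerSeries.C (lam ζ) * z' := by
    rw [hz', ← mul_assoc, ← map_mul, mul_inv_cancel₀ hl, map_one, one_mul]
    ring
  have heq : (1 + PowerSeries.C (lam ζ) * z') ^ p = 1 + PowerSeries.C (lam ζ ^ p) * f' := by
    rw [← hxz]
    apply HahnSeries.ofPowerSeries_injective (Γ := ℤ)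
    rw [map_pow]
    exact (congrArg (· ^ p) hxx).trans hg
  have hz := rootInt_ps hp hp2 hA hζ (f := f') (fun n => by rw [hf', PowerSeries.coeff_mk]; exact hf _)
    heq
  refine ⟨(z' : LaurentSeries L), ?_, ?_, ?_⟩
  · rw [← hxx, hxz, PowerSeries.coe_add, PowerSeries.coe_mul, PowerSeries.coe_one,
      PowerSeries.coe_C]
  · intro n
    rw [PowerSeries.coeff_coe]
    split_ifs
    · exact A.zero_mem
    · exact hz _
  · intro n hn
    rw [PowerSeries.coeff_coe, if_pos hn]

end Fermat.Agent.MR.C
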