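import Fermat.Agent.MR.C.ASLift
import Fermat.Agent.MR.C.RootInt
import Fermat.Agent.MR.TH.BL2
import Fermat.Agent.GAL.KLC.IsIntOrd

/-!
# MR / C / F1H : the `p`-th roots `h₁`, `h₁₀` of a deep class are of bounded type  (block [F1])

* `f1h_bl` : (BL) on the chart `t⁻¹`: a function integral over `ℚ̄[t⁻¹]` of sup norm `≤ 1` is a power series with coefficients in `A`.
* `f1h_root` : `W` deep, `G^p W = 1 + λ^p f`, `f ∈ A[[q]]`, `h^p = W`  ⟹  `G h ∈ 1 + λ A[[q]]` and `h = 1 + λ (j + 𝔪)`, `j ∈ 𝔽_p`.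
* `f1h_main` : both cusps.
-/

set_option autoImplicit false

open Polynomial ModularCurve AlgebraicCurve

noncomputable section

namespace Fermat.Agent.MR.C

open Fermat.Agent.GR Fermat.Agent.GAL Fermat.Agent.GAL.KL Fermat.Agent.GAL.KLC Fermat.Agent.S24
open Fermat.Agent.GR.HeckeField Fermat.Agent.TOR.GB Fermat.Agent.TOR Fermat.Agent.TOR.T1C
open Fermat.Agent.TOR.KL2 Fermat.Agent.TOR.T1 Fermat.Agent.ORD Fermat.Agent.ORD.P4 Fermat.Agent.ORD.P5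
open Fermat.Agent.S24.FF Fermat.Agent.CAR Fermat.Agent.CAR.BK Fermat.Agent.CAR.CNT

/-- fixed points of Frobenius in a field of characteristic `p`. -/
theorem f1h_natCast_of_pow_eq {R : Type*} [Field R] {p : ℕ} (hp : p.Prime) [CharP R p] {y : R}
    (h : y ^ p = y) : ∃ j : ℕ, y = (j : R) := by
  have : Fact p.Prime := ⟨hp⟩
  have h1 : y ∈ (⊥ : Subfield R) := (Subfield.mem_bot_iff_pow_eq_self (F := R) (p := p)).2 h
  rw [← ZMod.fieldRange_castHom_eq_bot p] at h1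
  obtain ⟨a, rfl⟩ := h1
  refine ⟨a.val, ?_⟩
  conv_lhs => rw [← ZMod.natCast_zmod_val a]
  rw [map_natCast]

variable (M₁ p : ℕ) [NeZero M₁] [NeZero p]

/-- `t⁻¹` has integer coefficients. -/
theorem f1h_exists_inv : ∃ Y : LaurentSeries ℤ,
    (((tP M₁ p)⁻¹ : FN (M₁ * p)) : LaurentSeries Qb) = coeffMap (Int.castRingHom Qb) Y := by
  obtain ⟨Y, hY⟩ := Lift_exists_inv_XZ M₁
  refine ⟨Y * qExpand ℤ p Y, ?_⟩
  have e : ((tP M₁ p : FN (M₁ * p)) : LaurentSeries Qb)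
      = coeffMap (Int.castRingHom Qb) (XZ M₁ * qExpand ℤ p (XZ M₁)) := by
    have e1 : ((tP M₁ p : FN (M₁ * p)) : LaurentSeries Qb)
        = ((alp M₁ p (xF M₁) : FN (M₁ * p)) : LaurentSeries Qb)
          * ((bet M₁ p (xF M₁) : FN (M₁ * p)) : LaurentSeries Qb) := rfl
    rw [e1, coe_heckeAlphaBar, coe_heckeBetaBar, map_mul, GR.coeffMap_qExpand]
    rfl
  show ((tP M₁ p : FN (M₁ * p)) : LaurentSeries Qb)⁻¹ = _
  apply inv_eq_of_mul_eq_one_right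
  rw [e, ← map_mul, mul_mul_mul_comm, ← map_mul (qExpand ℤ p), hY, map_one, mul_one, map_one]

variable {M₁ p}
variable (hM : AdmLevel M₁) (hp : p.Prime) (hpM : ¬ p ∣ M₁) (A : ValuationSubring Qb)
  (hA : A.LiesOverPrime p)
include hM hp hpM hA

/-- **(BL) on the chart `t⁻¹`.** -/
theorem f1h_bl {z : FN (M₁ * p)} (hz : IsInt Qb (tP M₁ p)⁻¹ z)
    (h1 : vG A (M₁ * p) z ≤ 1) (h2 : vG A (M₁ * p) (wq M₁ p z) ≤ 1) :
    (∀ n, (z : LaurentSeries Qb).coeff n ∈ A) ∧ ∀ n < 0, (z : LaurentSeries Qb).coeff n = 0 := by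
  have H := lvl A M₁ p hp hpM
  have X := xDat M₁ p hp A hA (spansStatement M₁) (riStatement M₁) (ctStatement M₁ p hM hp hpM A hA)
  obtain ⟨P₀, hP₀⟩ := exists_place_Q M₁
  obtain ⟨P₁, hP₁⟩ := exists_place_Q (M₁ * p)
  have C := cusp M₁ p hp hpM P₀ hP₀ P₁ hP₁
  have S := T1.setup H X
  obtain ⟨Y, hY⟩ := f1h_exists_inv M₁ p
  constructor
  · exact MR.TH.coeff_mem_of_ON2 hp A hA (M₁ * p)
      (fun n => by rw [hY]; exact Lift_coeff_int_mem A Y n) S.inv _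
      ((T1.on2_ee H X hp.two_le).inv S) ((T1.spans_ee H X hp.two_le C).inv S.G1.ne_zero) hz h1 h2
  · have htr := transcendental_tt H X
    have htr' : Transcendental Qb (tP M₁ p)⁻¹ := transcendental_inv htr
    have h0 : 0 ≤ P₁.ord (tP M₁ p)⁻¹ := by
      have hx0 : xF M₁ ≠ 0 := fun h0 => (transcendental_xF M₁) (h0 ▸ isAlgebraic_zero)
      have e1 : P₁.ord (tP M₁ p) = P₁.ord (alp M₁ p (xF M₁)) + P₁.ord (bet M₁ p (xF M₁)) :=
        P₁.ord_mul ((_root_.map_ne_zero _).2 hx0) ((_root_.map_ne_zero _).2 hx0)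
      rw [Place.ord_inv, e1, C.ordα, C.ordβ, C.ordx]
      have : (0 : ℤ) ≤ (p : ℤ) * (mX M₁ : ℤ) := by positivity
      have h5 : (0 : ℤ) ≤ (mX M₁ : ℤ) := by positivity
      nlinarith
    have h3 := (isInt_iff_forall_ord htr' z).1 hz P₁ h0
    rw [hP₁] at h3
    intro n hn
    exact HahnSeries.coeff_eq_zero_of_lt_order (lt_of_lt_of_le hn h3)

omit hM hpM in
/-- **series level**: the root `h` of a deep `W`. -/
theorem f1h_root (hp2 : p ≠ 2) {ζ : Qbˣ} (hζ : IsPrimitiveRoot ζ p)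
    {G W f h : LaurentSeries Qb} {θ : LaurentSeries (kA A)}
    (hW : P2.Dp A (P2.lam ζ ^ p) W 0) (hG : P2.Dp A (P2.lam ζ) G θ)
    (hGf : G ^ p * W = 1 + HahnSeries.C (P2.lam ζ ^ p) * f)
    (hf : ∀ n, f.coeff n ∈ A) (hf0 : ∀ n < 0, f.coeff n = 0) (hh : h ^ p = W) :
    (∀ n, (G * h).coeff n ∈ A) ∧ (∀ n < 0, (G * h).coeff n = 0) ∧
      ∃ j : ℕ, P2.Dp A (P2.lam ζ) h (HahnSeries.C (j : kA A)) := by
  have hchar : CharP (kA A) p := charP_residueField hp hA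
  have hl : P2.lam ζ ≠ 0 := P2.lam_ne_zero hp hζ
  have hlm : P2.lam ζ ∈ A.nonunits := P2.lam_mem_nonunits hp hA hζ.pow_eq_one
  have hlA : P2.lam ζ ∈ A := (P2.cRed_zero_iff.2 hlm).mem
  have hx : (G * h) ^ p = 1 + HahnSeries.C (P2.lam ζ ^ p) * f := by rw [mul_pow, hh, hGf]
  obtain ⟨z, hz, hzA, hz0⟩ := rootInt hp hp2 hA hζ hf hf0 hx
  obtain ⟨y, hy⟩ := exists_int_of_coeff_mem A z hzA
  obtain ⟨yf, hyf⟩ := exists_int_of_coeff_mem A f hf
  have hzr : HasRed A z (coeffMap (IsLocalRing.residue A) y) := by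
    rw [← hy]; exact HasRed.of_int y
  have hfr : HasRed A f (coeffMap (IsLocalRing.residue A) yf) := by
    rw [← hyf]; exact HasRed.of_int yf
  have hxd : P2.Dp A (P2.lam ζ) (G * h) (coeffMap (IsLocalRing.residue A) y) :=
    (P2.dp_iff hl).2 ⟨z, hzr, hz⟩
  have r1 := as_rel p hp hp2 A hA hζ hW hG hfr hGf
  have r2 := as_rel p hp hp2 A hA hζ (P2.Dp.one _) hxd hfr (by rw [mul_one, hx])
  have hd : P2.Dp A (P2.lam ζ) h (coeffMap (IsLocalRing.residue A) y - θ) := by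
    have := hxd.div hl hlm hG
    rwa [mul_div_cancel_left₀ _ (hG.ne_zero hl hlm)] at this
  refine ⟨?_, ?_, ?_⟩
  · intro n
    rw [hz, HahnSeries.coeff_add, HahnSeries.C_mul_eq_smul, HahnSeries.coeff_smul, smul_eq_mul]
    refine A.add_mem _ _ ?_ (A.mul_mem _ _ hlA (hzA n))
    rw [HahnSeries.coeff_one]
    split_ifs
    · exact A.one_mem
    · exact A.zero_mem
  · intro n hn
    rw [hz, HahnSeries.coeff_add, HahnSeries.C_mul_eq_smul, HahnSeries.coeff_smul, hz0 n hn,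
      smul_zero, add_zero, HahnSeries.coeff_one, if_neg hn.ne]
  · have : Fact p.Prime := ⟨hp⟩
    have : CharP (LaurentSeries (kA A)) p :=
      charP_of_injective_ringHom (f := (HahnSeries.C : kA A →+* LaurentSeries (kA A)))
        HahnSeries.C_injective p
    have hfix : (coeffMap (IsLocalRing.residue A) y - θ) ^ p
        = coeffMap (IsLocalRing.residue A) y - θ := by
      rw [sub_pow_char]
      linear_combination r2 - r1
    obtain ⟨j, hj⟩ := f1h_natCast_of_pow_eq hp hfix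
    refine ⟨j, ?_⟩
    rw [map_natCast, ← hj]
    exact hd

/-- **[F1]**: the `p`-th roots of a class which is deep at both cusps. -/
theorem f1h_main (hp2 : p ≠ 2) {ζ : Qbˣ} (hζ : IsPrimitiveRoot ζ p) (W : FN (M₁ * p))
    (hW1 : P2.Dp A (P2.lam ζ ^ p) (W : LaurentSeries Qb) 0)
    (hW2 : P2.Dp A (P2.lam ζ ^ p) ((wq M₁ p W : FN (M₁ * p)) : LaurentSeries Qb) 0)
    (hdiv : ∀ P : Place Qb (FL Qb (M₁ * p)), (p : ℤ) ∣ P.ord W)
    {h1 h10 : LaurentSeries Qb} (hh1 : h1 ^ p = (W : LaurentSeries Qb))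
    (hh10 : h10 ^ p = ((wq M₁ p W : FN (M₁ * p)) : LaurentSeries Qb)) :
    ∃ G : FN (M₁ * p), G ≠ 0 ∧
      (∀ n, ((G : LaurentSeries Qb) * h1).coeff n ∈ A) ∧
      (∀ n < 0, ((G : LaurentSeries Qb) * h1).coeff n = 0) ∧
      (∀ n, (((wq M₁ p G : FN (M₁ * p)) : LaurentSeries Qb) * h10).coeff n ∈ A) ∧
      (∀ n < 0, (((wq M₁ p G : FN (M₁ * p)) : LaurentSeries Qb) * h10).coeff n = 0) ∧
      ∃ j j0 : ℕ, P2.Dp A (P2.lam ζ) h1 (HahnSeries.C (j : kA A)) ∧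
        P2.Dp A (P2.lam ζ) h10 (HahnSeries.C (j0 : kA A)) := by
  have H := lvl A M₁ p hp hpM
  obtain ⟨G, f, θ, θ', hG0, hGf, hfi, hf1, hf2, hGθ, hGθ'⟩ :=
    nearLamInf M₁ p hM hp hpM A hA hζ W hW1 hW2 hdiv
  have e1 : (G : LaurentSeries Qb) ^ p * (W : LaurentSeries Qb)
      = 1 + HahnSeries.C (P2.lam ζ ^ p) * (f : LaurentSeries Qb) := by
    have := congrArg (fun z : FL Qb (M₁ * p) => (z : LaurentSeries Qb)) hGf
    rw [← ValThm_coe_algebraMap (M₁ * p) (P2.lam ζ ^ p)]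
    exact this
  have e2 : ((wq M₁ p G : FN (M₁ * p)) : LaurentSeries Qb) ^ p
        * ((wq M₁ p W : FN (M₁ * p)) : LaurentSeries Qb)
      = 1 + HahnSeries.C (P2.lam ζ ^ p) * ((wq M₁ p f : FN (M₁ * p)) : LaurentSeries Qb) := by
    have h0 := congrArg (wq M₁ p) hGf
    rw [map_mul, map_pow, map_add, map_one, map_mul, AlgEquiv.commutes] at h0
    have := congrArg (fun z : FL Qb (M₁ * p) => (z : LaurentSeries Qb)) h0
    rw [← ValThm_coe_algebraMap (M₁ * p) (P2.lam ζ ^ p)]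
    exact this
  have hwt : wq M₁ p (tP M₁ p)⁻¹ = (tP M₁ p)⁻¹ := by rw [map_inv₀, T1.w_tt H]
  obtain ⟨b1, b2⟩ := f1h_bl hM hp hpM A hA hfi hf1 hf2
  obtain ⟨c1, c2⟩ := f1h_bl hM hp hpM A hA (T1.isInt_w hwt hfi) hf2 (by rw [H.ww]; exact hf1)
  obtain ⟨k1, k2, j, hj⟩ := f1h_root hp A hA hp2 hζ hW1 hGθ e1 b1 b2 hh1
  obtain ⟨l1, l2, j0, hj0⟩ := f1h_root hp A hA hp2 hζ hW2 hGθ' e2 c1 c2 hh10
  exact ⟨G, hG0, k1, k2, l1, l2, j, j0, hj, hj0⟩

end Fermat.Agent.MR.C
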