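import Fermat.Agent.MR.C.KI
import Fermat.Agent.DSC.FinIndex

/-!
# MR / C / KFNrm : every nonzero element of `KF A` is normalisable

(`P` integral of finite level `L₀` is fixed by `H = I ⊓ Fix L₀`, and `ℚ̄^H` is discretely valued: `DSC.exists_isUnif_of_finiteDimensional`;
so a coefficient of maximal absolute value exists.)
-/

set_option autoImplicit false
noncomputable section

namespace Fermat.Agent.MR.C

open HahnSeries ModularCurve Fermat.Agent.GR Fermat.Agent.GAL Fermat.Agent.GAL.KL Fermat.Agent.GAL.KLC Fermat.Agent.DSC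

variable {A : ValuationSubring Qb}

/-- a series with a coefficient of maximal absolute value is normalisable. -/
theorem nrm_of_max {P : LaurentSeries Qb} {k₀ : ℤ} (hk₀ : P.coeff k₀ ≠ 0)
    (hmax : ∀ k, A.valuation (P.coeff k) ≤ A.valuation (P.coeff k₀)) : Nrm A P := by
  have hmem : ∀ k, (HahnSeries.C (P.coeff k₀)⁻¹ * P).coeff k ∈ A := by
    intro k
    rw [HahnSeries.C_mul_eq_smul, HahnSeries.coeff_smul, smul_eq_mul, ← A.valuation_le_one_iff,
      map_mul, map_inv₀]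
    have hpos : A.valuation (P.coeff k₀) ≠ 0 := (map_ne_zero _).mpr hk₀
    rw [inv_mul_le_iff₀ (zero_lt_iff.mpr hpos), mul_one]
    exact hmax k
  obtain ⟨y, hy⟩ := exists_int_of_coeff_mem A _ hmem
  refine ⟨(P.coeff k₀)⁻¹, inv_ne_zero hk₀, coeffMap (IsLocalRing.residue A) y, ?_, ?_⟩
  · intro h0
    have h1 : y.coeff k₀ = 1 := by
      apply Subtype.ext
      have := congrArg (fun f => HahnSeries.coeff f k₀) hy
      simp only [coeffMap_coeff, HahnSeries.C_mul_eq_smul, HahnSeries.coeff_smul,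
        smul_eq_mul] at this
      rw [inv_mul_cancel₀ hk₀] at this
      exact this
    have h2 := congrArg (fun f => HahnSeries.coeff f k₀) h0
    simp only [coeffMap_coeff, h1, map_one, HahnSeries.coeff_zero] at h2
    exact one_ne_zero h2
  · rw [← hy]
    exact HasRed.of_int y

/-- discreteness: an integral series with coefficients in a discretely valued subfield has a coefficient of maximal absolute value. -/
theorem exists_max_coeff_of_unif {H : Subgroup GQ} {π : Qb} (hπ : IsUnif A H π)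
    {P : LaurentSeries Qb} (h1 : IntS A P) (h2 : ∀ τ ∈ H, galS τ P = P) (h0 : P ≠ 0) :
    ∃ k₀, P.coeff k₀ ≠ 0 ∧ ∀ k, A.valuation (P.coeff k) ≤ A.valuation (P.coeff k₀) := by
  classical
  have hπ1 : A.valuation π < 1 := A.mem_nonunits_iff.1 hπ.mem
  have hπ0 : A.valuation π ≠ 0 := (map_ne_zero _).mpr hπ.ne_zero
  have hπpos : 0 < A.valuation π := zero_lt_iff.2 hπ0
  -- every nonzero coefficient has absolute value `|π|^j`, `j : ℕ`
  have hnat : ∀ k, P.coeff k ≠ 0 → ∃ j : ℕ, A.valuation (P.coeff k) = A.valuation π ^ j := by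
    intro k hk
    obtain ⟨j, hj⟩ := hπ.gen _ (coeff_mem_EH h2 k) hk
    have hle : A.valuation (P.coeff k) ≤ 1 := (A.valuation_le_one_iff _).2 (h1 k)
    rcases le_or_gt 0 j with hj0 | hj0
    · refine ⟨j.toNat, ?_⟩
      rw [hj, ← zpow_natCast, Int.toNat_of_nonneg hj0]
    · exfalso
      rw [hj] at hle
      have h3 : (1 : A.ValueGroup) < A.valuation π ^ j := by
        have h4 : j = -((-j).toNat : ℤ) := by
          rw [Int.toNat_of_nonneg (by omega)]; ring
        have h5 : (-j).toNat ≠ 0 := by omega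
        rw [h4, zpow_neg, zpow_natCast, one_lt_inv₀ (pow_pos hπpos _)]
        exact pow_lt_one₀ zero_le hπ1 h5
      exact absurd hle (not_le.2 h3)
  obtain ⟨k₁, hk₁⟩ : ∃ k, P.coeff k ≠ 0 := by
    by_contra hcon
    push Not at hcon
    exact h0 (HahnSeries.ext (funext hcon))
  have hex : ∃ j : ℕ, ∃ k, P.coeff k ≠ 0 ∧ A.valuation (P.coeff k) = A.valuation π ^ j := by
    obtain ⟨j, hj⟩ := hnat k₁ hk₁
    exact ⟨j, k₁, hk₁, hj⟩
  obtain ⟨k₀, hk₀, hj₀⟩ := Nat.find_spec hex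
  refine ⟨k₀, hk₀, fun k => ?_⟩
  by_cases hk : P.coeff k = 0
  · rw [hk, map_zero]; exact zero_le
  · obtain ⟨j, hj⟩ := hnat k hk
    have hmin : Nat.find hex ≤ j := Nat.find_min' hex ⟨k, hk, hj⟩
    rw [hj, hj₀]
    exact pow_le_pow_right_of_le_one' hπ1.le hmin

theorem nrm_of_intS_finLev {p : ℕ} (hp : p.Prime) (hA : A.LiesOverPrime p)
    {P : LaurentSeries Qb} (h1 : IntS A P) (h2 : FinLev P) (h0 : P ≠ 0) : Nrm A P := by
  obtain ⟨L0, hfin, hL⟩ := h2
  obtain ⟨π, hπ⟩ := exists_isUnif_of_finiteDimensional A hp hA L0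
  obtain ⟨k₀, hk₀, hmax⟩ := exists_max_coeff_of_unif hπ h1
    (fun τ hτ => hL τ fun a ha => (IntermediateField.mem_fixingSubgroup_iff L0 τ).1 hτ.2 a ha) h0
  exact nrm_of_max hk₀ hmax

/-- **every nonzero element of `KF A` is normalisable.** -/
theorem nrm_of_mem_KF {p : ℕ} (hp : p.Prime) (hA : A.LiesOverPrime p)
    {x : LaurentSeries Qb} (hx : x ∈ KF A) (hx0 : x ≠ 0) : Nrm A x := by
  obtain ⟨P, Q, hP1, hP2, hQ1, hQ2, hQ0, h⟩ := mem_KF.1 hx
  have hP0 : P ≠ 0 := by rw [← h]; exact mul_ne_zero hx0 hQ0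
  obtain ⟨c₁, hc₁, φ₁, hφ₁, hr₁⟩ := nrm_of_intS_finLev hp hA hP1 hP2 hP0
  obtain ⟨c₂, hc₂, φ₂, hφ₂, hr₂⟩ := nrm_of_intS_finLev hp hA hQ1 hQ2 hQ0
  refine ⟨c₁ / c₂, div_ne_zero hc₁ hc₂, φ₁ / φ₂, div_ne_zero hφ₁ hφ₂, ?_⟩
  have h3 := hr₁.div hr₂ hφ₂
  convert h3 using 1
  have hC : (HahnSeries.C c₂ : LaurentSeries Qb) ≠ 0 := by
    rw [Ne, map_eq_zero]; exact hc₂
  rw [← h, map_div₀]
  field_simp

end Fermat.Agent.MR.C
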