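import Fermat.Agent.MR.C.GV
import Fermat.Agent.MR.C.HGc
import Fermat.Agent.DSC.GaussVal
import Fermat.Agent.DSC.InertiaVal
import Fermat.Agent.DSC.Discrete
import Fermat.Agent.MR.A.HeckeRed
import Fermat.Agent.ORD.P3.Arith
import Fermat.Agent.CAR.BK.BL

/-!
# MR / C / KIH : the fields `KF = Frac (O_F((q)))` and `KI = Frac (O_K((q)))` of series of bounded type

`A` a valuation subring of `ℚ̄`, `H ≤ G_ℚ` a subgroup (the inertia group of `A`).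

* `OF A H` : series with coefficients in `A` and finite `H`-orbit;  `OI A H` : series with coefficients in `A` fixed by `H`.
* `KF A H`, `KI A H` : their fraction fields inside `ℚ̄((q))`.
* `FL_le_KF`, `C_mem_KF`, `mem_KF_of_int`, `galS_mem_KF`, `heckeS_mem_KF`, `NmL_mem_KF`, `qExpand_mem_KF`.
* `mem_KI_of_fixed` : (norm trick) `KF ∩ Fix(H) = KI`.
* `nrm_of_mem_KF`   : every nonzero element of `KF` is normalisable (`GV.Nrm`).
* `exists_zpow_hasRed_of_mem_KI` : every nonzero `x ∈ KI` has `HasRed A (C (π ^ m) * x) φ`, `φ ≠ 0` (`π` a uniformiser of `ℚ̄^H`).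

NO root closedness: it is false (`(1 + q)^(1/p) ∉ KF`).
-/

set_option autoImplicit false
noncomputable section

namespace Fermat.Agent.MR.C.KIH

open ModularCurve Fermat.Agent.GR Fermat.Agent.GAL Fermat.Agent.GAL.KLC Fermat.Agent.DSC
  Fermat.Agent.CAR.BK

local notation "Λ" => LaurentSeries Qb

/-- the fractions of a subring of a field. -/
def fracS {Λ' : Type*} [Field Λ'] (R : Subring Λ') : Subfield Λ' where
  carrier := {x | ∃ P ∈ R, ∃ Q ∈ R, Q ≠ 0 ∧ x * Q = P}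
  mul_mem' := by
    rintro a b ⟨P, hP, Q, hQ, hQ0, h⟩ ⟨P', hP', Q', hQ', hQ0', h'⟩
    exact ⟨P * P', R.mul_mem hP hP', Q * Q', R.mul_mem hQ hQ', mul_ne_zero hQ0 hQ0',
      by rw [← h, ← h']; ring⟩
  one_mem' := ⟨1, R.one_mem, 1, R.one_mem, one_ne_zero, by ring⟩
  add_mem' := by
    rintro a b ⟨P, hP, Q, hQ, hQ0, h⟩ ⟨P', hP', Q', hQ', hQ0', h'⟩
    exact ⟨P * Q' + P' * Q, R.add_mem (R.mul_mem hP hQ') (R.mul_mem hP' hQ), Q * Q',
      R.mul_mem hQ hQ', mul_ne_zero hQ0 hQ0', by rw [← h, ← h']; ring⟩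
  zero_mem' := ⟨0, R.zero_mem, 1, R.one_mem, one_ne_zero, by ring⟩
  neg_mem' := by
    rintro a ⟨P, hP, Q, hQ, hQ0, h⟩
    exact ⟨-P, R.neg_mem hP, Q, hQ, hQ0, by rw [← h]; ring⟩
  inv_mem' := by
    rintro a ⟨P, hP, Q, hQ, hQ0, h⟩
    by_cases ha : a = 0
    · subst ha
      rw [inv_zero]
      exact ⟨0, R.zero_mem, 1, R.one_mem, one_ne_zero, by ring⟩
    · exact ⟨Q, hQ, P, hP, by rw [← h]; exact mul_ne_zero ha hQ0, by rw [← h]; field_simp⟩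

theorem mem_fracS {Λ' : Type*} [Field Λ'] {R : Subring Λ'} {x : Λ'} :
    x ∈ fracS R ↔ ∃ P ∈ R, ∃ Q ∈ R, Q ≠ 0 ∧ x * Q = P := Iff.rfl

theorem le_fracS {Λ' : Type*} [Field Λ'] (R : Subring Λ') {x : Λ'} (hx : x ∈ R) : x ∈ fracS R :=
  ⟨x, hx, 1, R.one_mem, one_ne_zero, mul_one x⟩

theorem fracS_mono {Λ' : Type*} [Field Λ'] {R S : Subring Λ'} (h : R ≤ S) : fracS R ≤ fracS S := by
  rintro x ⟨P, hP, Q, hQ, hQ0, hx⟩
  exact ⟨P, h hP, Q, h hQ, hQ0, hx⟩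

section Orb

variable {H : Subgroup GQ}

theorem hgcFin_of_fixed {x : Λ} (hx : ∀ τ ∈ H, galS τ x = x) : HgcFin H x := by
  refine (Set.finite_singleton x).subset ?_
  rintro _ ⟨τ, hτ, rfl⟩
  exact hx τ hτ

theorem hgcFin_neg {x : Λ} (hx : HgcFin H x) : HgcFin H (-x) := by
  refine (hx.image fun a => -a).subset ?_
  rintro _ ⟨τ, hτ, rfl⟩
  exact ⟨_, ⟨τ, hτ, rfl⟩, (map_neg _ _).symm⟩

/-- transport of finiteness of orbits along a Galois equivariant map. -/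
theorem hgcFin_map {x : Λ} (hx : HgcFin H x) (Φ : Λ → Λ)
    (hΦ : ∀ τ ∈ H, ∀ y, galS τ (Φ y) = Φ (galS τ y)) : HgcFin H (Φ x) := by
  refine (hx.image Φ).subset ?_
  rintro _ ⟨τ, hτ, rfl⟩
  exact ⟨_, ⟨τ, hτ, rfl⟩, (hΦ τ hτ x).symm⟩

theorem KI_galS_mul (g g' : GQ) (x : Λ) : galS (g * g') x = galS g (galS g' x) := by
  ext k
  rfl

theorem KI_galS_one (x : Λ) : galS 1 x = x := by
  ext k
  rfl

theorem hgcFin_gal {x : Λ} (hx : HgcFin H x) {σ : GQ} (hσ : σ ∈ H) : HgcFin H (galS σ x) := by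
  refine hx.subset ?_
  rintro _ ⟨τ, hτ, rfl⟩
  exact ⟨τ * σ, mul_mem hτ hσ, KI_galS_mul _ _ _⟩

end Orb

variable (A : ValuationSubring Qb) (H : Subgroup GQ)

/-- `O_F((q))` : series with coefficients in `A` and finite `H`-orbit. -/
def OF : Subring Λ where
  carrier := {x | x ∈ blS A ∧ HgcFin H x}
  mul_mem' := fun ha hb => ⟨mul_mem ha.1 hb.1, ha.2.mul hb.2⟩
  one_mem' := ⟨one_mem _, hgcFin_of_fixed fun _ _ => map_one _⟩
  add_mem' := fun ha hb => ⟨add_mem ha.1 hb.1, ha.2.add hb.2⟩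
  zero_mem' := ⟨zero_mem _, hgcFin_of_fixed fun _ _ => map_zero _⟩
  neg_mem' := fun ha => ⟨neg_mem ha.1, hgcFin_neg ha.2⟩

/-- `O_K((q))` : series with coefficients in `A` fixed by `H`. -/
def OI : Subring Λ where
  carrier := {x | x ∈ blS A ∧ ∀ τ ∈ H, galS τ x = x}
  mul_mem' := fun ha hb => ⟨mul_mem ha.1 hb.1, fun τ hτ => by rw [map_mul, ha.2 τ hτ, hb.2 τ hτ]⟩
  one_mem' := ⟨one_mem _, fun τ _ => map_one _⟩
  add_mem' := fun ha hb => ⟨add_mem ha.1 hb.1, fun τ hτ => by rw [map_add, ha.2 τ hτ, hb.2 τ hτ]⟩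
  zero_mem' := ⟨zero_mem _, fun τ _ => map_zero _⟩
  neg_mem' := fun ha => ⟨neg_mem ha.1, fun τ hτ => by rw [map_neg, ha.2 τ hτ]⟩

/-- series of bounded type and finite level. -/
def KF : Subfield Λ := fracS (OF A H)

/-- series of bounded type over `K = ℚ̄^H`. -/
def KI : Subfield Λ := fracS (OI A H)

variable {A H}

theorem mem_OF {x : Λ} : x ∈ OF A H ↔ (∀ n, x.coeff n ∈ A) ∧ HgcFin H x :=
  and_congr (bl_mem_S_iff A) Iff.rfl

theorem mem_OI {x : Λ} : x ∈ OI A H ↔ (∀ n, x.coeff n ∈ A) ∧ ∀ τ ∈ H, galS τ x = x :=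
  and_congr (bl_mem_S_iff A) Iff.rfl

theorem mem_KF {x : Λ} : x ∈ KF A H ↔ ∃ P ∈ OF A H, ∃ Q ∈ OF A H, Q ≠ 0 ∧ x * Q = P := Iff.rfl

theorem mem_KI {x : Λ} : x ∈ KI A H ↔ ∃ P ∈ OI A H, ∃ Q ∈ OI A H, Q ≠ 0 ∧ x * Q = P := Iff.rfl

theorem OI_le_OF : OI A H ≤ OF A H := fun _ hx => ⟨hx.1, hgcFin_of_fixed hx.2⟩

theorem KI_le_KF : KI A H ≤ KF A H := fracS_mono OI_le_OF

/-- an integral series with finite orbit lies in `KF`. -/
theorem mem_KF_of_int {x : Λ} (hx : ∀ n, x.coeff n ∈ A) (hf : HgcFin H x) : x ∈ KF A H :=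
  le_fracS _ (mem_OF.2 ⟨hx, hf⟩)

theorem mem_KI_of_int {x : Λ} (hx : ∀ n, x.coeff n ∈ A) (hf : ∀ τ ∈ H, galS τ x = x) :
    x ∈ KI A H :=
  le_fracS _ (mem_OI.2 ⟨hx, hf⟩)

theorem fixed_of_mem_KI {x : Λ} (hx : x ∈ KI A H) : ∀ τ ∈ H, galS τ x = x := by
  obtain ⟨P, hP, Q, hQ, hQ0, h⟩ := hx
  intro τ hτ
  apply mul_right_cancel₀ hQ0
  have := congrArg (galS τ) h
  rw [map_mul, hQ.2 τ hτ, hP.2 τ hτ] at this
  rw [this, h]

theorem hgcFin_of_mem_KF {x : Λ} (hx : x ∈ KF A H) : HgcFin H x := by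
  obtain ⟨P, hP, Q, hQ, hQ0, h⟩ := hx
  have : x = P * Q⁻¹ := by rw [← h]; field_simp
  rw [this]
  exact hP.2.mul hQ.2.inv

theorem KI_hgcFin_C (c : Qb) : HgcFin H (HahnSeries.C c : Λ) :=
  hgcFin_of_mem_FL (N := 1) (C_mem_FL 1 c)

theorem C_mem_KF (c : Qb) : (HahnSeries.C c : Λ) ∈ KF A H := by
  rcases A.mem_or_inv_mem c with h | h
  · exact mem_KF_of_int ((bl_mem_S_iff A).1 (bl_C_mem_S A h)) (KI_hgcFin_C c)
  · have h1 : (HahnSeries.C c⁻¹ : Λ) ∈ KF A H :=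
      mem_KF_of_int ((bl_mem_S_iff A).1 (bl_C_mem_S A h)) (KI_hgcFin_C _)
    have h2 := (KF A H).inv_mem h1
    rwa [← map_inv₀, inv_inv] at h2

theorem C_mem_KI {c : Qb} (hc : c ∈ EH H) : (HahnSeries.C c : Λ) ∈ KI A H := by
  have hfix : ∀ d ∈ EH H, ∀ τ ∈ H, galS τ (HahnSeries.C d : Λ) = HahnSeries.C d := by
    intro d hd τ hτ
    rw [GAL.galS_C, mem_EH.1 hd τ hτ]
  rcases A.mem_or_inv_mem c with h | h
  · exact mem_KI_of_int ((bl_mem_S_iff A).1 (bl_C_mem_S A h)) (hfix c hc)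
  · have h1 : (HahnSeries.C c⁻¹ : Λ) ∈ KI A H :=
      mem_KI_of_int ((bl_mem_S_iff A).1 (bl_C_mem_S A h)) (hfix _ (inv_mem hc))
    have h2 := (KI A H).inv_mem h1
    rwa [← map_inv₀, inv_inv] at h2

/-- the modular function fields are of bounded type. -/
theorem FL_le_KF (M : ℕ) {x : Λ} (hx : x ∈ FL Qb M) : x ∈ KF A H := by
  obtain ⟨P, hP, Q, hQ, hQ0, h⟩ := exists_frac_bot hx
  have key : ∀ R ∈ PH ⊥ M, R ∈ KF A H := by
    intro R hR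
    rcases eq_or_ne R 0 with rfl | hR0
    · exact zero_mem _
    obtain ⟨c, -, hc0, y, hy, -⟩ := exists_normalize_PH A hR hR0
    have h1 : HahnSeries.C c * R ∈ KF A H := by
      refine mem_KF_of_int ?_ ((KI_hgcFin_C c).mul (hgcFin_of_mem_FL (PH_le_FH hR).1))
      rw [← hy]
      intro n
      rw [coeffMap_coeff]
      exact (y.coeff n).2
    have h2 := (KF A H).mul_mem (C_mem_KF (A := A) (H := H) c⁻¹) h1
    rwa [← mul_assoc, ← map_mul, inv_mul_cancel₀ hc0, map_one, one_mul] at h2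
  have : x = P * Q⁻¹ := by rw [← h]; field_simp
  rw [this]
  exact (KF A H).mul_mem (key P hP) ((KF A H).inv_mem (key Q hQ))

/-- transport of `KF` along a multiplicative operator which is defined over every coefficient ring. -/
theorem KI_map_mem_KF (ΦA : LaurentSeries A → LaurentSeries A) (Φ : Λ →* Λ)
    (h1 : ∀ y, coeffMap A.subtype (ΦA y) = Φ (coeffMap A.subtype y))
    (h2 : ∀ τ ∈ H, ∀ y, galS τ (Φ y) = Φ (galS τ y)) (h3 : ∀ y, y ≠ 0 → Φ y ≠ 0)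
    {x : Λ} (hx : x ∈ KF A H) : Φ x ∈ KF A H := by
  obtain ⟨P, hP, Q, hQ, hQ0, h⟩ := hx
  have key : ∀ R ∈ OF A H, Φ R ∈ OF A H := by
    rintro R ⟨⟨y, rfl⟩, hR⟩
    exact ⟨⟨ΦA y, h1 y⟩, hgcFin_map hR Φ h2⟩
  exact ⟨Φ P, key P hP, Φ Q, key Q hQ, h3 Q hQ0, by rw [← map_mul, h]⟩

theorem heckeS_mem_KF (ℓ : ℕ) [NeZero ℓ] {x : Λ} (hx : x ∈ KF A H) : heckeS Qb ℓ x ∈ KF A H := by
  refine KI_map_mem_KF (heckeS A ℓ) (heckeS Qb ℓ) (fun y => heckeS_coeffMap _ ℓ y)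
    (fun τ _ y => galS_heckeS τ ℓ y) (fun y hy h0 => ?_) hx
  have h1 : heckeS Qb ℓ y * heckeS Qb ℓ y⁻¹ = 1 := by
    rw [← map_mul, mul_inv_cancel₀ hy, map_one]
  rw [h0, zero_mul] at h1
  exact zero_ne_one h1

theorem NmL_mem_KF (ℓ : ℕ) [NeZero ℓ] {x : Λ} (hx : x ∈ KF A H) : NmL Qb ℓ x ∈ KF A H :=
  KI_map_mem_KF (NmL A ℓ) (NmL Qb ℓ) (fun y => NmL_coeffMap _ ℓ y)
    (fun _ _ y => NmL_coeffMap _ ℓ y) (fun _ hy => MR.A.HeckeRed_NmL_ne_zero ℓ hy) hx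

/-! ### the action of `H` -/

variable (A H) in
/-- `H` acts on `ℚ̄` by isometries for `A`. -/
def IsoH : Prop := ∀ τ ∈ H, ∀ a : Qb, A.valuation (τ a) = A.valuation a

theorem isoH_inertia (A : ValuationSubring Qb) : IsoH A (A.inertiaSubgroupIn ℚ) :=
  fun _ hτ a => ORD.P3.valuation_inertia A hτ a

theorem galS_mem_blS (hH : IsoH A H) {τ : GQ} (hτ : τ ∈ H) {x : Λ} (hx : x ∈ blS A) :
    galS τ x ∈ blS A := by
  rw [bl_mem_S_iff] at hx ⊢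
  intro n
  show τ (x.coeff n) ∈ A
  rw [← A.valuation_le_one_iff, hH τ hτ, A.valuation_le_one_iff]
  exact hx n

theorem galS_mem_OF (hH : IsoH A H) {τ : GQ} (hτ : τ ∈ H) {x : Λ} (hx : x ∈ OF A H) :
    galS τ x ∈ OF A H :=
  ⟨galS_mem_blS hH hτ hx.1, hgcFin_gal hx.2 hτ⟩

theorem galS_mem_KF (hH : IsoH A H) {τ : GQ} (hτ : τ ∈ H) {x : Λ} (hx : x ∈ KF A H) :
    galS τ x ∈ KF A H := by
  obtain ⟨P, hP, Q, hQ, hQ0, h⟩ := hx
  exact ⟨galS τ P, galS_mem_OF hH hτ hP, galS τ Q, galS_mem_OF hH hτ hQ,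
    (map_ne_zero _).2 hQ0, by rw [← map_mul, h]⟩

/-- the product over a finite `H`-stable set is fixed. -/
theorem KI_prod_fixed {X : Type*} [CommMonoid X] [DecidableEq X] (O : Finset X) (g : X →* X)
    (hg : Function.Injective g) (hO : ∀ w ∈ O, g w ∈ O) : g (∏ w ∈ O, w) = ∏ w ∈ O, w := by
  have himg : O.image g = O := by
    apply Finset.eq_of_subset_of_card_le
    · intro w hw
      obtain ⟨w', hw', rfl⟩ := Finset.mem_image.mp hw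
      exact hO w' hw'
    · rw [Finset.card_image_of_injective _ hg]
  rw [map_prod]
  conv_rhs => rw [← himg]
  rw [Finset.prod_image fun a _ b _ h => hg h]

/-- **the norm**: a nonzero `Q ∈ O_F((q))` divides a nonzero element of `O_K((q))`. -/
theorem exists_norm_OF (hH : IsoH A H) {Q : Λ} (hQ : Q ∈ OF A H) (hQ0 : Q ≠ 0) :
    ∃ R ∈ OF A H, R ≠ 0 ∧ Q * R ∈ OI A H := by
  classical
  set O : Finset Λ := hQ.2.toFinset with hO
  have hmemO : ∀ w, w ∈ O ↔ ∃ τ ∈ H, galS τ Q = w := fun w => Set.Finite.mem_toFinset _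
  have hQO : Q ∈ O := (hmemO Q).2 ⟨1, one_mem H, KI_galS_one Q⟩
  have hOF : ∀ w ∈ O, w ∈ OF A H := by
    intro w hw
    obtain ⟨τ, hτ, rfl⟩ := (hmemO w).1 hw
    exact galS_mem_OF hH hτ hQ
  refine ⟨∏ w ∈ O.erase Q, w, Subring.prod_mem _ fun w hw => hOF w (Finset.mem_of_mem_erase hw),
    ?_, ?_⟩
  · rw [Finset.prod_ne_zero_iff]
    intro w hw
    obtain ⟨τ, hτ, rfl⟩ := (hmemO w).1 (Finset.mem_of_mem_erase hw)
    exact (map_ne_zero _).2 hQ0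
  · rw [Finset.mul_prod_erase O (fun w => w) hQO]
    refine ⟨(Subring.prod_mem _ hOF).1, fun τ hτ => ?_⟩
    refine KI_prod_fixed O (galS τ : Λ →* Λ) (galS τ).injective fun w hw => ?_
    obtain ⟨τ', hτ', rfl⟩ := (hmemO w).1 hw
    exact (hmemO _).2 ⟨τ * τ', mul_mem hτ hτ', KI_galS_mul _ _ _⟩

/-- **(KF-3), the norm trick**: `KF ∩ Fix(H) = KI`. -/
theorem mem_KI_of_fixed (hH : IsoH A H) {x : Λ} (hx : x ∈ KF A H)
    (hfix : ∀ τ ∈ H, galS τ x = x) : x ∈ KI A H := by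
  obtain ⟨P, hP, Q, hQ, hQ0, h⟩ := hx
  obtain ⟨R, hR, hR0, hQR⟩ := exists_norm_OF hH hQ hQ0
  refine ⟨P * R, ⟨(mul_mem hP hR).1, fun τ hτ => ?_⟩, Q * R, hQR, mul_ne_zero hQ0 hR0,
    by rw [← h]; ring⟩
  have e : P * R = x * (Q * R) := by rw [← h]; ring
  rw [e, map_mul, hfix τ hτ, hQR.2 τ hτ]

theorem mem_KI_iff (hH : IsoH A H) {x : Λ} :
    x ∈ KI A H ↔ x ∈ KF A H ∧ ∀ τ ∈ H, galS τ x = x :=
  ⟨fun h => ⟨KI_le_KF h, fixed_of_mem_KI h⟩, fun h => mem_KI_of_fixed hH h.1 h.2⟩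

/-! ### normalisation -/

/-- the values of the coefficients of an element of `O_F((q))` are discrete. -/
theorem KI_exists_pow_eq (hH : IsoH A H) {π : Qb} (hπ : IsUnif A H π) {P : Λ} (hP : P ∈ OF A H) :
    ∃ N : ℕ, N ≠ 0 ∧ ∀ k, P.coeff k ≠ 0 →
      ∃ j : ℕ, A.valuation (P.coeff k) ^ N = A.valuation π ^ j := by
  classical
  set O : Finset Λ := hP.2.toFinset with hO
  have hmemO : ∀ w, w ∈ O ↔ ∃ τ ∈ H, galS τ P = w := fun w => Set.Finite.mem_toFinset _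
  have hPO : P ∈ O := (hmemO P).2 ⟨1, one_mem H, KI_galS_one P⟩
  refine ⟨O.card.factorial, (Nat.factorial_pos _).ne', fun k hk => ?_⟩
  set c : Qb := P.coeff k with hc
  set Oc : Finset Qb := O.image (fun w => w.coeff k) with hOc
  have hmemOc : ∀ d, d ∈ Oc ↔ ∃ τ ∈ H, τ c = d := by
    intro d
    rw [hOc, Finset.mem_image]
    constructor
    · rintro ⟨w, hw, rfl⟩
      obtain ⟨τ, hτ, rfl⟩ := (hmemO w).1 hw
      exact ⟨τ, hτ, rfl⟩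
    · rintro ⟨τ, hτ, rfl⟩
      exact ⟨galS τ P, (hmemO _).2 ⟨τ, hτ, rfl⟩, rfl⟩
  have hcOc : c ∈ Oc := (hmemOc c).2 ⟨1, one_mem H, rfl⟩
  have hm1 : 0 < Oc.card := Finset.card_pos.2 ⟨c, hcOc⟩
  have hmn : Oc.card ≤ O.card := Finset.card_image_le
  have hfix : (∏ d ∈ Oc, d) ∈ EH H := by
    rw [mem_EH]
    intro τ hτ
    refine KI_prod_fixed Oc ((τ : Qb →+* Qb) : Qb →* Qb) τ.injective fun d hd => ?_
    obtain ⟨τ', hτ', rfl⟩ := (hmemOc d).1 hd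
    exact (hmemOc _).2 ⟨τ * τ', mul_mem hτ hτ', rfl⟩
  have hne : (∏ d ∈ Oc, d) ≠ 0 := by
    rw [Finset.prod_ne_zero_iff]
    intro d hd
    obtain ⟨τ, hτ, rfl⟩ := (hmemOc d).1 hd
    exact (map_ne_zero _).2 hk
  have hval : A.valuation (∏ d ∈ Oc, d) = A.valuation c ^ Oc.card := by
    rw [map_prod, Finset.prod_congr rfl (g := fun _ => A.valuation c), Finset.prod_const]
    intro d hd
    obtain ⟨τ, hτ, rfl⟩ := (hmemOc d).1 hd
    exact hH τ hτ c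
  obtain ⟨j, hj⟩ := hπ.gen _ hfix hne
  have hc1 : A.valuation c ≤ 1 := (A.valuation_le_one_iff _).2 ((bl_mem_S_iff A).1 hP.1 k)
  have hπ1 : A.valuation π < 1 := discrete_val_lt_one hπ
  have hπ0 : 0 < A.valuation π := discrete_val_pos hπ
  have hj0 : 0 ≤ j := by
    by_contra hcon
    rw [not_le] at hcon
    have h1 : A.valuation π ^ j ≤ 1 := by
      rw [← hj, hval]
      exact pow_le_one₀ zero_le hc1
    have h2 : 1 < A.valuation π ^ j := by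
      obtain ⟨i, hi⟩ : ∃ i : ℕ, j = -((i : ℤ) + 1) := ⟨(-j - 1).toNat, by omega⟩
      rw [hi, zpow_neg]
      apply (one_lt_inv₀ (zpow_pos hπ0 _)).2
      have : A.valuation π ^ ((i : ℤ) + 1) = A.valuation π ^ (i + 1) := by
        rw [← zpow_natCast]; push_cast; rfl
      rw [this]
      exact pow_lt_one₀ zero_le hπ1 (Nat.succ_ne_zero i)
    exact absurd h1 (not_le.2 h2)
  obtain ⟨i, rfl⟩ := Int.eq_ofNat_of_zero_le hj0
  obtain ⟨r, hr⟩ := Nat.dvd_factorial hm1 hmn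
  refine ⟨i * r, ?_⟩
  rw [hr, pow_mul, ← hval, hj, zpow_natCast, pow_mul]

/-- an element of `O_F((q))` has a coefficient of maximal absolute value. -/
theorem exists_max_coeff_OF (hH : IsoH A H) {π : Qb} (hπ : IsUnif A H π) {P : Λ}
    (hP : P ∈ OF A H) (hP0 : P ≠ 0) :
    ∃ k₀ : ℤ, P.coeff k₀ ≠ 0 ∧ ∀ k, A.valuation (P.coeff k) ≤ A.valuation (P.coeff k₀) := by
  classical
  obtain ⟨N, hN, hdisc⟩ := KI_exists_pow_eq hH hπ hP
  obtain ⟨k₁, hk₁⟩ : ∃ n, P.coeff n ≠ 0 := by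
    by_contra hcon
    push Not at hcon
    exact hP0 (HahnSeries.ext (funext hcon))
  have hex : ∃ j : ℕ, ∃ k, P.coeff k ≠ 0 ∧ A.valuation (P.coeff k) ^ N = A.valuation π ^ j := by
    obtain ⟨j, hj⟩ := hdisc k₁ hk₁
    exact ⟨j, k₁, hk₁, hj⟩
  obtain ⟨k₀, hk₀, hj₀⟩ := Nat.find_spec hex
  refine ⟨k₀, hk₀, fun k => ?_⟩
  by_cases hk : P.coeff k = 0
  · rw [hk, map_zero]
    exact zero_le
  obtain ⟨j, hj⟩ := hdisc k hk
  have hle : Nat.find hex ≤ j := Nat.find_min' hex ⟨k, hk, hj⟩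
  by_contra hcon
  rw [not_le] at hcon
  have h1 := pow_lt_pow_left₀ hcon zero_le hN
  rw [hj₀, hj] at h1
  exact absurd (pow_le_pow_of_le_one zero_le (discrete_val_lt_one hπ).le hle) (not_le.2 h1)

/-- normalisation by the inverse of a coefficient of maximal absolute value. -/
theorem KI_normalize {P : Λ} {k₀ : ℤ} (hk₀ : P.coeff k₀ ≠ 0)
    (hmax : ∀ k, A.valuation (P.coeff k) ≤ A.valuation (P.coeff k₀)) :
    ∃ y : LaurentSeries A, coeffMap A.subtype y = HahnSeries.C (P.coeff k₀)⁻¹ * P ∧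
      coeffMap (IsLocalRing.residue A) y ≠ 0 := by
  have hmem : ∀ k, (HahnSeries.C (P.coeff k₀)⁻¹ * P).coeff k ∈ A := by
    intro k
    rw [HahnSeries.C_mul_eq_smul, HahnSeries.coeff_smul, smul_eq_mul, ← A.valuation_le_one_iff,
      map_mul, map_inv₀]
    have hpos : A.valuation (P.coeff k₀) ≠ 0 := (map_ne_zero _).mpr hk₀
    rw [inv_mul_le_iff₀ (zero_lt_iff.mpr hpos), mul_one]
    exact hmax k
  obtain ⟨y, hy⟩ := exists_int_of_coeff_mem A _ hmem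
  refine ⟨y, hy, ?_⟩
  intro h0
  have h1 : y.coeff k₀ = 1 := by
    apply Subtype.ext
    have := congrArg (fun f => HahnSeries.coeff f k₀) hy
    simp only [coeffMap_coeff, HahnSeries.C_mul_eq_smul, HahnSeries.coeff_smul, smul_eq_mul] at this
    rw [inv_mul_cancel₀ hk₀] at this
    exact this
  have h2 := congrArg (fun f => HahnSeries.coeff f k₀) h0
  simp only [coeffMap_coeff, h1, map_one, HahnSeries.coeff_zero] at h2
  exact one_ne_zero h2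

/-- normalisation in `O_F((q))`: the constant is the inverse of a coefficient. -/
theorem exists_normalize_OF (hH : IsoH A H) {π : Qb} (hπ : IsUnif A H π) {P : Λ}
    (hP : P ∈ OF A H) (hP0 : P ≠ 0) :
    ∃ k₀ : ℤ, P.coeff k₀ ≠ 0 ∧ ∃ φ : LaurentSeries (kA A), φ ≠ 0 ∧
      HasRed A (HahnSeries.C (P.coeff k₀)⁻¹ * P) φ := by
  obtain ⟨k₀, hk₀, hmax⟩ := exists_max_coeff_OF hH hπ hP hP0
  obtain ⟨y, hy, hr⟩ := KI_normalize hk₀ hmax
  refine ⟨k₀, hk₀, _, hr, ?_⟩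
  rw [← hy]
  exact HasRed.of_int y

/-- **every nonzero element of `KF` is normalisable.** -/
theorem nrm_of_mem_KF (hH : IsoH A H) {π : Qb} (hπ : IsUnif A H π) {x : Λ} (hx : x ∈ KF A H)
    (hx0 : x ≠ 0) : Nrm A x := by
  obtain ⟨P, hP, Q, hQ, hQ0, h⟩ := hx
  have hP0 : P ≠ 0 := by rw [← h]; exact mul_ne_zero hx0 hQ0
  obtain ⟨k₁, hk₁, φ₁, hφ₁, h₁⟩ := exists_normalize_OF hH hπ hP hP0
  obtain ⟨k₂, hk₂, φ₂, hφ₂, h₂⟩ := exists_normalize_OF hH hπ hQ hQ0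
  refine ⟨(P.coeff k₁)⁻¹ / (Q.coeff k₂)⁻¹, div_ne_zero (inv_ne_zero hk₁) (inv_ne_zero hk₂), _,
    div_ne_zero hφ₁ hφ₂, ?_⟩
  have h3 := h₁.div h₂ hφ₂
  convert h3 using 1
  have hC : (HahnSeries.C (Q.coeff k₂)⁻¹ : Λ) ≠ 0 := GV_C_ne_zero (inv_ne_zero hk₂)
  rw [← h, map_div₀]
  field_simp

/-- elements of `KI` are normalised by constants of `K = ℚ̄^H`. -/
theorem exists_const_hasRed_of_mem_KI (hH : IsoH A H) {π : Qb} (hπ : IsUnif A H π) {x : Λ}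
    (hx : x ∈ KI A H) (hx0 : x ≠ 0) :
    ∃ c ∈ EH H, c ≠ 0 ∧ ∃ φ : LaurentSeries (kA A), φ ≠ 0 ∧ HasRed A (HahnSeries.C c * x) φ := by
  obtain ⟨P, hP, Q, hQ, hQ0, h⟩ := hx
  have hP0 : P ≠ 0 := by rw [← h]; exact mul_ne_zero hx0 hQ0
  obtain ⟨k₁, hk₁, φ₁, hφ₁, h₁⟩ := exists_normalize_OF hH hπ (OI_le_OF hP) hP0
  obtain ⟨k₂, hk₂, φ₂, hφ₂, h₂⟩ := exists_normalize_OF hH hπ (OI_le_OF hQ) hQ0
  refine ⟨(P.coeff k₁)⁻¹ / (Q.coeff k₂)⁻¹,
    div_mem (inv_mem (coeff_mem_EH hP.2 k₁)) (inv_mem (coeff_mem_EH hQ.2 k₂)),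
    div_ne_zero (inv_ne_zero hk₁) (inv_ne_zero hk₂), _, div_ne_zero hφ₁ hφ₂, ?_⟩
  have h3 := h₁.div h₂ hφ₂
  convert h3 using 1
  have hC : (HahnSeries.C (Q.coeff k₂)⁻¹ : Λ) ≠ 0 := GV_C_ne_zero (inv_ne_zero hk₂)
  rw [← h, map_div₀]
  field_simp

/-- change of the normalising constant by a unit. -/
theorem KI_hasRed_of_val_eq {x : Λ} {c d : Qb} (hc : c ≠ 0)
    (hcd : A.valuation d = A.valuation c) {φ : LaurentSeries (kA A)} (hφ : φ ≠ 0)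
    (h : HasRed A (HahnSeries.C c * x) φ) :
    ∃ φ' : LaurentSeries (kA A), φ' ≠ 0 ∧ HasRed A (HahnSeries.C d * x) φ' := by
  have hcv : A.valuation c ≠ 0 := (map_ne_zero _).mpr hc
  have hu1 : A.valuation (d / c) = 1 := by rw [map_div₀, hcd, div_self hcv]
  have huA : d / c ∈ A := (A.valuation_le_one_iff _).mp hu1.le
  have hub : IsLocalRing.residue A ⟨d / c, huA⟩ ≠ 0 := by
    intro h0
    rw [IsLocalRing.residue_eq_zero_iff, IsLocalRing.mem_maximalIdeal, mem_nonunits_iff] at h0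
    apply h0
    have := (A.valuation_eq_one_iff ⟨d / c, huA⟩).2 hu1
    exact this
  refine ⟨HahnSeries.C (IsLocalRing.residue A ⟨d / c, huA⟩) * φ, mul_ne_zero ?_ hφ, ?_⟩
  · rw [Ne, map_eq_zero_iff _ HahnSeries.C_injective]; exact hub
  · have h2 := (hasRed_C A ⟨d / c, huA⟩).mul h
    rwa [← mul_assoc, ← map_mul, div_mul_cancel₀ _ hc] at h2

/-- **(KI-1)**: the Gauss norm of a nonzero element of `KI` is a power of the uniformiser. -/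
theorem exists_zpow_hasRed_of_mem_KI (hH : IsoH A H) {π : Qb} (hπ : IsUnif A H π) {x : Λ}
    (hx : x ∈ KI A H) (hx0 : x ≠ 0) :
    ∃ m : ℤ, ∃ φ : LaurentSeries (kA A), φ ≠ 0 ∧ HasRed A (HahnSeries.C (π ^ m) * x) φ := by
  obtain ⟨c, hcE, hc, φ, hφ, h⟩ := exists_const_hasRed_of_mem_KI hH hπ hx hx0
  obtain ⟨m, hm⟩ := hπ.gen c hcE hc
  obtain ⟨φ', hφ', h'⟩ := KI_hasRed_of_val_eq (d := π ^ m) hc (by rw [map_zpow₀, hm]) hφ h
  exact ⟨m, φ', hφ', h'⟩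

end Fermat.Agent.MR.C.KIH
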