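import Fermat.Agent.MR.C.BLoo
import Fermat.Agent.MR.C.RootInt
import Fermat.Agent.MR.C.KIH
import Fermat.Agent.ORD.P2.LamDp

/-!
# MR / C / Sect : block [F1] : the Kummer generators `h₁`, `h₁₀` of a deep class are of bounded type

`W` a function of level `M₁ p`, `W ≡ 1 mod λ^p` at both Gauss valuations, `p ∣ div W`; `h^p = W`, `h₀^p = w_p W` in `ℚ̄((q))`.
Then there is `G ≠ 0` of level `M₁ p`, `G ≡ 1 mod λ` at both valuations, such that `G h = 1 + λ z`, `w_p(G) h₀ = 1 + λ z₀` with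
`z, z₀ ∈ A[[q]]`.  Hence `h, h₀ ∈ KF`, `h = 1 + λ a`, `a^p - a = b`.
-/

set_option autoImplicit false

open Polynomial ModularCurve AlgebraicCurve

noncomputable section

namespace Fermat.Agent.MR.C

open Fermat.Agent.GR Fermat.Agent.GAL Fermat.Agent.GAL.KL Fermat.Agent.GAL.KLC Fermat.Agent.S24
open Fermat.Agent.GR.HeckeField Fermat.Agent.TOR.GB Fermat.Agent.TOR Fermat.Agent.TOR.T1C
open Fermat.Agent.TOR.KL2 Fermat.Agent.CAR Fermat.Agent.CAR.BK Fermat.Agent.CAR.CNT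
open Fermat.Agent.S24.FF Fermat.Agent.ORD Fermat.Agent.MR.C.KIH

variable {M₁ p : ℕ} [NeZero M₁] [NeZero p]

/-- one root: `X = 1 + λ^p f` with `f` in the chart ring of `t⁻¹`, `x^p = X`  ⟹  `x = 1 + λ z`, `z ∈ A[[q]]`. -/
theorem sect_root (hM : AdmLevel M₁) (hp : p.Prime) (hp2 : p ≠ 2) (hpM : ¬ p ∣ M₁)
    (A : ValuationSubring Qb) (hA : A.LiesOverPrime p) {ζ : Qbˣ} (hζ : IsPrimitiveRoot ζ p)
    {f : FN (M₁ * p)} (hf : IsInt Qb (tP M₁ p)⁻¹ f) (h1 : vG A (M₁ * p) f ≤ 1)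
    (h2 : vG A (M₁ * p) (wq M₁ p f) ≤ 1) {x : LaurentSeries Qb}
    (hx : x ^ p = 1 + HahnSeries.C (P2.lam ζ ^ p) * (f : LaurentSeries Qb)) :
    ∃ z : LaurentSeries Qb, x = 1 + HahnSeries.C (P2.lam ζ) * z ∧ (∀ n, z.coeff n ∈ A) ∧
      ∀ n < 0, z.coeff n = 0 :=
  rootInt hp hp2 hA hζ (coeff_mem_of_isInt_inv hM hp hpM A hA hf h1 h2)
    (coeff_eq_zero_of_isInt_inv hp hpM hf) hx

/-- **[F1], integral form.** -/
theorem sect_int (hM : AdmLevel M₁) (hp : p.Prime) (hp2 : p ≠ 2) (hpM : ¬ p ∣ M₁)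
    (A : ValuationSubring Qb) (hA : A.LiesOverPrime p) {ζ : Qbˣ} (hζ : IsPrimitiveRoot ζ p)
    (W : FN (M₁ * p)) {b b' : LaurentSeries (kA A)}
    (hW1 : P2.Dp A (P2.lam ζ ^ p) (W : LaurentSeries Qb) b)
    (hW2 : P2.Dp A (P2.lam ζ ^ p) ((wq M₁ p W : FN (M₁ * p)) : LaurentSeries Qb) b')
    (hdiv : ∀ P : Place Qb (FL Qb (M₁ * p)), (p : ℤ) ∣ P.ord W) :
    ∃ (G : FN (M₁ * p)) (θ θ' : LaurentSeries (kA A)), G ≠ 0 ∧
      P2.Dp A (P2.lam ζ) (G : LaurentSeries Qb) θ ∧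
      P2.Dp A (P2.lam ζ) ((wq M₁ p G : FN (M₁ * p)) : LaurentSeries Qb) θ' ∧
      (∀ h : LaurentSeries Qb, h ^ p = (W : LaurentSeries Qb) →
        ∃ z : LaurentSeries Qb, (G : LaurentSeries Qb) * h = 1 + HahnSeries.C (P2.lam ζ) * z ∧
          (∀ n, z.coeff n ∈ A) ∧ ∀ n < 0, z.coeff n = 0) ∧
      (∀ h₀ : LaurentSeries Qb, h₀ ^ p = ((wq M₁ p W : FN (M₁ * p)) : LaurentSeries Qb) →
        ∃ z : LaurentSeries Qb, ((wq M₁ p G : FN (M₁ * p)) : LaurentSeries Qb) * h₀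
            = 1 + HahnSeries.C (P2.lam ζ) * z ∧
          (∀ n, z.coeff n ∈ A) ∧ ∀ n < 0, z.coeff n = 0) := by
  have H := lvl A M₁ p hp hpM
  obtain ⟨G, f, θ, θ', hG0, hGf, hfi, hf1, hf2, hθ, hθ'⟩ :=
    nearLamInf M₁ p hM hp hpM A hA hζ W hW1 hW2 hdiv
  have hcoe : ∀ g : FN (M₁ * p),
      ((1 + algebraMap Qb (FL Qb (M₁ * p)) (P2.lam ζ ^ p) * g : FN (M₁ * p)) : LaurentSeries Qb)
        = 1 + HahnSeries.C (P2.lam ζ ^ p) * (g : LaurentSeries Qb) := by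
    intro g
    rw [← ValThm_coe_algebraMap (M₁ * p) (P2.lam ζ ^ p)]
    rfl
  refine ⟨G, θ, θ', hG0, hθ, hθ', ?_, ?_⟩
  · intro h hh
    refine sect_root hM hp hp2 hpM A hA hζ hfi hf1 hf2 ?_
    rw [mul_pow, hh, ← hcoe, ← hGf]
    rfl
  · intro h₀ hh
    have hwt : wq M₁ p (tP M₁ p)⁻¹ = (tP M₁ p)⁻¹ := by
      rw [map_inv₀, T1.w_tt H]
    have hfi' : IsInt Qb (tP M₁ p)⁻¹ (wq M₁ p f) := T1.isInt_w hwt hfi
    have hf2' : vG A (M₁ * p) (wq M₁ p (wq M₁ p f)) ≤ 1 := by rw [H.ww]; exact hf1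
    refine sect_root hM hp hp2 hpM A hA hζ hfi' hf2 hf2' ?_
    have hw : wq M₁ p G ^ p * wq M₁ p W
        = 1 + algebraMap Qb (FL Qb (M₁ * p)) (P2.lam ζ ^ p) * wq M₁ p f := by
      rw [← map_pow, ← map_mul, hGf, map_add, map_one, map_mul, AlgEquiv.commutes]
    rw [mul_pow, hh, ← hcoe, ← hw]
    rfl

/-- an integral series has a reduction. -/
theorem Sect_exists_hasRed (A : ValuationSubring Qb) {z : LaurentSeries Qb}
    (hz : ∀ n, z.coeff n ∈ A) : ∃ φ : LaurentSeries (kA A), HasRed A z φ := by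
  obtain ⟨y, hy⟩ := exists_int_of_coeff_mem A z hz
  exact ⟨_, hy ▸ HasRed.of_int y⟩

/-- from `G h = 1 + λ z`, `G = 1 + λ g`: `h = 1 + λ a`, `a^p - a = b`. -/
theorem sect_dp (hp : p.Prime) (hp2 : p ≠ 2) (A : ValuationSubring Qb) (hA : A.LiesOverPrime p)
    {ζ : Qbˣ} (hζ : IsPrimitiveRoot ζ p) {G h z : LaurentSeries Qb} {θ b : LaurentSeries (kA A)}
    (hG : P2.Dp A (P2.lam ζ) G θ) (hz : ∀ n, z.coeff n ∈ A)
    (hGh : G * h = 1 + HahnSeries.C (P2.lam ζ) * z)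
    (hW : P2.Dp A (P2.lam ζ ^ p) (h ^ p) b) :
    ∃ a : LaurentSeries (kA A), P2.Dp A (P2.lam ζ) h a ∧ a ^ p - a = b := by
  have hchar : CharP (kA A) p := charP_residueField hp hA
  have : ExpChar (kA A) p := ExpChar.prime hp
  have hl := P2.lam_ne_zero hp hζ
  have hm := P2.lam_mem_nonunits hp hA hζ.pow_eq_one
  obtain ⟨φ, hφ⟩ := Sect_exists_hasRed A hz
  have h1 : P2.Dp A (P2.lam ζ) (G * h) φ := (P2.dp_iff hl).2 ⟨z, hφ, hGh⟩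
  have hG0 := hG.ne_zero hl hm
  have h2 := h1.div hl hm hG
  rw [mul_div_cancel_left₀ _ hG0] at h2
  exact ⟨_, h2, (h2.pow_p_lam_one hp hp2 hA hζ).unique hW⟩

/-- the fixed points of Frobenius are the elements of the prime field. -/
theorem Sect_exists_natCast {F : Type*} [Field F] (p : ℕ) [Fact p.Prime] [CharP F p] {a : F}
    (h : a ^ p = a) : ∃ j : ℕ, a = j := by
  have h1 : a ∈ (⊥ : Subfield F) := (Subfield.mem_bot_iff_pow_eq_self F p).2 h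
  rw [← ZMod.fieldRange_castHom_eq_bot p] at h1
  obtain ⟨c, rfl⟩ := h1
  refine ⟨c.val, ?_⟩
  conv_lhs => rw [← ZMod.natCast_zmod_val c]
  rw [map_natCast]

/-- a deep root is `≡ μ mod λ 𝔪` for a `p`-th root of unity `μ`. -/
theorem sect_normalise (hp : p.Prime) (A : ValuationSubring Qb) (hA : A.LiesOverPrime p)
    {ζ : Qbˣ} (hζ : IsPrimitiveRoot ζ p) {h : LaurentSeries Qb} {a : LaurentSeries (kA A)}
    (ha : P2.Dp A (P2.lam ζ) h a) (hap : a ^ p - a = 0) :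
    ∃ j : ℕ, P2.Dp A (P2.lam ζ) (h / HahnSeries.C ((ζ : Qb) ^ j)) 0 := by
  have hchar : CharP (kA A) p := charP_residueField hp hA
  have : Fact p.Prime := ⟨hp⟩
  have : CharP (LaurentSeries (kA A)) p :=
    charP_of_injective_ringHom (f := (HahnSeries.C : kA A →+* LaurentSeries (kA A)))
      HahnSeries.C_injective p
  have hl := P2.lam_ne_zero hp hζ
  have hm := P2.lam_mem_nonunits hp hA hζ.pow_eq_one
  obtain ⟨j, hj⟩ := Sect_exists_natCast p (sub_eq_zero.1 hap)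
  refine ⟨j, ?_⟩
  have h1 := P2.Dp.const hl (P2.cRed_geom hp hA hζ j)
  rw [mul_div_cancel₀ _ hl, add_sub_cancel] at h1
  have h2 := ha.div hl hm h1
  rwa [hj, map_natCast, sub_self] at h2

/-- **[F1], bounded type.** -/
theorem sect_mem_KF (A : ValuationSubring Qb) (H : Subgroup GQ) {N n : ℕ} (hn : 0 < n)
    {G h z : LaurentSeries Qb} (hG : G ∈ FL Qb N) (hG0 : G ≠ 0) (hh : h ^ n ∈ FL Qb N) {c : Qb}
    (hc : c ∈ A) (hz : ∀ n, z.coeff n ∈ A) (hGh : G * h = 1 + HahnSeries.C c * z) :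
    h ∈ KF A H := by
  have h1 : G * h ∈ KF A H := by
    refine mem_KF_of_int ?_ ((hgcFin_of_mem_FL hG).mul (HgcFin.of_pow hn (hgcFin_of_mem_FL hh)))
    rw [hGh]
    exact (bl_mem_S_iff A).1 (add_mem (one_mem _)
      (mul_mem (bl_C_mem_S A hc) ((bl_mem_S_iff A).2 hz)))
  have h2 := (KF A H).mul_mem ((KF A H).inv_mem (FL_le_KF (A := A) (H := H) N hG)) h1
  rwa [← mul_assoc, inv_mul_cancel₀ hG0, one_mul] at h2

/-- **[F1], final form.**  `h` a Kummer element of level `M₁ p` whose `p`-th power `W` is `≡ 1 mod λ^p` at both Gauss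
valuations, `h₀` any `p`-th root of `w_p W`.  Then `h`, `h₀` are of bounded type (and finite level), and
`h = 1 + λ a`, `h₀ = 1 + λ a₀` with `a^p - a = b`, `a₀^p - a₀ = b'`. -/
theorem sect_main (hM : AdmLevel M₁) (hp : p.Prime) (hp2 : p ≠ 2) (hpM : ¬ p ∣ M₁)
    (A : ValuationSubring Qb) (hA : A.LiesOverPrime p) {ζ : Qbˣ} (hζ : IsPrimitiveRoot ζ p)
    (H : Subgroup GQ) {h h₀ : LaurentSeries Qb} (hK : IsKum Qb (M₁ * p) p h)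
    {b b' : LaurentSeries (kA A)} (hW1 : P2.Dp A (P2.lam ζ ^ p) (h ^ p) b)
    (hW2 : P2.Dp A (P2.lam ζ ^ p)
      ((wq M₁ p ⟨h ^ p, hK.2.choose⟩ : FN (M₁ * p)) : LaurentSeries Qb) b')
    (hh₀ : h₀ ^ p = ((wq M₁ p ⟨h ^ p, hK.2.choose⟩ : FN (M₁ * p)) : LaurentSeries Qb)) :
    h ∈ KF A H ∧ h₀ ∈ KF A H ∧
      (∃ a : LaurentSeries (kA A), P2.Dp A (P2.lam ζ) h a ∧ a ^ p - a = b) ∧
      (∃ a₀ : LaurentSeries (kA A), P2.Dp A (P2.lam ζ) h₀ a₀ ∧ a₀ ^ p - a₀ = b') := by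
  have hlA : P2.lam ζ ∈ A :=
    (P2.cRed_zero_iff.2 (P2.lam_mem_nonunits hp hA hζ.pow_eq_one)).mem
  set W : FN (M₁ * p) := ⟨h ^ p, hK.2.choose⟩ with hW
  obtain ⟨G, θ, θ', hG0, hθ, hθ', h1, h2⟩ :=
    sect_int hM hp hp2 hpM A hA hζ W hW1 hW2 hK.2.choose_spec
  obtain ⟨z, hz, hzA, -⟩ := h1 h rfl
  obtain ⟨z₀, hz₀, hz₀A, -⟩ := h2 h₀ hh₀
  have hG0' : (G : LaurentSeries Qb) ≠ 0 := fun h0 => hG0 (Subtype.ext h0)
  have hwG0 : ((wq M₁ p G : FN (M₁ * p)) : LaurentSeries Qb) ≠ 0 := fun h0 =>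
    (_root_.map_ne_zero (wq M₁ p)).2 hG0 (Subtype.ext h0)
  refine ⟨sect_mem_KF A H hp.pos G.2 hG0' W.2 hlA hzA hz,
    sect_mem_KF A H hp.pos (wq M₁ p G).2 hwG0 (hh₀ ▸ (wq M₁ p W).2) hlA hz₀A hz₀,
    sect_dp hp hp2 A hA hζ hθ hzA hz hW1, sect_dp hp hp2 A hA hζ hθ' hz₀A hz₀ (hh₀ ▸ hW2)⟩

/-- **[F1], deep case** (`b = b' = 0`): both roots are `≡` a `p`-th root of unity modulo `λ 𝔪`. -/
theorem sect_deep (hM : AdmLevel M₁) (hp : p.Prime) (hp2 : p ≠ 2) (hpM : ¬ p ∣ M₁)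
    (A : ValuationSubring Qb) (hA : A.LiesOverPrime p) {ζ : Qbˣ} (hζ : IsPrimitiveRoot ζ p)
    (H : Subgroup GQ) {h h₀ : LaurentSeries Qb} (hK : IsKum Qb (M₁ * p) p h)
    (hW1 : P2.Dp A (P2.lam ζ ^ p) (h ^ p) 0)
    (hW2 : P2.Dp A (P2.lam ζ ^ p)
      ((wq M₁ p ⟨h ^ p, hK.2.choose⟩ : FN (M₁ * p)) : LaurentSeries Qb) 0)
    (hh₀ : h₀ ^ p = ((wq M₁ p ⟨h ^ p, hK.2.choose⟩ : FN (M₁ * p)) : LaurentSeries Qb)) :
    h ∈ KF A H ∧ h₀ ∈ KF A H ∧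
      (∃ j : ℕ, P2.Dp A (P2.lam ζ) (h / HahnSeries.C ((ζ : Qb) ^ j)) 0) ∧
      (∃ j : ℕ, P2.Dp A (P2.lam ζ) (h₀ / HahnSeries.C ((ζ : Qb) ^ j)) 0) := by
  obtain ⟨h1, h2, ⟨a, ha, hap⟩, ⟨a₀, ha₀, hap₀⟩⟩ :=
    sect_main hM hp hp2 hpM A hA hζ H hK hW1 hW2 hh₀
  exact ⟨h1, h2, sect_normalise hp A hA hζ ha hap, sect_normalise hp A hA hζ ha₀ hap₀⟩

end Fermat.Agent.MR.C
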