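import Fermat.Agent.MR.C.GV

/-!
# MR / C / GVRed : the reduction ring hom of the Gauss valuation `gaussV`

`gaussRed hvc e he : (gaussV hvc e he).integer →+* (kA A)((q))`, characterised by `HasRed A (e x) (gaussRed … x)`;
its kernel is the maximal ideal `{x | gaussV … x < 1}`.
-/

set_option autoImplicit false
noncomputable section

namespace Fermat.Agent.MR.C

open Fermat.Agent.GR Fermat.Agent.GAL Fermat.Agent.GAL.KL Fermat.Agent.GAL.KLC

variable {A : ValuationSubring Qb} {Γ₀ : Type*} [LinearOrderedCommGroupWithZero Γ₀]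
  {vc : Valuation Qb Γ₀} {E : Type*} [Field E]
  (hvc : ∀ a, vc a ≤ 1 ↔ a ∈ A) (e : E →+* LaurentSeries Qb)
  (he : ∀ x : E, x ≠ 0 → Nrm A (e x))

/-- the underlying function of `gaussRed`. -/
def gaussRedFun (x : (gaussV hvc e he).integer) : LaurentSeries (kA A) :=
  ((gaussV_le_one_iff hvc e he).1 x.2).choose

theorem hasRed_gaussRedFun (x : (gaussV hvc e he).integer) :
    HasRed A (e (x : E)) (gaussRedFun hvc e he x) :=
  ((gaussV_le_one_iff hvc e he).1 x.2).choose_spec

/-- **the reduction ring hom of the Gauss valuation.** -/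
def gaussRed : (gaussV hvc e he).integer →+* LaurentSeries (kA A) where
  toFun := gaussRedFun hvc e he
  map_one' := by
    have h := hasRed_gaussRedFun hvc e he 1
    rw [Subring.coe_one, map_one] at h
    exact h.unique HasRed.one
  map_mul' x y := by
    have h := hasRed_gaussRedFun hvc e he (x * y)
    rw [Subring.coe_mul, map_mul] at h
    exact h.unique ((hasRed_gaussRedFun hvc e he x).mul (hasRed_gaussRedFun hvc e he y))
  map_zero' := by
    have h := hasRed_gaussRedFun hvc e he 0
    rw [Subring.coe_zero, map_zero] at h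
    exact h.unique (hasRed_zero A)
  map_add' x y := by
    have h := hasRed_gaussRedFun hvc e he (x + y)
    rw [Subring.coe_add, map_add] at h
    exact h.unique ((hasRed_gaussRedFun hvc e he x).add (hasRed_gaussRedFun hvc e he y))

/-- the characteristic property. -/
theorem hasRed_gaussRed (x : (gaussV hvc e he).integer) :
    HasRed A (e (x : E)) (gaussRed hvc e he x) :=
  hasRed_gaussRedFun hvc e he x

theorem gaussRed_eq_of_hasRed {x : (gaussV hvc e he).integer} {φ : LaurentSeries (kA A)}
    (h : HasRed A (e (x : E)) φ) : gaussRed hvc e he x = φ :=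
  (hasRed_gaussRed hvc e he x).unique h

/-- the same, for an element of `E` given with a reduction. -/
theorem gaussRed_mk_eq {x : E} {φ : LaurentSeries (kA A)} (h : HasRed A (e x) φ)
    (hx : x ∈ (gaussV hvc e he).integer) : gaussRed hvc e he ⟨x, hx⟩ = φ :=
  gaussRed_eq_of_hasRed hvc e he (x := ⟨x, hx⟩) h

theorem mem_integer_of_hasRed {x : E} {φ : LaurentSeries (kA A)} (h : HasRed A (e x) φ) :
    x ∈ (gaussV hvc e he).integer :=
  (gaussV_le_one_iff hvc e he).2 ⟨φ, h⟩

/-- the kernel of the reduction is the maximal ideal. -/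
theorem gaussRed_eq_zero_iff (x : (gaussV hvc e he).integer) :
    gaussRed hvc e he x = 0 ↔ gaussV hvc e he (x : E) < 1 := by
  rw [gaussV_lt_one_iff]
  constructor
  · intro h
    have := hasRed_gaussRed hvc e he x
    rwa [h] at this
  · intro h
    exact gaussRed_eq_of_hasRed hvc e he h

theorem gaussRed_ne_zero_iff (x : (gaussV hvc e he).integer) :
    gaussRed hvc e he x ≠ 0 ↔ gaussV hvc e he (x : E) = 1 := by
  rw [Ne, gaussRed_eq_zero_iff, not_lt]
  exact ⟨fun h => le_antisymm x.2 h, fun h => h.ge⟩

/-- transport along an equality of valuations (`vt b = gaussV …`): a reduction hom for ANY valuation `v` which is equal to a Gauss valuation. -/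
theorem exists_red_of_eq_gaussV {v : Valuation E Γ₀} (hv : v = gaussV hvc e he) :
    ∃ ρ : v.integer →+* LaurentSeries (kA A),
      (∀ z : v.integer, HasRed A (e (z : E)) (ρ z)) ∧
      (∀ z : v.integer, ρ z = 0 ↔ v (z : E) < 1) ∧
      (∀ (z : v.integer) (φ : LaurentSeries (kA A)), HasRed A (e (z : E)) φ → ρ z = φ) := by
  subst hv
  exact ⟨gaussRed hvc e he, hasRed_gaussRed hvc e he, gaussRed_eq_zero_iff hvc e he,
    fun _ _ h => gaussRed_eq_of_hasRed hvc e he h⟩

end Fermat.Agent.MR.C
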