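import Fermat.Agent.MR.C.Prep

/-!
# MR / C / PrepIn : from the hypotheses of `MR.CStatement` to the normalised input `PrepIn`
-/

set_option autoImplicit false
noncomputable section

namespace Fermat.Agent.MR.C

open ModularCurve AlgebraicCurve HahnSeries Fermat.Agent.GR Fermat.Agent.GAL Fermat.Agent.GAL.KLC
open Fermat.Agent.S24 Fermat.Agent.TOR.GB Fermat.Agent.ORD.P2 Fermat.Agent.ORD.P3
open Fermat.Agent.MR.E (HH FixU)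

variable {M₁ p : ℕ} [NeZero M₁] [NeZero p]

/-- integer exponents can be replaced by natural ones modulo `p`. -/
theorem prepIn_zpow {N : ℕ} (hp : p.Prime) {x : LaurentSeries Qb} (hx0 : x ≠ 0)
    (hxp : x ^ p ∈ FL Qb N) (k : ℤ) :
    ∃ k' : ℕ, (p : ℤ) ∣ k - k' ∧ x ^ k / x ^ k' ∈ FL Qb N := by
  have hp0 : (p : ℤ) ≠ 0 := by exact_mod_cast hp.ne_zero
  have hnn : 0 ≤ k % p := Int.emod_nonneg k hp0
  obtain ⟨k', hk'⟩ : ∃ k' : ℕ, (k' : ℤ) = k % p := ⟨(k % p).toNat, Int.toNat_of_nonneg hnn⟩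
  obtain ⟨m, hm⟩ : ∃ m : ℤ, k = (k' : ℤ) + (p : ℤ) * m :=
    ⟨k / p, by rw [hk']; exact (Int.emod_add_mul_ediv k p).symm⟩
  refine ⟨k', ⟨m, by linarith⟩, ?_⟩
  have e2 : x ^ k / x ^ k' = (x ^ p) ^ m := by
    rw [hm, zpow_add₀ hx0, zpow_natCast, zpow_mul, zpow_natCast,
      mul_div_cancel_left₀ _ (pow_ne_zero _ hx0)]
  rw [e2]
  exact zpow_mem hxp _

theorem prepIn_hecke_mem {ℓ : ℕ} [NeZero ℓ] (hℓ : ℓ.Prime) (hℓN : ¬ ℓ ∣ M₁ * p)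
    {r : LaurentSeries Qb} (hr : r ∈ FL Qb (M₁ * p)) : heckeS Qb ℓ r ∈ FL Qb (M₁ * p) :=
  prep_hTF hℓ hℓN ⟨r, hr⟩

/-- the Hecke relation only depends on the class, and on the exponent modulo `p`. -/
theorem prepIn_hecke (hp : p.Prime) {ℓ : ℕ} [NeZero ℓ] (hℓ : ℓ.Prime) (hℓN : ¬ ℓ ∣ M₁ * p)
    {x y : LaurentSeries Qb} (hx0 : x ≠ 0) (hy0 : y ≠ 0) (hxp : x ^ p ∈ FL Qb (M₁ * p))
    (hyx : y / x ∈ FL Qb (M₁ * p)) {e : ℤ} {e' : ℕ} (hee : x ^ e / x ^ e' ∈ FL Qb (M₁ * p))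
    (h : heckeS Qb ℓ x / x ^ e ∈ FL Qb (M₁ * p)) : heckeS Qb ℓ y / y ^ e' ∈ FL Qb (M₁ * p) := by
  have e1 : y = x * (y / x) := by rw [mul_div_cancel₀ _ hx0]
  have hr0 : y / x ≠ 0 := div_ne_zero hy0 hx0
  have e2 : heckeS Qb ℓ y = heckeS Qb ℓ x * heckeS Qb ℓ (y / x) := by
    conv_lhs => rw [e1]
    exact map_mul _ _ _
  have e3 : heckeS Qb ℓ y / y ^ e'
      = (heckeS Qb ℓ x / x ^ e) * (x ^ e / x ^ e') * (heckeS Qb ℓ (y / x) / (y / x) ^ e') := by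
    rw [e2]
    conv_lhs => rw [e1]
    rw [mul_pow]
    have h1 : x ^ e ≠ 0 := zpow_ne_zero _ hx0
    have h2 : x ^ e' ≠ 0 := pow_ne_zero _ hx0
    have h3 : (y / x) ^ e' ≠ 0 := pow_ne_zero _ hr0
    field_simp
  rw [e3]
  exact mul_mem (mul_mem h hee) (div_mem (prepIn_hecke_mem hℓ hℓN hyx) (pow_mem hyx e'))

/-- **from the hypotheses of `MR.CStatement` to `PrepIn`.** -/
theorem exists_prepIn (hM : AdmLevel M₁) (hp : p.Prime) (hp2 : p ≠ 2) (hpM : ¬ p ∣ M₁)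
    (A : ValuationSubring Qb) (hA : A.LiesOverPrime p) {ζ : Qbˣ} (hζ : IsPrimitiveRoot ζ p)
    {u u₁ : LaurentSeries Qb} (hu : IsKum Qb (M₁ * p) p u) (hu₁ : IsKum Qb (M₁ * p) p u₁)
    (hu₁n : u₁ ∉ FL Qb (M₁ * p))
    (h1 : ∀ τ ∈ A.inertiaSubgroupIn ℚ, ∃ k : ℤ, galS τ u / (u * u₁ ^ k) ∈ FL Qb (M₁ * p))
    (h2 : ∀ τ ∈ A.inertiaSubgroupIn ℚ, ∀ e : ℕ, (∀ ξ : Qb, ξ ^ p = 1 → τ ξ = ξ ^ e) →
      galS τ u₁ / u₁ ^ e ∈ FL Qb (M₁ * p))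
    (h3 : ∀ σ ∈ HH A p, FixU A p σ → galS σ u / u ∈ FL Qb (M₁ * p))
    (h4 : ∃ (ℓ : ℕ) (_ : NeZero ℓ) (e : ℤ), ℓ.Prime ∧ ¬ ℓ ∣ M₁ * p ∧ ¬ (p : ℤ) ∣ e - (ℓ + 1) ∧
      heckeS Qb ℓ u / u ^ e ∈ FL Qb (M₁ * p) ∧ heckeS Qb ℓ u₁ / u₁ ^ e ∈ FL Qb (M₁ * p))
    (hU₁ : NmL Qb p (NmL Qb p u₁) / u₁ ∈ FL Qb (M₁ * p))
    (hnew : ∃ (c : Qb) (g : LaurentSeries Qb), g ∈ FL Qb M₁ ∧
      ((wq M₁ p ⟨u₁ ^ p, hu₁.pow_mem⟩ : FN (M₁ * p)) : LaurentSeries Qb) * NmL Qb p (u₁ ^ p)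
        = HahnSeries.C c * g ^ p) :
    ∃ (ℓ : ℕ) (_ : NeZero ℓ) (e : ℕ) (c0 : Qb) (h₁ : LaurentSeries Qb), c0 ≠ 0 ∧
      PrepIn A M₁ p ℓ e ζ (HahnSeries.C c0 * u) h₁ := by
  obtain ⟨ℓ, hℓ0, e, hℓ, hℓN, he, hTu, hTu₁⟩ := h4
  obtain ⟨h₁, hh0, hhu, hh, hd1, hd2⟩ := deep_kum hM hp hp2 hpM hA hζ hu₁ h2 (n := 2) (by norm_num)
    hU₁ hnew
  have hu0 := hu.ne_zero
  have hu₁0 := hu₁.ne_zero
  set c0 : Qb := (u.leadingCoeff)⁻¹ with hc0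
  have hlc : u.leadingCoeff ≠ 0 := HahnSeries.leadingCoeff_ne_zero.2 hu0
  have hc00 : c0 ≠ 0 := inv_ne_zero hlc
  have hC0 : (HahnSeries.C c0 : LaurentSeries Qb) ≠ 0 := C_ne_zero' hc00
  have hCm : (HahnSeries.C c0 : LaurentSeries Qb) ∈ FL Qb (M₁ * p) := GAL.C_mem_FL _ _
  set u' : LaurentSeries Qb := HahnSeries.C c0 * u with hu'
  have hu'0 : u' ≠ 0 := mul_ne_zero hC0 hu0
  have hu'u : u' / u ∈ FL Qb (M₁ * p) := by
    rw [hu', mul_div_cancel_right₀ _ hu0]; exact hCm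
  have hku' : IsKum Qb (M₁ * p) p u' := (isKum_of_mem hCm hC0).mul hu
  have hkh : IsKum Qb (M₁ * p) p h₁ := by
    have e1 : h₁ = u₁ * (h₁ / u₁) := by rw [mul_div_cancel₀ _ hu₁0]
    rw [e1]
    exact hu₁.mul (isKum_of_mem hhu (div_ne_zero hh0 hu₁0))
  obtain ⟨e', hee', hue⟩ := prepIn_zpow hp hu0 hu.pow_mem e
  have hu₁e : u₁ ^ e / u₁ ^ e' ∈ FL Qb (M₁ * p) := by
    obtain ⟨m, hm⟩ := hee'
    have e1 : e = (e' : ℤ) + (p : ℤ) * m := by linarith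
    have e2 : u₁ ^ e / u₁ ^ e' = (u₁ ^ p) ^ m := by
      rw [e1, zpow_add₀ hu₁0, zpow_natCast, zpow_mul, zpow_natCast,
        mul_div_cancel_left₀ _ (pow_ne_zero _ hu₁0)]
    rw [e2]
    exact zpow_mem hu₁.pow_mem _
  refine ⟨ℓ, hℓ0, e', c0, h₁, hc00, ?_⟩
  exact
  { hM := hM
    hp := hp
    hp2 := hp2
    hpM := hpM
    hA := hA
    hζ := hζ
    hℓ := hℓ
    hℓN := hℓN
    he := by
      intro hd
      apply he
      have : e - ((ℓ : ℤ) + 1) = (e - e') - ((ℓ : ℤ) + 1 - e') := by ring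
      rw [this]
      exact dvd_sub hee' hd
    ku := hku'
    kh := hkh
    lead := by
      rw [HahnSeries.leadingCoeff_mul, leadingCoeff_C', hc0, inv_mul_cancel₀ hlc]
    h1_not := by
      intro hmem
      apply hu₁n
      have e1 : u₁ = h₁ / (h₁ / u₁) := by field_simp
      rw [e1]
      exact div_mem hmem hhu
    Tu := prepIn_hecke hp hℓ hℓN hu0 hu'0 hu.pow_mem hu'u hue hTu
    Th := prepIn_hecke hp hℓ hℓN hu₁0 hh0 hu₁.pow_mem hhu hu₁e hTu₁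
    deep := hd1
    deep0 := hd2
    gal_h := by
      intro τ hτ a ha
      have g1 := h2 τ hτ a ha
      have e1 : galS τ h₁ / h₁ ^ a
          = (galS τ u₁ / u₁ ^ a) * (galS τ (h₁ / u₁) / (h₁ / u₁) ^ a) := by
        rw [map_div₀, div_pow]
        have := galS_ne_zero τ hu₁0
        have h5 : u₁ ^ a ≠ 0 := pow_ne_zero _ hu₁0
        have h6 : h₁ ^ a ≠ 0 := pow_ne_zero _ hh0
        field_simp
      rw [e1]
      exact mul_mem g1 (div_mem (GAL.galS_mem_FL τ hhu) (pow_mem hhu a))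
    gal_u := by
      intro τ hτ
      obtain ⟨k, hk⟩ := h1 τ hτ
      obtain ⟨k', -, hkk⟩ := prepIn_zpow hp hu₁0 hu₁.pow_mem k
      refine ⟨k', ?_⟩
      have e1 : galS τ u' / (u' * h₁ ^ k')
          = (galS τ (HahnSeries.C c0) / HahnSeries.C c0) * (galS τ u / (u * u₁ ^ k))
            * (u₁ ^ k / u₁ ^ k') / (h₁ / u₁) ^ k' := by
        rw [hu', map_mul, div_pow]
        have h5 : u₁ ^ k ≠ 0 := zpow_ne_zero _ hu₁0
        have h6 : u₁ ^ k' ≠ 0 := pow_ne_zero _ hu₁0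
        have h7 : h₁ ^ k' ≠ 0 := pow_ne_zero _ hh0
        field_simp
      rw [e1]
      exact div_mem (mul_mem (mul_mem (div_mem (GAL.galS_mem_FL τ hCm) hCm) hk) hkk)
        (pow_mem hhu k')
    peu := by
      intro σ hσ hU
      have g1 := h3 σ hσ hU
      have e1 : galS σ u' / u'
          = (galS σ (HahnSeries.C c0) / HahnSeries.C c0) * (galS σ u / u) := by
        rw [hu', map_mul]
        field_simp
      rw [e1]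
      exact mul_mem (div_mem (GAL.galS_mem_FL σ hCm) hCm) g1 }

end Fermat.Agent.MR.C
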