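import Fermat.Agent.MR.C.SepOrb
import Fermat.Agent.MR.C.ASLift
import Fermat.Agent.MR.TH.Final

/-!
# MR / C / SepH : (SEP) for the concrete cover (independent hedge)

Input: the cover hypotheses `H : CovHyp I (FS N) w p ζ h₁ h₁₀` (`N = M₁ p`, `w = w_p` on expansions), `W = h₁^p` deep at both valuations with
`p ∣ div W`, and the output of [F1]: `h₁ = 1 + λ (j + ..)`, `h₁₀ = 1 + λ (j₀ + ..)` with CONSTANTS `j, j₀`.

* `sepH_red`   : series level, the reduction of `(G ζ^m h - 1)/λ - θ`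
* `sepH_elts`  : the two elements `y_∞ = z_Q - θ_∞`, `y_0 = z_Q - θ_0` of `F1 = F(h₁)`, `z_Q = (G h₁ - 1)/λ`
* `sepH_sep`   : the field `Cov.sep` for `B₀ = BT`, `v₀ = vT`, `δ = H.δC`, `vt = vtOf p H.δC V`
-/

set_option autoImplicit false
noncomputable section

namespace Fermat.Agent.MR.C

open HahnSeries Polynomial ModularCurve AlgebraicCurve
open Fermat.Agent.GR Fermat.Agent.GAL Fermat.Agent.GAL.KL Fermat.Agent.GAL.KLC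
  Fermat.Agent.DSC Fermat.Agent.CAR Fermat.Agent.CAR.DESC Fermat.Agent.S24 Fermat.Agent.TOR.GB
  Fermat.Agent.ORD.P2 Fermat.Agent.CAR.BK Fermat.Agent.CAR.CNT Fermat.Agent.CAR.ON
  Fermat.Agent.MR.TH

local notation "Λ" => LaurentSeries Qb

/-- `ζ^m = 1 + λ (m + ..)`. -/
theorem sepH_dp_zeta {p : ℕ} (hp : p.Prime) {A : ValuationSubring Qb} (hA : A.LiesOverPrime p)
    {ζ : Qbˣ} (hζ : IsPrimitiveRoot ζ p) (m : ℕ) :
    Dp A (lam ζ) ((HahnSeries.C (ζ : Qb) : Λ) ^ m) (HahnSeries.C (m : kA A)) := by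
  have hl : lam ζ ≠ 0 := lam_ne_zero hp hζ
  have hm : lam ζ ∈ A.nonunits := lam_mem_nonunits hp hA hζ.pow_eq_one
  have h1 : Dp A (lam ζ) (HahnSeries.C (ζ : Qb) : Λ) (HahnSeries.C (1 : kA A)) := by
    have := Dp.const (A := A) (ε := lam ζ) (c := 1) hl CRed.one
    have e : (1 : Qb) + lam ζ * 1 = (ζ : Qb) := by rw [lam]; ring
    rwa [e] at this
  have h2 := h1.pow hl hm m
  have e : m • (HahnSeries.C (1 : kA A) : LaurentSeries (kA A)) = HahnSeries.C (m : kA A) := by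
    rw [nsmul_eq_mul, map_one, mul_one, map_natCast]
  rwa [e] at h2

/-- series level: the reduction of `(G ζ^m h - 1)/λ - θ`. -/
theorem sepH_red {p : ℕ} (hp : p.Prime) {A : ValuationSubring Qb} (hA : A.LiesOverPrime p)
    {ζ : Qbˣ} (hζ : IsPrimitiveRoot ζ p) {G h θ : Λ} {a b : LaurentSeries (kA A)} {j : kA A}
    (hG : Dp A (lam ζ) G a) (hh : Dp A (lam ζ) h (HahnSeries.C j)) (hθ : HasRed A θ b) (m : ℕ) :
    HasRed A ((G * ((HahnSeries.C (ζ : Qb) : Λ) ^ m * h) - 1) / HahnSeries.C (lam ζ) - θ)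
      (a - b + HahnSeries.C (j + m)) := by
  have hl : lam ζ ≠ 0 := lam_ne_zero hp hζ
  have hm : lam ζ ∈ A.nonunits := lam_mem_nonunits hp hA hζ.pow_eq_one
  have h1 : Dp A (lam ζ) (G * ((HahnSeries.C (ζ : Qb) : Λ) ^ m * h))
      (a + (HahnSeries.C (m : kA A) + HahnSeries.C j)) :=
    hG.mul hl hm ((sepH_dp_zeta hp hA hζ m).mul hl hm hh)
  have h2 := HasRed.add h1 (hasRed_neg hθ)
  have e : a + (HahnSeries.C (m : kA A) + HahnSeries.C j) + -b = a - b + HahnSeries.C (j + m) := by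
    rw [map_add]; ring
  rw [e, ← sub_eq_add_neg] at h2
  exact h2

/-! ### the element `(G h₁ - 1)/c - θ` of `F1` -/

section Elt

variable {I : Subgroup GQ} {N : ℕ} {h1 h10 : Λ} {w : FS N →+* Λ} {p : ℕ} {ζ : Qb}

/-- the element `(G h₁ - 1)/c - θ` of `F1`. -/
def CovHyp.sepH_y (H : CovHyp I (FS N) w p ζ h1 h10) (c : Qb) (G θ : FL Qb N) : adjF (FS N) h1 :=
  ((⟨(G : Λ), le_adjF _ _ G.2⟩ : adjF (FS N) h1) * ⟨h1, self_mem_adjF _ _⟩ - 1)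
    / ⟨HahnSeries.C c, le_adjF _ _ (H.C_mem c)⟩ - ⟨(θ : Λ), le_adjF _ _ θ.2⟩

theorem CovHyp.sepH_deck_h (H : CovHyp I (FS N) w p ζ h1 h10) (m : ℕ) :
    (H.kum.deck ^ m) ⟨h1, self_mem_adjF _ _⟩
      = (⟨HahnSeries.C ζ, le_adjF _ _ (H.C_mem ζ)⟩ : adjF (FS N) h1) ^ m * ⟨h1, self_mem_adjF _ _⟩ := by
  apply Subtype.ext
  rw [H.kum.deck_pow_h]
  rfl

theorem CovHyp.sepH_deck_y (H : CovHyp I (FS N) w p ζ h1 h10) (c : Qb) (G θ : FL Qb N) (m : ℕ) :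
    (H.kum.deck ^ m) (H.sepH_y c G θ)
      = ((⟨(G : Λ), le_adjF _ _ G.2⟩ : adjF (FS N) h1)
          * ((⟨HahnSeries.C ζ, le_adjF _ _ (H.C_mem ζ)⟩ : adjF (FS N) h1) ^ m
            * ⟨h1, self_mem_adjF _ _⟩) - 1)
        / ⟨HahnSeries.C c, le_adjF _ _ (H.C_mem c)⟩ - ⟨(θ : Λ), le_adjF _ _ θ.2⟩ := by
  have e1 := H.kum.deck_pow_F m ⟨(G : Λ), G.2⟩
  have e2 := H.kum.deck_pow_F m ⟨(θ : Λ), θ.2⟩
  have e3 := H.kum.deck_pow_F m ⟨HahnSeries.C c, H.C_mem c⟩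
  unfold CovHyp.sepH_y
  rw [map_sub, map_div₀, map_sub, map_mul, map_one, H.sepH_deck_h]
  exact congrArg₂ _ (congrArg₂ _ (congrArg₂ _ (congrArg₂ _ e1 rfl) rfl) e3) e2

theorem CovHyp.sepH_coe_deck_y (H : CovHyp I (FS N) w p ζ h1 h10) (c : Qb) (G θ : FL Qb N) (m : ℕ) :
    (((H.kum.deck ^ m) (H.sepH_y c G θ) : adjF (FS N) h1) : Λ)
      = ((G : Λ) * ((HahnSeries.C ζ : Λ) ^ m * h1) - 1) / HahnSeries.C c - (θ : Λ) := by
  rw [H.sepH_deck_y]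
  rfl

theorem CovHyp.sepH_ι0_deck_y (H : CovHyp I (FS N) w p ζ h1 h10)
    (hwC : ∀ c : Qb, w ⟨HahnSeries.C c, H.C_mem c⟩ = HahnSeries.C c)
    (c : Qb) (G θ : FL Qb N) (m : ℕ) :
    H.ι0 ((H.kum.deck ^ m) (H.sepH_y c G θ))
      = (w ⟨(G : Λ), G.2⟩ * ((HahnSeries.C ζ : Λ) ^ m * h10) - 1) / HahnSeries.C c
        - w ⟨(θ : Λ), θ.2⟩ := by
  have e1 := H.ι0_F ⟨(G : Λ), G.2⟩
  have e2 := H.ι0_F ⟨(θ : Λ), θ.2⟩
  have e3 := H.ι0_F ⟨HahnSeries.C c, H.C_mem c⟩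
  have e4 := H.ι0_F ⟨HahnSeries.C ζ, H.C_mem ζ⟩
  rw [hwC] at e3 e4
  rw [H.sepH_deck_y, map_sub, map_div₀, map_sub, map_mul, map_mul, map_pow, map_one, H.ι0_h]
  exact congrArg₂ _ (congrArg₂ _ (congrArg₂ _ (congrArg₂ _ e1
    (congrArg₂ _ (congrArg (· ^ m) e4) rfl)) rfl) e3) e2

/-- the two expansions of `F1`. -/
def CovHyp.sepH_eps (H : CovHyp I (FS N) w p ζ h1 h10) : I2 → adjF (FS N) h1 →+* Λ
  | none => (adjF (FS N) h1).subtype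
  | some _ => H.ι0

theorem CovHyp.sepH_eps_oo (H : CovHyp I (FS N) w p ζ h1 h10) (x : adjF (FS N) h1) :
    H.sepH_eps oo x = (x : Λ) := rfl

theorem CovHyp.sepH_eps_zr (H : CovHyp I (FS N) w p ζ h1 h10) (x : adjF (FS N) h1) :
    H.sepH_eps zr x = H.ι0 x := rfl

end Elt

variable {M₁ p : ℕ} [NeZero M₁] [NeZero p]

/-- `w` fixes the constants. -/
theorem sepH_w_C {w : FS (M₁ * p) →+* Λ}
    (hw : ∀ f : FN (M₁ * p), w ⟨(f : Λ), f.2⟩ = ((wq M₁ p f : FN (M₁ * p)) : Λ)) (c : Qb)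
    (hc : (HahnSeries.C c : Λ) ∈ FS (M₁ * p)) : w ⟨HahnSeries.C c, hc⟩ = HahnSeries.C c := by
  have h1 := hw (algebraMap Qb (FN (M₁ * p)) c)
  rw [AlgEquiv.commutes] at h1
  have e : ((algebraMap Qb (FN (M₁ * p)) c : FN (M₁ * p)) : Λ) = HahnSeries.C c :=
    ValThm_coe_algebraMap (M₁ * p) c
  exact ((congrArg w (Subtype.ext e.symm)).trans h1).trans e

/-- **[SEP-B]** the two elements `y_∞`, `y_0` of `F1`. -/
theorem sepH_elts (hM : AdmLevel M₁) (hp : p.Prime) (hp2 : p ≠ 2) (hpM : ¬ p ∣ M₁)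
    (A : ValuationSubring Qb) (hA : A.LiesOverPrime p) {ζ : Qbˣ} (hζ : IsPrimitiveRoot ζ p)
    {I : Subgroup GQ} {w : FS (M₁ * p) →+* Λ}
    (hw : ∀ f : FN (M₁ * p), w ⟨(f : Λ), f.2⟩ = ((wq M₁ p f : FN (M₁ * p)) : Λ))
    {h1 h10 : Λ} (H : CovHyp I (FS (M₁ * p)) w p (ζ : Qb) h1 h10)
    (hdiv : ∀ P : Place Qb (FL Qb (M₁ * p)), (p : ℤ) ∣ P.ord (⟨h1 ^ p, H.pow_mem⟩ : FN (M₁ * p)))
    (hd : Dp A (lam ζ ^ p) (h1 ^ p) 0)
    (hd0 : Dp A (lam ζ ^ p) (w ⟨h1 ^ p, H.pow_mem⟩) 0)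
    {j j0 : kA A} (hj : Dp A (lam ζ) h1 (HahnSeries.C j))
    (hj0 : Dp A (lam ζ) h10 (HahnSeries.C j0)) :
    ∃ y y' : adjF (FS (M₁ * p)) h1,
      IsInt Qb ((tQ M₁ p : FN (M₁ * p)) : Λ) (y : Λ) ∧
      IsInt Qb ((tQ M₁ p : FN (M₁ * p)) : Λ) (y' : Λ) ∧
      (∀ m : ℕ, HasRed A (((H.kum.deck ^ m) y : adjF (FS (M₁ * p)) h1) : Λ)
        (HahnSeries.C (j + m))) ∧
      (∀ m : ℕ, ∃ φ, HasRed A (H.ι0 ((H.kum.deck ^ m) y)) φ) ∧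
      (∀ m : ℕ, HasRed A (H.ι0 ((H.kum.deck ^ m) y')) (HahnSeries.C (j0 + m))) ∧
      (∀ m : ℕ, ∃ φ, HasRed A (((H.kum.deck ^ m) y' : adjF (FS (M₁ * p)) h1) : Λ) φ) := by
  have hl : lam ζ ≠ 0 := lam_ne_zero hp hζ
  have hwC : ∀ c : Qb, w ⟨HahnSeries.C c, H.C_mem c⟩ = HahnSeries.C c :=
    fun c => sepH_w_C hw c _
  obtain ⟨G, f, θ, θ', a, a', hG0, hGf, hfi, hf1, hf2, hGa, hGa', t1, t2, t3, t1', t2', t3'⟩ :=
    sepData M₁ p hM hp hp2 hpM A hA hζ (⟨h1 ^ p, H.pow_mem⟩ : FN (M₁ * p)) hd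
      (by rw [← hw]; exact hd0) hdiv
  obtain ⟨b, hb⟩ := (ValThm_le_one_iff A (M₁ * p)).1 t3
  obtain ⟨b', hb'⟩ := (ValThm_le_one_iff A (M₁ * p)).1 t3'
  -- integrality of `z_Q`
  have hCint : ∀ c : Qb, IsInt Qb ((tQ M₁ p : FN (M₁ * p)) : Λ) (HahnSeries.C c : Λ) := by
    intro c
    rw [← hgc_algebraMap]
    exact IsInt.algebraMap c
  have hGh : IsInt Qb ((tQ M₁ p : FN (M₁ * p)) : Λ) ((G : Λ) * h1) := by
    refine IsInt.of_pow hp.pos ?_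
    have e : ((G : Λ) * h1) ^ p
        = ((1 + algebraMap Qb (FL Qb (M₁ * p)) (lam ζ ^ p) * f : FL Qb (M₁ * p)) : Λ) := by
      rw [← hGf, mul_pow]
      rfl
    rw [e]
    exact hgc_isInt_coe (IsInt.one.add ((IsInt.algebraMap _).mul hfi))
  have hz : ∀ ϑ : FN (M₁ * p), IsInt Qb (tQ M₁ p) ϑ →
      IsInt Qb ((tQ M₁ p : FN (M₁ * p)) : Λ) ((H.sepH_y (lam ζ) G ϑ : adjF (FS (M₁ * p)) h1) : Λ) := by
    intro ϑ hϑ
    have e : ((H.sepH_y (lam ζ) G ϑ : adjF (FS (M₁ * p)) h1) : Λ)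
        = ((G : Λ) * h1 - 1) * HahnSeries.C (lam ζ)⁻¹ - (ϑ : Λ) := by
      rw [map_inv₀, ← div_eq_mul_inv]
      rfl
    rw [e]
    exact ((hGh.sub IsInt.one).mul (hCint _)).sub (hgc_isInt_coe hϑ)
  refine ⟨H.sepH_y (lam ζ) G θ, H.sepH_y (lam ζ) G θ', hz θ t1, hz θ' t1', ?_, ?_, ?_, ?_⟩
  · intro m
    rw [H.sepH_coe_deck_y]
    have := sepH_red hp hA hζ hGa hj t2 m
    rwa [sub_self, zero_add] at this
  · intro m
    rw [H.sepH_ι0_deck_y hwC, hw G, hw θ]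
    exact ⟨_, sepH_red hp hA hζ hGa' hj0 hb m⟩
  · intro m
    rw [H.sepH_ι0_deck_y hwC, hw G, hw θ']
    have := sepH_red hp hA hζ hGa' hj0 t2' m
    rwa [sub_self, zero_add] at this
  · intro m
    rw [H.sepH_coe_deck_y]
    exact ⟨_, sepH_red hp hA hζ hGa hj hb' m⟩

/-- **(SEP)** = the field `Cov.sep` for the concrete cover: `B₀ = BT`, `v₀ = vT`, `δ = H.δC`, `vt = vtOf p H.δC V`, where `V oo`, `V zr` are
the Gauss valuations along the inclusion and along `H.ι0` (`hle`, `hlt` = `gaussV_le_one_iff.2`, `gaussV_lt_one_iff.2`). -/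
theorem sepH_sep (hM : AdmLevel M₁) (hp : p.Prime) (hp2 : p ≠ 2) (hpM : ¬ p ∣ M₁)
    (A : ValuationSubring Qb) (hA : A.LiesOverPrime p) {ζ : Qbˣ} (hζ : IsPrimitiveRoot ζ p)
    {w : FS (M₁ * p) →+* Λ}
    (hw : ∀ f : FN (M₁ * p), w ⟨(f : Λ), f.2⟩ = ((wq M₁ p f : FN (M₁ * p)) : Λ))
    {h1 h10 : Λ} (H : CovHyp (IA A) (FS (M₁ * p)) w p (ζ : Qb) h1 h10)
    (hdiv : ∀ P : Place Qb (FL Qb (M₁ * p)), (p : ℤ) ∣ P.ord (⟨h1 ^ p, H.pow_mem⟩ : FN (M₁ * p)))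
    (hd : Dp A (lam ζ ^ p) (h1 ^ p) 0)
    (hd0 : Dp A (lam ζ ^ p) (w ⟨h1 ^ p, H.pow_mem⟩) 0)
    {j j0 : kA A} (hj : Dp A (lam ζ) h1 (HahnSeries.C j))
    (hj0 : Dp A (lam ζ) h10 (HahnSeries.C j0))
    (V : I2 → Valuation (fixS (IA A) (adjF (FS (M₁ * p)) h1)) (Ov A (M₁ * p)).ValueGroup)
    (hV : ∀ (i : I2) (x : EC A (M₁ * p)),
      V i (algebraMap (EC A (M₁ * p)) (fixS (IA A) (adjF (FS (M₁ * p)) h1)) x) = vT M₁ p A i x)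
    (hle : ∀ (i : I2) (x : fixS (IA A) (adjF (FS (M₁ * p)) h1)),
      (∃ φ, HasRed A (H.sepH_eps i (toF1 x)) φ) → V i x ≤ 1)
    (hlt : ∀ (i : I2) (x : fixS (IA A) (adjF (FS (M₁ * p)) h1)),
      HasRed A (H.sepH_eps i (toF1 x)) 0 → V i x < 1)
    (i : I2) (k l : ZMod p) (hkl : k ≠ l) :
    ∃ b : fixS (IA A) (adjF (FS (M₁ * p)) h1), IsIntegral (BT M₁ p A) b ∧
      vtOf p H.δC V (i, l) b < 1 ∧ vtOf p H.δC V (i, k) (b - 1) < 1 := by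
  have : Fact p.Prime := ⟨hp⟩
  have hchar : CharP (kA A) p := charP_residueField hp hA
  have hwC : ∀ c : Qb, w ⟨HahnSeries.C c, H.C_mem c⟩ = HahnSeries.C c :=
    fun c => sepH_w_C hw c _
  obtain ⟨y, y', hy, hy', r1, r2, r3, r4⟩ :=
    sepH_elts hM hp hp2 hpM A hA hζ hw H hdiv hd hd0 hj hj0
  have hεC : ∀ (i : I2) (c : Qb),
      H.sepH_eps i ⟨HahnSeries.C c, le_adjF _ _ (H.C_mem c)⟩ = HahnSeries.C c := by
    intro i c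
    rcases I2_cases i with rfl | rfl
    · rfl
    · rw [H.sepH_eps_zr]
      exact (H.ι0_F ⟨HahnSeries.C c, H.C_mem c⟩).trans (hwC c)
  have hε : ∀ (i : I2) (τ : GQ) (hτ : τ ∈ IA A) (x : adjF (FS (M₁ * p)) h1),
      galS τ (H.sepH_eps i x) = H.sepH_eps i ⟨galS τ x, H.gal_mem τ hτ x⟩ := by
    intro i τ hτ x
    rcases I2_cases i with rfl | rfl
    · rfl
    · exact H.gal_ι τ hτ x
  have htfix : FixS ((IA A : Subgroup GQ) : Set GQ) ((tQ M₁ p : FN (M₁ * p)) : Λ) :=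
    tQ_mem_EC A
  have hB₀ : ∀ z : EC A (M₁ * p), IsInt Qb (tQ M₁ p) (z : FL Qb (M₁ * p)) →
      (∀ i, vT M₁ p A i z ≤ 1) → z ∈ BT M₁ p A :=
    fun z h1 h2 => mem_Bu.2 ⟨h1, h2⟩
  have hne : ∀ c : kA A, c + ((k.val : ℕ) : kA A) ≠ c + ((l.val : ℕ) : kA A) := by
    intro c h
    have h1 := add_left_cancel h
    rw [CharP.natCast_eq_natCast (kA A) p] at h1
    have h2 : k.val = l.val := Nat.ModEq.eq_of_lt_of_lt h1 (ZMod.val_lt k) (ZMod.val_lt l)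
    exact hkl (ZMod.val_injective p h2)
  rcases I2_cases i with rfl | rfl
  · refine H.sepOrb_of_const le_rfl H.sepH_eps hεC hε V hV hle hlt htfix hB₀ y hy ?_ oo
      (fun m => j + m) r1 k l (hne j)
    intro i m
    rcases I2_cases i with rfl | rfl
    · exact ⟨_, r1 m⟩
    · exact r2 m
  · refine H.sepOrb_of_const le_rfl H.sepH_eps hεC hε V hV hle hlt htfix hB₀ y' hy' ?_ zr
      (fun m => j0 + m) r3 k l (hne j0)
    intro i m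
    rcases I2_cases i with rfl | rfl
    · exact r4 m
    · exact ⟨_, r3 m⟩

end Fermat.Agent.MR.C
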