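import Fermat.Agent.MR.A.HeckeRed

/-!
# MR / C : the Hecke-Gauss lemma ("the component group is Eisenstein", formal form).

The Gauss norm satisfies `|heckeS ℓ Y| = |Y|^(ℓ+1)` (`MR.A.hasRed_heckeS_any`).  Hence, if `S` is a `q`-series such that `S^p` and
`Φ = heckeS ℓ S / S^e` both have a Gauss norm in `|p|^ℤ` and `p ∤ ℓ + 1 - e`, then the Gauss norm of `S^p` lies in `|p|^(pℤ)`.
No root extraction inside the field of series of bounded type is needed.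
-/

set_option autoImplicit false

open ModularCurve

noncomputable section

namespace Fermat.Agent.MR.C

open Fermat.Agent.GR Fermat.Agent.GAL Fermat.Agent.GAL.CT Fermat.Agent.GAL.KLC Fermat.Agent.MR.A

variable {A : ValuationSubring Qb}

theorem HeckeGauss_heckeS_ne_zero {k : Type*} [Field k] (ℓ : ℕ) [NeZero ℓ] {w : LaurentSeries k}
    (hw : w ≠ 0) : heckeS k ℓ w ≠ 0 := by
  intro h0
  have h1 : heckeS k ℓ w * heckeS k ℓ w⁻¹ = 1 := by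
    rw [← map_mul, mul_inv_cancel₀ hw, map_one]
  rw [h0, zero_mul] at h1
  exact zero_ne_one h1

/-- two series with non-zero reduction which differ by a constant: the constant is integral. -/
theorem HeckeGauss_mem {X Y : LaurentSeries Qb} {Xb Yb : LaurentSeries (kA A)}
    (hX : HasRed A X Xb) (hY : HasRed A Y Yb) (hYb : Yb ≠ 0) {c : Qb}
    (h : X = HahnSeries.C c * Y) : c ∈ A := by
  have hY0 : Y ≠ 0 := hY.ne_zero hYb
  have h1 : HasRed A (HahnSeries.C c) (Xb / Yb) := by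
    have h2 := hX.div hY hYb
    rwa [h, mul_div_cancel_right₀ _ hY0] at h2
  exact ValThm_mem_of_hasRed_C A h1

/-- **Hecke-Gauss, general constants.** -/
theorem heckeGauss_unit (p ℓ : ℕ) [NeZero ℓ] (e : ℤ) {S : LaurentSeries Qb} (hS : S ≠ 0)
    {c₁ c₂ : Qb} (hc₁ : c₁ ≠ 0) (hc₂ : c₂ ≠ 0) {φ ψ : LaurentSeries (kA A)}
    (h1 : HasRed A (HahnSeries.C c₁ * S ^ p) φ) (hφ : φ ≠ 0)
    (h2 : HasRed A (HahnSeries.C c₂ * (heckeS Qb ℓ S / S ^ e)) ψ) (hψ : ψ ≠ 0) :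
    c₁ ^ (ℓ + 1) / (c₁ ^ e * c₂ ^ p) ∈ A ∧ (c₁ ^ (ℓ + 1) / (c₁ ^ e * c₂ ^ p))⁻¹ ∈ A := by
  have hX := hasRed_heckeS_any (A := A) ℓ h1
  have hXb : heckeS (kA A) ℓ φ ≠ 0 := HeckeGauss_heckeS_ne_zero ℓ hφ
  have hZ := (hasRed_zpow h1 hφ e).mul (h2.pow p)
  have hZb : φ ^ e * ψ ^ p ≠ 0 := mul_ne_zero (zpow_ne_zero _ hφ) (pow_ne_zero _ hψ)
  have hC1 : (HahnSeries.C c₁ : LaurentSeries Qb) ≠ 0 := by
    intro h
    exact hc₁ (HahnSeries.C_injective (by rw [h, map_zero]))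
  have hC2 : (HahnSeries.C c₂ : LaurentSeries Qb) ≠ 0 := by
    intro h
    exact hc₂ (HahnSeries.C_injective (by rw [h, map_zero]))
  have hSe : S ^ e ≠ 0 := zpow_ne_zero _ hS
  -- both sides in terms of `heckeS S`
  have eX : heckeS Qb ℓ (HahnSeries.C c₁ * S ^ p)
      = HahnSeries.C c₁ ^ (ℓ + 1) * heckeS Qb ℓ S ^ p := by
    rw [map_mul, heckeS_C, map_pow, map_pow]
  have eZ : (HahnSeries.C c₁ * S ^ p) ^ e * (HahnSeries.C c₂ * (heckeS Qb ℓ S / S ^ e)) ^ p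
      = HahnSeries.C c₁ ^ e * HahnSeries.C c₂ ^ p * heckeS Qb ℓ S ^ p := by
    rw [mul_zpow, mul_pow, div_pow]
    have : (S ^ p) ^ e = (S ^ e) ^ p := by
      rw [← zpow_natCast, ← zpow_mul, ← zpow_natCast (S ^ e), ← zpow_mul, mul_comm]
    rw [this]
    have h3 : (S ^ e) ^ p ≠ 0 := pow_ne_zero _ hSe
    field_simp
  have hCc : (HahnSeries.C (c₁ ^ (ℓ + 1) / (c₁ ^ e * c₂ ^ p)) : LaurentSeries Qb)
      = HahnSeries.C c₁ ^ (ℓ + 1) / (HahnSeries.C c₁ ^ e * HahnSeries.C c₂ ^ p) := by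
    rw [map_div₀, map_mul, map_pow, map_pow, map_zpow₀]
  have hden : (HahnSeries.C c₁ : LaurentSeries Qb) ^ e * HahnSeries.C c₂ ^ p ≠ 0 :=
    mul_ne_zero (zpow_ne_zero _ hC1) (pow_ne_zero _ hC2)
  constructor
  · refine HeckeGauss_mem hX hZ hZb ?_
    rw [eX, eZ, hCc]
    field_simp
  · refine HeckeGauss_mem hZ hX hXb ?_
    rw [eX, eZ, map_inv₀, hCc]
    have hnum : (HahnSeries.C c₁ : LaurentSeries Qb) ^ (ℓ + 1) ≠ 0 := pow_ne_zero _ hC1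
    field_simp

/-- a power of `p` which is a unit at `A ∣ p` is trivial. -/
theorem HeckeGauss_zpow_unit {p : ℕ} (hp0 : p ≠ 0) (hA : A.LiesOverPrime p) {n : ℤ}
    (h1 : (p : Qb) ^ n ∈ A) (h2 : ((p : Qb) ^ n)⁻¹ ∈ A) : n = 0 := by
  have hp : A.valuation (p : Qb) < 1 := (ValuationSubring.mem_nonunits_iff A).1 hA
  have hpQ : (p : Qb) ≠ 0 := by exact_mod_cast hp0
  have hv0 : 0 < A.valuation (p : Qb) := zero_lt_iff.2 ((map_ne_zero _).2 hpQ)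
  have hv1 : A.valuation ((p : Qb) ^ n) ≤ 1 := (A.valuation_le_one_iff _).2 h1
  have hv2 : A.valuation (((p : Qb) ^ n)⁻¹) ≤ 1 := (A.valuation_le_one_iff _).2 h2
  have key : ∀ m : ℕ, m ≠ 0 → A.valuation (p : Qb) ^ m < 1 := fun m hm =>
    pow_lt_one₀ zero_le hp hm
  by_contra hn
  rcases Int.eq_nat_or_neg n with ⟨m, rfl | rfl⟩
  · have hm : m ≠ 0 := fun h => hn (by rw [h]; rfl)
    rw [zpow_natCast, map_inv₀, map_pow] at hv2
    have := (one_lt_inv₀ (pow_pos hv0 m)).2 (key m hm)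
    exact absurd hv2 (not_le.2 this)
  · have hm : m ≠ 0 := fun h => hn (by rw [h]; rfl)
    rw [zpow_neg, zpow_natCast, map_inv₀, map_pow] at hv1
    have := (one_lt_inv₀ (pow_pos hv0 m)).2 (key m hm)
    exact absurd hv1 (not_le.2 this)

/-- **Hecke-Gauss lemma.**  `|S^p| = |p|^(-a)`, `|heckeS ℓ S / S^e| = |p|^(-j)`, `p ∤ ℓ + 1 - e`  ⟹  `p ∣ a`. -/
theorem heckeGauss {p : ℕ} (hp : p.Prime) (hA : A.LiesOverPrime p) (ℓ : ℕ) [NeZero ℓ] (e : ℤ)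
    (he : ¬ (p : ℤ) ∣ e - (ℓ + 1)) {S : LaurentSeries Qb} (hS : S ≠ 0) (a j : ℤ)
    {φ ψ : LaurentSeries (kA A)}
    (h1 : HasRed A (HahnSeries.C ((p : Qb) ^ a) * S ^ p) φ) (hφ : φ ≠ 0)
    (h2 : HasRed A (HahnSeries.C ((p : Qb) ^ j) * (heckeS Qb ℓ S / S ^ e)) ψ) (hψ : ψ ≠ 0) :
    (p : ℤ) ∣ a := by
  have hpQ : (p : Qb) ≠ 0 := by exact_mod_cast hp.ne_zero
  obtain ⟨u1, u2⟩ := heckeGauss_unit p ℓ e hS (zpow_ne_zero a hpQ) (zpow_ne_zero j hpQ) h1 hφ h2 hψ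
  have hc : ((p : Qb) ^ a) ^ (ℓ + 1) / (((p : Qb) ^ a) ^ e * ((p : Qb) ^ j) ^ p)
      = (p : Qb) ^ (a * ((ℓ : ℤ) + 1) - (a * e + j * p)) := by
    rw [zpow_sub₀ hpQ, zpow_add₀ hpQ, zpow_mul, zpow_mul, zpow_mul, zpow_natCast]
    congr 1
    rw [← zpow_natCast]
    push_cast
    rfl
  rw [hc] at u1 u2
  have h0 := HeckeGauss_zpow_unit hp.ne_zero hA u1 u2
  have h3 : a * (e - (ℓ + 1)) = - (j * p) := by linarith
  have h4 : (p : ℤ) ∣ a * (e - (ℓ + 1)) := by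
    rw [h3]
    exact (Dvd.intro_left j rfl).neg_right
  exact ((Nat.prime_iff_prime_int.1 hp).dvd_or_dvd h4).resolve_right he

end Fermat.Agent.MR.C
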