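import Fermat.Agent.MR.C.CovFieldK

/-!
# MR / C / HtE : the `K`-rational generator `Ht = S^p` on the cover, as an element of `E = F1_K`

Packaging of `desc_main` for `H : CovHyp I F w p ζ h1 h10` : `Ht, gE, cE ∈ E = fixS I (adjF F h1)` with
`Ht = S^p = u^p a₁^p`, `ι0 Ht = S0^p`, `cE = C (η^p)`, `δK Ht = cE * gE^p * Ht`.
-/

set_option autoImplicit false
noncomputable section

namespace Fermat.Agent.MR.C

open HahnSeries Fermat.Agent.GAL Fermat.Agent.DSC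

variable {I : Subgroup GQ} {F : Subfield (LaurentSeries Qb)} {w : F →+* LaurentSeries Qb}
  {p : ℕ} {ζ : Qb} {h1 h10 u u0 : LaurentSeries Qb}

theorem hte_main (H : CovHyp I F w p ζ h1 h10) (hu : u.leadingCoeff = 1) (hu0 : u0 ≠ 0)
    (U : F) (hU : u ^ p = U) (hU0 : u0 ^ p = w U)
    (L0 : IntermediateField ℚ Qb) [FiniteDimensional ℚ L0]
    (hL : ∀ σ : GQ, (∀ a ∈ L0, σ a = a) → galS σ u = u)
    (hτ : ∀ τ ∈ I, ∃ (k : ℕ) (f : F), f ≠ 0 ∧ galS τ u = u * h1 ^ k * f ∧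
      galS τ u0 = u0 * h10 ^ k * w f) :
    ∃ (Ht gE cE : fixS I (adjF F h1)) (S S0 : LaurentSeries Qb) (a1 : adjF F h1) (η : Qb),
      Ht ≠ 0 ∧ gE ≠ 0 ∧ cE ≠ 0 ∧ η ≠ 0 ∧ a1 ≠ 0 ∧ S ≠ 0 ∧ S0 ≠ 0 ∧
      S = u * a1 ∧ S0 = u0 * H.ι0 a1 ∧
      (∀ τ ∈ I, galS τ S = S) ∧ (∀ τ ∈ I, galS τ S0 = S0) ∧
      (Ht : LaurentSeries Qb) = S ^ p ∧ (Ht : LaurentSeries Qb) = u ^ p * (a1 : LaurentSeries Qb) ^ p ∧
      H.ι0 (toF1 Ht) = S0 ^ p ∧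
      (cE : LaurentSeries Qb) = HahnSeries.C (η ^ p) ∧ H.δK Ht = cE * gE ^ p * Ht ∧
      (∀ τ ∈ I, ∀ (k : ℕ) (f : F), f ≠ 0 → galS τ u = u * h1 ^ k * f → τ η * ζ ^ k = η) := by
  obtain ⟨a1, S, S0, g, η, ha1, hη, hS, hS0, hSne, hS0ne, hSfix, hS0fix, hg, hg0, hgfix, hδ, hηk⟩ :=
    desc_main H.coverDat hu hu0 L0 hL hτ
  have hζp : ζ ^ p = 1 := H.prim.pow_eq_one
  -- `S ^ p ∈ E`
  have hSp : S ^ p = u ^ p * (a1 : LaurentSeries Qb) ^ p := by rw [hS, mul_pow]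
  have hSpF1 : S ^ p ∈ adjF F h1 := by
    rw [hSp, hU]
    exact mul_mem (le_adjF F h1 U.2) (pow_mem a1.2 p)
  have hSpE : S ^ p ∈ fixS I (adjF F h1) :=
    ⟨hSpF1, fun τ hτI => by rw [map_pow, hSfix τ hτI]⟩
  have hgE : g ∈ fixS I (adjF F h1) := ⟨hg, hgfix⟩
  have hηfix : ∀ τ ∈ I, τ (η ^ p) = η ^ p := by
    intro τ hτI
    obtain ⟨k, f, hf, h, -⟩ := hτ τ hτI
    have h1 := hηk τ hτI k f hf h
    have h2 : (τ η * ζ ^ k) ^ p = η ^ p := by rw [h1]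
    rw [mul_pow, ← pow_mul, mul_comm k p, pow_mul, hζp, one_pow, mul_one] at h2
    rw [map_pow, h2]
  have hcE : (HahnSeries.C (η ^ p) : LaurentSeries Qb) ∈ fixS I (adjF F h1) :=
    ⟨le_adjF F h1 (H.C_mem _), fun τ hτI => by rw [DSC.galS_C, hηfix τ hτI]⟩
  have hCη : (HahnSeries.C (η ^ p) : LaurentSeries Qb) ≠ 0 := by
    rw [Ne, map_eq_zero_iff _ HahnSeries.C_injective]
    exact pow_ne_zero p hη
  -- `toF1 Ht = U * a1 ^ p`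
  have hto : toF1 (⟨S ^ p, hSpE⟩ : fixS I (adjF F h1))
      = ⟨U, le_adjF F h1 U.2⟩ * a1 ^ p := by
    apply Subtype.ext
    show S ^ p = (U : LaurentSeries Qb) * (a1 : LaurentSeries Qb) ^ p
    rw [hSp, hU]
  refine ⟨⟨S ^ p, hSpE⟩, ⟨g, hgE⟩, ⟨_, hcE⟩, S, S0, a1, η, ?_, ?_, ?_, hη, ha1, hSne, hS0ne, hS, hS0,
    hSfix, hS0fix, rfl, hSp, ?_, rfl, ?_, hηk⟩
  · exact fun h => pow_ne_zero p hSne (congrArg Subtype.val h)
  · exact fun h => hg0 (congrArg Subtype.val h)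
  · exact fun h => hCη (congrArg Subtype.val h)
  · rw [hto, map_mul, map_pow, H.ι0_F, hS0, mul_pow, hU0]
  · apply Subtype.ext
    rw [H.coe_δK, hto, map_mul, map_pow, hδ]
    have h1 : H.δ ⟨U, le_adjF F h1 U.2⟩ = U := H.coverDat.δ_F U
    rw [h1]
    show (U : LaurentSeries Qb) * (HahnSeries.C η * g * (a1 : LaurentSeries Qb)) ^ p
      = HahnSeries.C (η ^ p) * g ^ p * S ^ p
    rw [hSp, hU, map_pow]
    ring

end Fermat.Agent.MR.C
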