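import Mathlib

/-!
# MR / C / Pairs : good pairs (abstract form)

`Λ` a field (in the application `ℚ̄((q))`), `F ⊆ Λ` a subfield (the function field of level `N = p N'`),
`w : F → Λ` a ring hom (the Atkin--Lehner involution followed by the inclusion), `T : Λ →* Λ` a multiplicative
operator (`heckeS ℚ̄ ℓ`) preserving `F`, commuting with `w`, and acting on `μ_p` by `ξ ↦ ξ ^ (ℓ + 1)`.

A pair `(a, b)` with `a ^ p ∈ F`, `b ^ p = w (a ^ p)` is *good* (for the exponent `e`) if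
`T a = a ^ e * f` and `T b = b ^ e * w f` with the same `f ∈ F`.  If `e ≢ ℓ + 1 mod p` every `a` has at most
one good partner `b`; good pairs form a group containing the diagonal `(f, w f)` and stable under every
automorphism commuting with `w` and `T`.
-/

set_option autoImplicit false

namespace Fermat.Agent.MR.C

variable {Λ : Type*} [Field Λ] (F : Subfield Λ) (w : F →+* Λ) (T : Λ →* Λ) (p e l : ℕ)

/-- good pairs. -/
def Good (a b : Λ) : Prop :=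
  a ≠ 0 ∧ b ≠ 0 ∧ (∃ A : F, a ^ p = A ∧ b ^ p = w A) ∧
    ∃ f : F, T a = a ^ e * f ∧ T b = b ^ e * w f

variable {F w T p e l}

theorem Good.mul {a b a' b' : Λ} (h : Good F w T p e a b) (h' : Good F w T p e a' b') :
    Good F w T p e (a * a') (b * b') := by
  obtain ⟨ha, hb, ⟨A, hA, hB⟩, f, hf, hg⟩ := h
  obtain ⟨ha', hb', ⟨A', hA', hB'⟩, f', hf', hg'⟩ := h'
  refine ⟨mul_ne_zero ha ha', mul_ne_zero hb hb', ⟨A * A', ?_, ?_⟩, f * f', ?_, ?_⟩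
  · rw [mul_pow, hA, hA']; rfl
  · rw [mul_pow, hB, hB', map_mul]
  · rw [map_mul, hf, hf', mul_pow]; push_cast; ring
  · rw [map_mul, hg, hg', mul_pow, map_mul]; ring

theorem monoidHom_inv (T : Λ →* Λ) {a : Λ} (ha : a ≠ 0) : T a⁻¹ = (T a)⁻¹ := by
  apply eq_inv_of_mul_eq_one_left
  rw [← map_mul, inv_mul_cancel₀ ha, map_one]

theorem Good.inv {a b : Λ} (h : Good F w T p e a b) : Good F w T p e a⁻¹ b⁻¹ := by
  obtain ⟨ha, hb, ⟨A, hA, hB⟩, f, hf, hg⟩ := h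
  refine ⟨inv_ne_zero ha, inv_ne_zero hb, ⟨A⁻¹, ?_, ?_⟩, f⁻¹, ?_, ?_⟩
  · rw [inv_pow, hA]; rfl
  · rw [inv_pow, hB, map_inv₀]
  · rw [monoidHom_inv T ha, hf, mul_inv, inv_pow]; rfl
  · rw [monoidHom_inv T hb, hg, mul_inv, inv_pow, map_inv₀]

theorem good_one : Good F w T p e (1 : Λ) 1 :=
  ⟨one_ne_zero, one_ne_zero, ⟨1, by simp, by simp⟩, 1, by simp, by simp⟩

theorem Good.pow {a b : Λ} (h : Good F w T p e a b) (k : ℕ) : Good F w T p e (a ^ k) (b ^ k) := by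
  induction k with
  | zero => simpa using good_one
  | succ k ih => rw [pow_succ, pow_succ]; exact ih.mul h

/-- the diagonal. -/
theorem good_diag (hTF : ∀ f : F, T f ∈ F) (hTw : ∀ f : F, T (w f) = w ⟨T f, hTF f⟩) (f : F)
    (hf : f ≠ 0) : Good F w T p e (f : Λ) (w f) := by
  have hf' : (f : Λ) ≠ 0 := fun h => hf (Subtype.ext h)
  have hwf : w f ≠ 0 := (map_ne_zero w).2 hf
  refine ⟨hf', hwf, ⟨f ^ p, rfl, by rw [map_pow]⟩, ⟨T f, hTF f⟩ * (f ^ e)⁻¹, ?_, ?_⟩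
  · push_cast
    field_simp
  · rw [map_mul, map_inv₀, map_pow, ← hTw]
    field_simp

/-- uniqueness of the good partner of `1`. -/
theorem Good.eq_one (hp : p.Prime) (hμ : ∀ ξ : Λ, ξ ^ p = 1 → T ξ = ξ ^ (l + 1))
    (he : ¬ (p : ℤ) ∣ ((l : ℤ) + 1 - e)) {ξ : Λ} (h : Good F w T p e 1 ξ) : ξ = 1 := by
  obtain ⟨-, hξ0, ⟨A, hA, hB⟩, f, hf, hg⟩ := h
  have hA1 : A = 1 := by
    apply Subtype.ext
    rw [← hA, one_pow]; rfl
  have hξp : ξ ^ p = 1 := by rw [hB, hA1, map_one]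
  have hf1 : f = 1 := by
    apply Subtype.ext
    rw [map_one, one_pow, one_mul] at hf
    rw [← hf]; rfl
  rw [hf1, map_one, mul_one, hμ ξ hξp] at hg
  -- `ξ ^ (l+1) = ξ ^ e`, `ξ ^ p = 1`
  have h1 : ξ ^ ((l : ℤ) + 1 - e) = 1 := by
    rw [zpow_sub₀ hξ0, zpow_natCast]
    have : ξ ^ ((l : ℤ) + 1) = ξ ^ (l + 1) := by
      rw [← zpow_natCast]; push_cast; rfl
    rw [this, hg, div_self (pow_ne_zero _ hξ0)]
  have h2 : ξ ^ (p : ℤ) = 1 := by rw [zpow_natCast, hξp]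
  have hcop : IsCoprime (p : ℤ) ((l : ℤ) + 1 - e) :=
    ((Nat.prime_iff_prime_int.1 hp).coprime_iff_not_dvd).2 he
  obtain ⟨x, y, hxy⟩ := hcop
  have : ξ ^ (x * (p : ℤ) + y * ((l : ℤ) + 1 - e)) = 1 := by
    rw [zpow_add₀ hξ0, mul_comm x, mul_comm y, zpow_mul, zpow_mul, h1, h2, one_zpow, one_zpow,
      one_mul]
  rwa [hxy, zpow_one] at this

/-- **uniqueness of the good partner**. -/
theorem Good.unique (hp : p.Prime) (hμ : ∀ ξ : Λ, ξ ^ p = 1 → T ξ = ξ ^ (l + 1))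
    (he : ¬ (p : ℤ) ∣ ((l : ℤ) + 1 - e)) {a b b' : Λ} (h : Good F w T p e a b)
    (h' : Good F w T p e a b') : b = b' := by
  have h1 := h.mul h'.inv
  rw [mul_inv_cancel₀ h.1] at h1
  have h2 := Good.eq_one hp hμ he h1
  have hb' : b' ≠ 0 := h'.2.1
  field_simp at h2
  exact h2

/-- good pairs are stable under automorphisms commuting with `w` and `T`. -/
theorem Good.map (σ : Λ →+* Λ) (hσF : ∀ f : F, σ f ∈ F) (hσw : ∀ f : F, σ (w f) = w ⟨σ f, hσF f⟩)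
    (hσT : ∀ x, σ (T x) = T (σ x)) {a b : Λ} (h : Good F w T p e a b) :
    Good F w T p e (σ a) (σ b) := by
  obtain ⟨ha, hb, ⟨A, hA, hB⟩, f, hf, hg⟩ := h
  refine ⟨(map_ne_zero σ).2 ha, (map_ne_zero σ).2 hb, ⟨⟨σ A, hσF A⟩, ?_, ?_⟩, ⟨σ f, hσF f⟩, ?_, ?_⟩
  · rw [← map_pow, hA]
  · rw [← map_pow, hB, hσw]
  · rw [← hσT, hf, map_mul, map_pow]
  · rw [← hσT, hg, map_mul, map_pow, hσw]

/-- **transfer**: a relation `σ u = u h₁ ^ k f` at the cusp `∞` holds at the cusp `0` for the good partners. -/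
theorem Good.transfer (hp : p.Prime) (hμ : ∀ ξ : Λ, ξ ^ p = 1 → T ξ = ξ ^ (l + 1))
    (he : ¬ (p : ℤ) ∣ ((l : ℤ) + 1 - e))
    (hTF : ∀ f : F, T f ∈ F) (hTw : ∀ f : F, T (w f) = w ⟨T f, hTF f⟩)
    (σ : Λ →+* Λ) (hσF : ∀ f : F, σ f ∈ F) (hσw : ∀ f : F, σ (w f) = w ⟨σ f, hσF f⟩)
    (hσT : ∀ x, σ (T x) = T (σ x)) {u u0 h1 h10 : Λ} (hu : Good F w T p e u u0)
    (hh : Good F w T p e h1 h10) (k : ℕ) (f : F) (hf : f ≠ 0) (h : σ u = u * h1 ^ k * f) :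
    σ u0 = u0 * h10 ^ k * w f := by
  have e1 : Good F w T p e (σ u) (σ u0) := hu.map σ hσF hσw hσT
  have e2 : Good F w T p e (u * h1 ^ k * f) (u0 * h10 ^ k * w f) :=
    (hu.mul (hh.pow k)).mul (good_diag hTF hTw f hf)
  rw [h] at e1
  exact Good.unique hp hμ he e1 e2

/-- **existence of the good partner**. -/
theorem exists_good (hp : p.Prime) (hμ : ∀ ξ : Λ, ξ ^ p = 1 → T ξ = ξ ^ (l + 1))
    (he : ¬ (p : ℤ) ∣ ((l : ℤ) + 1 - e))
    (hTF : ∀ f : F, T f ∈ F) (hTw : ∀ f : F, T (w f) = w ⟨T f, hTF f⟩)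
    {a b0 : Λ} (ha : a ≠ 0) (A f : F) (hA : a ^ p = A) (hf : T a = a ^ e * f) (hb0 : b0 ^ p = w A) :
    ∃ b, Good F w T p e a b := by
  have hA0 : A ≠ 0 := by
    rintro rfl
    exact pow_ne_zero p ha hA
  have hb00 : b0 ≠ 0 := by
    rintro rfl
    rw [zero_pow hp.ne_zero] at hb0
    exact (map_ne_zero w).2 hA0 hb0.symm
  have hf0 : f ≠ 0 := by
    rintro rfl
    have : T a = 0 := by rw [hf]; simp
    have h2 : T a * T a⁻¹ = 1 := by rw [← map_mul, mul_inv_cancel₀ ha, map_one]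
    rw [this, zero_mul] at h2
    exact zero_ne_one h2
  have hwf : w f ≠ 0 := (map_ne_zero w).2 hf0
  -- `ξ := T b0 / (b0 ^ e * w f)` is a `p`-th root of unity
  set ξ : Λ := T b0 / (b0 ^ e * w f) with hξ
  have hden : b0 ^ e * w f ≠ 0 := mul_ne_zero (pow_ne_zero _ hb00) hwf
  have hTA : (⟨T A, hTF A⟩ : F) = A ^ e * f ^ p := by
    apply Subtype.ext
    show T (A : Λ) = _
    rw [← hA, map_pow, hf, mul_pow, ← pow_mul, mul_comm e p]
    push_cast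
    rw [← hA, ← pow_mul]
  have hξp : ξ ^ p = 1 := by
    rw [hξ, div_pow, ← map_pow, hb0, hTw, hTA, map_mul, map_pow, map_pow, ← hb0, mul_pow,
      ← pow_mul, ← pow_mul, mul_comm e p, div_self]
    exact mul_ne_zero (pow_ne_zero _ hb00) (pow_ne_zero _ hwf)
  have hξ0 : ξ ≠ 0 := by
    intro h
    rw [h, zero_pow hp.ne_zero] at hξp
    exact zero_ne_one hξp
  have hcop : IsCoprime (p : ℤ) ((l : ℤ) + 1 - e) :=
    ((Nat.prime_iff_prime_int.1 hp).coprime_iff_not_dvd).2 he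
  obtain ⟨x, y, hxy⟩ := hcop
  -- take `b = ξ ^ (-y) * b0`
  have hzp : ∀ n : ℤ, (ξ ^ n) ^ p = 1 := by
    intro n
    rw [← zpow_natCast, ← zpow_mul, mul_comm, zpow_mul, zpow_natCast, hξp, one_zpow]
  refine ⟨ξ ^ (-y) * b0, ha, mul_ne_zero (zpow_ne_zero _ hξ0) hb00, ⟨A, hA, ?_⟩, f, hf, ?_⟩
  · rw [mul_pow, hzp, one_mul, hb0]
  · have hTb0 : T b0 = ξ * (b0 ^ e * w f) := by rw [hξ, div_mul_cancel₀ _ hden]
    rw [map_mul, hμ _ (hzp _), hTb0, mul_pow]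
    have key : (ξ ^ (-y)) ^ (l + 1) * ξ = (ξ ^ (-y)) ^ e := by
      have e1 : (ξ ^ (-y)) ^ (l + 1) = ξ ^ (-y * ((l : ℤ) + 1)) := by
        rw [← zpow_natCast, ← zpow_mul]; push_cast; rfl
      have e2 : (ξ ^ (-y)) ^ e = ξ ^ (-y * (e : ℤ)) := by
        rw [← zpow_natCast, ← zpow_mul]
      have e3 : ξ ^ (x * (p : ℤ)) = 1 := by
        rw [mul_comm, zpow_mul, zpow_natCast, hξp, one_zpow]
      rw [e1, e2, ← zpow_add_one₀ hξ0]
      have : -y * ((l : ℤ) + 1) + 1 = -y * (e : ℤ) + x * (p : ℤ) := by linarith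
      rw [this, zpow_add₀ hξ0, e3, mul_one]
    calc (ξ ^ (-y)) ^ (l + 1) * (ξ * (b0 ^ e * w f))
        = ((ξ ^ (-y)) ^ (l + 1) * ξ) * (b0 ^ e * w f) := by ring
      _ = (ξ ^ (-y)) ^ e * b0 ^ e * w f := by rw [key]; ring

end Fermat.Agent.MR.C
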