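import Fermat.Agent.MR.C.KIH
import Fermat.Agent.MR.C.HeckeGauss
import Fermat.Agent.MR.C.HtE
import Fermat.Agent.MR.C.Pairs
import Fermat.Agent.GAL.ESR.Main

/-!
# MR / C / ValHt : the Gauss norms of `Ht = S^p` on the two branches `(∞, 0)`, `(0, 0)` lie in `|p|^(pℤ)`

`S = u a` with `a ∈ KF`, `S` fixed by the inertia group `I`, `u ^ p ∈ KF`, `heckeS ℓ u / u ^ e ∈ KF`, `p ∤ e - (ℓ + 1)`.
Then `S ^ p ∈ KI` and `heckeS ℓ S / S ^ e ∈ KI`, both have Gauss norm in `|p|^ℤ` (`KIH.exists_zpow_hasRed_of_mem_KI`), and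
the Hecke-Gauss lemma gives `|S^p| ∈ |p|^(pℤ)`.

* `valHt_adjF_le`, `valHt_ι0_mem`, `valHt_deck_mem` : the cover `F1 = F(h₁)` and its images lie in `KF`.
* `valHt_series`      : the series form.
* `valHt_gaussV`      : the `gaussV` form.
* `valHt_cov`         : both branches for the output of `hte_main`.
* `valHt_good`        : the same with the Hecke hypotheses in the form `Good F w (heckeS ℓ) p e u u0` (output of `PrepIn.out`).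
* `valHt_nrm_coe`, `valHt_nrm_ι0` : the hypothesis `he` of `gaussV` for the two expansions of the cover.
* `valHt_vtOf_zero`   : `vtOf p δ V (i, 0) = V i`.
-/

set_option autoImplicit false
noncomputable section

namespace Fermat.Agent.MR.C

open ModularCurve HahnSeries Fermat.Agent.GR Fermat.Agent.GAL Fermat.Agent.GAL.KLC Fermat.Agent.DSC
  Fermat.Agent.MR.A

local notation "Λ" => LaurentSeries Qb

variable {A : ValuationSubring Qb}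

/-- **series form.** -/
theorem valHt_series {p : ℕ} (hp : p.Prime) (hA : A.LiesOverPrime p) (ℓ : ℕ) [NeZero ℓ] (e : ℤ)
    (he : ¬ (p : ℤ) ∣ e - (ℓ + 1)) {u a S : Λ} (hS : S = u * a) (hS0 : S ≠ 0)
    (hfix : ∀ τ ∈ A.inertiaSubgroupIn ℚ, galS τ S = S)
    (ha : a ∈ KIH.KF A (A.inertiaSubgroupIn ℚ))
    (hup : u ^ p ∈ KIH.KF A (A.inertiaSubgroupIn ℚ))
    (hT : heckeS Qb ℓ u / u ^ e ∈ KIH.KF A (A.inertiaSubgroupIn ℚ)) :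
    ∃ (m : ℤ) (φ : LaurentSeries (kA A)), φ ≠ 0 ∧
      HasRed A (HahnSeries.C ((p : Qb) ^ ((p : ℤ) * m)) * S ^ p) φ := by
  have hH := KIH.isoH_inertia A
  have hπ := isUnif_p A hp hA
  have hu0 : u ≠ 0 := by rintro rfl; exact hS0 (by rw [hS, zero_mul])
  have ha0 : a ≠ 0 := by rintro rfl; exact hS0 (by rw [hS, mul_zero])
  -- `S ^ p ∈ KI`
  have h1 : S ^ p ∈ KIH.KI A (A.inertiaSubgroupIn ℚ) := by
    refine KIH.mem_KI_of_fixed hH ?_ (fun τ hτ => by rw [map_pow, hfix τ hτ])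
    rw [hS, mul_pow]
    exact mul_mem hup (pow_mem ha p)
  -- `Φ ∈ KI`
  have h2 : heckeS Qb ℓ S / S ^ e ∈ KIH.KI A (A.inertiaSubgroupIn ℚ) := by
    refine KIH.mem_KI_of_fixed hH ?_ (fun τ hτ => ?_)
    · have e1 : heckeS Qb ℓ S / S ^ e = (heckeS Qb ℓ u / u ^ e) * (heckeS Qb ℓ a / a ^ e) := by
        rw [hS, map_mul, mul_zpow, mul_div_mul_comm]
      rw [e1]
      exact mul_mem hT (div_mem (KIH.heckeS_mem_KF ℓ ha) (zpow_mem ha e))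
    · rw [map_div₀, map_zpow₀, galS_heckeS, hfix τ hτ]
  have hΦ0 : heckeS Qb ℓ S / S ^ e ≠ 0 :=
    div_ne_zero (HeckeGauss_heckeS_ne_zero ℓ hS0) (zpow_ne_zero _ hS0)
  obtain ⟨a', φ, hφ, hr⟩ := KIH.exists_zpow_hasRed_of_mem_KI hH hπ h1 (pow_ne_zero p hS0)
  obtain ⟨j, ψ, hψ, hr'⟩ := KIH.exists_zpow_hasRed_of_mem_KI hH hπ h2 hΦ0
  obtain ⟨m, rfl⟩ := heckeGauss hp hA ℓ e he hS0 a' j hr hφ hr' hψ
  exact ⟨m, φ, hφ, hr⟩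

section gauss

variable {Γ₀ : Type*} [LinearOrderedCommGroupWithZero Γ₀] {vc : Valuation Qb Γ₀}
  {E : Type*} [Field E]

/-- **`gaussV` form.** -/
theorem valHt_gaussV (hvc : ∀ a, vc a ≤ 1 ↔ a ∈ A) (e : E →+* Λ) (he : ∀ x : E, x ≠ 0 → Nrm A (e x))
    {p : ℕ} (hp : p.Prime) {x ϖ : E} (hϖ : e ϖ = HahnSeries.C (p : Qb)) {m : ℤ}
    {φ : LaurentSeries (kA A)} (hφ : φ ≠ 0)
    (h : HasRed A (HahnSeries.C ((p : Qb) ^ ((p : ℤ) * m)) * e x) φ) :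
    gaussV hvc e he x = gaussV hvc e he ϖ ^ ((p : ℤ) * (-m)) := by
  have hpQ : (p : Qb) ≠ 0 := by exact_mod_cast hp.ne_zero
  rw [gaussV_eq hvc e he (zpow_ne_zero _ hpQ) hφ h, gaussV_of_C hvc e he hϖ, map_zpow₀, mul_neg,
    zpow_neg]

end gauss

section cover

variable {I : Subgroup GQ} {F : Subfield Λ} {w : F →+* Λ} {p : ℕ} {ζ : Qb} {h1 h10 : Λ}

/-- the cover lies in any subfield containing `F` and `h₁`. -/
theorem valHt_adjF_le {K : Subfield Λ} (hF : F ≤ K) (h : h1 ∈ K) (x : adjF F h1) : (x : Λ) ∈ K :=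
  adjF_le F h1 hF h x.2

/-- a ring hom on the cover with `Φ F ⊆ K`, `Φ h₁ ∈ K` has values in `K`. -/
theorem valHt_hom_mem {K : Subfield Λ} (Φ : adjF F h1 →+* Λ)
    (hF : ∀ f : F, Φ ⟨f, le_adjF F h1 f.2⟩ ∈ K) (h : Φ ⟨h1, self_mem_adjF F h1⟩ ∈ K)
    (x : adjF F h1) : Φ x ∈ K := by
  obtain ⟨x, hx⟩ := x
  refine adjF_induction (P := fun x hx => Φ ⟨x, hx⟩ ∈ K) h hF ?_ ?_ ?_ hx
  · intro x y hx hy h1' h2'
    have e : (⟨x + y, add_mem hx hy⟩ : adjF F h1) = ⟨x, hx⟩ + ⟨y, hy⟩ := rfl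
    rw [e, map_add]
    exact add_mem h1' h2'
  · intro x hx h1'
    have e : (⟨x⁻¹, inv_mem hx⟩ : adjF F h1) = (⟨x, hx⟩ : adjF F h1)⁻¹ := rfl
    rw [e, map_inv₀]
    exact inv_mem h1'
  · intro x y hx hy h1' h2'
    have e : (⟨x * y, mul_mem hx hy⟩ : adjF F h1) = ⟨x, hx⟩ * ⟨y, hy⟩ := rfl
    rw [e, map_mul]
    exact mul_mem h1' h2'

theorem valHt_ι0_mem (H : CovHyp I F w p ζ h1 h10) {K : Subfield Λ} (hw : ∀ f : F, w f ∈ K)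
    (h : h10 ∈ K) (x : adjF F h1) : H.ι0 x ∈ K :=
  valHt_hom_mem H.ι0 (fun f => by rw [H.ι0_F]; exact hw f) (by rw [H.ι0_h]; exact h) x

end cover

/-- **both branches** for the output of `hte_main` / `desc_main`. -/
theorem valHt_cov {p : ℕ} (hp : p.Prime) (hA : A.LiesOverPrime p) {F : Subfield Λ} {w : F →+* Λ}
    {ζ : Qb} {h1 h10 : Λ} (H : CovHyp (A.inertiaSubgroupIn ℚ) F w p ζ h1 h10)
    (hF : F ≤ KIH.KF A (A.inertiaSubgroupIn ℚ))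
    (hw : ∀ f : F, w f ∈ KIH.KF A (A.inertiaSubgroupIn ℚ))
    (hh1 : h1 ∈ KIH.KF A (A.inertiaSubgroupIn ℚ)) (hh10 : h10 ∈ KIH.KF A (A.inertiaSubgroupIn ℚ))
    (ℓ : ℕ) [NeZero ℓ] (e : ℤ) (he : ¬ (p : ℤ) ∣ e - (ℓ + 1)) {u u0 S S0 : Λ} {a1 : adjF F h1}
    (hS : S = u * a1) (hS0 : S0 = u0 * H.ι0 a1) (hSne : S ≠ 0) (hS0ne : S0 ≠ 0)
    (hfix : ∀ τ ∈ A.inertiaSubgroupIn ℚ, galS τ S = S)
    (hfix0 : ∀ τ ∈ A.inertiaSubgroupIn ℚ, galS τ S0 = S0)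
    (hup : u ^ p ∈ KIH.KF A (A.inertiaSubgroupIn ℚ))
    (hup0 : u0 ^ p ∈ KIH.KF A (A.inertiaSubgroupIn ℚ))
    (hT : heckeS Qb ℓ u / u ^ e ∈ KIH.KF A (A.inertiaSubgroupIn ℚ))
    (hT0 : heckeS Qb ℓ u0 / u0 ^ e ∈ KIH.KF A (A.inertiaSubgroupIn ℚ)) :
    (∃ (m : ℤ) (φ : LaurentSeries (kA A)), φ ≠ 0 ∧
      HasRed A (HahnSeries.C ((p : Qb) ^ ((p : ℤ) * m)) * S ^ p) φ) ∧
    (∃ (m : ℤ) (φ : LaurentSeries (kA A)), φ ≠ 0 ∧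
      HasRed A (HahnSeries.C ((p : Qb) ^ ((p : ℤ) * m)) * S0 ^ p) φ) :=
  ⟨valHt_series hp hA ℓ e he hS hSne hfix (valHt_adjF_le hF hh1 a1) hup hT,
   valHt_series hp hA ℓ e he hS0 hS0ne hfix0 (valHt_ι0_mem H hw hh10 a1) hup0 hT0⟩

/-- **both branches**, Hecke hypotheses in the form of a good pair (`PrepIn.out`). -/
theorem valHt_good {p : ℕ} (hp : p.Prime) (hA : A.LiesOverPrime p) {F : Subfield Λ} {w : F →+* Λ}
    {ζ : Qb} {h1 h10 : Λ} (H : CovHyp (A.inertiaSubgroupIn ℚ) F w p ζ h1 h10)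
    (hF : F ≤ KIH.KF A (A.inertiaSubgroupIn ℚ))
    (hw : ∀ f : F, w f ∈ KIH.KF A (A.inertiaSubgroupIn ℚ))
    (hh1 : h1 ∈ KIH.KF A (A.inertiaSubgroupIn ℚ)) (hh10 : h10 ∈ KIH.KF A (A.inertiaSubgroupIn ℚ))
    (ℓ : ℕ) [NeZero ℓ] (e : ℕ) (he : ¬ (p : ℤ) ∣ ((ℓ : ℤ) + 1 - e)) {u u0 S S0 : Λ}
    (hG : Good F w (heckeS Qb ℓ) p e u u0) {a1 : adjF F h1}
    (hS : S = u * a1) (hS0 : S0 = u0 * H.ι0 a1) (hSne : S ≠ 0) (hS0ne : S0 ≠ 0)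
    (hfix : ∀ τ ∈ A.inertiaSubgroupIn ℚ, galS τ S = S)
    (hfix0 : ∀ τ ∈ A.inertiaSubgroupIn ℚ, galS τ S0 = S0) :
    (∃ (m : ℤ) (φ : LaurentSeries (kA A)), φ ≠ 0 ∧
      HasRed A (HahnSeries.C ((p : Qb) ^ ((p : ℤ) * m)) * S ^ p) φ) ∧
    (∃ (m : ℤ) (φ : LaurentSeries (kA A)), φ ≠ 0 ∧
      HasRed A (HahnSeries.C ((p : Qb) ^ ((p : ℤ) * m)) * S0 ^ p) φ) := by
  obtain ⟨hu, hu0, ⟨U, hU, hU0⟩, f, hf, hf0⟩ := hG
  have he' : ¬ (p : ℤ) ∣ ((e : ℕ) : ℤ) - (ℓ + 1) := by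
    intro h
    apply he
    have := h.neg_right
    rwa [neg_sub] at this
  refine valHt_cov hp hA H hF hw hh1 hh10 ℓ (e : ℤ) he' hS hS0 hSne hS0ne hfix hfix0 ?_ ?_ ?_ ?_
  · rw [hU]; exact hF U.2
  · rw [hU0]; exact hw U
  · rw [zpow_natCast, hf, mul_div_cancel_left₀ _ (pow_ne_zero e hu)]; exact hF f.2
  · rw [zpow_natCast, hf0, mul_div_cancel_left₀ _ (pow_ne_zero e hu0)]; exact hw f

/-- the hypothesis `he` of `gaussV` for the inclusion of the cover. -/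
theorem valHt_nrm_coe {p : ℕ} (hp : p.Prime) (hA : A.LiesOverPrime p) {F : Subfield Λ} {h1 : Λ}
    (hF : F ≤ KIH.KF A (A.inertiaSubgroupIn ℚ)) (hh1 : h1 ∈ KIH.KF A (A.inertiaSubgroupIn ℚ))
    (x : adjF F h1) (hx : x ≠ 0) : Nrm A (x : Λ) :=
  KIH.nrm_of_mem_KF (KIH.isoH_inertia A) (isUnif_p A hp hA) (valHt_adjF_le hF hh1 x)
    (fun h => hx (Subtype.ext h))

/-- the hypothesis `he` of `gaussV` for the expansion at the cusp above `0`. -/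
theorem valHt_nrm_ι0 {p : ℕ} (hp : p.Prime) (hA : A.LiesOverPrime p) {I : Subgroup GQ}
    {F : Subfield Λ} {w : F →+* Λ} {ζ : Qb} {h1 h10 : Λ} (H : CovHyp I F w p ζ h1 h10)
    (hw : ∀ f : F, w f ∈ KIH.KF A (A.inertiaSubgroupIn ℚ))
    (hh10 : h10 ∈ KIH.KF A (A.inertiaSubgroupIn ℚ))
    (x : adjF F h1) (hx : x ≠ 0) : Nrm A (H.ι0 x) :=
  KIH.nrm_of_mem_KF (KIH.isoH_inertia A) (isUnif_p A hp hA) (valHt_ι0_mem H hw hh10 x)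
    ((map_ne_zero H.ι0).2 hx)

/-- `vt (i, 0) = V i`. -/
theorem valHt_vtOf_zero {E₀ E Γ₀ I₀ : Type*} [Field E₀] [Field E] [Algebra E₀ E]
    [LinearOrderedCommGroupWithZero Γ₀] (p : ℕ) (δ : E ≃ₐ[E₀] E) (V : I₀ → Valuation E Γ₀)
    (i : I₀) (x : E) : vtOf p δ V (i, 0) x = V i x := by
  rw [vtOf_apply, ZMod.val_zero, pow_zero, AlgEquiv.one_apply]

end Fermat.Agent.MR.C
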