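import Fermat.Agent.GAL.KLC.ValThm
import Fermat.Agent.GAL.KLC.ValArch

/-!
# MR / C / GV : the Gauss valuation attached to an embedding into `ℚ̄((q))` with normalisable image

`e : E →+* ℚ̄((q))` a ring hom from a field such that every `e x`, `x ≠ 0`, is *normalisable*:
`HasRed A (C c * e x) φ` for some constant `c ≠ 0` and some `φ ≠ 0`.  `vc : Valuation ℚ̄ Γ₀` any valuation with valuation ring `A`.
Then `gaussV … x := (vc c)⁻¹` is a valuation of `E` with values in `Γ₀`.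
-/

set_option autoImplicit false
noncomputable section

namespace Fermat.Agent.MR.C

open Fermat.Agent.GR Fermat.Agent.GAL Fermat.Agent.GAL.KL Fermat.Agent.GAL.KLC

variable (A : ValuationSubring Qb)

/-- `x` is normalisable. -/
def Nrm (x : LaurentSeries Qb) : Prop :=
  ∃ c : Qb, c ≠ 0 ∧ ∃ φ : LaurentSeries (kA A), φ ≠ 0 ∧ HasRed A (HahnSeries.C c * x) φ

variable {A} {Γ₀ : Type*} [LinearOrderedCommGroupWithZero Γ₀] {vc : Valuation Qb Γ₀}

theorem GV_C_ne_zero {c : Qb} (hc : c ≠ 0) : (HahnSeries.C c : LaurentSeries Qb) ≠ 0 := by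
  rw [Ne, map_eq_zero_iff _ HahnSeries.C_injective]; exact hc

/-- integral constants have a reduction. -/
theorem GV_hasRed_C_of_le (hvc : ∀ a, vc a ≤ 1 ↔ a ∈ A) {a : Qb} (ha : vc a ≤ 1) :
    ∃ φ : LaurentSeries (kA A), HasRed A (HahnSeries.C a) φ :=
  ⟨_, hasRed_C A ⟨a, (hvc a).1 ha⟩⟩

theorem GV_le_of_hasRed_C (hvc : ∀ a, vc a ≤ 1 ↔ a ∈ A) {a : Qb} {φ : LaurentSeries (kA A)}
    (h : HasRed A (HahnSeries.C a) φ) : vc a ≤ 1 :=
  (hvc a).2 (ValThm_mem_of_hasRed_C A h)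

theorem GV_hasRed_C_zero_of_lt (hvc : ∀ a, vc a ≤ 1 ↔ a ∈ A) {a : Qb} (ha : vc a < 1) :
    HasRed A (HahnSeries.C a) 0 := by
  obtain ⟨φ, hφ⟩ := GV_hasRed_C_of_le hvc ha.le
  by_cases h0 : φ = 0
  · rwa [h0] at hφ
  · exfalso
    have h1 := hφ.inv h0
    rw [← map_inv₀] at h1
    have h2 := GV_le_of_hasRed_C hvc h1
    have ha0 : a ≠ 0 := by
      rintro rfl
      rw [map_zero] at hφ
      exact h0 (hφ.unique (hasRed_zero A))
    rw [map_inv₀, inv_le_one₀ (zero_lt_iff.2 ((Valuation.ne_zero_iff _).2 ha0))] at h2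
    exact absurd ha (not_lt.2 h2)

theorem GV_lt_of_hasRed_C_zero (hvc : ∀ a, vc a ≤ 1 ↔ a ∈ A) {a : Qb}
    (h : HasRed A (HahnSeries.C a) 0) : vc a < 1 := by
  refine lt_of_le_of_ne (GV_le_of_hasRed_C hvc h) fun h1 => ?_
  have ha0 : a ≠ 0 := by
    rintro rfl
    rw [map_zero] at h1
    exact zero_ne_one h1
  have h2 : vc a⁻¹ ≤ 1 := by rw [map_inv₀, h1, inv_one]
  obtain ⟨ψ, hψ⟩ := GV_hasRed_C_of_le hvc h2
  have h3 := h.mul hψ
  rw [← map_mul, mul_inv_cancel₀ ha0, map_one, zero_mul] at h3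
  exact ValThm_not_hasRed_one_zero A h3

/-- comparison of a normalising constant with another constant. -/
theorem GV_key {x : LaurentSeries Qb} {c d : Qb} (hc : c ≠ 0) {φ ψ : LaurentSeries (kA A)}
    (hφ : φ ≠ 0) (h : HasRed A (HahnSeries.C c * x) φ) (h' : HasRed A (HahnSeries.C d * x) ψ) :
    HasRed A (HahnSeries.C (d / c)) (ψ / φ) := by
  have h1 := h'.div h hφ
  have hx : x ≠ 0 := by
    rintro rfl
    rw [mul_zero] at h
    exact hφ (h.unique (hasRed_zero A))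
  have e : HahnSeries.C d * x / (HahnSeries.C c * x) = (HahnSeries.C (d / c) : LaurentSeries Qb) := by
    rw [map_div₀, mul_div_mul_right _ _ hx]
  rwa [e] at h1

theorem GV_div_le_one {c d : Qb} (hc : c ≠ 0) : vc (d / c) ≤ 1 ↔ vc d ≤ vc c := by
  rw [map_div₀, div_le_one₀ (zero_lt_iff.2 ((Valuation.ne_zero_iff _).2 hc))]

theorem GV_div_lt_one {c d : Qb} (hc : c ≠ 0) : vc (d / c) < 1 ↔ vc d < vc c := by
  rw [map_div₀, div_lt_one₀ (zero_lt_iff.2 ((Valuation.ne_zero_iff _).2 hc))]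

/-- PROOF.  `a := c / c'`.  `A.mem_or_inv_mem a`.  If `a ∈ A`: `C c * x = C a * (C c' * x)` has the reduction `C (residue a) * φ'` (`hasRed_C`, `HasRed.mul`), `= φ ≠ 0` by
`HasRed.unique`, so `residue a ≠ 0`, `a` is a unit of `A`, `a⁻¹ ∈ A`; `hvc` for `a` and `a⁻¹` gives `vc a = 1`.  Symmetric otherwise. -/
theorem vc_eq_of_hasRed (hvc : ∀ a, vc a ≤ 1 ↔ a ∈ A) {x : LaurentSeries Qb} {c c' : Qb}
    (hc : c ≠ 0) (hc' : c' ≠ 0) {φ φ' : LaurentSeries (kA A)} (hφ : φ ≠ 0) (hφ' : φ' ≠ 0)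
    (h : HasRed A (HahnSeries.C c * x) φ) (h' : HasRed A (HahnSeries.C c' * x) φ') :
    vc c = vc c' :=
  le_antisymm ((GV_div_le_one hc').1 (GV_le_of_hasRed_C hvc (GV_key hc' hφ' h' h)))
    ((GV_div_le_one hc).1 (GV_le_of_hasRed_C hvc (GV_key hc hφ h h')))

variable {E : Type*} [Field E]

open Classical in
/-- the underlying function of `gaussV`. -/
def gaussFun (vc : Valuation Qb Γ₀) (e : E →+* LaurentSeries Qb)
    (he : ∀ x : E, x ≠ 0 → Nrm A (e x)) (x : E) : Γ₀ :=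
  if h : x = 0 then 0 else (vc (he x h).choose)⁻¹

/-- (`vc_eq_of_hasRed` with the chosen constant.) -/
theorem gaussFun_eq (hvc : ∀ a, vc a ≤ 1 ↔ a ∈ A) (e : E →+* LaurentSeries Qb)
    (he : ∀ x : E, x ≠ 0 → Nrm A (e x)) {x : E} {c : Qb} (hc : c ≠ 0)
    {φ : LaurentSeries (kA A)} (hφ : φ ≠ 0) (h : HasRed A (HahnSeries.C c * e x) φ) :
    gaussFun vc e he x = (vc c)⁻¹ := by
  have hx : x ≠ 0 := by
    rintro rfl
    rw [map_zero, mul_zero] at h
    exact hφ (h.unique (hasRed_zero A))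
  rw [gaussFun, dif_neg hx]
  obtain ⟨h1, φ₀, h2, h3⟩ := (he x hx).choose_spec
  rw [vc_eq_of_hasRed hvc h1 hc h2 hφ h3 h]

theorem GV_gaussFun_zero (vc : Valuation Qb Γ₀) (e : E →+* LaurentSeries Qb)
    (he : ∀ x : E, x ≠ 0 → Nrm A (e x)) : gaussFun vc e he 0 = 0 := by
  simp [gaussFun]

theorem GV_inv_le_inv {c d : Qb} (hc : c ≠ 0) (hd : d ≠ 0) :
    (vc d)⁻¹ ≤ (vc c)⁻¹ ↔ vc c ≤ vc d :=
  inv_le_inv₀ (zero_lt_iff.2 ((Valuation.ne_zero_iff _).2 hd))
    (zero_lt_iff.2 ((Valuation.ne_zero_iff _).2 hc))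

theorem GV_inv_lt_inv {c d : Qb} (hc : c ≠ 0) (hd : d ≠ 0) :
    (vc d)⁻¹ < (vc c)⁻¹ ↔ vc c < vc d :=
  inv_lt_inv₀ (zero_lt_iff.2 ((Valuation.ne_zero_iff _).2 hd))
    (zero_lt_iff.2 ((Valuation.ne_zero_iff _).2 hc))

/-- the balls of `gaussFun`. -/
theorem GV_le_iff (hvc : ∀ a, vc a ≤ 1 ↔ a ∈ A) (e : E →+* LaurentSeries Qb)
    (he : ∀ x : E, x ≠ 0 → Nrm A (e x)) (x : E) {c : Qb} (hc : c ≠ 0) :
    gaussFun vc e he x ≤ (vc c)⁻¹ ↔ ∃ χ, HasRed A (HahnSeries.C c * e x) χ := by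
  by_cases hx : x = 0
  · subst hx
    rw [GV_gaussFun_zero, map_zero, mul_zero]
    exact ⟨fun _ => ⟨0, hasRed_zero A⟩, fun _ => zero_le⟩
  obtain ⟨c₀, hc₀, φ₀, hφ₀, h₀⟩ := he x hx
  rw [gaussFun_eq hvc e he hc₀ hφ₀ h₀, GV_inv_le_inv hc hc₀, ← GV_div_le_one hc₀]
  constructor
  · intro h
    obtain ⟨ψ, hψ⟩ := GV_hasRed_C_of_le hvc h
    have := hψ.mul h₀
    rw [← mul_assoc, ← map_mul, div_mul_cancel₀ _ hc₀] at this
    exact ⟨_, this⟩
  · rintro ⟨χ, hχ⟩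
    exact GV_le_of_hasRed_C hvc (GV_key hc₀ hφ₀ h₀ hχ)

theorem GV_lt_iff (hvc : ∀ a, vc a ≤ 1 ↔ a ∈ A) (e : E →+* LaurentSeries Qb)
    (he : ∀ x : E, x ≠ 0 → Nrm A (e x)) (x : E) {c : Qb} (hc : c ≠ 0) :
    gaussFun vc e he x < (vc c)⁻¹ ↔ HasRed A (HahnSeries.C c * e x) 0 := by
  by_cases hx : x = 0
  · subst hx
    rw [GV_gaussFun_zero, map_zero, mul_zero]
    exact ⟨fun _ => hasRed_zero A, fun _ =>
      zero_lt_iff.2 (inv_ne_zero ((Valuation.ne_zero_iff _).2 hc))⟩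
  obtain ⟨c₀, hc₀, φ₀, hφ₀, h₀⟩ := he x hx
  rw [gaussFun_eq hvc e he hc₀ hφ₀ h₀, GV_inv_lt_inv hc hc₀, ← GV_div_lt_one hc₀]
  constructor
  · intro h
    have := (GV_hasRed_C_zero_of_lt hvc h).mul h₀
    rwa [← mul_assoc, ← map_mul, div_mul_cancel₀ _ hc₀, zero_mul] at this
  · intro hχ
    have := GV_key hc₀ hφ₀ h₀ hχ
    rw [zero_div] at this
    exact GV_lt_of_hasRed_C_zero hvc this

/-- **the Gauss valuation.**
`map_mul'`: normalising constants multiply (`HasRed.mul`, `gaussFun_eq`).  `map_add_le_max'`: `x, y, x + y ≠ 0` with constants `c, d, e₀`; wlog `c / d ∈ A`; `C c * (x + y)` has a reduction `χ`;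
if `vc e₀ < vc c` then `e₀ / c` is a nonunit of `A` and `C e₀ * (x + y) = C (e₀ / c) * (C c * (x + y))` reduces to `0`: contradiction with `HasRed.unique`. -/
def gaussV (hvc : ∀ a, vc a ≤ 1 ↔ a ∈ A) (e : E →+* LaurentSeries Qb)
    (he : ∀ x : E, x ≠ 0 → Nrm A (e x)) : Valuation E Γ₀ where
  toFun := gaussFun vc e he
  map_zero' := by simp [gaussFun]
  map_one' := by
    have h : HasRed A (HahnSeries.C (1 : Qb) * e 1) 1 := by
      rw [map_one, map_one, one_mul]; exact HasRed.one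
    rw [gaussFun_eq hvc e he one_ne_zero one_ne_zero h, map_one, inv_one]
  map_mul' := by
    intro x y
    by_cases hx : x = 0
    · subst hx
      rw [zero_mul, GV_gaussFun_zero, zero_mul]
    by_cases hy : y = 0
    · subst hy
      rw [mul_zero, GV_gaussFun_zero, mul_zero]
    obtain ⟨c, hc, φ, hφ, h⟩ := he x hx
    obtain ⟨d, hd, ψ, hψ, h'⟩ := he y hy
    have h2 : HasRed A (HahnSeries.C (c * d) * e (x * y)) (φ * ψ) := by
      have := h.mul h'
      rwa [mul_mul_mul_comm, ← map_mul, ← map_mul] at this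
    rw [gaussFun_eq hvc e he (mul_ne_zero hc hd) (mul_ne_zero hφ hψ) h2,
      gaussFun_eq hvc e he hc hφ h, gaussFun_eq hvc e he hd hψ h', map_mul, mul_inv]
  map_add_le_max' := by
    intro x y
    by_cases hx : x = 0
    · subst hx
      rw [zero_add]
      exact le_max_right _ _
    by_cases hy : y = 0
    · subst hy
      rw [add_zero]
      exact le_max_left _ _
    obtain ⟨c, hc, φ, hφ, h⟩ := he x hx
    obtain ⟨d, hd, ψ, hψ, h'⟩ := he y hy
    have ex := gaussFun_eq hvc e he hc hφ h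
    have ey := gaussFun_eq hvc e he hd hψ h'
    have key : ∀ {a : Qb}, a ≠ 0 → gaussFun vc e he x ≤ (vc a)⁻¹ → gaussFun vc e he y ≤ (vc a)⁻¹ →
        gaussFun vc e he (x + y) ≤ (vc a)⁻¹ := by
      intro a ha h1 h2
      obtain ⟨χ₁, hχ₁⟩ := (GV_le_iff hvc e he x ha).1 h1
      obtain ⟨χ₂, hχ₂⟩ := (GV_le_iff hvc e he y ha).1 h2
      refine (GV_le_iff hvc e he (x + y) ha).2 ⟨χ₁ + χ₂, ?_⟩
      rw [map_add, mul_add]
      exact hχ₁.add hχ₂
    rcases le_total (gaussFun vc e he x) (gaussFun vc e he y) with hle | hle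
    · refine le_trans ?_ (le_max_right _ _)
      rw [ey] at hle ⊢
      exact key hd hle (le_of_eq ey)
    · refine le_trans ?_ (le_max_left _ _)
      rw [ex] at hle ⊢
      exact key hc (le_of_eq ex) hle

variable (hvc : ∀ a, vc a ≤ 1 ↔ a ∈ A) (e : E →+* LaurentSeries Qb)
  (he : ∀ x : E, x ≠ 0 → Nrm A (e x))

theorem gaussV_eq {x : E} {c : Qb} (hc : c ≠ 0) {φ : LaurentSeries (kA A)} (hφ : φ ≠ 0)
    (h : HasRed A (HahnSeries.C c * e x) φ) : gaussV hvc e he x = (vc c)⁻¹ :=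
  gaussFun_eq hvc e he hc hφ h

/-- the values are values of constants. -/
theorem gaussV_exists_const {x : E} (hx : x ≠ 0) : ∃ c : Qb, c ≠ 0 ∧ gaussV hvc e he x = vc c := by
  obtain ⟨c, hc, φ, hφ, h⟩ := he x hx
  exact ⟨c⁻¹, inv_ne_zero hc, by rw [gaussV_eq hvc e he hc hφ h, map_inv₀]⟩

theorem gaussV_le_one_iff {x : E} : gaussV hvc e he x ≤ 1 ↔ ∃ φ, HasRed A (e x) φ := by
  have := GV_le_iff hvc e he x (one_ne_zero (α := Qb))
  rwa [map_one, map_one, inv_one, one_mul] at this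

theorem gaussV_lt_one_iff {x : E} : gaussV hvc e he x < 1 ↔ HasRed A (e x) 0 := by
  have := GV_lt_iff hvc e he x (one_ne_zero (α := Qb))
  rwa [map_one, map_one, inv_one, one_mul] at this

theorem gaussV_eq_one_of_hasRed {x : E} {φ : LaurentSeries (kA A)} (hφ : φ ≠ 0)
    (h : HasRed A (e x) φ) : gaussV hvc e he x = 1 := by
  have h' : HasRed A (HahnSeries.C (1 : Qb) * e x) φ := by rwa [map_one, one_mul]
  rw [gaussV_eq hvc e he one_ne_zero hφ h', map_one, inv_one]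

/-- constants. -/
theorem gaussV_of_C {x : E} {a : Qb} (h : e x = HahnSeries.C a) : gaussV hvc e he x = vc a := by
  by_cases ha : a = 0
  · subst ha
    rw [map_zero, map_eq_zero] at h
    rw [h, map_zero, map_zero]
  · have h' : HasRed A (HahnSeries.C a⁻¹ * e x) 1 := by
      rw [h, ← map_mul, inv_mul_cancel₀ ha, map_one]
      exact HasRed.one
    rw [gaussV_eq hvc e he (inv_ne_zero ha) one_ne_zero h', map_inv₀, inv_inv]

theorem gaussV_arch (hA : Arch vc) : Arch (gaussV hvc e he) := by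
  intro x hx γ hγ
  by_cases hx0 : x = 0
  · refine ⟨1, ?_⟩
    rw [hx0, map_zero, pow_one]
    exact zero_lt_iff.2 hγ
  obtain ⟨c, -, hc⟩ := gaussV_exists_const hvc e he hx0
  rw [hc] at hx ⊢
  exact hA c hx γ hγ

/-- two embeddings with the same image of `x` give the same value. -/
theorem gaussV_congr {E' : Type*} [Field E'] (e' : E' →+* LaurentSeries Qb)
    (he' : ∀ x : E', x ≠ 0 → Nrm A (e' x)) {x : E} {x' : E'} (h : e x = e' x') :
    gaussV hvc e he x = gaussV hvc e' he' x' := by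
  by_cases hx : x = 0
  · subst hx
    rw [map_zero] at h
    have hx' : x' = 0 := (map_eq_zero e').1 h.symm
    rw [hx', map_zero, map_zero]
  obtain ⟨c, hc, φ, hφ, h₀⟩ := he x hx
  rw [gaussV_eq hvc e he hc hφ h₀]
  rw [h] at h₀
  rw [gaussV_eq hvc e' he' hc hφ h₀]

/-! ### comparison with `vG` -/

variable (A) in
/-- the valuation of the constants induced by `vG A M`. -/
def vcG (M : ℕ) : Valuation Qb (Ov A M).ValueGroup := (vG A M).comap (algebraMap Qb (FL Qb M))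

/-- (`ValThm_le_one_iff`, `ValThm_coe_algebraMap`, `ValThm_mem_of_hasRed_C`, `hasRed_C`.) -/
theorem vcG_le_one_iff (M : ℕ) (a : Qb) : vcG A M a ≤ 1 ↔ a ∈ A := by
  rw [vcG, Valuation.comap_apply, ValThm_le_one_iff, ValThm_coe_algebraMap]
  exact ⟨fun ⟨_, h⟩ => ValThm_mem_of_hasRed_C A h, fun h => ⟨_, hasRed_C A ⟨a, h⟩⟩⟩

/-- (`KLC.arch`-type statement for `vG A M`, restricted to constants.) -/
theorem vcG_arch (M : ℕ) {p : ℕ} (hp : p.Prime) (hA : A.LiesOverPrime p) : Arch (vcG A M) :=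
  fun x hx γ hγ => arch A M hp hA (algebraMap Qb (FL Qb M) x) hx γ hγ

/-- on `FL ℚ̄ M` the Gauss valuation is `vG`.  (`exists_hasRed_C_mul_of_mem_FL`: `C c * z` has a nonzero reduction, so `vG (algebraMap c * z) = 1`.) -/
theorem gaussV_eq_vG (M : ℕ) {x : E} (z : FL Qb M) (h : e x = (z : LaurentSeries Qb))
    (he : ∀ x : E, x ≠ 0 → Nrm A (e x)) :
    gaussV (vcG_le_one_iff M) e he x = vG A M z := by
  by_cases hz : z = 0
  · subst hz
    have hx : x = 0 := (map_eq_zero e).1 h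
    rw [hx, map_zero, map_zero]
  have hz' : (z : LaurentSeries Qb) ≠ 0 := fun h => hz (Subtype.ext h)
  obtain ⟨c, hc, zb, hzb, h₀⟩ := exists_hasRed_C_mul_of_mem_FL A M z.2 hz'
  have h' : HasRed A ((algebraMap Qb (FL Qb M) c * z : FL Qb M) : LaurentSeries Qb) zb := by
    have e₁ : ((algebraMap Qb (FL Qb M) c * z : FL Qb M) : LaurentSeries Qb) =
        ((algebraMap Qb (FL Qb M) c : FL Qb M) : LaurentSeries Qb) * (z : LaurentSeries Qb) := rfl
    rw [e₁, ValThm_coe_algebraMap]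
    exact h₀
  have h1 : vG A M (algebraMap Qb (FL Qb M) c * z) = 1 := by
    refine le_antisymm ((ValThm_le_one_iff A M).2 ⟨zb, h'⟩) (not_lt.1 fun hlt => hzb ?_)
    exact h'.unique ((vG_lt_one_iff A M).1 hlt)
  rw [← h] at h₀
  rw [gaussV_eq (vcG_le_one_iff M) e he hc hzb h₀]
  rw [map_mul] at h1
  exact (eq_inv_of_mul_eq_one_right h1).symm

end Fermat.Agent.MR.C
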