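import Fermat.Agent.MR.C.Kummer
import Fermat.Agent.MR.C.AbsNormW
import Fermat.Agent.MR.C.GV

/-!
# MR / C / ValInd : two joints of the upper half of block C

* `vi_all_branches`, `vi_cov` : if `δ W = c g^p W`, `|g| ∈ |π|^ℤ`, `|c| ∈ |π|^(pℤ)` on all branches and `|W| ∈ |π|^(pℤ)` on the
  branches `(i, 0)`, then `|W| ∈ |π|^(pℤ)` on all branches (= the hypothesis of `exists_norm_w`).
* `vi_eta` : the constant `η` of `desc_main` satisfies `η^p = p^(p m) * unit` for a peu ramifié class (Kummer input `K2`).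
* `vi_vc_eta`, `vi_gaussV_eta` : the same in terms of a valuation of the constants, resp. of a Gauss valuation.
-/

set_option autoImplicit false

namespace Fermat.Agent.MR.C

open Fermat.Agent.GAL Fermat.Agent.GR Fermat.Agent.CAR Fermat.Agent.MR.E Fermat.Agent.S55.P

section Abstract

variable {E₀ E Γ₀ I₀ : Type*} [Field E₀] [Field E] [Algebra E₀ E]
  [LinearOrderedCommGroupWithZero Γ₀] {p : ℕ} [Fact p.Prime] {δ : E ≃ₐ[E₀] E}
  {vt : I₀ × ZMod p → Valuation E Γ₀}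

/-- **induction over the branches.** -/
theorem vi_all_branches (shift : ∀ (i : I₀) (k : ZMod p) (x : E), vt (i, k) (δ x) = vt (i, k + 1) x)
    {ϖ : E} (hϖ0 : ϖ ≠ 0) (hϖ : ∀ (i : I₀) (k : ZMod p), vt (i, k) ϖ = vt (i, 0) ϖ)
    {W g c : E} (hδ : δ W = c * g ^ p * W)
    (hg : ∀ b, ∃ m : ℤ, vt b g = vt b ϖ ^ m)
    (hc : ∀ b, ∃ m : ℤ, vt b c = vt b ϖ ^ ((p : ℤ) * m))
    (h0 : ∀ i, ∃ m : ℤ, vt (i, 0) W = vt (i, 0) ϖ ^ ((p : ℤ) * m)) :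
    ∀ b, ∃ m : ℤ, vt b W = vt b ϖ ^ ((p : ℤ) * m) := by
  have key : ∀ (i : I₀) (n : ℕ), ∃ m : ℤ,
      vt (i, (n : ZMod p)) W = vt (i, (n : ZMod p)) ϖ ^ ((p : ℤ) * m) := by
    intro i n
    induction n with
    | zero => simpa using h0 i
    | succ n ih =>
      obtain ⟨m₃, h₃⟩ := ih
      obtain ⟨m₂, h₂⟩ := hg (i, (n : ZMod p))
      obtain ⟨m₁, h₁⟩ := hc (i, (n : ZMod p))
      refine ⟨m₁ + m₂ + m₃, ?_⟩
      have hv0 : vt (i, (n : ZMod p)) ϖ ≠ 0 := (Valuation.ne_zero_iff _).2 hϖ0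
      rw [Nat.cast_succ, ← shift, hδ, map_mul, map_mul, map_pow, h₁, h₂, h₃, hϖ i ((n : ZMod p) + 1),
        ← hϖ i (n : ZMod p), ← zpow_natCast, ← zpow_mul, ← zpow_add₀ hv0, ← zpow_add₀ hv0]
      congr 1
      ring
  rintro ⟨i, k⟩
  have := key i k.val
  rwa [ZMod.natCast_zmod_val] at this

variable {B₀ : Subring E₀} {v₀ : I₀ → Valuation E₀ Γ₀} {p₀ : I₀ → Ideal B₀} {π : B₀}

/-- the same for a cover (`= ` the hypothesis of `exists_norm_w`). -/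
theorem vi_cov (hB : Base B₀ v₀ p₀ π) (C : Cov p B₀ v₀ δ vt) {W g c : E}
    (hδ : δ W = c * g ^ p * W)
    (hg : ∀ b, ∃ m : ℤ, vt b g = vt b (algebraMap E₀ E (π : E₀)) ^ m)
    (hc : ∀ b, ∃ m : ℤ, vt b c = vt b (algebraMap E₀ E (π : E₀)) ^ ((p : ℤ) * m))
    (h0 : ∀ i, ∃ m : ℤ, vt (i, 0) W = vt (i, 0) (algebraMap E₀ E (π : E₀)) ^ ((p : ℤ) * m)) :
    ∀ b, ∃ m : ℤ, vt b W = vt b (algebraMap E₀ E (π : E₀)) ^ ((p : ℤ) * m) := by
  refine vi_all_branches C.shift ?_ (fun i k => by rw [C.ext, C.ext]) hδ hg hc h0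
  intro h
  rw [map_eq_zero] at h
  exact hB.π0 (Subtype.ext h)

end Abstract

section Eta

variable {A : ValuationSubring Qb} {p : ℕ} {F : Subfield (LaurentSeries Qb)}
  {u h1 : LaurentSeries Qb} {ζ η : Qb}

/-- **the constant `η` of `desc_main` for a peu ramifié class**: `η ^ p = p ^ (p m) * unit`. -/
theorem vi_eta (hp : p.Prime) (hp2 : p ≠ 2) (hA : A.LiesOverPrime p) (hη0 : η ≠ 0) (hu0 : u ≠ 0)
    (hζ : ζ ^ p = 1)
    (hη : ∀ τ ∈ A.inertiaSubgroupIn ℚ, ∀ (k : ℕ) (f : F), f ≠ 0 →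
      galS τ u = u * h1 ^ k * f → τ η * ζ ^ k = η)
    (hτ : ∀ τ ∈ A.inertiaSubgroupIn ℚ, ∃ (k : ℕ) (f : F), f ≠ 0 ∧ galS τ u = u * h1 ^ k * f)
    (hpeu : ∀ σ ∈ HH A p, FixU A p σ → galS σ u / u ∈ F) :
    ∃ m : ℤ, IsUnitAt A (η ^ p * (p : Qb) ^ (-((p : ℤ) * m))) := by
  refine exists_isUnitAt_of_fixU hp hp2 A hA (pow_ne_zero p hη0) rfl ?_ ?_
  · intro τ hτI
    obtain ⟨k, f, hf, h⟩ := hτ τ hτI
    have h1 := hη τ hτI k f hf h
    have h2 : (τ η * ζ ^ k) ^ p = η ^ p := by rw [h1]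
    rw [mul_pow, ← pow_mul, mul_comm k p, pow_mul, hζ, one_pow, mul_one] at h2
    rw [map_pow, h2]
  · intro σ hσ hU
    have hσI : σ ∈ A.inertiaSubgroupIn ℚ := (mem_HH.mp hσ).1
    have hne : galS σ u / u ≠ 0 := div_ne_zero ((map_ne_zero _).2 hu0) hu0
    have h := hη σ hσI 0 ⟨galS σ u / u, hpeu σ hσ hU⟩ (fun h => hne (congrArg Subtype.val h))
      (by rw [pow_zero, mul_one, mul_div_cancel₀ _ hu0])
    rwa [pow_zero, mul_one] at h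

variable {Γ₀ : Type*} [LinearOrderedCommGroupWithZero Γ₀] {vc : Valuation Qb Γ₀}

theorem vi_vc_eq_one (hvc : ∀ a, vc a ≤ 1 ↔ a ∈ A) {x : Qb} (hx : IsUnitAt A x) : vc x = 1 := by
  obtain ⟨h1, h2, h3⟩ := hx
  have h4 : vc x ≤ 1 := (hvc x).2 h1
  have h5 : vc x⁻¹ ≤ 1 := (hvc _).2 h2
  rw [map_inv₀, inv_le_one₀ (zero_lt_iff.2 ((Valuation.ne_zero_iff _).2 h3))] at h5
  exact le_antisymm h4 h5

/-- in terms of a valuation of the constants. -/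
theorem vi_vc_eta (hvc : ∀ a, vc a ≤ 1 ↔ a ∈ A) (hp : p.Prime) {c : Qb} {m : ℤ}
    (h : IsUnitAt A (c * (p : Qb) ^ (-((p : ℤ) * m)))) :
    vc c = vc (p : Qb) ^ ((p : ℤ) * m) := by
  have hp0 : vc (p : Qb) ≠ 0 := (Valuation.ne_zero_iff _).2 (by exact_mod_cast hp.ne_zero)
  have h1 := vi_vc_eq_one hvc h
  rw [map_mul, map_zpow₀, zpow_neg] at h1
  exact eq_of_mul_inv_eq_one h1

variable {E : Type*} [Field E]

/-- in terms of a Gauss valuation. -/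
theorem vi_gaussV_eta (hvc : ∀ a, vc a ≤ 1 ↔ a ∈ A) (e : E →+* LaurentSeries Qb)
    (he : ∀ x : E, x ≠ 0 → Nrm A (e x)) (hp : p.Prime) {c : Qb} {m : ℤ}
    (h : IsUnitAt A (c * (p : Qb) ^ (-((p : ℤ) * m)))) {x ϖ : E} (hx : e x = HahnSeries.C c)
    (hϖ : e ϖ = HahnSeries.C (p : Qb)) :
    gaussV hvc e he x = gaussV hvc e he ϖ ^ ((p : ℤ) * m) := by
  rw [gaussV_of_C hvc e he hx, gaussV_of_C hvc e he hϖ, vi_vc_eta hvc hp h]

end Eta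

end Fermat.Agent.MR.C
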