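import Fermat.Agent.MR.Contracts
import Fermat.Agent.MR.C.PrepIn
import Fermat.Agent.MR.C.J.F1
import Fermat.Agent.MR.C.J.R0
import Fermat.Agent.MR.C.SepH
import Fermat.Agent.MR.C.ValHt
import Fermat.Agent.MR.C.ValInd
import Fermat.Agent.MR.C.AbsValW

/-!
# MR / C / Fin8 : the final assembly of `MR.CStatement` (hedge of `Top.lean`)

`exists_prepIn` + `PrepIn.out` + [J-F1] + (SEP) `sepH_sep` + `valHt_good` + `exists_norm_of_deck` + `pdivT`.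
-/

set_option autoImplicit false
noncomputable section

namespace Fermat.Agent.MR.C

open HahnSeries Polynomial ModularCurve AlgebraicCurve
open Fermat.Agent.GR Fermat.Agent.GAL Fermat.Agent.GAL.KL Fermat.Agent.GAL.KLC
  Fermat.Agent.DSC Fermat.Agent.CAR Fermat.Agent.CAR.DESC Fermat.Agent.S24 Fermat.Agent.TOR.GB
  Fermat.Agent.ORD.P2 Fermat.Agent.CAR.BK Fermat.Agent.CAR.CNT Fermat.Agent.CAR.ON
  Fermat.Agent.MR.TH Fermat.Agent.MR.A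

local notation "Λ" => LaurentSeries Qb

theorem fin8_eps_eq {I : Subgroup GQ} {N : ℕ} {h1 h10 : Λ} {w : FS N →+* Λ} {p : ℕ} {ζ : Qb}
    (H : CovHyp I (FS N) w p ζ h1 h10) (i : I2) : H.sepH_eps i = epsT H i := by
  rcases I2_cases i with rfl | rfl <;> rfl

variable {M₁ p : ℕ} [NeZero M₁] [NeZero p]

/-- (SEP) in the form of the hypothesis `sep` of `covT`, `pdivT`. -/
theorem fin8_sep (hM : AdmLevel M₁) (hp : p.Prime) (hp2 : p ≠ 2) (hpM : ¬ p ∣ M₁)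
    (A : ValuationSubring Qb) (hA : A.LiesOverPrime p) {ζ : Qbˣ} (hζ : IsPrimitiveRoot ζ p)
    {w : FS (M₁ * p) →+* Λ}
    (hw : ∀ f : FS (M₁ * p), w f = ((wq M₁ p (⟨f.1, f.2⟩ : FN (M₁ * p)) : FN (M₁ * p)) : Λ))
    {h1 h10 : Λ} (H : CovHyp (IA A) (FS (M₁ * p)) w p (ζ : Qb) h1 h10)
    (he : ∀ (j : I2) (x : adjF (FS (M₁ * p)) h1), x ≠ 0 → Nrm A (epsT H j x))
    (hdiv : ∀ P : Place Qb (FL Qb (M₁ * p)), (p : ℤ) ∣ P.ord (⟨h1 ^ p, H.pow_mem⟩ : FN (M₁ * p)))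
    (hd : Dp A (lam ζ ^ p) (h1 ^ p) 0)
    (hd0 : Dp A (lam ζ ^ p) (w ⟨h1 ^ p, H.pow_mem⟩) 0)
    {j j0 : kA A} (hj : Dp A (lam ζ) h1 (HahnSeries.C j))
    (hj0 : Dp A (lam ζ) h10 (HahnSeries.C j0)) :
    ∀ (i : I2) (k l : ZMod p), k ≠ l →
      ∃ b : fixS (IA A) (adjF (FS (M₁ * p)) h1), IsIntegral (BT M₁ p A) b ∧
        vtT A H he (i, l) b < 1 ∧ vtT A H he (i, k) (b - 1) < 1 :=
  fun i k l hkl => sepH_sep hM hp hp2 hpM A hA hζ (fun f => hw ⟨(f : Λ), f.2⟩) H hdiv hd hd0 hj hj0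
    (VT A H he) (VT_algebraMap A H he hw)
    (fun i x h => (VT_le_one_iff A H he i).2 (by rwa [fin8_eps_eq] at h))
    (fun i x h => (VT_lt_one_iff A H he i).2 (by rwa [fin8_eps_eq] at h)) i k l hkl

/-- the expansions of the uniformiser. -/
theorem fin8_eT_pi (A : ValuationSubring Qb) {w : FS (M₁ * p) →+* Λ}
    (hw : ∀ f : FS (M₁ * p), w f = ((wq M₁ p (⟨f.1, f.2⟩ : FN (M₁ * p)) : FN (M₁ * p)) : Λ))
    {ζ : Qb} {h1 h10 : Λ} (H : CovHyp (IA A) (FS (M₁ * p)) w p ζ h1 h10) (i : I2) :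
    eT H i (algebraMap (EC A (M₁ * p)) (fixS (IA A) (adjF (FS (M₁ * p)) h1))
      ((piT M₁ p A : BT M₁ p A) : EC A (M₁ * p))) = HahnSeries.C (p : Qb) := by
  have e0 : ((((piT M₁ p A : BT M₁ p A) : EC A (M₁ * p)) : FN (M₁ * p)) : Λ)
      = HahnSeries.C (p : Qb) := by
    rw [coe_piT A]
    exact ValThm_coe_algebraMap (M₁ * p) (p : Qb)
  rcases I2_cases i with rfl | rfl
  · exact e0
  · have h1' := (H.ι0_F ⟨((((piT M₁ p A : BT M₁ p A) : EC A (M₁ * p)) : FN (M₁ * p)) : Λ),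
      (((piT M₁ p A : BT M₁ p A) : EC A (M₁ * p)) : FN (M₁ * p)).2⟩).trans (hw _)
    refine h1'.trans ?_
    have e1 : (⟨((((piT M₁ p A : BT M₁ p A) : EC A (M₁ * p)) : FN (M₁ * p)) : Λ),
      (((piT M₁ p A : BT M₁ p A) : EC A (M₁ * p)) : FN (M₁ * p)).2⟩ : FN (M₁ * p))
        = algebraMap Qb (FN (M₁ * p)) (p : Qb) := coe_piT A
    rw [e1, AlgEquiv.commutes]
    exact ValThm_coe_algebraMap (M₁ * p) (p : Qb)

variable {A : ValuationSubring Qb} {ℓ : ℕ} [NeZero ℓ] {e : ℕ} {ζ : Qbˣ} {u h1 : Λ}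

/-- **the upper half of `MR.CStatement`.** -/
theorem fin8_main (P : PrepIn A M₁ p ℓ e ζ u h1) {c : Qb} {ab : LaurentSeries (kA A)}
    (hab : HasRed A (HahnSeries.C c * u ^ p) ab) (hab0 : ab ≠ 0) : PDiv (Rb A M₁) p ab := by
  have : Fact p.Prime := ⟨P.hp⟩
  obtain ⟨h10, u0, H, a1, S, S0, g, η, m, hG, hGu, ha1, hη, hS, hS0, hSne, hS0ne, hSfix, hS0fix,
    hg, hg0, hgfix, hδ, hm⟩ := P.out
  have he : ∀ (j : I2) (x : adjF (FS (M₁ * p)) h1), x ≠ 0 → Nrm A (epsT H j x) := by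
    intro j x hx
    rcases I2_cases j with rfl | rfl
    · exact P.jF1_nrm_oo hG x hx
    · exact P.jF1_nrm_zr hG H x hx
  have hw : ∀ f : FS (M₁ * p),
      wS M₁ p f = ((wq M₁ p (⟨f.1, f.2⟩ : FN (M₁ * p)) : FN (M₁ * p)) : Λ) := fun f => rfl
  obtain ⟨j, j0, hj, hj0⟩ := P.jF1_dp hG
  have sep := fin8_sep P.hM P.hp P.hp2 P.hpM A P.hA P.hζ hw H he P.kh.2.choose_spec P.deep P.deep0
    hj hj0
  have C := covT A H he P.hA hw sep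
  have hB := TH.base A P.hM P.hp P.hpM P.hA
  obtain ⟨-, -, ⟨U, hU, hU0⟩, -⟩ := id hGu
  have hSp : S ^ p = (U : Λ) * (a1 : Λ) ^ p := by rw [hS, mul_pow, hU]
  have hSmem : S ^ p ∈ adjF (FS (M₁ * p)) h1 := by
    rw [hSp]; exact mul_mem (le_adjF _ _ U.2) (pow_mem a1.2 p)
  let Ht : fixS (IA A) (adjF (FS (M₁ * p)) h1) :=
    ⟨S ^ p, hSmem, fun τ hτ => by rw [map_pow, hSfix τ hτ]⟩
  let gE : fixS (IA A) (adjF (FS (M₁ * p)) h1) := ⟨g, hg, hgfix⟩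
  have hHt0 : Ht ≠ 0 := fun h => pow_ne_zero p hSne (congrArg Subtype.val h)
  have hgE0 : gE ≠ 0 := fun h => hg0 (congrArg Subtype.val h)
  have htF : toF1 Ht = (⟨(U : Λ), le_adjF _ _ U.2⟩ : adjF (FS (M₁ * p)) h1) * a1 ^ p :=
    Subtype.ext hSp
  have hδHt : ((H.δC Ht : fixS (IA A) (adjF (FS (M₁ * p)) h1)) : Λ)
      = HahnSeries.C (η ^ p) * g ^ p * S ^ p := by
    have e2 : H.δ ⟨(U : Λ), le_adjF _ _ U.2⟩ = (U : Λ) := congrArg Subtype.val (H.kum.deck_F U)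
    rw [H.coe_δC, htF, map_mul, map_pow, hδ, e2, hSp, map_pow]
    ring
  let cE : fixS (IA A) (adjF (FS (M₁ * p)) h1) := H.δC Ht / (gE ^ p * Ht)
  have hδ' : H.δC Ht = cE * gE ^ p * Ht := by
    have h0 : gE ^ p * Ht ≠ 0 := mul_ne_zero (pow_ne_zero p hgE0) hHt0
    rw [mul_assoc]
    exact (div_mul_cancel₀ _ h0).symm
  have hcE : (cE : Λ) = HahnSeries.C (η ^ p) := by
    have e3 : (cE : Λ) = ((H.δC Ht : fixS (IA A) (adjF (FS (M₁ * p)) h1)) : Λ) / (g ^ p * S ^ p) := rfl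
    rw [e3, hδHt, mul_assoc]
    exact mul_div_cancel_right₀ _ (mul_ne_zero (pow_ne_zero p hg0) (pow_ne_zero p hSne))
  have hcoe : ((algebraMap Qb (FN (M₁ * p)) (η ^ p) : FN (M₁ * p)) : Λ) = HahnSeries.C (η ^ p) :=
    ValThm_coe_algebraMap (M₁ * p) (η ^ p)
  let c₀ : EC A (M₁ * p) := ⟨algebraMap Qb (FN (M₁ * p)) (η ^ p), by
    rw [mem_EF, hcoe, ← hcE]
    exact cE.2.2⟩
  have hc0 : algebraMap (EC A (M₁ * p)) (fixS (IA A) (adjF (FS (M₁ * p)) h1)) c₀ = cE :=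
    Subtype.ext (hcoe.trans hcE.symm)
  have hc : ∀ b, ∃ m' : ℤ, vtT A H he b cE
      = vtT A H he b (algebraMap (EC A (M₁ * p)) (fixS (IA A) (adjF (FS (M₁ * p)) h1))
        ((piT M₁ p A : BT M₁ p A) : EC A (M₁ * p))) ^ ((p : ℤ) * m') := by
    rintro ⟨i, k⟩
    refine ⟨m, ?_⟩
    rw [← hc0, C.ext, C.ext]
    have e1 : vT M₁ p A i c₀ = vcG A (M₁ * p) (η ^ p) := by
      show vG A (M₁ * p) (wj (wq M₁ p) i (algebraMap Qb (FN (M₁ * p)) (η ^ p))) = _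
      rw [AlgEquiv.commutes]
      rfl
    have e2 : vT M₁ p A i ((piT M₁ p A : BT M₁ p A) : EC A (M₁ * p)) = vcG A (M₁ * p) (p : Qb) := by
      show vG A (M₁ * p) (wj (wq M₁ p) i
        (((piT M₁ p A : BT M₁ p A) : EC A (M₁ * p)) : FN (M₁ * p))) = _
      rw [coe_piT A, AlgEquiv.commutes]
      rfl
    rw [e1, e2]
    exact vi_vc_eta (vcG_le_one_iff (M₁ * p)) P.hp hm
  have hF : FS (M₁ * p) ≤ KIH.KF A (A.inertiaSubgroupIn ℚ) := fun x hx => KIH.FL_le_KF (M₁ * p) hx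
  have hwK : ∀ f : FS (M₁ * p), wS M₁ p f ∈ KIH.KF A (A.inertiaSubgroupIn ℚ) :=
    fun f => KIH.FL_le_KF (M₁ * p) (wS_mem f)
  obtain ⟨hh1, hh10⟩ := P.jF1_KIH hG (A.inertiaSubgroupIn ℚ)
  obtain ⟨⟨m1, φ1, hφ1, hr1⟩, ⟨m2, φ2, hφ2, hr2⟩⟩ := valHt_good P.hp P.hA H hF hwK hh1 hh10 ℓ e P.he
    hGu hS hS0 hSne hS0ne hSfix hS0fix
  have h0 : ∀ i, ∃ m' : ℤ, vtT A H he (i, 0) Ht
      = vtT A H he (i, 0) (algebraMap (EC A (M₁ * p)) (fixS (IA A) (adjF (FS (M₁ * p)) h1))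
        ((piT M₁ p A : BT M₁ p A) : EC A (M₁ * p))) ^ ((p : ℤ) * m') := by
    intro i
    rcases I2_cases i with rfl | rfl
    · refine ⟨-m1, ?_⟩
      rw [vtT_zero, vtT_zero]
      exact valHt_gaussV (vcG_le_one_iff (M₁ * p)) (eT H oo) (nrm_eT A H he oo) P.hp
        (fin8_eT_pi A hw H oo) hφ1 hr1
    · refine ⟨-m2, ?_⟩
      rw [vtT_zero, vtT_zero]
      have e3 : eT H zr Ht = S0 ^ p := by
        rw [eT_apply, epsT_zr, htF, map_mul, map_pow, H.ι0_F, ← hU0, hS0, mul_pow]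
      rw [← e3] at hr2
      exact valHt_gaussV (vcG_le_one_iff (M₁ * p)) (eT H zr) (nrm_eT A H he zr) P.hp
        (fin8_eT_pi A hw H zr) hφ2 hr2
  obtain ⟨ε, hε0, hW⟩ := exists_norm_of_deck hB C p hgE0 hc hδ' h0
  have hε0' : (ε : Λ) ≠ 0 := fun h => hε0 (Subtype.ext h)
  have ha1' : (a1 : Λ) ≠ 0 := fun h => ha1 (Subtype.ext h)
  refine pdivT A H he P.hM P.hpM P.hA hw sep (W := Ht * ε ^ p) hW P.ku (b := (a1 : Λ) * (ε : Λ))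
    (mul_mem a1.2 ε.2.1) (mul_ne_zero ha1' hε0') ?_ hab hab0
  show S ^ p * (ε : Λ) ^ p = _
  rw [hS]
  ring

/-- **`MR.CStatement`.** -/
theorem cStatement8 : MR.CStatement := by
  intro M₁ p _ _ hM hp hp5 hpM A hA u u₁ hu hu₁ _ hu₁n g1 g2 g3 g4 _ hU₁ _ hnew₁ c ab hab hab0
  obtain ⟨ζ, hζ⟩ := exists_primitiveRoot_Qb p
  obtain ⟨ℓ, _, e, c0, h₁, hc0, P⟩ := exists_prepIn hM hp (by omega) hpM A hA hζ hu hu₁ hu₁n g1 g2
    g3 g4 hU₁ (hnew₁ hu₁.pow_mem)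
  refine fin8_main P (c := c / c0 ^ p) ?_ hab0
  have e1 : (HahnSeries.C (c / c0 ^ p) : Λ) * (HahnSeries.C c0 * u) ^ p = HahnSeries.C c * u ^ p := by
    have h0 : (HahnSeries.C c0 : Λ) ≠ 0 := C_ne_zero' hc0
    rw [map_div₀, map_pow, mul_pow]
    field_simp
  rw [e1]
  exact hab

end Fermat.Agent.MR.C
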