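import Fermat.Agent.MR.C.CovEC
import Fermat.Agent.ORD.P2.Inertia
import Fermat.Agent.GAL.KLC.Val

/-!
# MR / C / SepOrb : [SEP-A] sibling separation from an element of `F1 = F(h₁)` (orbit product + integrality)

`Cov.sep` is a FIELD of `Cov`, so `le_B1_of_stable` / `hgc_mem_B1` (which take `C : Cov ..`) cannot be used to prove it.

* `sepOrb_le_B1`, `sepOrb_mem_B1` : the same statements from `pow`, `fix`, `ext`, `shift` only.
* `sepOrb_core`  : `a ∈ F1`, integral over `ℚ̄[t]`, with a reduction on every branch `ε j ∘ deck ^ m`, reduction `0` on `(i, l)` and `1` on `(i, k)`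
  `⟹` the conclusion of `Cov.sep` for `(i, k, l)` (the product over the finite `I`-orbit of `a`).
* `sepOrb_of_const` : the same from `y ∈ F1` whose reductions on the branches `(i, m)` are constants `κ m` with `κ k ≠ κ l`.
-/

set_option autoImplicit false
noncomputable section

namespace Fermat.Agent.MR.C

open HahnSeries Polynomial Fermat.Agent.GR Fermat.Agent.GAL Fermat.Agent.GAL.KL Fermat.Agent.GAL.KLC
  Fermat.Agent.DSC Fermat.Agent.CAR Fermat.Agent.CAR.DESC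

local notation "Λ" => LaurentSeries Qb

/-! ### integrality over `B₀` without `Cov` -/

section Abs

variable {E₀ E Γ₀ I₀ : Type*} [Field E₀] [Field E] [Algebra E₀ E] [LinearOrderedCommGroupWithZero Γ₀]
  {B₀ : Subring E₀} {v₀ : I₀ → Valuation E₀ Γ₀}
  {p : ℕ} {δ : E ≃ₐ[E₀] E} {vt : I₀ × ZMod p → Valuation E Γ₀}

/-- `le_B1_of_stable` from `pow` and `fix` only. -/
theorem sepOrb_le_B1 (hp : 0 < p) (hpow : ∀ x : E, (δ ^ p) x = x)
    (hfix : ∀ x : E, δ x = x → ∃ x₀ : E₀, algebraMap E₀ E x₀ = x)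
    (S : Subring E) (hδ : ∀ x ∈ S, δ x ∈ S)
    (hS : ∀ x₀ : E₀, algebraMap E₀ E x₀ ∈ S → x₀ ∈ B₀) : S ≤ B1 E B₀ := by
  intro x hx
  have hm : ∀ m : ℕ, (δ ^ m) x ∈ S := by
    intro m
    induction m with
    | zero => simpa using hx
    | succ m ih =>
      rw [← absSym_apply_pow]
      exact hδ _ ih
  obtain ⟨f, hf, -, hmap⟩ := chi_descends hpow hfix x
  have hc : ∀ n, f.coeff n ∈ B₀ := by
    intro n
    apply hS
    rw [← coeff_map, hmap]
    exact chi_coeff_mem S hm n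
  have hsub : ((f.coeffs : Finset E₀) : Set E₀) ⊆ B₀ := by
    intro a ha
    obtain ⟨n, -, rfl⟩ := (mem_coeffs_iff).1 (Finset.mem_coe.1 ha)
    exact hc n
  rw [mem_B1]
  refine ⟨f.toSubring B₀ hsub, (monic_toSubring f B₀ hsub).2 hf, ?_⟩
  have h1 : (f.toSubring B₀ hsub).map (algebraMap B₀ E) = chi δ p x := by
    have h2 : algebraMap B₀ E = (algebraMap E₀ E).comp B₀.subtype := rfl
    rw [h2, ← Polynomial.map_map, map_toSubring, hmap]
  rw [← eval_map, h1]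
  exact chi_eval_self δ hp x

/-- `hgc_mem_B1` from `pow`, `fix`, `ext`, `shift` only. -/
theorem sepOrb_mem_B1 (hp : 0 < p) (hpow : ∀ x : E, (δ ^ p) x = x)
    (hfix : ∀ x : E, δ x = x → ∃ x₀ : E₀, algebraMap E₀ E x₀ = x)
    (hext : ∀ (i : I₀) (k : ZMod p) (x : E₀), vt (i, k) (algebraMap E₀ E x) = v₀ i x)
    (hshift : ∀ (i : I₀) (k : ZMod p) (x : E), vt (i, k) (δ x) = vt (i, k + 1) x)
    (ι : E →+* Λ) (t : Λ)
    (hδ : ∀ x : E, IsInt Qb t (ι x) → IsInt Qb t (ι (δ x)))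
    (hS : ∀ x₀ : E₀, IsInt Qb t (ι (algebraMap E₀ E x₀)) → (∀ i, v₀ i x₀ ≤ 1) → x₀ ∈ B₀)
    {x : E} (hx : IsInt Qb t (ι x)) (hv : ∀ b, vt b x ≤ 1) : x ∈ B1 E B₀ := by
  let S : Subring E :=
    { carrier := {y | IsInt Qb t (ι y) ∧ ∀ b, vt b y ≤ 1}
      mul_mem' := by
        rintro a b ⟨ha, ha'⟩ ⟨hb, hb'⟩
        refine ⟨by rw [map_mul]; exact ha.mul hb, fun c => ?_⟩
        rw [map_mul]
        exact mul_le_one' (ha' c) (hb' c)
      one_mem' := ⟨by rw [map_one]; exact IsInt.one, fun c => by rw [map_one]⟩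
      add_mem' := by
        rintro a b ⟨ha, ha'⟩ ⟨hb, hb'⟩
        exact ⟨by rw [map_add]; exact ha.add hb, fun c => Valuation.map_add_le _ (ha' c) (hb' c)⟩
      zero_mem' := ⟨by rw [map_zero]; exact IsInt.zero, fun c => by rw [map_zero]; exact zero_le⟩
      neg_mem' := by
        rintro a ⟨ha, ha'⟩
        exact ⟨by rw [map_neg]; exact ha.neg, fun c => by rw [Valuation.map_neg]; exact ha' c⟩ }
  have hle : S ≤ B1 E B₀ := sepOrb_le_B1 hp hpow hfix S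
    (fun y hy => ⟨hδ y hy.1, fun b => by
      obtain ⟨i, k⟩ := b
      rw [hshift]
      exact hy.2 _⟩)
    (fun x₀ hx₀ => hS x₀ hx₀.1 fun i => by
      have := hx₀.2 (i, 0)
      rwa [hext] at this)
  exact hle ⟨hx, hv⟩

end Abs

/-! ### products -/

theorem sepOrb_hasRed_prod {A : ValuationSubring Qb} {α : Type*} (s : Finset α) (f : α → Λ)
    (φ : LaurentSeries (kA A)) (h : ∀ x ∈ s, HasRed A (f x) φ) :
    HasRed A (∏ x ∈ s, f x) (φ ^ s.card) := by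
  classical
  induction s using Finset.induction_on with
  | empty => simpa using (HasRed.one (A := A))
  | insert a s ha ih =>
    rw [Finset.prod_insert ha, Finset.card_insert_of_notMem ha, pow_succ']
    exact (h a (Finset.mem_insert_self a s)).mul
      (ih fun x hx => h x (Finset.mem_insert_of_mem hx))

theorem sepOrb_isInt_prod {α : Type*} (s : Finset α) (f : α → Λ) (t : Λ)
    (h : ∀ x ∈ s, IsInt Qb t (f x)) : IsInt Qb t (∏ x ∈ s, f x) := by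
  classical
  induction s using Finset.induction_on with
  | empty => simpa using (IsInt.one : IsInt Qb t (1 : Λ))
  | insert a s ha ih =>
    rw [Finset.prod_insert ha]
    exact (h a (Finset.mem_insert_self a s)).mul
      (ih fun x hx => h x (Finset.mem_insert_of_mem hx))

/-! ### the orbit product in `F1` -/

section Orb

variable {I : Subgroup GQ} {N : ℕ} {h1 h10 : Λ} {w : FS N →+* Λ} {p : ℕ} {ζ : Qb}

theorem CovHyp.sepOrb_gal_mul (H : CovHyp I (FS N) w p ζ h1 h10) {σ τ : GQ} (hσ : σ ∈ I) (hτ : τ ∈ I)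
    (x : adjF (FS N) h1) : H.gal σ hσ (H.gal τ hτ x) = H.gal (σ * τ) (mul_mem hσ hτ) x :=
  rfl

theorem CovHyp.sepOrb_coe_gal (H : CovHyp I (FS N) w p ζ h1 h10) {τ : GQ} (hτ : τ ∈ I)
    (x : adjF (FS N) h1) : ((H.gal τ hτ x : adjF (FS N) h1) : Λ) = galS τ (x : Λ) := rfl

/-- the deck transformation commutes with the Galois action. -/
theorem CovHyp.sepOrb_deck_gal (H : CovHyp I (FS N) w p ζ h1 h10) {τ : GQ} (hτ : τ ∈ I)
    (x : adjF (FS N) h1) : H.kum.deck (H.gal τ hτ x) = H.gal τ hτ (H.kum.deck x) :=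
  Subtype.ext (H.gal_δ τ hτ x).symm

theorem CovHyp.sepOrb_deck_pow_gal (H : CovHyp I (FS N) w p ζ h1 h10) {τ : GQ} (hτ : τ ∈ I) (m : ℕ)
    (x : adjF (FS N) h1) : (H.kum.deck ^ m) (H.gal τ hτ x) = H.gal τ hτ ((H.kum.deck ^ m) x) := by
  induction m generalizing x with
  | zero => rfl
  | succ m ih =>
    rw [pow_succ, RingHom.mul_def, RingHom.comp_apply, RingHom.comp_apply, H.sepOrb_deck_gal, ih]

/-- the finite orbit of `a ∈ F1`, and its product. -/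
theorem CovHyp.sepOrb_exists_orbit (H : CovHyp I (FS N) w p ζ h1 h10) (a : adjF (FS N) h1) :
    ∃ s : Finset (adjF (FS N) h1), a ∈ s ∧ (∀ x ∈ s, ∃ (τ : GQ) (hτ : τ ∈ I), H.gal τ hτ a = x) ∧
      ∀ τ ∈ I, galS τ ((∏ x ∈ s, x : adjF (FS N) h1) : Λ) = ((∏ x ∈ s, x : adjF (FS N) h1) : Λ) := by
  classical
  have hfin : {x : adjF (FS N) h1 | ∃ (τ : GQ) (hτ : τ ∈ I), H.gal τ hτ a = x}.Finite := by
    refine Set.Finite.of_finite_image (f := (Subtype.val : adjF (FS N) h1 → Λ))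
      ((H.hfin a a.2).subset ?_) Subtype.val_injective.injOn
    rintro _ ⟨x, ⟨τ, hτ, rfl⟩, rfl⟩
    exact ⟨τ, hτ, rfl⟩
  refine ⟨hfin.toFinset, ?_, ?_, ?_⟩
  · rw [Set.Finite.mem_toFinset]
    exact ⟨1, one_mem I, Subtype.ext (DESC.galS_one _)⟩
  · intro x hx
    exact (Set.Finite.mem_toFinset hfin).1 hx
  · intro τ hτ
    have himg : hfin.toFinset.image (H.gal τ hτ) = hfin.toFinset := by
      apply Finset.eq_of_subset_of_card_le
      · intro y hy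
        obtain ⟨x, hx, rfl⟩ := Finset.mem_image.1 hy
        obtain ⟨σ, hσ, rfl⟩ := (Set.Finite.mem_toFinset hfin).1 hx
        rw [Set.Finite.mem_toFinset]
        exact ⟨τ * σ, mul_mem hτ hσ, (H.sepOrb_gal_mul hτ hσ a).symm⟩
      · rw [Finset.card_image_of_injective _ (H.gal τ hτ).injective]
    rw [← H.sepOrb_coe_gal hτ, map_prod]
    congr 1
    conv_rhs => rw [← himg]
    rw [Finset.prod_image fun x _ y _ h => (H.gal τ hτ).injective h]

variable {Γ₀ I₀ : Type*} [LinearOrderedCommGroupWithZero Γ₀]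
  {B₀ : Subring (EF I N)} {v₀ : I₀ → Valuation (EF I N) Γ₀}

theorem CovHyp.sepOrb_toF1_pow (H : CovHyp I (FS N) w p ζ h1 h10) (m : ℕ)
    (x : fixS I (adjF (FS N) h1)) : toF1 ((H.δC ^ m) x) = (H.kum.deck ^ m) (toF1 x) :=
  Subtype.ext (H.coe_δC_pow m x)

/-- **[SEP-A], core.**  `ε j : F1 →+* ℚ̄((q))` the expansions (`ε ∞ = ` inclusion, `ε 0 = H.ι0`), `V j` the valuation of `E = F1^I` attached to `ε j`
(`hle`, `hlt` = `gaussV_le_one_iff`, `gaussV_lt_one_iff`). -/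
theorem CovHyp.sepOrb_core (H : CovHyp I (FS N) w p ζ h1 h10) [Fact p.Prime]
    {A : ValuationSubring Qb} (hI : I ≤ A.inertiaSubgroupIn ℚ)
    (ε : I₀ → adjF (FS N) h1 →+* Λ)
    (hε : ∀ (j : I₀) (τ : GQ) (hτ : τ ∈ I) (x : adjF (FS N) h1),
      galS τ (ε j x) = ε j ⟨galS τ x, H.gal_mem τ hτ x⟩)
    (V : I₀ → Valuation (fixS I (adjF (FS N) h1)) Γ₀)
    (hV : ∀ (j : I₀) (x : EF I N), V j (algebraMap (EF I N) (fixS I (adjF (FS N) h1)) x) = v₀ j x)
    (hle : ∀ (j : I₀) (x : fixS I (adjF (FS N) h1)), (∃ φ, HasRed A (ε j (toF1 x)) φ) → V j x ≤ 1)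
    (hlt : ∀ (j : I₀) (x : fixS I (adjF (FS N) h1)), HasRed A (ε j (toF1 x)) 0 → V j x < 1)
    {t : FL Qb N} (htfix : FixS (I : Set GQ) (t : Λ))
    (hB₀ : ∀ z : EF I N, IsInt Qb t (z : FL Qb N) → (∀ i, v₀ i z ≤ 1) → z ∈ B₀)
    (a : adjF (FS N) h1) (ha : IsInt Qb (t : Λ) (a : Λ))
    (har : ∀ (j : I₀) (m : ℕ), ∃ φ, HasRed A (ε j ((H.kum.deck ^ m) a)) φ)
    (i : I₀) (k l : ZMod p)
    (hl : HasRed A (ε i ((H.kum.deck ^ l.val) a)) 0)
    (hk : HasRed A (ε i ((H.kum.deck ^ k.val) a)) 1) :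
    ∃ b : fixS I (adjF (FS N) h1), IsIntegral B₀ b ∧ vtOf p H.δC V (i, l) b < 1 ∧
      vtOf p H.δC V (i, k) (b - 1) < 1 := by
  classical
  obtain ⟨s, has, hs, hfix⟩ := H.sepOrb_exists_orbit a
  set b₁ : adjF (FS N) h1 := ∏ x ∈ s, x with hb₁
  let b : fixS I (adjF (FS N) h1) := ⟨(b₁ : Λ), b₁.2, hfix⟩
  have htb : toF1 b = b₁ := rfl
  have hcard : s.card ≠ 0 := Finset.card_ne_zero_of_mem has
  -- the reductions of `b`
  have hred : ∀ (j : I₀) (m : ℕ) (φ : LaurentSeries (kA A)),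
      HasRed A (ε j ((H.kum.deck ^ m) a)) φ →
      HasRed A (ε j ((H.kum.deck ^ m) b₁)) (φ ^ s.card) := by
    intro j m φ hφ
    rw [hb₁, map_prod, map_prod]
    refine sepOrb_hasRed_prod s _ φ fun x hx => ?_
    obtain ⟨τ, hτ, rfl⟩ := hs x hx
    rw [H.sepOrb_deck_pow_gal hτ]
    have e1 : ε j (H.gal τ hτ ((H.kum.deck ^ m) a)) = galS τ (ε j ((H.kum.deck ^ m) a)) :=
      (hε j τ hτ _).symm
    rw [e1]
    exact Fermat.Agent.ORD.P2.hasRed_map_inertia (hI hτ) hφ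
  have hint : IsInt Qb (t : Λ) (b : Λ) := by
    have e : (b : Λ) = ∏ x ∈ s, (x : Λ) := by
      show ((∏ x ∈ s, x : adjF (FS N) h1) : Λ) = _
      exact map_prod (adjF (FS N) h1).subtype _ s
    rw [e]
    refine sepOrb_isInt_prod s _ _ fun x hx => ?_
    obtain ⟨τ, hτ, rfl⟩ := hs x hx
    have := hgc_isInt_gal τ ha
    rwa [htfix τ hτ] at this
  have hval : ∀ c, vtOf p H.δC V c b ≤ 1 := by
    rintro ⟨j, m⟩
    rw [vtOf_apply]
    obtain ⟨φ, hφ⟩ := har j m.val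
    refine hle j _ ⟨φ ^ s.card, ?_⟩
    rw [H.sepOrb_toF1_pow, htb]
    exact hred j m.val φ hφ
  refine ⟨b, ?_, ?_, ?_⟩
  · have hp : 0 < p := (Fact.out : p.Prime).pos
    exact mem_B1.1 (sepOrb_mem_B1 (v₀ := v₀) (vt := vtOf p H.δC V) hp H.δC_pow H.δC_fix
      (vtOf_ext p H.δC hV) (vtOf_shift H.δC_pow_p V) (fixS I (adjF (FS N) h1)).subtype (t : Λ)
      (fun x hx => H.isInt_δC t.2 x hx)
      (fun x₀ hx₀ hv => hB₀ x₀ (covEC_isInt_coe_iff.1 hx₀) hv) hint hval)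
  · rw [vtOf_apply]
    apply hlt
    rw [H.sepOrb_toF1_pow, htb]
    have := hred i l.val 0 hl
    rwa [zero_pow hcard] at this
  · rw [vtOf_apply]
    apply hlt
    rw [H.sepOrb_toF1_pow]
    have e : toF1 (b - 1) = b₁ - 1 := rfl
    rw [e, map_sub, map_sub, map_one, map_one]
    have := (hred i k.val 1 hk).add (hasRed_neg (HasRed.one (A := A)))
    rwa [one_pow, add_neg_cancel, ← sub_eq_add_neg] at this

/-- **[SEP-A], constant form.**  `y ∈ F1` integral over `ℚ̄[t]`, with a reduction on every branch, whose reduction on the branch `(i, m)` is the CONSTANT `κ m`.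
(`y = z_Q - th_i`, `z_Q = (G h₁ - 1) / λ`, `κ m = ± m`.) -/
theorem CovHyp.sepOrb_of_const (H : CovHyp I (FS N) w p ζ h1 h10) [Fact p.Prime]
    {A : ValuationSubring Qb} (hI : I ≤ A.inertiaSubgroupIn ℚ)
    (ε : I₀ → adjF (FS N) h1 →+* Λ)
    (hεC : ∀ (j : I₀) (c : Qb), ε j ⟨HahnSeries.C c, le_adjF _ _ (H.C_mem c)⟩ = HahnSeries.C c)
    (hε : ∀ (j : I₀) (τ : GQ) (hτ : τ ∈ I) (x : adjF (FS N) h1),
      galS τ (ε j x) = ε j ⟨galS τ x, H.gal_mem τ hτ x⟩)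
    (V : I₀ → Valuation (fixS I (adjF (FS N) h1)) Γ₀)
    (hV : ∀ (j : I₀) (x : EF I N), V j (algebraMap (EF I N) (fixS I (adjF (FS N) h1)) x) = v₀ j x)
    (hle : ∀ (j : I₀) (x : fixS I (adjF (FS N) h1)), (∃ φ, HasRed A (ε j (toF1 x)) φ) → V j x ≤ 1)
    (hlt : ∀ (j : I₀) (x : fixS I (adjF (FS N) h1)), HasRed A (ε j (toF1 x)) 0 → V j x < 1)
    {t : FL Qb N} (htfix : FixS (I : Set GQ) (t : Λ))
    (hB₀ : ∀ z : EF I N, IsInt Qb t (z : FL Qb N) → (∀ i, v₀ i z ≤ 1) → z ∈ B₀)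
    (y : adjF (FS N) h1) (hy : IsInt Qb (t : Λ) (y : Λ))
    (hyr : ∀ (j : I₀) (m : ℕ), ∃ φ, HasRed A (ε j ((H.kum.deck ^ m) y)) φ)
    (i : I₀) (κ : ℕ → kA A)
    (hκ : ∀ m : ℕ, HasRed A (ε i ((H.kum.deck ^ m) y)) (HahnSeries.C (κ m)))
    (k l : ZMod p) (hkl : κ k.val ≠ κ l.val) :
    ∃ b : fixS I (adjF (FS N) h1), IsIntegral B₀ b ∧ vtOf p H.δC V (i, l) b < 1 ∧
      vtOf p H.δC V (i, k) (b - 1) < 1 := by
  obtain ⟨d, hd⟩ := IsLocalRing.residue_surjective (R := A) (κ l.val)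
  obtain ⟨c, hc⟩ := IsLocalRing.residue_surjective (R := A) (κ k.val - κ l.val)⁻¹
  let cst : Qb → adjF (FS N) h1 := fun c => ⟨HahnSeries.C c, le_adjF _ _ (H.C_mem c)⟩
  have hdeckC : ∀ (m : ℕ) (c : Qb), (H.kum.deck ^ m) (cst c) = cst c := fun m c =>
    H.kum.deck_pow_F m ⟨_, H.C_mem c⟩
  have hform : ∀ (j : I₀) (m : ℕ), ε j ((H.kum.deck ^ m) (cst c * (y - cst d)))
      = HahnSeries.C (c : Qb) * (ε j ((H.kum.deck ^ m) y) - HahnSeries.C (d : Qb)) := by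
    intro j m
    rw [map_mul, map_sub, hdeckC, hdeckC, map_mul, map_sub]
    show ε j ⟨_, _⟩ * (_ - ε j ⟨_, _⟩) = _
    rw [hεC, hεC]
  have hredg : ∀ (j : I₀) (m : ℕ) (φ : LaurentSeries (kA A)), HasRed A (ε j ((H.kum.deck ^ m) y)) φ →
      HasRed A (ε j ((H.kum.deck ^ m) (cst c * (y - cst d))))
        (HahnSeries.C (κ k.val - κ l.val)⁻¹ * (φ - HahnSeries.C (κ l.val))) := by
    intro j m φ hφ
    rw [hform, ← hc, ← hd, sub_eq_add_neg, sub_eq_add_neg]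
    exact (hasRed_C A c).mul (hφ.add (hasRed_neg (hasRed_C A d)))
  refine H.sepOrb_core hI ε hε V hV hle hlt htfix hB₀ (cst c * (y - cst d)) ?_ ?_ i k l ?_ ?_
  · have hCint : ∀ c : Qb, IsInt Qb (t : Λ) (HahnSeries.C c : Λ) := by
      intro c
      rw [← hgc_algebraMap]
      exact IsInt.algebraMap c
    exact (hCint c).mul (hy.sub (hCint d))
  · intro j m
    obtain ⟨φ, hφ⟩ := hyr j m
    exact ⟨_, hredg j m φ hφ⟩
  · have := hredg i l.val _ (hκ l.val)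
    rwa [sub_self, mul_zero] at this
  · have := hredg i k.val _ (hκ k.val)
    rwa [← map_sub, ← map_mul, inv_mul_cancel₀ (sub_ne_zero.2 hkl), map_one] at this

end Orb

end Fermat.Agent.MR.C
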