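import Fermat.Agent.MR.C.TopZ
import Fermat.Agent.MR.C.J.SepJ
import Fermat.Agent.MR.C.F1H

/-!
# MR / C / FinalZ : `MR.CStatement`

`TopZ.cStatementZ_of_sep` + `J/SepJ.sepJ_sep` + `F1H.f1h_main`.
-/

set_option autoImplicit false
noncomputable section

namespace Fermat.Agent.MR.C

open ModularCurve AlgebraicCurve HahnSeries Fermat.Agent.GR Fermat.Agent.GAL Fermat.Agent.GAL.KLC
open Fermat.Agent.S24 Fermat.Agent.TOR.GB Fermat.Agent.ORD.P2 Fermat.Agent.ORD.P3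
open Fermat.Agent.CAR Fermat.Agent.CAR.BK Fermat.Agent.CAR.ON Fermat.Agent.MR.TH Fermat.Agent.MR.A

local notation "Λ" => LaurentSeries Qb

/-- **(SEP).** -/
theorem sepStatementZ : SepStatementZ := by
  intro M₁ p _ _ A ℓ _ e ζ u h1 P h10 hG H he
  have : Fact p.Prime := ⟨P.hp⟩
  have hpow0 : h10 ^ p = wS M₁ p ⟨h1 ^ p, P.kh.pow_mem⟩ := H.pow0
  obtain ⟨-, -, -, -, -, -, j, j0, hj, hj0⟩ := f1h_main P.hM P.hp P.hpM A P.hA P.hp2 P.hζ
    (⟨h1 ^ p, P.kh.pow_mem⟩ : FN (M₁ * p)) P.deep P.deep0 P.kh.2.choose_spec rfl hpow0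
  exact sepJ_sep A H P.hM P.hp2 P.hpM P.hA P.hζ he (fun _ => rfl) P.kh P.deep
    (by rw [hpow0]; exact P.deep0) hj hj0

/-- **the contract of block C.** -/
theorem cStatementZ : MR.CStatement := cStatementZ_of_sep sepStatementZ

end Fermat.Agent.MR.C
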