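import Fermat.Agent.ORD.P2.Lam
import Fermat.Agent.GR.GaussRed

/-!
# MR / C / HenselQ : `q`-adic Hensel for `x^p = 1 + λ^p f`, `f ∈ A[[q]]`

If `x ∈ L((q))`, `x^p = 1 + λ^p f` with `f ∈ A[[q]]` (`λ = ζ_p - 1`, `A ∣ p`), then `(x - 1)/λ ∈ A[[q]]`.
No completeness, no binomial series: induction on the coefficients.
-/

set_option autoImplicit false
set_option maxHeartbeats 400000
noncomputable section

namespace Fermat.Agent.MR.C

open ModularCurve HahnSeries Fermat.Agent.GR Fermat.Agent.ORD.P2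

variable {L : Type*} [Field L] {A : ValuationSubring L} {p : ℕ} {ζ : Lˣ}

/-- the coefficients `c_m = binom(p,m) λ^m / λ^p`. -/
def henselQ_cc (p : ℕ) (l : L) (m : ℕ) : L := (p.choose m : L) * l ^ m / l ^ p

theorem henselQ_expand {R : Type*} [CommRing R] [Algebra L R] {l : L} (hl : l ≠ 0) (p : ℕ) (t : R) :
    (1 + l • t) ^ p = 1 + l ^ p • ∑ m ∈ Finset.Ico 1 (p + 1), henselQ_cc p l m • t ^ m := by
  rw [add_comm 1 (l • t), add_pow, Finset.range_eq_Ico, Finset.sum_eq_sum_Ico_succ_bot (Nat.succ_pos p),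
    Finset.smul_sum]
  congr 1
  · simp
  · refine Finset.sum_congr rfl fun m _ => ?_
    rw [smul_smul, henselQ_cc, mul_div_cancel₀ _ (pow_ne_zero p hl), one_pow, mul_one, smul_pow,
      mul_comm ((p.choose m : L)), mul_smul, Nat.cast_smul_eq_nsmul, nsmul_eq_mul, smul_mul_assoc,
      mul_comm]

theorem henselQ_cc_self {l : L} (hl : l ≠ 0) (p : ℕ) : henselQ_cc p l p = 1 := by
  rw [henselQ_cc, Nat.choose_self, Nat.cast_one, one_mul, div_self (pow_ne_zero p hl)]

theorem henselQ_cc_mem (hp : p.Prime) (hp2 : p ≠ 2) (hA : A.LiesOverPrime p)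
    (hζ : IsPrimitiveRoot ζ p) {m : ℕ} (h1 : 1 ≤ m) (h2 : m ≤ p) : henselQ_cc p (lam ζ) m ∈ A := by
  have hl := lam_ne_zero hp hζ
  rcases h2.eq_or_lt with rfl | h2
  · rw [henselQ_cc_self hl]; exact A.one_mem
  obtain ⟨j, hj⟩ := hp.dvd_choose_self (by omega) h2
  obtain ⟨h3, -⟩ := cRed_p_div_lam hp hp2 hA hζ
  have hlA : lam ζ ∈ A := A.nonunits_subset (lam_mem_nonunits hp hA hζ.pow_eq_one)
  have e : henselQ_cc p (lam ζ) m = (j : L) * ((p : L) / lam ζ ^ (p - 1)) * lam ζ ^ (m - 1) := by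
    obtain ⟨m', rfl⟩ : ∃ m', m = m' + 1 := ⟨m - 1, by omega⟩
    obtain ⟨p', rfl⟩ : ∃ p', p = p' + 1 := ⟨p - 1, by omega⟩
    rw [henselQ_cc, hj]
    simp only [Nat.add_sub_cancel]
    push_cast
    field_simp
    ring
  rw [e]
  exact mul_mem (mul_mem (natCast_mem A j) h3) (pow_mem hlA _)

/-- the base case: `(1 + λ z)^p = 1 + λ^p f₀`, `f₀ ∈ A` ⟹ `z ∈ A`. -/
theorem henselQ_base (hp : p.Prime) (hp2 : p ≠ 2) (hA : A.LiesOverPrime p)
    (hζ : IsPrimitiveRoot ζ p) {z f₀ : L} (hf : f₀ ∈ A)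
    (h : (1 + lam ζ * z) ^ p = 1 + lam ζ ^ p * f₀) : z ∈ A := by
  have hl := lam_ne_zero hp hζ
  have h1 := henselQ_expand (R := L) hl p z
  simp only [smul_eq_mul] at h1
  rw [h, add_right_inj, mul_right_inj' (pow_ne_zero p hl), Finset.sum_Ico_succ_top hp.one_le,
    henselQ_cc_self hl, one_mul] at h1
  by_contra hz
  rw [← A.valuation_le_one_iff, not_le] at hz
  have h2 : z ^ p = f₀ - ∑ m ∈ Finset.Ico 1 p, henselQ_cc p (lam ζ) m * z ^ m := by
    rw [h1]; ring
  have h3 : A.valuation (z ^ p) ≤ A.valuation z ^ (p - 1) := by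
    rw [h2]
    refine (Valuation.map_sub _ _ _).trans (max_le ?_ ?_)
    · exact ((A.valuation_le_one_iff _).2 hf).trans (one_le_pow₀ hz.le)
    · refine Valuation.map_sum_le _ fun m hm => ?_
      rw [Finset.mem_Ico] at hm
      rw [map_mul, map_pow]
      refine (mul_le_of_le_one_left' ((A.valuation_le_one_iff _).2
        (henselQ_cc_mem hp hp2 hA hζ hm.1 hm.2.le))).trans ?_
      exact pow_le_pow_right₀ hz.le (by omega)
  rw [map_pow] at h3
  have h4 : A.valuation z ^ (p - 1) < A.valuation z ^ p :=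
    pow_lt_pow_right₀ hz (by have := hp.one_le; omega)
  exact absurd h3 (not_le.2 h4)

/-- power series with coefficients in `A`. -/
def henselQ_SA (A : ValuationSubring L) : Subring (PowerSeries L) where
  carrier := {g | ∀ n, PowerSeries.coeff n g ∈ A}
  mul_mem' := fun {a b} ha hb n => by
    rw [PowerSeries.coeff_mul]
    exact sum_mem fun i _ => mul_mem (ha _) (hb _)
  one_mem' := fun n => by
    rw [PowerSeries.coeff_one]
    split_ifs
    · exact A.one_mem
    · exact A.zero_mem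
  add_mem' := fun {a b} ha hb n => by
    rw [map_add]; exact add_mem (ha n) (hb n)
  zero_mem' := fun n => by rw [map_zero]; exact A.zero_mem
  neg_mem' := fun {a} ha n => by rw [map_neg]; exact neg_mem (ha n)

theorem henselQ_smul_mem {c : L} (hc : c ∈ A) {g : PowerSeries L} (hg : g ∈ henselQ_SA A) :
    c • g ∈ henselQ_SA A := fun n => by
  rw [PowerSeries.coeff_smul, smul_eq_mul]; exact mul_mem hc (hg n)

theorem henselQ_coeff_mul_of_low {g y : PowerSeries L} {n : ℕ}
    (hy : ∀ m < n, PowerSeries.coeff m y = 0) :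
    PowerSeries.coeff n (g * y) = PowerSeries.coeff 0 g * PowerSeries.coeff n y := by
  rw [PowerSeries.coeff_mul]
  refine Finset.sum_eq_single (0, n) ?_ ?_
  · rintro ⟨i, j⟩ hij hne
    rw [Finset.HasAntidiagonal.mem_antidiagonal] at hij
    simp only at hij
    have : j < n := by
      rcases Nat.eq_zero_or_pos i with rfl | hi
      · exact absurd (by simpa using hij) (fun h : j = n => hne (by rw [h]))
      · omega
    simp only
    rw [hy j this, mul_zero]
  · intro h
    exact absurd (Finset.HasAntidiagonal.mem_antidiagonal.2 (zero_add n)) h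

/-- **`q`-adic Hensel, power series form.** -/
theorem henselQ_ps (hp : p.Prime) (hp2 : p ≠ 2) (hA : A.LiesOverPrime p)
    (hζ : IsPrimitiveRoot ζ p) {Z F : PowerSeries L} (hF : F ∈ henselQ_SA A)
    (h : (1 + lam ζ • Z) ^ p = 1 + lam ζ ^ p • F) : Z ∈ henselQ_SA A := by
  have hl := lam_ne_zero hp hζ
  have hlA : lam ζ ∈ A.nonunits := lam_mem_nonunits hp hA hζ.pow_eq_one
  -- the constant coefficient
  have h0 : PowerSeries.coeff 0 Z ∈ A := by
    refine henselQ_base hp hp2 hA hζ (hF 0) ?_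
    have := congrArg (PowerSeries.constantCoeff (R := L)) h
    simpa [PowerSeries.coeff_zero_eq_constantCoeff] using this
  intro n
  induction n using Nat.strong_induction_on with
  | _ n ih =>
    rcases Nat.eq_zero_or_pos n with rfl | hn
    · exact h0
    set a : PowerSeries L := ((PowerSeries.trunc n Z : Polynomial L) : PowerSeries L) with ha
    have hca : ∀ m, PowerSeries.coeff m a = if m < n then PowerSeries.coeff m Z else 0 := by
      intro m
      rw [ha, Polynomial.coeff_coe, PowerSeries.coeff_trunc]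
    have haS : a ∈ henselQ_SA A := by
      intro m
      rw [hca]
      split_ifs with hm
      · exact ih m hm
      · exact A.zero_mem
    set y : PowerSeries L := Z - a with hy
    have hylow : ∀ m < n, PowerSeries.coeff m y = 0 := by
      intro m hm
      rw [hy, map_sub, hca, if_pos hm, sub_self]
    have hyn : PowerSeries.coeff n y = PowerSeries.coeff n Z := by
      rw [hy, map_sub, hca, if_neg (lt_irrefl n), sub_zero]
    -- binomial expansion
    obtain ⟨k, hk⟩ := Polynomial.binomExpansion (Polynomial.X ^ p : Polynomial (PowerSeries L))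
      (1 + lam ζ • a) (lam ζ • y)
    have e1 : 1 + lam ζ • a + lam ζ • y = 1 + lam ζ • Z := by
      rw [hy, smul_sub]; ring
    simp only [Polynomial.eval_pow, Polynomial.eval_X, Polynomial.derivative_X_pow,
      Polynomial.eval_mul, Polynomial.eval_C] at hk
    rw [e1, h, henselQ_expand hl p a] at hk
    set b : PowerSeries L := ∑ m ∈ Finset.Ico 1 (p + 1), henselQ_cc p (lam ζ) m • a ^ m with hb
    have hbS : b ∈ henselQ_SA A := by
      refine sum_mem fun m hm => ?_
      rw [Finset.mem_Ico] at hm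
      exact henselQ_smul_mem (henselQ_cc_mem hp hp2 hA hζ hm.1 (by omega)) (pow_mem haS m)
    have hk' := congrArg (PowerSeries.coeff n) hk
    have hsq : PowerSeries.coeff n (k * (lam ζ • y) ^ 2) = 0 := by
      have hd : (PowerSeries.X : PowerSeries L) ^ n ∣ y := PowerSeries.X_pow_dvd_iff.2 hylow
      have hd2 : (PowerSeries.X : PowerSeries L) ^ (n + 1) ∣ k * (lam ζ • y) ^ 2 := by
        refine Dvd.dvd.mul_left ?_ k
        refine (pow_dvd_pow _ (by omega : n + 1 ≤ n * 2)).trans ?_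
        rw [pow_mul]
        refine pow_dvd_pow_of_dvd ?_ 2
        exact hd.trans (Dvd.intro_left (PowerSeries.C (lam ζ)) (by
          rw [PowerSeries.smul_eq_C_mul]))
      exact PowerSeries.X_pow_dvd_iff.1 hd2 n (Nat.lt_succ_self n)
    have hlow' : ∀ m < n, PowerSeries.coeff m (lam ζ • y) = 0 := by
      intro m hm
      rw [PowerSeries.coeff_smul, hylow m hm, smul_zero]
    rw [map_add, map_add, map_add, map_add, hsq, add_zero, henselQ_coeff_mul_of_low hlow',
      add_assoc, add_right_inj, PowerSeries.coeff_smul, PowerSeries.coeff_smul,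
      PowerSeries.coeff_smul, hyn] at hk'
    -- the unit
    set w₀ : L := 1 + lam ζ * PowerSeries.coeff 0 Z with hw₀
    have hc0 : PowerSeries.coeff 0 ((p : PowerSeries L) * (1 + lam ζ • a) ^ (p - 1))
        = (p : L) * w₀ ^ (p - 1) := by
      have h00 : PowerSeries.coeff 0 a = PowerSeries.coeff 0 Z := by rw [hca, if_pos hn]
      have h01 : PowerSeries.coeff 0 (1 + lam ζ • a) = w₀ := by
        rw [map_add, PowerSeries.coeff_smul, h00, smul_eq_mul, PowerSeries.coeff_zero_one]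
      rw [PowerSeries.coeff_zero_eq_constantCoeff_apply] at h01 ⊢
      rw [map_mul, map_pow, h01, map_natCast]
    rw [hc0] at hk'
    simp only [smul_eq_mul] at hk'
    have hv : A.valuation w₀ = 1 := by
      rw [hw₀]
      have hlt : A.valuation (lam ζ * PowerSeries.coeff 0 Z) < 1 := by
        rw [map_mul]
        exact mul_lt_one_of_lt_of_le (A.mem_nonunits_iff.1 hlA)
          ((A.valuation_le_one_iff _).2 h0)
      exact A.valuation.map_one_add_of_lt hlt
    have hw0 : w₀ ≠ 0 := by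
      intro h'
      rw [h', map_zero] at hv
      exact zero_ne_one hv
    have hwi : w₀⁻¹ ∈ A := by
      rw [← A.valuation_le_one_iff, map_inv₀, hv, inv_one]
    obtain ⟨h3, -⟩ := cRed_lam_div_p hp hp2 hA hζ
    have hp0 : (p : L) ≠ 0 := natCast_ne_zero_of_isPrimitiveRoot hp hζ
    have e2 : PowerSeries.coeff n Z = (PowerSeries.coeff n F - PowerSeries.coeff n b)
        * (lam ζ ^ (p - 1) / (p : L)) * w₀⁻¹ ^ (p - 1) := by
      obtain ⟨p', rfl⟩ : ∃ p', p = p' + 1 := ⟨p - 1, by have := hp.one_le; omega⟩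
      simp only [Nat.add_sub_cancel] at hk' ⊢
      clear_value w₀
      have e3 : ((p' + 1 : ℕ) : L) * w₀ ^ p' * PowerSeries.coeff n Z
          = lam ζ ^ p' * (PowerSeries.coeff n F - PowerSeries.coeff n b) := by
        apply mul_left_cancel₀ hl
        rw [pow_succ] at hk'
        linear_combination (-1 : L) * hk'
      rw [inv_pow]
      field_simp
      linear_combination e3
    rw [e2]
    exact mul_mem (mul_mem (sub_mem (hF n) (hbS n)) h3) (pow_mem hwi _)

/-- a Laurent series without negative terms is a power series. -/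
theorem henselQ_exists_ps {x : LaurentSeries L} (h : ∀ n < 0, x.coeff n = 0) :
    ∃ X : PowerSeries L, (X : LaurentSeries L) = x ∧ ∀ n : ℕ, PowerSeries.coeff n X = x.coeff n := by
  refine ⟨PowerSeries.mk fun n => x.coeff n, ?_, fun n => PowerSeries.coeff_mk _ _⟩
  ext n
  rw [PowerSeries.coeff_coe]
  split_ifs with hn
  · exact (h n hn).symm
  · rw [PowerSeries.coeff_mk, Int.natAbs_of_nonneg (not_lt.1 hn)]

/-- **`q`-adic Hensel.**  `x^p = 1 + λ^p f`, `f ∈ A[[q]]` ⟹ `(x - 1)/λ ∈ A[[q]]`. -/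
theorem henselQ (hp : p.Prime) (hp2 : p ≠ 2) (hA : A.LiesOverPrime p)
    (hζ : IsPrimitiveRoot ζ p) {x f : LaurentSeries L} (hf : ∀ n, f.coeff n ∈ A)
    (hf0 : ∀ n < 0, f.coeff n = 0) (hx : x ^ p = 1 + C (lam ζ ^ p) * f) :
    (∀ n, ((x - 1) / C (lam ζ)).coeff n ∈ A) ∧ ∀ n < 0, ((x - 1) / C (lam ζ)).coeff n = 0 := by
  have hl := lam_ne_zero hp hζ
  have hlA : lam ζ ∈ A.nonunits := lam_mem_nonunits hp hA hζ.pow_eq_one
  -- `x` has no negative terms
  have hg : ∀ n < 0, (x ^ p).coeff n = 0 := by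
    intro n hn
    rw [hx, HahnSeries.coeff_add, HahnSeries.C_mul_eq_smul, HahnSeries.coeff_smul, hf0 n hn,
      smul_zero, add_zero, HahnSeries.coeff_one, if_neg hn.ne]
  have hx0 : x ≠ 0 := by
    intro h0
    have h1 : (x ^ p).coeff 0 = 1 + lam ζ ^ p * f.coeff 0 := by
      rw [hx, HahnSeries.coeff_add, HahnSeries.C_mul_eq_smul, HahnSeries.coeff_smul,
        HahnSeries.coeff_one, if_pos rfl, smul_eq_mul]
    rw [h0, zero_pow hp.ne_zero, HahnSeries.coeff_zero] at h1
    have h2 : A.valuation (1 + lam ζ ^ p * f.coeff 0) = 1 := by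
      have hlt : A.valuation (lam ζ ^ p * f.coeff 0) < 1 := by
        rw [map_mul, map_pow]
        exact mul_lt_one_of_lt_of_le
          (pow_lt_one₀ zero_le (A.mem_nonunits_iff.1 hlA) hp.ne_zero)
          ((A.valuation_le_one_iff _).2 (hf 0))
      exact A.valuation.map_one_add_of_lt hlt
    rw [← h1, map_zero] at h2
    exact zero_ne_one h2
  have hord : 0 ≤ x.order := by
    by_contra hneg
    rw [not_le] at hneg
    have h1 := HahnSeries.coeff_order_eq_zero.not.2 (pow_ne_zero p hx0)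
    rw [HahnSeries.order_pow] at h1
    refine h1 (hg _ ?_)
    rw [nsmul_eq_mul]
    exact mul_neg_of_pos_of_neg (by exact_mod_cast hp.pos) hneg
  have hxlow : ∀ n < 0, x.coeff n = 0 := fun n hn =>
    HahnSeries.coeff_eq_zero_of_lt_order (lt_of_lt_of_le hn hord)
  set z : LaurentSeries L := (x - 1) / C (lam ζ) with hz
  have hC : (C (lam ζ) : LaurentSeries L) ≠ 0 := HahnSeries.C_ne_zero hl
  have hzc : ∀ n, z.coeff n = (lam ζ)⁻¹ * (x - 1).coeff n := by
    intro n
    have : z = C (lam ζ)⁻¹ * (x - 1) := by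
      rw [hz, div_eq_mul_inv, mul_comm, map_inv₀]
    rw [this, HahnSeries.C_mul_eq_smul, HahnSeries.coeff_smul, smul_eq_mul]
  have hzlow : ∀ n < 0, z.coeff n = 0 := by
    intro n hn
    rw [hzc, HahnSeries.coeff_sub, hxlow n hn, HahnSeries.coeff_one, if_neg hn.ne, sub_zero,
      mul_zero]
  obtain ⟨Z, hZ, hZc⟩ := henselQ_exists_ps hzlow
  obtain ⟨F, hF, hFc⟩ := henselQ_exists_ps hf0
  have hxz : x = 1 + C (lam ζ) * z := by
    rw [hz, mul_div_cancel₀ _ hC]; ring
  have hps : (1 + lam ζ • Z) ^ p = 1 + lam ζ ^ p • F := by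
    apply HahnSeries.ofPowerSeries_injective (Γ := ℤ)
    have e1 : HahnSeries.ofPowerSeries ℤ L Z = z := hZ
    have e2 : HahnSeries.ofPowerSeries ℤ L F = f := hF
    rw [PowerSeries.smul_eq_C_mul, PowerSeries.smul_eq_C_mul, map_pow, map_add, map_add, map_mul,
      map_mul, map_one, HahnSeries.ofPowerSeries_C, HahnSeries.ofPowerSeries_C, e1, e2, ← hxz, hx]
  have hZA := henselQ_ps hp hp2 hA hζ (F := F) (fun n => by rw [hFc]; exact hf n) hps
  refine ⟨fun n => ?_, hzlow⟩
  rcases lt_or_ge n 0 with hn | hn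
  · rw [hzlow n hn]; exact A.zero_mem
  · obtain ⟨m, rfl⟩ := Int.eq_ofNat_of_zero_le hn
    rw [← hZc]
    exact hZA m

/-- corollary: `x = 1 + λ Z` with `Z ∈ A((q))`; hence `HasRed A x 1`, `Dp A λ x (red Z)`. -/
theorem henselQ_exists (hp : p.Prime) (hp2 : p ≠ 2) (hA : A.LiesOverPrime p)
    (hζ : IsPrimitiveRoot ζ p) {x f : LaurentSeries L} (hf : ∀ n, f.coeff n ∈ A)
    (hf0 : ∀ n < 0, f.coeff n = 0) (hx : x ^ p = 1 + C (lam ζ ^ p) * f) :
    ∃ Z : LaurentSeries A, x = 1 + C (lam ζ) * coeffMap A.subtype Z ∧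
      (∀ n < 0, Z.coeff n = 0) ∧ Dp A (lam ζ) x (coeffMap (IsLocalRing.residue A) Z) := by
  obtain ⟨h1, h2⟩ := henselQ hp hp2 hA hζ hf hf0 hx
  obtain ⟨Z, hZ⟩ := exists_int_of_coeff_mem A _ h1
  have hC : (C (lam ζ) : LaurentSeries L) ≠ 0 := HahnSeries.C_ne_zero (lam_ne_zero hp hζ)
  refine ⟨Z, ?_, fun n hn => ?_, ?_⟩
  · rw [hZ, mul_div_cancel₀ _ hC]; ring
  · apply Subtype.ext
    have := h2 n hn
    rw [← hZ, coeffMap_coeff] at this
    exact this
  · rw [Dp, ← hZ]
    exact HasRed.of_int Z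

end Fermat.Agent.MR.C
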