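import Fermat.Agent.MR.E.Defs
import Fermat.Agent.DSC.UnifLam
import Fermat.Agent.S55.P.ValueGroup
import Fermat.Agent.S55.P.Roots

/-!
# MR (S40/S44), block (c), package C1 : the Kummer input

`A` a valuation subring of `Qb` over the odd prime `p`, `H = HH A p = I ∩ Fix(μ_p)`, so that
`L₁ = Qb ^ H = "ℚ_p^ur(ζ_p)"`.

* `isClosed_HH` : `H` is closed for the Krull topology.
* `kummer_finite` : finite Kummer theory, in the elementary form
  "`σ ∈ H` fixing `y₁, …, y_r` fixes `ϖ`  ⟹  `ϖ / ∏ y_i ^ a_i` is fixed by `H`".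
* `exists_fixU_moves` : there is `σ ∈ H` fixing all `p`-th roots of units of `L₁` and moving
  `p ^ (1/p)`.
* `exists_isUnitAt_of_fixU` : if `η ^ p = c` is fixed by `I` and `η` is fixed by all such `σ`, then
  `c = p ^ (p m) * unit`.
-/

set_option autoImplicit false

namespace Fermat.Agent.MR.C

open Fermat.Agent.MR.E Fermat.Agent.S55.P
open scoped Pointwise

local notation "Qb" => AlgebraicClosure ℚ
local notation "GQ" => (AlgebraicClosure ℚ ≃ₐ[ℚ] AlgebraicClosure ℚ)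

/-! ### closedness for the Krull topology -/

theorem isOpen_eval (x : Qb) (S : Set Qb) : IsOpen {σ : GQ | σ x ∈ S} := by
  have halg : Algebra.IsAlgebraic ℚ Qb := AlgebraicClosure.isAlgebraic ℚ
  have hint : Algebra.IsIntegral ℚ Qb := Algebra.IsAlgebraic.isIntegral
  rw [isOpen_iff_forall_mem_open]
  intro σ0 hσ0
  refine ⟨σ0 • (MulAction.stabilizer GQ x : Set GQ), ?_,
    (stabilizer_isOpen_of_isIntegral (K := ℚ) x).leftCoset σ0, ?_⟩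
  · rintro _ ⟨τ, hτ, rfl⟩
    have h1 : τ x = x := hτ
    show (σ0 * τ) x ∈ S
    rw [AlgEquiv.mul_apply, h1]
    exact hσ0
  · exact ⟨1, one_mem _, mul_one _⟩

theorem isClosed_eval (x : Qb) (S : Set Qb) : IsClosed {σ : GQ | σ x ∈ S} := by
  rw [← isOpen_compl_iff]
  exact isOpen_eval x Sᶜ

theorem isClosed_inertia (A : ValuationSubring Qb) :
    IsClosed (A.inertiaSubgroupIn ℚ : Set GQ) := by
  have h : (A.inertiaSubgroupIn ℚ : Set GQ) =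
      (⋂ x : Qb, {σ : GQ | σ x ∈ {y : Qb | y ∈ A ↔ x ∈ A}}) ∩
        ⋂ x : Qb, {σ : GQ | σ x ∈ {y : Qb | x ∈ A → y - x ∈ A.nonunits}} := by
    ext σ
    simp only [SetLike.mem_coe, mem_inertiaSubgroupIn_iff, mem_decompositionSubgroup_iff,
      Set.mem_inter_iff, Set.mem_iInter, Set.mem_ofPred_eq]
  rw [h]
  exact (isClosed_iInter fun x => isClosed_eval x _).inter
    (isClosed_iInter fun x => isClosed_eval x _)

theorem isClosed_fixMu (p : ℕ) : IsClosed (fixMu p : Set GQ) := by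
  have h : (fixMu p : Set GQ) = ⋂ x : Qb, {σ : GQ | σ x ∈ {y : Qb | x ^ p = 1 → y = x}} := by
    ext σ
    simp only [Set.mem_iInter, Set.mem_ofPred_eq]
    rfl
  rw [h]
  exact isClosed_iInter fun x => isClosed_eval x _

theorem isClosed_HH (A : ValuationSubring Qb) (p : ℕ) : IsClosed (HH A p : Set GQ) := by
  have h : (HH A p : Set GQ) = (A.inertiaSubgroupIn ℚ : Set GQ) ∩ (fixMu p : Set GQ) := rfl
  rw [h]
  exact (isClosed_inertia A).inter (isClosed_fixMu p)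

/-- an automorphism fixing the fixed field of `HH A p` lies in `HH A p`. -/
theorem mem_HH_of_fixes (A : ValuationSubring Qb) (p : ℕ) {σ : GQ}
    (h : ∀ x : Qb, (∀ τ ∈ HH A p, τ x = x) → σ x = x) : σ ∈ HH A p := by
  have hgal : IsGalois ℚ Qb := Fermat.Agent.Lib.FrobeniusExists.isGalois_algebraicClosure_rat
  have h1 := InfiniteGalois.fixingSubgroup_fixedField
    (⟨HH A p, isClosed_HH A p⟩ : ClosedSubgroup GQ)
  have h2 : σ ∈ (IntermediateField.fixedField (HH A p)).fixingSubgroup := by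
    rw [IntermediateField.mem_fixingSubgroup_iff]
    intro x hx
    exact h x ((IntermediateField.mem_fixedField_iff _ _).mp hx)
  rw [h1] at h2
  exact h2

/-! ### finite Kummer theory -/

theorem pow_apply_of_fixed {σ : GQ} {x : Qb} (h : σ x = x) (k : ℕ) : (σ ^ k) x = x := by
  induction k with
  | zero => rfl
  | succ k ih => rw [pow_succ, AlgEquiv.mul_apply, h, ih]

theorem pow_apply_of_mul {σ : GQ} {x ζ : Qb} (hζ : σ ζ = ζ) (h : σ x = ζ * x) (k : ℕ) :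
    (σ ^ k) x = ζ ^ k * x := by
  induction k with
  | zero => simp
  | succ k ih =>
    rw [pow_succ, AlgEquiv.mul_apply, h, map_mul, ih, pow_apply_of_fixed hζ, pow_succ]
    ring

/-- one step of Kummer theory. -/
theorem kummer_step {p : ℕ} (hp : p.Prime) (H : Subgroup GQ)
    (hμ : ∀ τ ∈ H, ∀ ζ : Qb, ζ ^ p = 1 → τ ζ = ζ) (P : GQ → Prop)
    (hP1 : ∀ σ τ : GQ, P σ → P τ → P (σ⁻¹ * τ)) (hPpow : ∀ σ : GQ, P σ → ∀ k : ℕ, P (σ ^ k))
    {y0 ϖ : Qb} (hy0 : y0 ≠ 0) (hy0p : ∀ τ ∈ H, τ (y0 ^ p) = y0 ^ p)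
    (hϖ0 : ϖ ≠ 0) (hϖp : ∀ τ ∈ H, τ (ϖ ^ p) = ϖ ^ p)
    (hfix : ∀ σ ∈ H, P σ → σ y0 = y0 → σ ϖ = ϖ) :
    ∃ a0 : ℕ, ∀ σ ∈ H, P σ → σ (ϖ / y0 ^ a0) = ϖ / y0 ^ a0 := by
  have : NeZero p := ⟨hp.ne_zero⟩
  by_cases hcase : ∀ σ ∈ H, P σ → σ y0 = y0
  · refine ⟨0, fun σ hσ hPσ => ?_⟩
    rw [pow_zero, div_one]
    exact hfix σ hσ hPσ (hcase σ hσ hPσ)
  · push Not at hcase
    obtain ⟨σ0, hσ0, hPσ0, hne⟩ := hcase
    have hroot : ∀ σ ∈ H, ∀ y : Qb, y ≠ 0 → (∀ τ ∈ H, τ (y ^ p) = y ^ p) → (σ y / y) ^ p = 1 := by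
      intro σ hσ y hy hyp
      rw [div_pow, ← map_pow, hyp σ hσ, div_self (pow_ne_zero _ hy)]
    set ζ : Qb := σ0 y0 / y0 with hζdef
    have hζp : ζ ^ p = 1 := hroot σ0 hσ0 y0 hy0 hy0p
    have hζ1 : ζ ≠ 1 := by
      intro h
      rw [hζdef, div_eq_one_iff_eq hy0] at h
      exact hne h
    have hprim : IsPrimitiveRoot ζ p := by
      have h := orderOf_eq_prime hζp hζ1 (hp := ⟨hp⟩)
      rw [← h]
      exact IsPrimitiveRoot.orderOf ζ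
    have hσ0y : σ0 y0 = ζ * y0 := by rw [hζdef, div_mul_cancel₀ _ hy0]
    have hσ0ζ : σ0 ζ = ζ := hμ σ0 hσ0 ζ hζp
    obtain ⟨a0, -, ha0⟩ := hprim.eq_pow_of_pow_eq_one (hroot σ0 hσ0 ϖ hϖ0 hϖp)
    have hσ0ϖ : σ0 ϖ = ζ ^ a0 * ϖ := by rw [ha0, div_mul_cancel₀ _ hϖ0]
    have hζ0 : ζ ≠ 0 := hprim.ne_zero hp.ne_zero
    have hfix0 : σ0 (ϖ / y0 ^ a0) = ϖ / y0 ^ a0 := by
      rw [map_div₀, map_pow, hσ0ϖ, hσ0y, mul_pow,
        mul_div_mul_left _ _ (pow_ne_zero _ hζ0)]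
    refine ⟨a0, fun σ hσ hPσ => ?_⟩
    obtain ⟨k, -, hk⟩ := hprim.eq_pow_of_pow_eq_one (hroot σ hσ y0 hy0 hy0p)
    have hσy : σ y0 = (σ0 ^ k) y0 := by
      rw [pow_apply_of_mul hσ0ζ hσ0y, hk, div_mul_cancel₀ _ hy0]
    have hτ : ((σ0 ^ k)⁻¹ * σ) ϖ = ϖ := by
      refine hfix _ (H.mul_mem (H.inv_mem (H.pow_mem hσ0 k)) hσ)
        (hP1 _ _ (hPpow σ0 hPσ0 k) hPσ) ?_
      rw [AlgEquiv.mul_apply, hσy]
      exact (σ0 ^ k).symm_apply_apply y0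
    have hσϖ : σ ϖ = (σ0 ^ k) ϖ := by
      rw [AlgEquiv.mul_apply] at hτ
      have h2 : (σ0 ^ k) ((σ0 ^ k)⁻¹ (σ ϖ)) = σ ϖ := (σ0 ^ k).apply_symm_apply _
      rw [← h2, hτ]
    rw [map_div₀, map_pow, hσϖ, hσy, ← map_pow, ← map_div₀]
    exact pow_apply_of_fixed hfix0 k

/-- **finite Kummer theory**: if every `σ ∈ H` fixing `y ∈ T` fixes `ϖ`, then `ϖ` is a monomial in
the `y ∈ T` times an `H`-fixed element. -/
theorem kummer_finite {p : ℕ} (hp : p.Prime) (H : Subgroup GQ)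
    (hμ : ∀ τ ∈ H, ∀ ζ : Qb, ζ ^ p = 1 → τ ζ = ζ) (T : Finset Qb) :
    (∀ y ∈ T, y ≠ 0 ∧ ∀ τ ∈ H, τ (y ^ p) = y ^ p) →
    ∀ ϖ : Qb, ϖ ≠ 0 → (∀ τ ∈ H, τ (ϖ ^ p) = ϖ ^ p) →
      (∀ σ ∈ H, (∀ y ∈ T, σ y = y) → σ ϖ = ϖ) →
      ∃ a : Qb → ℕ, ∀ σ ∈ H, σ (ϖ / ∏ y ∈ T, y ^ a y) = ϖ / ∏ y ∈ T, y ^ a y := by
  classical
  induction T using Finset.induction_on with
  | empty =>
    intro _ ϖ _ _ hfix
    refine ⟨fun _ => 0, fun σ hσ => ?_⟩
    rw [Finset.prod_empty, div_one]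
    exact hfix σ hσ (fun y hy => absurd hy (Finset.notMem_empty y))
  | insert y0 T hy0T ih =>
    intro hT ϖ hϖ0 hϖp hfix
    obtain ⟨hy0, hy0p⟩ := hT y0 (Finset.mem_insert_self _ _)
    obtain ⟨a0, ha0⟩ := kummer_step hp H hμ (fun σ => ∀ y ∈ T, σ y = y)
      (fun σ τ hσ hτ y hy => by
        rw [AlgEquiv.mul_apply, hτ y hy]
        show σ.symm y = y
        rw [AlgEquiv.symm_apply_eq, hσ y hy])
      (fun σ hσ k y hy => pow_apply_of_fixed (hσ y hy) k)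
      hy0 hy0p hϖ0 hϖp
      (fun σ hσ hPσ hσy0 => hfix σ hσ (fun y hy => by
        rcases Finset.mem_insert.mp hy with rfl | hy
        · exact hσy0
        · exact hPσ y hy))
    obtain ⟨a, ha⟩ := ih (fun y hy => hT y (Finset.mem_insert_of_mem hy)) (ϖ / y0 ^ a0)
      (div_ne_zero hϖ0 (pow_ne_zero _ hy0))
      (fun τ hτ => by
        rw [div_pow, map_div₀, hϖp τ hτ, ← pow_mul, mul_comm a0 p, pow_mul, map_pow, hy0p τ hτ])
      ha0
    refine ⟨Function.update a y0 a0, ?_⟩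
    have hprod : ∏ y ∈ insert y0 T, y ^ Function.update a y0 a0 y = y0 ^ a0 * ∏ y ∈ T, y ^ a y := by
      rw [Finset.prod_insert hy0T, Function.update_self]
      congr 1
      refine Finset.prod_congr rfl fun y hy => ?_
      have hne : y ≠ y0 := fun h => hy0T (h ▸ hy)
      rw [Function.update_of_ne hne]
    rw [hprod, ← div_div]
    exact ha

/-! ### the main results -/

theorem exists_primRoot (p : ℕ) [NeZero p] : ∃ ζ : (Qb)ˣ, IsPrimitiveRoot ζ p := by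
  have : NeZero ((p : ℕ) : Qb) := ⟨by exact_mod_cast NeZero.ne p⟩
  obtain ⟨ζ, hζ⟩ := HasEnoughRootsOfUnity.exists_primitiveRoot Qb p
  exact ⟨hζ.isUnit (NeZero.ne p) |>.unit, IsPrimitiveRoot.coe_units_iff.mp (by simpa using hζ)⟩

theorem HH_eq_H1 (A : ValuationSubring Qb) {p : ℕ} [NeZero p] {ζ : (Qb)ˣ}
    (hζ : IsPrimitiveRoot ζ p) : HH A p = DSC.H1 A ζ := by
  have hz : IsPrimitiveRoot (ζ : Qb) p := IsPrimitiveRoot.coe_units_iff.2 hζ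
  ext σ
  rw [mem_HH, DSC.mem_H1]
  refine and_congr_right fun _ => ⟨fun h => h _ hz.pow_eq_one, fun h ξ hξ => ?_⟩
  obtain ⟨i, -, rfl⟩ := hz.eq_pow_of_pow_eq_one hξ
  rw [map_pow, h]

theorem valuation_eq_one_of_mem {A : ValuationSubring Qb} {y : Qb} (h1 : y ∈ A) (h2 : y⁻¹ ∈ A)
    (h0 : y ≠ 0) : A.valuation y = 1 :=
  roots_valuation_eq_one ⟨h1, h2, h0⟩

/-- no element of `L₁ = Qb ^ HH` has the valuation of `p ^ (1/p)`. -/
theorem valuation_pow_ne {p : ℕ} (hp : p.Prime) (hp2 : p ≠ 2) (A : ValuationSubring Qb)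
    (hA : A.LiesOverPrime p) {c : Qb} (hc : ∀ τ ∈ HH A p, τ c = c) :
    A.valuation c ^ p ≠ A.valuation (p : Qb) := by
  have : NeZero p := ⟨hp.ne_zero⟩
  intro hv
  obtain ⟨ζ, hζ⟩ := exists_primRoot p
  have hun := DSC.isUnif_lam A hp hp2 hA hζ
  have hp0 : A.valuation (p : Qb) ≠ 0 :=
    (Valuation.ne_zero_iff _).mpr (by exact_mod_cast hp.ne_zero)
  have hc0 : c ≠ 0 := by
    rintro rfl
    rw [map_zero, zero_pow hp.ne_zero] at hv
    exact hp0 hv.symm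
  obtain ⟨j, hj⟩ := hun.gen c (DSC.mem_EH.mpr (by rw [← HH_eq_H1 A hζ]; exact hc)) hc0
  have hl1 : A.valuation (ORD.P2.lam ζ) < 1 := (ValuationSubring.mem_nonunits_iff A).mp hun.mem
  have hl0 : A.valuation (ORD.P2.lam ζ) ≠ 0 := (Valuation.ne_zero_iff _).mpr hun.ne_zero
  rw [hj, ← DSC.valuation_lam_pow A hp hp2 hA hζ, ← zpow_natCast, ← zpow_natCast, ← zpow_mul] at hv
  have h3 : j * (p : ℤ) = ((p - 1 : ℕ) : ℤ) :=
    zpow_right_injective₀ (zero_lt_iff.mpr hl0) hl1.ne hv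
  have h4 : (p : ℤ) ∣ ((p - 1 : ℕ) : ℤ) := ⟨j, by rw [← h3]; ring⟩
  have h5 : p ∣ p - 1 := by exact_mod_cast h4
  have h6 := Nat.le_of_dvd (by have := hp.two_le; omega) h5
  have := hp.two_le
  omega

/-- **(K1)** there is `σ ∈ HH A p` fixing all `p`-th roots of units of `L₁` which moves every
`p`-th root of `p`. -/
theorem exists_fixU_moves {p : ℕ} (hp : p.Prime) (hp2 : p ≠ 2) (A : ValuationSubring Qb)
    (hA : A.LiesOverPrime p) :
    ∃ σ ∈ HH A p, FixU A p σ ∧ ∀ ϖ : Qb, ϖ ^ p = (p : Qb) → σ ϖ ≠ ϖ := by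
  classical
  have hgal : IsGalois ℚ Qb := Fermat.Agent.Lib.FrobeniusExists.isGalois_algebraicClosure_rat
  have hpQ : (p : Qb) ≠ 0 := by exact_mod_cast hp.ne_zero
  obtain ⟨ϖ0, hϖ0⟩ : ∃ ϖ0 : Qb, ϖ0 ^ p = (p : Qb) := IsAlgClosed.exists_pow_nat_eq _ hp.pos
  have hϖ0ne : ϖ0 ≠ 0 := by
    rintro rfl
    rw [zero_pow hp.ne_zero] at hϖ0
    exact hpQ hϖ0.symm
  suffices h : ∃ σ ∈ HH A p, FixU A p σ ∧ σ ϖ0 ≠ ϖ0 by
    obtain ⟨σ, hσ, hU, hne⟩ := h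
    refine ⟨σ, hσ, hU, fun ϖ hϖ hfix => hne ?_⟩
    have hϖne : ϖ ≠ 0 := by
      rintro rfl
      rw [zero_pow hp.ne_zero] at hϖ
      exact hpQ hϖ.symm
    have hξ : (ϖ0 / ϖ) ^ p = 1 := by rw [div_pow, hϖ0, hϖ, div_self hpQ]
    have h1 := (mem_HH.mp hσ).2 _ hξ
    calc σ ϖ0 = σ (ϖ0 / ϖ * ϖ) := by rw [div_mul_cancel₀ _ hϖne]
      _ = ϖ0 / ϖ * ϖ := by rw [map_mul, h1, hfix]
      _ = ϖ0 := div_mul_cancel₀ _ hϖne
  by_contra hcon
  push Not at hcon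
  set L1 : Set Qb := {x | ∀ τ ∈ HH A p, τ x = x} with hL1
  set U : Set Qb := {y | y ∈ A ∧ y⁻¹ ∈ A ∧ ∀ τ ∈ HH A p, τ (y ^ p) = y ^ p} with hU
  set M : IntermediateField ℚ Qb := IntermediateField.adjoin ℚ (L1 ∪ U) with hMdef
  have hM : ϖ0 ∈ M := by
    rw [← InfiniteGalois.fixedField_fixingSubgroup M, IntermediateField.mem_fixedField_iff]
    intro σ hσ
    rw [IntermediateField.mem_fixingSubgroup_iff] at hσ
    have hσH : σ ∈ HH A p := mem_HH_of_fixes A p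
      (fun x hx => hσ x (IntermediateField.subset_adjoin _ _ (Or.inl hx)))
    exact hcon σ hσH
      (fun y h1 h2 h3 => hσ y (IntermediateField.subset_adjoin _ _ (Or.inr ⟨h1, h2, h3⟩)))
  obtain ⟨T, hTsub, hT⟩ := IntermediateField.exists_finset_of_mem_adjoin hM
  set T' : Finset Qb := T.filter (fun y => y ∈ U ∧ y ≠ 0) with hT'
  have hT'U : ∀ y ∈ T', y ∈ U ∧ y ≠ 0 := fun y hy => (Finset.mem_filter.mp hy).2
  obtain ⟨a, ha⟩ := kummer_finite hp (HH A p) (fun τ hτ => (mem_HH.mp hτ).2) T'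
    (fun y hy => ⟨(hT'U y hy).2, (hT'U y hy).1.2.2⟩) ϖ0 hϖ0ne
    (fun τ _ => by rw [hϖ0, map_natCast])
    (fun σ hσ hfix => by
      have h1 : ∀ x ∈ (T : Set Qb), σ • x = x := by
        intro x hx
        rcases hTsub hx with hx1 | hx1
        · exact hx1 σ hσ
        · by_cases hx0 : x = 0
          · rw [hx0]; exact map_zero σ
          · exact hfix x (Finset.mem_filter.mpr ⟨hx, hx1, hx0⟩)
      exact (IntermediateField.forall_mem_adjoin_smul_eq_self_iff ℚ σ).mpr h1 ϖ0 hT)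
  refine valuation_pow_ne hp hp2 A hA ha ?_
  have hprod : A.valuation (∏ y ∈ T', y ^ a y) = 1 := by
    rw [map_prod]
    refine Finset.prod_eq_one fun y hy => ?_
    rw [map_pow, valuation_eq_one_of_mem (hT'U y hy).1.1 (hT'U y hy).1.2.1 (hT'U y hy).2, one_pow]
  rw [map_div₀, hprod, div_one, ← map_pow, hϖ0]

/-- **(K2)** if `η ^ p = c` is fixed by inertia and `η` is fixed by every `σ ∈ HH A p` fixing all
`p`-th roots of units of `L₁`, then `c = p ^ (p m) * unit`. -/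
theorem exists_isUnitAt_of_fixU {p : ℕ} (hp : p.Prime) (hp2 : p ≠ 2) (A : ValuationSubring Qb)
    (hA : A.LiesOverPrime p) {η c : Qb} (hc0 : c ≠ 0) (hη : η ^ p = c)
    (hc : ∀ τ ∈ A.inertiaSubgroupIn ℚ, τ c = c)
    (h : ∀ σ ∈ HH A p, FixU A p σ → σ η = η) :
    ∃ m : ℤ, IsUnitAt A (c * (p : Qb) ^ (-((p : ℤ) * m))) := by
  have hpQ : (p : Qb) ≠ 0 := by exact_mod_cast hp.ne_zero
  obtain ⟨n, hn⟩ := exists_zpow_mul_isUnitAt A hp hA hc0 hc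
  obtain ⟨σ, hσ, hU, hmove⟩ := exists_fixU_moves hp hp2 A hA
  obtain ⟨ϖ, hϖ⟩ : ∃ ϖ : Qb, ϖ ^ p = (p : Qb) := IsAlgClosed.exists_pow_nat_eq _ hp.pos
  have hϖne : ϖ ≠ 0 := by
    rintro rfl
    rw [zero_pow hp.ne_zero] at hϖ
    exact hpQ hϖ.symm
  have hη0 : η ≠ 0 := by
    rintro rfl
    rw [zero_pow hp.ne_zero] at hη
    exact hc0 hη.symm
  set y : Qb := η * ϖ ^ (-n) with hy
  have hyp : y ^ p = c * (p : Qb) ^ (-n) := by
    rw [hy, mul_pow, hη, ← zpow_natCast (ϖ ^ (-n)), ← zpow_mul, mul_comm (-n) (p : ℤ), zpow_mul,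
      zpow_natCast, hϖ]
  have hy0 : y ≠ 0 := mul_ne_zero hη0 (zpow_ne_zero _ hϖne)
  have hv : A.valuation y = 1 := by
    have h1 : A.valuation y ^ p = 1 := by rw [← map_pow, hyp]; exact roots_valuation_eq_one hn
    exact (pow_eq_one_iff_of_nonneg zero_le hp.ne_zero).mp h1
  have hyA : y ∈ A := (A.valuation_le_one_iff _).mp hv.le
  have hyA' : y⁻¹ ∈ A := (A.valuation_le_one_iff _).mp (by rw [map_inv₀, hv, inv_one])
  have hyfix : σ y = y := hU y hyA hyA' (fun τ hτ => by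
    rw [hyp, map_mul, hc τ (mem_HH.mp hτ).1, map_zpow₀, map_natCast])
  have hση := h σ hσ hU
  have h1 : σ ϖ ^ (-n) = ϖ ^ (-n) := by
    have h2 : σ y = η * σ ϖ ^ (-n) := by rw [hy, map_mul, hση, map_zpow₀]
    rw [hyfix] at h2
    exact (mul_left_cancel₀ hη0 h2).symm
  set ξ : Qb := σ ϖ / ϖ with hξ
  have hξp : ξ ^ p = 1 := by rw [hξ, div_pow, ← map_pow, hϖ, map_natCast, div_self hpQ]
  have hξ1 : ξ ≠ 1 := by
    intro h3
    rw [hξ, div_eq_one_iff_eq hϖne] at h3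
    exact hmove ϖ hϖ h3
  have hprim : IsPrimitiveRoot ξ p := by
    have h3 := orderOf_eq_prime hξp hξ1 (hp := ⟨hp⟩)
    rw [← h3]
    exact IsPrimitiveRoot.orderOf ξ
  have hξn : ξ ^ (-n) = 1 := by
    rw [hξ, div_zpow, h1, div_self (zpow_ne_zero _ hϖne)]
  obtain ⟨m, hm⟩ := (hprim.zpow_eq_one_iff_dvd (-n)).mp hξn
  refine ⟨-m, ?_⟩
  have h4 : -((p : ℤ) * -m) = -n := by rw [hm]; ring
  rw [h4]
  exact hn

end Fermat.Agent.MR.C
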