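import Fermat.Agent.TOR.GB.W
import Fermat.Agent.GAL.ESR.Field

/-!
# MR / C / WT : the Atkin--Lehner involution `w_q` commutes with the (multiplicative) Hecke operators `T_l`, `l ∤ M₁ q`

`heckeNorm (M₁ q) l z = N_{F(M₁ q l)/F(M₁ q)} (z(Q^l))`.  The involution `w_q` of level `M₁ l q` restricts to `w_q` of level
`M₁ q` along both degeneracy maps `alp`, `bet`; the norm commutes with automorphisms.
-/

set_option autoImplicit false

open ModularCurve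

noncomputable section

namespace Fermat.Agent.MR.C

open Fermat.Agent.S24 Fermat.Agent.S28 Fermat.Agent.GR.HeckeField Fermat.Agent.TOR.GB

attribute [local instance] Fermat.Agent.GR.HeckeField.algFN

/-- `FN N = FN N'` if `N = N'`. -/
def WT_cast {N N' : ℕ} (h : N = N') : FN N ≃ₐ[Kb] FN N' :=
  IntermediateField.equivOfEq (congrArg modularFunctionFieldBar h)

theorem WT_coe_cast {N N' : ℕ} (h : N = N') (z : FN N) :
    ((WT_cast h z : FN N') : LaurentSeries Kb) = (z : LaurentSeries Kb) := by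
  subst h
  rfl

theorem WT_coe_cast_symm {N N' : ℕ} (h : N = N') (z : FN N') :
    (((WT_cast h).symm z : FN N) : LaurentSeries Kb) = (z : LaurentSeries Kb) := by
  subst h
  rfl

variable (M₁ q l : ℕ) [NeZero M₁] [NeZero q] [NeZero l]

/-- `FN (M₁ q l) = FN (M₁ l q)`. -/
def WT_swap : FN (M₁ * q * l) ≃ₐ[Kb] FN (M₁ * l * q) := WT_cast (Nat.mul_right_comm M₁ q l)

omit [NeZero M₁] [NeZero q] [NeZero l] in
theorem WT_coe_swap (z : FN (M₁ * q * l)) :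
    ((WT_swap M₁ q l z : FN (M₁ * l * q)) : LaurentSeries Kb) = (z : LaurentSeries Kb) :=
  WT_coe_cast _ z

omit [NeZero M₁] [NeZero q] [NeZero l] in
theorem WT_coe_swap_symm (z : FN (M₁ * l * q)) :
    (((WT_swap M₁ q l).symm z : FN (M₁ * q * l)) : LaurentSeries Kb) = (z : LaurentSeries Kb) :=
  WT_coe_cast_symm _ z

/-- `w_q` at level `M₁ q l`. -/
def WT_W : FN (M₁ * q * l) ≃ₐ[Kb] FN (M₁ * q * l) :=
  ((WT_swap M₁ q l).trans (wq (M₁ * l) q)).trans (WT_swap M₁ q l).symm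

theorem WT_W_apply (z : FN (M₁ * q * l)) :
    WT_W M₁ q l z = (WT_swap M₁ q l).symm (wq (M₁ * l) q (WT_swap M₁ q l z)) := rfl

variable {M₁ q l}

theorem WT_W_alp_alp (hq : q.Prime) (hqM : ¬ q ∣ M₁ * l) (x : FN M₁) :
    WT_W M₁ q l (alp (M₁ * q) l (alp M₁ q x)) = alp (M₁ * q) l (bet M₁ q x) := by
  have e1 : WT_swap M₁ q l (alp (M₁ * q) l (alp M₁ q x)) = alp (M₁ * l) q (alp M₁ l x) := by
    apply Subtype.ext
    rw [WT_coe_swap, coe_heckeAlphaBar, coe_heckeAlphaBar, coe_heckeAlphaBar, coe_heckeAlphaBar]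
  rw [WT_W_apply, e1, wq_alp hq hqM]
  apply Subtype.ext
  rw [WT_coe_swap_symm, coe_heckeBetaBar, coe_heckeAlphaBar, coe_heckeAlphaBar, coe_heckeBetaBar]

theorem WT_W_alp_bet (hq : q.Prime) (hqM : ¬ q ∣ M₁ * l) (x : FN M₁) :
    WT_W M₁ q l (alp (M₁ * q) l (bet M₁ q x)) = alp (M₁ * q) l (alp M₁ q x) := by
  have e1 : WT_swap M₁ q l (alp (M₁ * q) l (bet M₁ q x)) = bet (M₁ * l) q (alp M₁ l x) := by
    apply Subtype.ext
    rw [WT_coe_swap, coe_heckeAlphaBar, coe_heckeBetaBar, coe_heckeBetaBar, coe_heckeAlphaBar]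
  rw [WT_W_apply, e1, wq_bet hq hqM]
  apply Subtype.ext
  rw [WT_coe_swap_symm, coe_heckeAlphaBar, coe_heckeAlphaBar, coe_heckeAlphaBar, coe_heckeAlphaBar]

theorem WT_W_bet_alp (hq : q.Prime) (hqM : ¬ q ∣ M₁ * l) (x : FN M₁) :
    WT_W M₁ q l (bet (M₁ * q) l (alp M₁ q x)) = bet (M₁ * q) l (bet M₁ q x) := by
  have e1 : WT_swap M₁ q l (bet (M₁ * q) l (alp M₁ q x)) = alp (M₁ * l) q (bet M₁ l x) := by
    apply Subtype.ext
    rw [WT_coe_swap, coe_heckeBetaBar, coe_heckeAlphaBar, coe_heckeAlphaBar, coe_heckeBetaBar]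
  rw [WT_W_apply, e1, wq_alp hq hqM]
  apply Subtype.ext
  rw [WT_coe_swap_symm, coe_heckeBetaBar, coe_heckeBetaBar, coe_heckeBetaBar, coe_heckeBetaBar,
    qExpand_qExpand, qExpand_qExpand]
  exact qExpand_congr (mul_comm _ _) _

theorem WT_W_bet_bet (hq : q.Prime) (hqM : ¬ q ∣ M₁ * l) (x : FN M₁) :
    WT_W M₁ q l (bet (M₁ * q) l (bet M₁ q x)) = bet (M₁ * q) l (alp M₁ q x) := by
  have e1 : WT_swap M₁ q l (bet (M₁ * q) l (bet M₁ q x)) = bet (M₁ * l) q (bet M₁ l x) := by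
    apply Subtype.ext
    rw [WT_coe_swap, coe_heckeBetaBar, coe_heckeBetaBar, coe_heckeBetaBar, coe_heckeBetaBar,
      qExpand_qExpand, qExpand_qExpand]
    exact qExpand_congr (mul_comm _ _) _
  rw [WT_W_apply, e1, wq_bet hq hqM]
  apply Subtype.ext
  rw [WT_coe_swap_symm, coe_heckeAlphaBar, coe_heckeBetaBar, coe_heckeBetaBar, coe_heckeAlphaBar]

/-- `w_q` of level `M₁ q l` restricts to `w_q` of level `M₁ q` along `alp`. -/
theorem WT_W_alp (hq : q.Prime) (hqM₁ : ¬ q ∣ M₁) (hqM : ¬ q ∣ M₁ * l) (y : FN (M₁ * q)) :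
    WT_W M₁ q l (alp (M₁ * q) l y) = alp (M₁ * q) l (wq M₁ q y) := by
  have key : ((WT_W M₁ q l : FN (M₁ * q * l) →ₐ[Kb] FN (M₁ * q * l))).comp (alp (M₁ * q) l)
      = (alp (M₁ * q) l).comp (wq M₁ q : FN (M₁ * q) →ₐ[Kb] FN (M₁ * q)) := by
    apply algHom_ext_alp_bet M₁ q hq
    · intro x
      show WT_W M₁ q l (alp (M₁ * q) l (alp M₁ q x)) = alp (M₁ * q) l (wq M₁ q (alp M₁ q x))
      rw [WT_W_alp_alp hq hqM, wq_alp hq hqM₁]
    · intro x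
      show WT_W M₁ q l (alp (M₁ * q) l (bet M₁ q x)) = alp (M₁ * q) l (wq M₁ q (bet M₁ q x))
      rw [WT_W_alp_bet hq hqM, wq_bet hq hqM₁]
  exact DFunLike.congr_fun key y

/-- `w_q` of level `M₁ q l` restricts to `w_q` of level `M₁ q` along `bet`. -/
theorem WT_W_bet (hq : q.Prime) (hqM₁ : ¬ q ∣ M₁) (hqM : ¬ q ∣ M₁ * l) (y : FN (M₁ * q)) :
    WT_W M₁ q l (bet (M₁ * q) l y) = bet (M₁ * q) l (wq M₁ q y) := by
  have key : ((WT_W M₁ q l : FN (M₁ * q * l) →ₐ[Kb] FN (M₁ * q * l))).comp (bet (M₁ * q) l)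
      = (bet (M₁ * q) l).comp (wq M₁ q : FN (M₁ * q) →ₐ[Kb] FN (M₁ * q)) := by
    apply algHom_ext_alp_bet M₁ q hq
    · intro x
      show WT_W M₁ q l (bet (M₁ * q) l (alp M₁ q x)) = bet (M₁ * q) l (wq M₁ q (alp M₁ q x))
      rw [WT_W_bet_alp hq hqM, wq_alp hq hqM₁]
    · intro x
      show WT_W M₁ q l (bet (M₁ * q) l (bet M₁ q x)) = bet (M₁ * q) l (wq M₁ q (bet M₁ q x))
      rw [WT_W_bet_bet hq hqM, wq_bet hq hqM₁]
  exact DFunLike.congr_fun key y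

/-- **(W-T)** `w_q` commutes with `T_l`. -/
theorem wq_heckeNorm (hq : q.Prime) (hqM : ¬ q ∣ M₁) (hl : l.Prime) (hl' : ¬ l ∣ M₁ * q)
    (z : FN (M₁ * q)) :
    wq M₁ q (heckeNorm (M₁ * q) l z) = heckeNorm (M₁ * q) l (wq M₁ q z) := by
  have hql : ¬ q ∣ M₁ * l := by
    intro h
    rcases (Nat.Prime.dvd_mul hq).1 h with h | h
    · exact hqM h
    · exact hl' (((Nat.prime_dvd_prime_iff_eq hq hl).1 h) ▸ Dvd.intro_left M₁ rfl)
  have h1 := Algebra.norm_eq_of_equiv_equiv (A₁ := FN (M₁ * q)) (B₁ := FN (M₁ * q * l))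
    (A₂ := FN (M₁ * q)) (B₂ := FN (M₁ * q * l)) (wq M₁ q).toRingEquiv (WT_W M₁ q l).toRingEquiv
    (RingHom.ext fun y => (WT_W_alp hq hqM hql y).symm) (bet (M₁ * q) l z)
  have h2 : (WT_W M₁ q l).toRingEquiv (bet (M₁ * q) l z) = bet (M₁ * q) l (wq M₁ q z) :=
    WT_W_bet hq hqM hql z
  rw [h2] at h1
  rw [heckeNorm, heckeNorm, h1]
  exact (wq M₁ q).toRingEquiv.apply_symm_apply _

/-- the same for `q`-expansions: `heckeS` commutes with `w_q`. -/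
theorem coe_wq_heckeS (hq : q.Prime) (hqM : ¬ q ∣ M₁) (hl : l.Prime) (hl' : ¬ l ∣ M₁ * q)
    (z : FN (M₁ * q)) :
    GAL.heckeS GAL.Qb l ((wq M₁ q z : FN (M₁ * q)) : LaurentSeries Kb)
      = ((wq M₁ q (heckeNorm (M₁ * q) l z) : FN (M₁ * q)) : LaurentSeries Kb) := by
  rw [wq_heckeNorm hq hqM hl hl']
  exact GAL.heckeS_eq_heckeNorm (M₁ * q) l hl hl' (wq M₁ q z)

end Fermat.Agent.MR.C
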