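import Fermat.Agent.MR.C.DeepKum
import Fermat.Agent.MR.C.CovEC
import Fermat.Agent.MR.C.Pairs
import Fermat.Agent.MR.C.WT
import Fermat.Agent.MR.C.Kummer
import Fermat.Agent.TOR.GBB.OrdNm
import Fermat.Agent.CAR.WN.DescRoot

/-!
# MR / C / Prep : the formal half of block C (no valuations)

From the hypotheses of `MR.CStatement` to the data of the cover:
`F = FS N`, `w = wS`, `T = heckeS ℓ`; `h₁` (deep at both valuations, `deep_kum`), the good partners `h₁₀`, `u₀`;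
`CovHyp`; the output `a₁, S, S₀, g, η` of `desc_main`; `η^p` is a unit times `p^(pm)`.
-/

set_option autoImplicit false
noncomputable section

namespace Fermat.Agent.MR.C

open ModularCurve AlgebraicCurve HahnSeries Fermat.Agent.GR Fermat.Agent.GAL Fermat.Agent.GAL.KLC
open Fermat.Agent.S24 Fermat.Agent.TOR.GB Fermat.Agent.ORD.P2 Fermat.Agent.ORD.P3
open Fermat.Agent.MR.E (HH FixU)

variable (M₁ p : ℕ) [NeZero M₁] [NeZero p]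

/-- the expansion at the cusp `0`: `f ↦ w_p f`. -/
def wS : FS (M₁ * p) →+* LaurentSeries Qb where
  toFun f := ((wq M₁ p (⟨f.1, f.2⟩ : FN (M₁ * p)) : FN (M₁ * p)) : LaurentSeries Qb)
  map_one' := by
    have e : (⟨((1 : FS (M₁ * p)) : LaurentSeries Qb), (1 : FS (M₁ * p)).2⟩ : FN (M₁ * p)) = 1 := rfl
    rw [e, map_one]; rfl
  map_mul' a b := by
    have e : (⟨((a * b : FS (M₁ * p)) : LaurentSeries Qb), (a * b).2⟩ : FN (M₁ * p))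
        = (⟨a.1, a.2⟩ : FN (M₁ * p)) * ⟨b.1, b.2⟩ := rfl
    rw [e, map_mul]; rfl
  map_zero' := by
    have e : (⟨((0 : FS (M₁ * p)) : LaurentSeries Qb), (0 : FS (M₁ * p)).2⟩ : FN (M₁ * p)) = 0 := rfl
    rw [e, map_zero]; rfl
  map_add' a b := by
    have e : (⟨((a + b : FS (M₁ * p)) : LaurentSeries Qb), (a + b).2⟩ : FN (M₁ * p))
        = (⟨a.1, a.2⟩ : FN (M₁ * p)) + ⟨b.1, b.2⟩ := rfl
    rw [e, map_add]; rfl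

variable {M₁ p}

theorem wS_apply (f : FS (M₁ * p)) :
    wS M₁ p f = ((wq M₁ p (⟨f.1, f.2⟩ : FN (M₁ * p)) : FN (M₁ * p)) : LaurentSeries Qb) := rfl

theorem wS_mk {x : LaurentSeries Qb} (hx : x ∈ FL Qb (M₁ * p)) :
    wS M₁ p ⟨x, hx⟩ = ((wq M₁ p (⟨x, hx⟩ : FN (M₁ * p)) : FN (M₁ * p)) : LaurentSeries Qb) := rfl

theorem wS_mem (f : FS (M₁ * p)) : wS M₁ p f ∈ FS (M₁ * p) :=
  (wq M₁ p (⟨f.1, f.2⟩ : FN (M₁ * p))).2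

/-! ### Hecke and Galois -/

theorem prep_hTF {ℓ : ℕ} [NeZero ℓ] (hℓ : ℓ.Prime) (hℓN : ¬ ℓ ∣ M₁ * p) (f : FS (M₁ * p)) :
    heckeS Qb ℓ (f : LaurentSeries Qb) ∈ FS (M₁ * p) := by
  have := heckeS_eq_heckeNorm (M₁ * p) ℓ hℓ hℓN (⟨f.1, f.2⟩ : FL Qb (M₁ * p))
  have e : heckeS Qb ℓ (f : LaurentSeries Qb)
      = ((GR.HeckeField.heckeNorm (M₁ * p) ℓ (⟨f.1, f.2⟩ : FN (M₁ * p)) : FN (M₁ * p)) :
        LaurentSeries Qb) := this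
  rw [e]
  exact (GR.HeckeField.heckeNorm (M₁ * p) ℓ (⟨f.1, f.2⟩ : FN (M₁ * p))).2

theorem prep_hTw (hp : p.Prime) (hpM : ¬ p ∣ M₁) {ℓ : ℕ} [NeZero ℓ] (hℓ : ℓ.Prime)
    (hℓN : ¬ ℓ ∣ M₁ * p) (f : FS (M₁ * p)) :
    heckeS Qb ℓ (wS M₁ p f) = wS M₁ p ⟨heckeS Qb ℓ (f : LaurentSeries Qb), prep_hTF hℓ hℓN f⟩ := by
  have h1 := coe_wq_heckeS hp hpM hℓ hℓN (⟨f.1, f.2⟩ : FN (M₁ * p))
  rw [wS_apply, h1, wS_apply]
  congr 2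
  apply Subtype.ext
  exact (heckeS_eq_heckeNorm (M₁ * p) ℓ hℓ hℓN (⟨f.1, f.2⟩ : FL Qb (M₁ * p))).symm

/-- roots of unity of `ℚ̄((q))` are constants. -/
theorem prep_eq_C {n : ℕ} (hn : n ≠ 0) {ξ : LaurentSeries Qb} (h : ξ ^ n = 1) :
    ∃ c : Qb, ξ = HahnSeries.C c := by
  have hint : IsIntegral Qb ξ := by
    refine IsIntegral.of_pow (Nat.pos_of_ne_zero hn) ?_
    rw [h]; exact isIntegral_one
  have h1 : (minpoly Qb ξ).degree = 1 :=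
    IsAlgClosed.degree_eq_one_of_irreducible Qb (minpoly.irreducible hint)
  obtain ⟨c, hc⟩ := minpoly.mem_range_of_degree_eq_one Qb ξ h1
  exact ⟨c, by rw [← hc, C_eq_algebraMap]⟩

theorem prep_hμ {n : ℕ} (hn : n ≠ 0) (ℓ : ℕ) [NeZero ℓ] (ξ : LaurentSeries Qb) (h : ξ ^ n = 1) :
    heckeS Qb ℓ ξ = ξ ^ (ℓ + 1) := by
  obtain ⟨c, rfl⟩ := prep_eq_C hn h
  obtain ⟨ζ, hζ⟩ := exists_primitiveRoot_Qb ℓ
  rw [heckeS_eq_formalT ℓ hζ, formalT_C, map_pow]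

theorem prep_hσF (σ : GQ) (f : FS (M₁ * p)) : galS σ (f : LaurentSeries Qb) ∈ FS (M₁ * p) :=
  GAL.galS_mem_FL σ f.2

theorem prep_hσw (hp : p.Prime) (hpM : ¬ p ∣ M₁) (σ : GQ) (f : FS (M₁ * p)) :
    galS σ (wS M₁ p f) = wS M₁ p ⟨galS σ (f : LaurentSeries Qb), prep_hσF σ f⟩ := by
  have h := wq_galF hp hpM σ (⟨f.1, f.2⟩ : FN (M₁ * p))
  have h2 := congrArg (Subtype.val : FN (M₁ * p) → LaurentSeries Qb) h
  exact h2.symm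

/-! ### good partners -/

/-- `w (u^p)` has a `p`-th root in `ℚ̄((q))`. -/
theorem exists_root_wS (hp : p.Prime) {u : LaurentSeries Qb} (hu : IsKum Qb (M₁ * p) p u) :
    ∃ b0 : LaurentSeries Qb, b0 ^ p = wS M₁ p ⟨u ^ p, hu.pow_mem⟩ := by
  obtain ⟨P, hP⟩ := TOR.T1C.exists_place_Q (M₁ * p)
  obtain ⟨-, hf, hdiv⟩ := hu
  obtain ⟨e, he⟩ := TOR.GBB.dvd_ord_wq (p : ℤ) (⟨u ^ p, hf⟩ : FN (M₁ * p)) hdiv P
  rw [hP] at he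
  exact CAR.WN.descRoot_laurent hp.ne_zero _ e he

/-- **existence of the good partner of a Hecke eigenclass.** -/
theorem exists_partner (hp : p.Prime) (hpM : ¬ p ∣ M₁) {ℓ : ℕ} [NeZero ℓ] (hℓ : ℓ.Prime)
    (hℓN : ¬ ℓ ∣ M₁ * p) {e : ℕ} (he : ¬ (p : ℤ) ∣ ((ℓ : ℤ) + 1 - e)) {u : LaurentSeries Qb}
    (hu : IsKum Qb (M₁ * p) p u) (hT : heckeS Qb ℓ u / u ^ e ∈ FL Qb (M₁ * p)) :
    ∃ u0, Good (FS (M₁ * p)) (wS M₁ p) (heckeS Qb ℓ) p e u u0 := by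
  obtain ⟨b0, hb0⟩ := exists_root_wS hp hu
  refine exists_good hp (prep_hμ hp.ne_zero ℓ) he (prep_hTF hℓ hℓN) (prep_hTw hp hpM hℓ hℓN)
    hu.ne_zero ⟨u ^ p, hu.pow_mem⟩ ⟨_, hT⟩ rfl ?_ hb0
  show heckeS Qb ℓ u = u ^ e * (heckeS Qb ℓ u / u ^ e)
  rw [mul_div_cancel₀ _ (pow_ne_zero e hu.ne_zero)]

/-- the cyclotomic exponent of `τ`. -/
theorem exists_cyc_exp (hp : p.Prime) {ζ : Qb} (hζ : IsPrimitiveRoot ζ p) (τ : GQ) :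
    ∃ a : ℕ, ∀ ξ : Qb, ξ ^ p = 1 → τ ξ = ξ ^ a := by
  have h1 : (τ ζ) ^ p = 1 := by rw [← map_pow, hζ.pow_eq_one, map_one]
  obtain ⟨a, -, ha⟩ := hζ.eq_pow_of_pow_eq_one h1
  refine ⟨a, fun ξ hξ => ?_⟩
  obtain ⟨j, -, rfl⟩ := hζ.eq_pow_of_pow_eq_one hξ
  rw [map_pow, ← ha, ← pow_mul, ← pow_mul, mul_comm]

/-- the normalised input of the cover construction. -/
structure PrepIn (A : ValuationSubring Qb) (M₁ p : ℕ) [NeZero M₁] [NeZero p] (ℓ : ℕ) [NeZero ℓ]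
    (e : ℕ) (ζ : Qbˣ) (u h1 : LaurentSeries Qb) : Prop where
  hM : AdmLevel M₁
  hp : p.Prime
  hp2 : p ≠ 2
  hpM : ¬ p ∣ M₁
  hA : A.LiesOverPrime p
  hζ : IsPrimitiveRoot ζ p
  hℓ : ℓ.Prime
  hℓN : ¬ ℓ ∣ M₁ * p
  he : ¬ (p : ℤ) ∣ ((ℓ : ℤ) + 1 - e)
  ku : IsKum Qb (M₁ * p) p u
  kh : IsKum Qb (M₁ * p) p h1
  lead : u.leadingCoeff = 1
  h1_not : h1 ∉ FL Qb (M₁ * p)
  Tu : heckeS Qb ℓ u / u ^ e ∈ FL Qb (M₁ * p)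
  Th : heckeS Qb ℓ h1 / h1 ^ e ∈ FL Qb (M₁ * p)
  deep : Dp A (lam ζ ^ p) (h1 ^ p) 0
  deep0 : Dp A (lam ζ ^ p) (wS M₁ p ⟨h1 ^ p, kh.pow_mem⟩) 0
  gal_h : ∀ τ ∈ A.inertiaSubgroupIn ℚ, ∀ a : ℕ, (∀ ξ : Qb, ξ ^ p = 1 → τ ξ = ξ ^ a) →
    galS τ h1 / h1 ^ a ∈ FL Qb (M₁ * p)
  gal_u : ∀ τ ∈ A.inertiaSubgroupIn ℚ, ∃ k : ℕ, galS τ u / (u * h1 ^ k) ∈ FL Qb (M₁ * p)
  peu : ∀ σ ∈ HH A p, FixU A p σ → galS σ u / u ∈ FL Qb (M₁ * p)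

section Out

variable {A : ValuationSubring Qb} {ℓ : ℕ} [NeZero ℓ] {e : ℕ} {ζ : Qbˣ} {u h1 : LaurentSeries Qb}

/-- the cover hypotheses for `h₁` and its good partner. -/
theorem PrepIn.covHyp (P : PrepIn A M₁ p ℓ e ζ u h1) {h10 : LaurentSeries Qb}
    (hG : Good (FS (M₁ * p)) (wS M₁ p) (heckeS Qb ℓ) p e h1 h10) :
    CovHyp (A.inertiaSubgroupIn ℚ) (FS (M₁ * p)) (wS M₁ p) p (ζ : Qb) h1 h10 where
  prime := P.hp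
  prim := IsPrimitiveRoot.coe_units_iff.2 P.hζ
  C_mem := fun c => GAL.C_mem_FL (M₁ * p) c
  pow_mem := P.kh.pow_mem
  not_mem := P.h1_not
  pow0 := by
    obtain ⟨-, -, ⟨B, hB, hB0⟩, -⟩ := hG
    rw [hB0]
    congr 1
    exact Subtype.ext hB.symm
  gal_F := fun τ _ f => prep_hσF τ f
  gal_w := fun τ _ f => prep_hσw P.hp P.hpM τ f
  gal_h := by
    intro τ hτ
    obtain ⟨a, ha⟩ := exists_cyc_exp P.hp (IsPrimitiveRoot.coe_units_iff.2 P.hζ) τ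
    have hf := P.gal_h τ hτ a ha
    have h10' : h1 ≠ 0 := P.kh.ne_zero
    have hf0 : (⟨_, hf⟩ : FS (M₁ * p)) ≠ 0 := by
      intro h0
      have := congrArg Subtype.val h0
      exact div_ne_zero (galS_ne_zero τ h10') (pow_ne_zero a h10') this
    have e1 : galS τ h1 = h1 ^ a * (galS τ h1 / h1 ^ a) := by
      rw [mul_div_cancel₀ _ (pow_ne_zero a h10')]
    refine ⟨a, ⟨_, hf⟩, e1, ?_, ha _ ?_⟩
    · have g1 : Good (FS (M₁ * p)) (wS M₁ p) (heckeS Qb ℓ) p e (galS τ h1) (galS τ h10) :=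
        hG.map (galS τ) (prep_hσF τ) (prep_hσw P.hp P.hpM τ) (fun x => galS_heckeS τ ℓ x)
      have g2 : Good (FS (M₁ * p)) (wS M₁ p) (heckeS Qb ℓ) p e
          (h1 ^ a * (galS τ h1 / h1 ^ a)) (h10 ^ a * wS M₁ p ⟨_, hf⟩) :=
        (hG.pow a).mul (good_diag (prep_hTF P.hℓ P.hℓN) (prep_hTw P.hp P.hpM P.hℓ P.hℓN) ⟨_, hf⟩ hf0)
      rw [← e1] at g2
      exact Good.unique P.hp (prep_hμ P.hp.ne_zero ℓ) P.he g1 g2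
    · rw [← Units.val_pow_eq_pow_val, P.hζ.pow_eq_one, Units.val_one]

/-- the hypothesis `hτ` of `desc_main`. -/
theorem PrepIn.htau (P : PrepIn A M₁ p ℓ e ζ u h1) {h10 u0 : LaurentSeries Qb}
    (hG : Good (FS (M₁ * p)) (wS M₁ p) (heckeS Qb ℓ) p e h1 h10)
    (hGu : Good (FS (M₁ * p)) (wS M₁ p) (heckeS Qb ℓ) p e u u0) :
    ∀ τ ∈ A.inertiaSubgroupIn ℚ, ∃ (k : ℕ) (f : FS (M₁ * p)), f ≠ 0 ∧
      galS τ u = u * h1 ^ k * f ∧ galS τ u0 = u0 * h10 ^ k * wS M₁ p f := by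
  intro τ hτ
  obtain ⟨k, hk⟩ := P.gal_u τ hτ
  have hu0 := P.ku.ne_zero
  have hh0 := P.kh.ne_zero
  have hden : u * h1 ^ k ≠ 0 := mul_ne_zero hu0 (pow_ne_zero k hh0)
  have hf0 : (⟨_, hk⟩ : FS (M₁ * p)) ≠ 0 := by
    intro h0
    have := congrArg Subtype.val h0
    exact div_ne_zero (galS_ne_zero τ hu0) hden this
  have e1 : galS τ u = u * h1 ^ k * (galS τ u / (u * h1 ^ k)) := by
    rw [mul_div_cancel₀ _ hden]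
  refine ⟨k, ⟨_, hk⟩, hf0, e1, ?_⟩
  exact Good.transfer P.hp (prep_hμ P.hp.ne_zero ℓ) P.he (prep_hTF P.hℓ P.hℓN)
    (prep_hTw P.hp P.hpM P.hℓ P.hℓN) (galS τ) (prep_hσF τ) (prep_hσw P.hp P.hpM τ)
    (fun x => galS_heckeS τ ℓ x) hGu hG k ⟨_, hk⟩ hf0 e1

/-- **the formal half of block C.** -/
theorem PrepIn.out (P : PrepIn A M₁ p ℓ e ζ u h1) :
    ∃ (h10 u0 : LaurentSeries Qb)
      (H : CovHyp (A.inertiaSubgroupIn ℚ) (FS (M₁ * p)) (wS M₁ p) p (ζ : Qb) h1 h10)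
      (a1 : adjF (FS (M₁ * p)) h1) (S S0 g : LaurentSeries Qb) (η : Qb) (m : ℤ),
      Good (FS (M₁ * p)) (wS M₁ p) (heckeS Qb ℓ) p e h1 h10 ∧
      Good (FS (M₁ * p)) (wS M₁ p) (heckeS Qb ℓ) p e u u0 ∧
      a1 ≠ 0 ∧ η ≠ 0 ∧ S = u * a1 ∧ S0 = u0 * H.ι0 a1 ∧ S ≠ 0 ∧ S0 ≠ 0 ∧
      (∀ τ ∈ A.inertiaSubgroupIn ℚ, galS τ S = S) ∧ (∀ τ ∈ A.inertiaSubgroupIn ℚ, galS τ S0 = S0) ∧
      g ∈ adjF (FS (M₁ * p)) h1 ∧ g ≠ 0 ∧ (∀ τ ∈ A.inertiaSubgroupIn ℚ, galS τ g = g) ∧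
      H.δ a1 = HahnSeries.C η * g * (a1 : LaurentSeries Qb) ∧
      S55.P.IsUnitAt A (η ^ p * (p : Qb) ^ (-((p : ℤ) * m))) := by
  obtain ⟨h10, hG⟩ := exists_partner P.hp P.hpM P.hℓ P.hℓN P.he P.kh P.Th
  obtain ⟨u0, hGu⟩ := exists_partner P.hp P.hpM P.hℓ P.hℓN P.he P.ku P.Tu
  have H := P.covHyp hG
  obtain ⟨L0, hfd, -, -, hL0⟩ := exists_galois_level (M₁ * p) P.hp.ne_zero P.ku.pow_mem ⊥
  rw [mem_coeffField_toSubfield_iff] at hL0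
  obtain ⟨a1, S, S0, g, η, ha1, hη, hS, hS0, hSne, hS0ne, hSfix, hS0fix, hg, hg0, hgfix, hδ, hηact⟩ :=
    desc_main H.coverDat P.lead hGu.2.1 L0 hL0 (P.htau hG hGu)
  have hζp : (ζ : Qb) ^ p = 1 := by
    rw [← Units.val_pow_eq_pow_val, P.hζ.pow_eq_one, Units.val_one]
  have hc : ∀ τ ∈ A.inertiaSubgroupIn ℚ, τ (η ^ p) = η ^ p := by
    intro τ hτ
    obtain ⟨k, f, hf, h1', -⟩ := P.htau hG hGu τ hτ
    have h2 := hηact τ hτ k f hf h1'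
    have h3 : (τ η * (ζ : Qb) ^ k) ^ p = η ^ p := by rw [h2]
    rwa [mul_pow, ← pow_mul, mul_comm k p, pow_mul, hζp, one_pow, mul_one, ← map_pow] at h3
  have hfix : ∀ σ ∈ HH A p, FixU A p σ → σ η = η := by
    intro σ hσ hU
    have hf := P.peu σ hσ hU
    have hu0 := P.ku.ne_zero
    have hf0 : (⟨_, hf⟩ : FS (M₁ * p)) ≠ 0 := by
      intro h0
      have := congrArg Subtype.val h0
      exact div_ne_zero (galS_ne_zero σ hu0) hu0 this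
    have e1 : galS σ u = u * h1 ^ 0 * (galS σ u / u) := by
      rw [pow_zero, mul_one, mul_div_cancel₀ _ hu0]
    have h2 := hηact σ (E.mem_HH.mp hσ).1 0 ⟨_, hf⟩ hf0 e1
    rwa [pow_zero, mul_one] at h2
  obtain ⟨m, hm⟩ := exists_isUnitAt_of_fixU P.hp P.hp2 A P.hA (pow_ne_zero p hη) rfl hc hfix
  exact ⟨h10, u0, H, a1, S, S0, g, η, m, hG, hGu, ha1, hη, hS, hS0, hSne, hS0ne, hSfix, hS0fix,
    hg, hg0, hgfix, hδ, hm⟩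

end Out

end Fermat.Agent.MR.C
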