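import Fermat.Agent.MR.C.SepB2
import Fermat.Agent.MR.C.SepOrb
import Fermat.Agent.MR.C.J.R0

/-!
# MR / C / SepB2T : the hypothesis `sep` of `covT` / `pdivT` (`J/R0.lean`), VERBATIM

`sepB2_main` (the element) + `CovHyp.sepOrb_core` (orbit product, integrality over `BT`).
-/

set_option autoImplicit false

open ModularCurve AlgebraicCurve

noncomputable section

namespace Fermat.Agent.MR.C

open Fermat.Agent.GR Fermat.Agent.GAL Fermat.Agent.GAL.KL Fermat.Agent.GAL.KLC Fermat.Agent.S24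
open Fermat.Agent.GR.HeckeField Fermat.Agent.TOR Fermat.Agent.TOR.GB Fermat.Agent.TOR.T1C
open Fermat.Agent.CAR Fermat.Agent.CAR.BK Fermat.Agent.CAR.ON Fermat.Agent.CAR.CNT
open Fermat.Agent.CAR.DESC Fermat.Agent.MR.TH Fermat.Agent.MR.A Fermat.Agent.DSC Fermat.Agent.ORD

local notation "Λ" => LaurentSeries Qb

variable {M₁ p : ℕ} [NeZero M₁] [NeZero p] (A : ValuationSubring Qb)
  {w : FS (M₁ * p) →+* Λ} {h1 h10 : Λ}

/-- **(SEP), final form** = the hypothesis `sep` of `covT` and `pdivT`. -/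
theorem sepB2_sepT [Fact p.Prime] (hM : AdmLevel M₁) (hp2 : p ≠ 2) (hpM : ¬ p ∣ M₁)
    (hA : A.LiesOverPrime p) {ζ : Qbˣ} (hζ : IsPrimitiveRoot ζ p)
    (H : CovHyp (IA A) (FS (M₁ * p)) w p (ζ : Qb) h1 h10)
    (he : ∀ (j : I2) (x : adjF (FS (M₁ * p)) h1), x ≠ 0 → Nrm A (epsT H j x))
    (hw : ∀ f : FS (M₁ * p), w f = ((wq M₁ p (⟨f.1, f.2⟩ : FN (M₁ * p)) : FN (M₁ * p)) : Λ))
    (hW1 : P2.Dp A (P2.lam ζ ^ p) (h1 ^ p) 0)
    (hW2 : P2.Dp A (P2.lam ζ ^ p) ((wq M₁ p ⟨h1 ^ p, H.pow_mem⟩ : FN (M₁ * p)) : Λ) 0)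
    (hdiv : ∀ P : Place Qb (FL Qb (M₁ * p)),
      (p : ℤ) ∣ P.ord (⟨h1 ^ p, H.pow_mem⟩ : FL Qb (M₁ * p)))
    {c1 c10 : kA A} (hy : P2.Dp A (P2.lam ζ) h1 (HahnSeries.C c1))
    (hy0 : P2.Dp A (P2.lam ζ) h10 (HahnSeries.C c10))
    (i : I2) (k l : ZMod p) (hkl : k ≠ l) :
    ∃ b : fixS (IA A) (adjF (FS (M₁ * p)) h1), IsIntegral (BT M₁ p A) b ∧
      vtT A H he (i, l) b < 1 ∧ vtT A H he (i, k) (b - 1) < 1 := by
  have hp : p.Prime := Fact.out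
  have hkl' : ((k.val : ℕ) : ZMod p) ≠ ((l.val : ℕ) : ZMod p) := by
    rwa [ZMod.natCast_zmod_val, ZMod.natCast_zmod_val]
  obtain ⟨⟨a, hai, har, har0, hl, hk⟩, ⟨a0, hai0, har', har0', hl0, hk0⟩⟩ :=
    sepB2_main hM hp hp2 hpM A hA hζ H (fun g => hw (sepB2_fs g)) hW1 hW2 hdiv hy hy0 hkl'
  have htfix : FixS ((IA A : Subgroup GQ) : Set GQ) ((tQ M₁ p : FN (M₁ * p)) : Λ) :=
    (tQ_mem_EC A)
  rcases I2_cases i with rfl | rfl
  · refine H.sepOrb_core (B₀ := BT M₁ p A) (v₀ := vT M₁ p A) le_rfl (epsT H) (galS_epsT H)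
      (VT A H he) (VT_algebraMap A H he hw) (fun j x => (VT_le_one_iff A H he j).2)
      (fun j x => (VT_lt_one_iff A H he j).2) (t := tQ M₁ p) htfix
      (fun z hz hv => mem_B2.2 ⟨hz, hv oo, hv zr⟩) a hai ?_ oo k l hl hk
    intro j m
    rcases I2_cases j with rfl | rfl
    · exact har m
    · exact har0 m
  · refine H.sepOrb_core (B₀ := BT M₁ p A) (v₀ := vT M₁ p A) le_rfl (epsT H) (galS_epsT H)
      (VT A H he) (VT_algebraMap A H he hw) (fun j x => (VT_le_one_iff A H he j).2)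
      (fun j x => (VT_lt_one_iff A H he j).2) (t := tQ M₁ p) htfix
      (fun z hz hv => mem_B2.2 ⟨hz, hv oo, hv zr⟩) a0 hai0 ?_ zr k l hl0 hk0
    intro j m
    rcases I2_cases j with rfl | rfl
    · exact har' m
    · exact har0' m

end Fermat.Agent.MR.C
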