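import Fermat.Agent.MR.C.GV
import Fermat.Agent.MR.A.HeckeRed
import Fermat.Agent.DSC.InertiaVal
import Fermat.Agent.DSC.FracBot
import Fermat.Agent.DSC.OrbitSum
import Fermat.Agent.TOR.T1C.Semi

/-!
# MR / C / KI : the fields `KF A ⊇ KI A` of fractions of `A`-integral series

* `IntS A x`  : all coefficients of `x ∈ ℚ̄((q))` lie in `A`.
* `FinLev x`  : `x` is fixed by `Gal(ℚ̄/L₀)` for a number field `L₀`.
* `FixI A x`  : `x` is fixed by the inertia group `I` of `A`.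
* `KF A` = fractions `P / Q`, `P Q` integral of finite level;   `KI A` = fractions `P / Q`, `P Q` integral and fixed by `I` (`= Frac O_K((q))`, `K = ℚ̄^I`).

WARNING: neither field is root closed in `ℚ̄((q))` (`(1 + q)^(1/p)` is unbounded).
-/

set_option autoImplicit false
noncomputable section

namespace Fermat.Agent.MR.C

open HahnSeries Fermat.Agent.GR Fermat.Agent.GAL Fermat.Agent.GAL.KL Fermat.Agent.GAL.KLC Fermat.Agent.DSC

/-- the field of fractions, inside a field `Λ`, of a subring `R`. -/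
def fracField {Λ : Type*} [Field Λ] (R : Subring Λ) : Subfield Λ where
  carrier := {x | ∃ P ∈ R, ∃ Q ∈ R, Q ≠ 0 ∧ x * Q = P}
  mul_mem' := by
    rintro x y ⟨P, hP, Q, hQ, hQ0, h⟩ ⟨P', hP', Q', hQ', hQ0', h'⟩
    exact ⟨P * P', R.mul_mem hP hP', Q * Q', R.mul_mem hQ hQ', mul_ne_zero hQ0 hQ0', by
      rw [← h, ← h']; ring⟩
  one_mem' := ⟨1, R.one_mem, 1, R.one_mem, one_ne_zero, by ring⟩
  add_mem' := by
    rintro x y ⟨P, hP, Q, hQ, hQ0, h⟩ ⟨P', hP', Q', hQ', hQ0', h'⟩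
    exact ⟨P * Q' + P' * Q, R.add_mem (R.mul_mem hP hQ') (R.mul_mem hP' hQ), Q * Q',
      R.mul_mem hQ hQ', mul_ne_zero hQ0 hQ0', by rw [← h, ← h']; ring⟩
  zero_mem' := ⟨0, R.zero_mem, 1, R.one_mem, one_ne_zero, by ring⟩
  neg_mem' := by
    rintro x ⟨P, hP, Q, hQ, hQ0, h⟩
    exact ⟨-P, R.neg_mem hP, Q, hQ, hQ0, by rw [← h]; ring⟩
  inv_mem' := by
    rintro x ⟨P, hP, Q, hQ, hQ0, h⟩
    by_cases hx : x = 0
    · exact ⟨0, R.zero_mem, 1, R.one_mem, one_ne_zero, by rw [hx]; simp⟩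
    · refine ⟨Q, hQ, P, hP, ?_, ?_⟩
      · rw [← h]; exact mul_ne_zero hx hQ0
      · rw [← h]; field_simp

theorem mem_fracField {Λ : Type*} [Field Λ] {R : Subring Λ} {x : Λ} :
    x ∈ fracField R ↔ ∃ P ∈ R, ∃ Q ∈ R, Q ≠ 0 ∧ x * Q = P := Iff.rfl

theorem le_fracField {Λ : Type*} [Field Λ] (R : Subring Λ) {x : Λ} (hx : x ∈ R) : x ∈ fracField R :=
  ⟨x, hx, 1, R.one_mem, one_ne_zero, mul_one x⟩

variable (A : ValuationSubring Qb)

/-- all coefficients in `A`. -/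
def IntS (x : LaurentSeries Qb) : Prop := ∀ n, x.coeff n ∈ A

/-- finite level. -/
def FinLev (x : LaurentSeries Qb) : Prop :=
  ∃ L0 : IntermediateField ℚ Qb, FiniteDimensional ℚ L0 ∧
    ∀ σ : GQ, (∀ a ∈ L0, σ a = a) → galS σ x = x

/-- fixed by the inertia group. -/
def FixI (x : LaurentSeries Qb) : Prop := ∀ τ ∈ A.inertiaSubgroupIn ℚ, galS τ x = x

/-- the ring `A((q))` (`= CAR.BK.blS A = (coeffMap A.subtype).range`). -/
def OA : Subring (LaurentSeries Qb) := (ModularCurve.coeffMap A.subtype).range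

/-- (`exists_int_of_coeff_mem`, `coeffMap_coeff`; cf. `CAR.BK.bl_mem_S_iff`.) -/
theorem mem_OA {x : LaurentSeries Qb} : x ∈ OA A ↔ IntS A x := by
  constructor
  · rintro ⟨y, rfl⟩ n
    rw [ModularCurve.coeffMap_coeff]
    exact (y.coeff n).2
  · intro h
    obtain ⟨y, hy⟩ := exists_int_of_coeff_mem A x h
    exact ⟨y, hy⟩

/-- two series of finite level have a common level. -/
theorem KI_finLev_common {x y : LaurentSeries Qb} (hx : FinLev x) (hy : FinLev y) :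
    ∃ L0 : IntermediateField ℚ Qb, FiniteDimensional ℚ L0 ∧
      ∀ σ : GQ, (∀ a ∈ L0, σ a = a) → galS σ x = x ∧ galS σ y = y := by
  obtain ⟨L, hL, h⟩ := hx
  obtain ⟨L', hL', h'⟩ := hy
  exact ⟨L ⊔ L', IntermediateField.finiteDimensional_sup L L', fun σ hσ =>
    ⟨h σ fun a ha => hσ a ((le_sup_left : L ≤ L ⊔ L') ha),
      h' σ fun a ha => hσ a ((le_sup_right : L' ≤ L ⊔ L') ha)⟩⟩

theorem KI_finLev_of_forall {x : LaurentSeries Qb} (h : ∀ σ : GQ, galS σ x = x) : FinLev x :=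
  ⟨⊥, inferInstance, fun σ _ => h σ⟩

/-- the subfield of the series of finite level (compositum of the two number fields: `L0 ⊔ L0'`, `IntermediateField.finiteDimensional_sup`). -/
def FLev : Subfield (LaurentSeries Qb) where
  carrier := {x | FinLev x}
  mul_mem' := by
    intro x y hx hy
    obtain ⟨L, hL, h⟩ := KI_finLev_common hx hy
    exact ⟨L, hL, fun σ hσ => by rw [map_mul, (h σ hσ).1, (h σ hσ).2]⟩
  one_mem' := KI_finLev_of_forall fun σ => map_one _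
  add_mem' := by
    intro x y hx hy
    obtain ⟨L, hL, h⟩ := KI_finLev_common hx hy
    exact ⟨L, hL, fun σ hσ => by rw [map_add, (h σ hσ).1, (h σ hσ).2]⟩
  zero_mem' := KI_finLev_of_forall fun σ => map_zero _
  neg_mem' := by
    rintro x ⟨L, hL, h⟩
    exact ⟨L, hL, fun σ hσ => by rw [map_neg, h σ hσ]⟩
  inv_mem' := by
    rintro x ⟨L, hL, h⟩
    exact ⟨L, hL, fun σ hσ => by rw [map_inv₀, h σ hσ]⟩

/-- the subfield of the `I`-fixed series. -/
def FIx : Subfield (LaurentSeries Qb) where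
  carrier := {x | FixI A x}
  mul_mem' := fun ha hb τ hτ => by rw [map_mul, ha τ hτ, hb τ hτ]
  one_mem' := fun τ _ => map_one _
  add_mem' := fun ha hb τ hτ => by rw [map_add, ha τ hτ, hb τ hτ]
  zero_mem' := fun τ _ => map_zero _
  neg_mem' := fun ha τ hτ => by rw [map_neg, ha τ hτ]
  inv_mem' := fun _ ha τ hτ => by rw [map_inv₀, ha τ hτ]

/-- fractions of integral series of finite level. -/
def KF : Subfield (LaurentSeries Qb) := fracField (OA A ⊓ (FLev).toSubring)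

/-- fractions of integral `I`-fixed series: `Frac O_K((q))`. -/
def KI : Subfield (LaurentSeries Qb) := fracField (OA A ⊓ (FIx A).toSubring)

variable {A}

theorem mem_KF {x : LaurentSeries Qb} : x ∈ KF A ↔ ∃ P Q : LaurentSeries Qb,
    IntS A P ∧ FinLev P ∧ IntS A Q ∧ FinLev Q ∧ Q ≠ 0 ∧ x * Q = P := by
  constructor
  · rintro ⟨P, ⟨hP1, hP2⟩, Q, ⟨hQ1, hQ2⟩, hQ0, h⟩
    exact ⟨P, Q, (mem_OA A).1 hP1, hP2, (mem_OA A).1 hQ1, hQ2, hQ0, h⟩
  · rintro ⟨P, Q, hP1, hP2, hQ1, hQ2, hQ0, h⟩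
    exact ⟨P, ⟨(mem_OA A).2 hP1, hP2⟩, Q, ⟨(mem_OA A).2 hQ1, hQ2⟩, hQ0, h⟩

theorem mem_KI {x : LaurentSeries Qb} : x ∈ KI A ↔ ∃ P Q : LaurentSeries Qb,
    IntS A P ∧ FixI A P ∧ IntS A Q ∧ FixI A Q ∧ Q ≠ 0 ∧ x * Q = P := by
  constructor
  · rintro ⟨P, ⟨hP1, hP2⟩, Q, ⟨hQ1, hQ2⟩, hQ0, h⟩
    exact ⟨P, Q, (mem_OA A).1 hP1, hP2, (mem_OA A).1 hQ1, hQ2, hQ0, h⟩
  · rintro ⟨P, Q, hP1, hP2, hQ1, hQ2, hQ0, h⟩
    exact ⟨P, ⟨(mem_OA A).2 hP1, hP2⟩, Q, ⟨(mem_OA A).2 hQ1, hQ2⟩, hQ0, h⟩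

theorem fixI_of_mem_KI {x : LaurentSeries Qb} (hx : x ∈ KI A) : FixI A x := by
  obtain ⟨P, Q, -, hP, -, hQ, hQ0, h⟩ := mem_KI.1 hx
  have e : x = P * Q⁻¹ := by rw [← h, mul_assoc, mul_inv_cancel₀ hQ0, mul_one]
  rw [e]
  exact (FIx A).mul_mem (show P ∈ FIx A from hP) ((FIx A).inv_mem (show Q ∈ FIx A from hQ))

theorem finLev_of_mem_KF {x : LaurentSeries Qb} (hx : x ∈ KF A) : FinLev x := by
  obtain ⟨P, Q, -, hP, -, hQ, hQ0, h⟩ := mem_KF.1 hx
  have e : x = P * Q⁻¹ := by rw [← h, mul_assoc, mul_inv_cancel₀ hQ0, mul_one]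
  rw [e]
  exact FLev.mul_mem (show P ∈ FLev from hP) (FLev.inv_mem (show Q ∈ FLev from hQ))

/-- integral + finite level ⟹ `KF`. -/
theorem mem_KF_of_intS {x : LaurentSeries Qb} (h1 : IntS A x) (h2 : FinLev x) : x ∈ KF A :=
  le_fracField _ ⟨(mem_OA A).2 h1, h2⟩

theorem KI_finLev_C (c : Qb) : FinLev (HahnSeries.C c : LaurentSeries Qb) := by
  have hint : IsIntegral ℚ c := (AlgebraicClosure.isAlgebraic ℚ).isIntegral.isIntegral c
  refine ⟨IntermediateField.adjoin ℚ {c}, IntermediateField.adjoin.finiteDimensional hint,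
    fun σ hσ => ?_⟩
  rw [DSC.galS_C, hσ c (IntermediateField.mem_adjoin_simple_self ℚ c)]

theorem KI_intS_C {c : Qb} (hc : c ∈ A) : IntS A (HahnSeries.C c : LaurentSeries Qb) := by
  intro n
  rw [HahnSeries.C_apply, HahnSeries.coeff_single]
  split_ifs
  · exact hc
  · exact A.zero_mem

theorem C_mem_KF (c : Qb) : (HahnSeries.C c : LaurentSeries Qb) ∈ KF A := by
  rcases A.mem_or_inv_mem c with h | h
  · exact mem_KF_of_intS (KI_intS_C h) (KI_finLev_C c)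
  · have := (KF A).inv_mem (mem_KF_of_intS (KI_intS_C h) (KI_finLev_C c⁻¹))
    rwa [← map_inv₀, inv_inv] at this

/-- **(OI)** normal form of an integral `I`-fixed series.  PROOF: every nonzero coefficient `a` is in `EH I` (`coeff_mem_EH`), so `|a| = |p|^j` (`(isUnif_p A hp hA).gen`), `j ≥ 0` because `a ∈ A` and `|p| < 1`.
Take a coefficient with `j` minimal (`Nat.find` / `WellFounded.min`); divide by `p^j`. -/
theorem exists_pow_mul_of_fixI {p : ℕ} (hp : p.Prime) (hA : A.LiesOverPrime p)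
    {P : LaurentSeries Qb} (h1 : IntS A P) (h2 : FixI A P) (h0 : P ≠ 0) :
    ∃ (j : ℕ) (φ : LaurentSeries (kA A)), φ ≠ 0 ∧ HasRed A (HahnSeries.C ((p : Qb) ^ j)⁻¹ * P) φ := by
  classical
  have hU := isUnif_p A hp hA
  have hp0 : (p : Qb) ≠ 0 := hU.ne_zero
  have hv0 : 0 < A.valuation (p : Qb) := zero_lt_iff.2 ((Valuation.ne_zero_iff _).2 hp0)
  have hv1 : A.valuation (p : Qb) < 1 := A.mem_nonunits_iff.1 hU.mem
  -- every nonzero coefficient has value `|p|^j`, `j : ℕ`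
  have hnat : ∀ n, P.coeff n ≠ 0 → ∃ j : ℕ, A.valuation (P.coeff n) = A.valuation (p : Qb) ^ j := by
    intro n hn
    obtain ⟨j, hj⟩ := hU.gen _ (coeff_mem_EH h2 n) hn
    have hle : A.valuation (P.coeff n) ≤ 1 := (A.valuation_le_one_iff _).2 (h1 n)
    have hj0 : 0 ≤ j := by
      by_contra hneg
      push Not at hneg
      rw [hj] at hle
      have h3 : 1 < A.valuation (p : Qb) ^ j := by
        obtain ⟨m, hm⟩ : ∃ m : ℕ, j = -((m : ℤ) + 1) := ⟨(-j - 1).toNat, by omega⟩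
        rw [hm, zpow_neg, one_lt_inv₀ (zpow_pos hv0 _)]
        have : A.valuation (p : Qb) ^ ((m : ℤ) + 1) = A.valuation (p : Qb) ^ (m + 1) := by
          rw [← zpow_natCast]; push_cast; rfl
        rw [this]
        exact pow_lt_one₀ hv0.le hv1 (Nat.succ_ne_zero m)
      exact absurd hle (not_le.2 h3)
    refine ⟨j.toNat, ?_⟩
    rw [hj, ← zpow_natCast, Int.toNat_of_nonneg hj0]
  have hex : ∃ j : ℕ, ∃ n, P.coeff n ≠ 0 ∧ A.valuation (P.coeff n) = A.valuation (p : Qb) ^ j := by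
    obtain ⟨n, hn⟩ : ∃ n, P.coeff n ≠ 0 := by
      by_contra hcon
      push Not at hcon
      exact h0 (HahnSeries.ext (funext hcon))
    obtain ⟨j, hj⟩ := hnat n hn
    exact ⟨j, n, hn, hj⟩
  set j := Nat.find hex with hjdef
  obtain ⟨n₀, hn₀, hjn₀⟩ := Nat.find_spec hex
  have hcoeff : ∀ n, (HahnSeries.C ((p : Qb) ^ j)⁻¹ * P).coeff n = ((p : Qb) ^ j)⁻¹ * P.coeff n := by
    intro n
    rw [HahnSeries.C_mul_eq_smul, HahnSeries.coeff_smul, smul_eq_mul]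
  have hvj : 0 < A.valuation (p : Qb) ^ j := pow_pos hv0 j
  have hint : ∀ n, (HahnSeries.C ((p : Qb) ^ j)⁻¹ * P).coeff n ∈ A := by
    intro n
    rw [hcoeff]
    by_cases hn : P.coeff n = 0
    · rw [hn, mul_zero]; exact A.zero_mem
    · obtain ⟨i, hi⟩ := hnat n hn
      have hji : j ≤ i := Nat.find_min' hex ⟨n, hn, hi⟩
      rw [← A.valuation_le_one_iff, map_mul, map_inv₀, map_pow, hi, inv_mul_le_iff₀ hvj, mul_one]
      exact pow_le_pow_of_le_one hv0.le hv1.le hji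
  obtain ⟨y, hy⟩ := exists_int_of_coeff_mem A _ hint
  refine ⟨j, ModularCurve.coeffMap (IsLocalRing.residue A) y, ?_, ?_⟩
  · intro hzero
    have h3 := congrArg (fun f => HahnSeries.coeff f n₀) hzero
    simp only [ModularCurve.coeffMap_coeff, HahnSeries.coeff_zero] at h3
    have h4 : ((y.coeff n₀ : A) : Qb) = ((p : Qb) ^ j)⁻¹ * P.coeff n₀ := by
      have := congrArg (fun f => HahnSeries.coeff f n₀) hy
      simp only [ModularCurve.coeffMap_coeff] at this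
      rw [hcoeff] at this
      exact this
    have h5 : A.valuation ((y.coeff n₀ : A) : Qb) = 1 := by
      rw [h4, map_mul, map_inv₀, map_pow, hjn₀, inv_mul_cancel₀ hvj.ne']
    have h6 : IsUnit (y.coeff n₀) := (A.valuation_eq_one_iff _).2 h5
    exact ((IsLocalRing.residue_ne_zero_iff_isUnit _).2 h6) h3
  · rw [← hy]
    exact HasRed.of_int y

/-- **(KI-1)** the Gauss valuation of `KI` is discrete with uniformiser `p`. -/
theorem exists_zpow_hasRed {p : ℕ} (hp : p.Prime) (hA : A.LiesOverPrime p)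
    {x : LaurentSeries Qb} (hx : x ∈ KI A) (hx0 : x ≠ 0) :
    ∃ (m : ℤ) (φ : LaurentSeries (kA A)), φ ≠ 0 ∧ HasRed A (HahnSeries.C ((p : Qb) ^ m) * x) φ := by
  obtain ⟨P, Q, hP1, hP2, hQ1, hQ2, hQ0, h⟩ := mem_KI.1 hx
  have hP0 : P ≠ 0 := by rw [← h]; exact mul_ne_zero hx0 hQ0
  have hp0 : (p : Qb) ≠ 0 := by exact_mod_cast hp.ne_zero
  obtain ⟨j, φ, hφ, hr⟩ := exists_pow_mul_of_fixI hp hA hP1 hP2 hP0
  obtain ⟨j', ψ, hψ, hr'⟩ := exists_pow_mul_of_fixI hp hA hQ1 hQ2 hQ0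
  refine ⟨(j' : ℤ) - j, φ / ψ, div_ne_zero hφ hψ, ?_⟩
  have h1 := hr.div hr' hψ
  have e : HahnSeries.C ((p : Qb) ^ j)⁻¹ * P / (HahnSeries.C ((p : Qb) ^ j')⁻¹ * Q)
      = HahnSeries.C ((p : Qb) ^ ((j' : ℤ) - j)) * x := by
    have hc : (HahnSeries.C ((p : Qb) ^ j')⁻¹ : LaurentSeries Qb) ≠ 0 :=
      GV_C_ne_zero (inv_ne_zero (pow_ne_zero _ hp0))
    rw [div_eq_iff (mul_ne_zero hc hQ0), ← h, zpow_sub₀ hp0, zpow_natCast, zpow_natCast]
    have e2 : (HahnSeries.C ((p : Qb) ^ j)⁻¹ : LaurentSeries Qb)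
        = HahnSeries.C ((p : Qb) ^ j' / (p : Qb) ^ j) * HahnSeries.C ((p : Qb) ^ j')⁻¹ := by
      rw [← map_mul]
      congr 1
      field_simp
    rw [e2]
    ring
  rwa [e] at h1

theorem nrm_of_mem_KI {p : ℕ} (hp : p.Prime) (hA : A.LiesOverPrime p)
    {x : LaurentSeries Qb} (hx : x ∈ KI A) (hx0 : x ≠ 0) : Nrm A x := by
  obtain ⟨m, φ, hφ, h⟩ := exists_zpow_hasRed hp hA hx hx0
  exact ⟨_, zpow_ne_zero _ (by exact_mod_cast hp.ne_zero), φ, hφ, h⟩

/-- uniqueness of the exponent (`vc_eq_of_hasRed` with `vc = A.valuation`; `|p| < 1` so `m ↦ |p|^m` is injective). -/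
theorem zpow_unique {p : ℕ} (hp : p.Prime) (hA : A.LiesOverPrime p) {x : LaurentSeries Qb}
    {m m' : ℤ} {φ φ' : LaurentSeries (kA A)} (hφ : φ ≠ 0) (hφ' : φ' ≠ 0)
    (h : HasRed A (HahnSeries.C ((p : Qb) ^ m) * x) φ)
    (h' : HasRed A (HahnSeries.C ((p : Qb) ^ m') * x) φ') : m = m' := by
  have hU := isUnif_p A hp hA
  have hp0 : (p : Qb) ≠ 0 := hU.ne_zero
  have hv0 : 0 < A.valuation (p : Qb) := zero_lt_iff.2 ((Valuation.ne_zero_iff _).2 hp0)
  have hv1 : A.valuation (p : Qb) < 1 := A.mem_nonunits_iff.1 hU.mem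
  have h1 := vc_eq_of_hasRed (vc := A.valuation) (fun a => A.valuation_le_one_iff a)
    (zpow_ne_zero m hp0) (zpow_ne_zero m' hp0) hφ hφ' h h'
  rw [map_zpow₀, map_zpow₀] at h1
  exact zpow_right_injective₀ hv0 hv1.ne h1

/-- **(KF-1)** (`DSC.exists_frac_bot`: `x Q = P`, `P Q ∈ PH ⊥ M` = `ℚ̄`-span of `ℤ((q))`-series; such a series is of finite level and `c • P` is integral for a suitable constant `c ≠ 0`
(`GR.exists_normalize`, or clear the finitely many denominators); multiply `P` and `Q` by the product of the two constants.) -/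
theorem FL_le_KF (M : ℕ) {x : LaurentSeries Qb} (hx : x ∈ FL Qb M) : x ∈ KF A := by
  obtain ⟨P, hP, Q, hQ, hQ0, h⟩ := exists_frac_bot hx
  have key : ∀ z ∈ PH ⊥ M, z ∈ KF A := by
    intro z hz
    induction hz using Submodule.span_induction with
    | mem z hz =>
      obtain ⟨J, -, rfl⟩ := hz
      refine mem_KF_of_intS (fun n => ?_) ⟨⊥, inferInstance, fun σ _ => galS_intS σ J⟩
      have e : (intS Qb J).coeff n = ((J.coeff n : ℤ) : Qb) := ModularCurve.coeffMap_coeff _ _ _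
      rw [e]
      exact intCast_mem A _
    | zero => exact zero_mem _
    | add y z _ _ hy hz => exact add_mem hy hz
    | smul c z _ hz =>
      have e : c • z = HahnSeries.C (c : Qb) * z := (HahnSeries.C_mul_eq_smul).symm
      rw [e]
      exact mul_mem (C_mem_KF _) hz
  have e : x = P * Q⁻¹ := by rw [← h, mul_assoc, mul_inv_cancel₀ hQ0, mul_one]
  rw [e]
  exact mul_mem (key P hP) (inv_mem (key Q hQ))

/-- the inertia group preserves integrality (`τ A = A`: `red_decompHom_of_inertia` / `decompHom`, cf. `T1C.hasRed_galS_inertia`). -/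
theorem IntS.galS {τ : GQ} (hτ : τ ∈ A.inertiaSubgroupIn ℚ) {x : LaurentSeries Qb} (h : IntS A x) :
    IntS A (galS τ x) := by
  intro n
  rw [galS_coeff]
  obtain ⟨hd, -⟩ := red_decompHom_of_inertia hτ
  exact (decompHom τ hd ⟨x.coeff n, h n⟩).2

/-- **(KF-3)  norm trick.**  `x Q = P`.  The `I`-orbit `O` of `Q` is finite (`DSC.finite_orbit`).  `N := ∏_{Q' ∈ O} Q'` is integral, `I`-fixed (`I` permutes `O`, as in `DSC.exists_fixed_of_stable`), nonzero;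
`x N = P ∏_{Q' ≠ Q} Q'` is integral, and `I`-fixed because `x` and `N` are. -/
theorem mem_KI_of_mem_KF {x : LaurentSeries Qb} (hx : x ∈ KF A) (hI : FixI A x) : x ∈ KI A := by
  classical
  obtain ⟨P, ⟨hPA, -⟩, Q, ⟨hQA, L0, hL0, hL⟩, hQ0, h⟩ := hx
  have hfin : (Set.range fun τ : A.inertiaSubgroupIn ℚ => galS (τ : GQ) Q).Finite := by
    refine (finite_orbit L0 hL).subset ?_
    rintro _ ⟨τ, rfl⟩
    exact ⟨τ, rfl⟩
  set T : Finset (LaurentSeries Qb) := hfin.toFinset with hT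
  have hmemT : ∀ z, z ∈ T ↔ ∃ τ : A.inertiaSubgroupIn ℚ, galS (τ : GQ) Q = z := by
    intro z
    rw [hT, Set.Finite.mem_toFinset]
    exact Iff.rfl
  have hQT : Q ∈ T := (hmemT Q).2 ⟨1, galS_one Q⟩
  have hTA : ∀ z ∈ T, z ∈ OA A := by
    intro z hz
    obtain ⟨τ, rfl⟩ := (hmemT z).1 hz
    exact (mem_OA A).2 (((mem_OA A).1 hQA).galS τ.2)
  have hT0 : ∀ z ∈ T, z ≠ 0 := by
    intro z hz
    obtain ⟨τ, rfl⟩ := (hmemT z).1 hz
    exact fun h0 => hQ0 ((orbitSum_galS_eq_zero _ _).1 h0)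
  have hfix : FixI A (∏ z ∈ T, z) := by
    intro τ hτ
    rw [map_prod]
    have hinj : Function.Injective (galS τ) := by
      intro a b hab
      have := (orbitSum_galS_eq_zero τ (a - b)).1 (by rw [map_sub, hab, sub_self])
      exact sub_eq_zero.1 this
    have hmaps : ∀ z ∈ T, galS τ z ∈ T := by
      intro z hz
      obtain ⟨σ, rfl⟩ := (hmemT z).1 hz
      exact (hmemT _).2 ⟨⟨τ, hτ⟩ * σ, galS_mul _ _ _⟩
    have himg : T.image (galS τ) = T :=
      Finset.eq_of_subset_of_card_le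
        (by
          intro z hz
          obtain ⟨w, hw, rfl⟩ := Finset.mem_image.1 hz
          exact hmaps w hw)
        (by rw [Finset.card_image_of_injective _ hinj])
    calc ∏ z ∈ T, galS τ z = ∏ z ∈ T.image (galS τ), z :=
          (Finset.prod_image (f := fun z => z) (fun a _ b _ h => hinj h)).symm
      _ = ∏ z ∈ T, z := by rw [himg]
  have hxN : x * ∏ z ∈ T, z = P * ∏ z ∈ T.erase Q, z := by
    rw [← Finset.mul_prod_erase T (fun z => z) hQT, ← mul_assoc, h]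
  refine ⟨x * ∏ z ∈ T, z, ⟨?_, ?_⟩, ∏ z ∈ T, z, ⟨Subring.prod_mem _ hTA, hfix⟩,
    Finset.prod_ne_zero_iff.2 hT0, rfl⟩
  · rw [hxN]
    exact Subring.mul_mem _ hPA (Subring.prod_mem _ fun z hz => hTA z (Finset.mem_of_mem_erase hz))
  · intro τ hτ
    rw [map_mul, hI τ hτ, hfix τ hτ]

/-- `NmL` preserves `KF` (`NmL_coeffMap` for `A.subtype` gives integrality, for `σ` gives the level; `NmL` is multiplicative, `HeckeRed_NmL_ne_zero`). -/
theorem NmL_mem_KF (r : ℕ) [NeZero r] {x : LaurentSeries Qb} (hx : x ∈ KF A) :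
    NmL Qb r x ∈ KF A := by
  obtain ⟨P, ⟨⟨P', hP'⟩, L0, hL0, hL⟩, Q, ⟨⟨Q', hQ'⟩, L1, hL1, hL'⟩, hQ0, h⟩ := hx
  refine ⟨NmL Qb r P, ⟨⟨NmL A r P', ?_⟩, L0, hL0, fun σ hσ => ?_⟩, NmL Qb r Q,
    ⟨⟨NmL A r Q', ?_⟩, L1, hL1, fun σ hσ => ?_⟩, Fermat.Agent.MR.A.HeckeRed_NmL_ne_zero r hQ0, ?_⟩
  · rw [NmL_coeffMap, hP']
  · show ModularCurve.coeffMap (σ : Qb →+* Qb) (NmL Qb r P) = _
    rw [NmL_coeffMap]
    exact congrArg _ (hL σ hσ)
  · rw [NmL_coeffMap, hQ']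
  · show ModularCurve.coeffMap (σ : Qb →+* Qb) (NmL Qb r Q) = _
    rw [NmL_coeffMap]
    exact congrArg _ (hL' σ hσ)
  · rw [← map_mul, h]

theorem FixI.NmL (r : ℕ) [NeZero r] {x : LaurentSeries Qb} (hx : FixI A x) :
    FixI A (NmL Qb r x) := by
  intro τ hτ
  show ModularCurve.coeffMap (τ : Qb →+* Qb) (GAL.NmL Qb r x) = _
  rw [NmL_coeffMap]
  exact congrArg _ (hx τ hτ)

/-- (`NmL_qExpand`, `qExpand_C`, as in `GAL.heckeS_C`.) -/
theorem NmL_C' (r : ℕ) [NeZero r] (c : Qb) :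
    NmL Qb r (HahnSeries.C c) = HahnSeries.C (c ^ r) := by
  have h1 : ModularCurve.qExpand Qb r (HahnSeries.C c) = HahnSeries.C c := ModularCurve.qExpand_C r c
  conv_lhs => rw [← h1]
  rw [NmL_qExpand, map_pow]

end Fermat.Agent.MR.C
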