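import Fermat.Agent.ORD.P5.Conc

/-!
# MR / C : the concrete section `G ≡ 1 mod λ` of a deep class at level `M₁ p` (input of (SEP))

`t = α x * β x`, `v₁ = vG`, `v₂ = vG ∘ w_p`.  If `H ≡ 1 mod λ^p` at both valuations and `p ∣ div H` then there is
`G` with `G^p H` integral over `ℚ̄[t]` and `G ≡ 1 mod λ` at both valuations.
-/

set_option autoImplicit false

open Polynomial ModularCurve AlgebraicCurve

noncomputable section

namespace Fermat.Agent.MR.C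

open Fermat.Agent.GR Fermat.Agent.GAL Fermat.Agent.GAL.KL Fermat.Agent.GAL.KLC Fermat.Agent.S24
open Fermat.Agent.GR.HeckeField Fermat.Agent.TOR.GB Fermat.Agent.TOR Fermat.Agent.TOR.T1C
open Fermat.Agent.TOR.KL2 Fermat.Agent.TOR.T1 Fermat.Agent.ORD Fermat.Agent.ORD.P4 Fermat.Agent.ORD.P5
open Fermat.Agent.S24.FF

section Abs

variable {L F Γ₀ : Type*} [Field L] [Field F] [Algebra L F] [LinearOrderedCommGroupWithZero Γ₀]
variable {v₁ v₂ : Valuation F Γ₀} {t : F} {p : ℕ} {γ₀ : Γ₀}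

/-- abstract form (one chart). -/
theorem nearLam_abs [IsAlgClosed L] [CharZero L] (hA₁ : Arch v₁) (hA₂ : Arch v₂)
    (S : Setup L v₁ v₂ t) {d : ℕ} (β : Fin d → F) (hβ : ON2 L v₁ v₂ t β) (hβs : Spans L t β)
    (D : PData v₁ p γ₀) (hC : Chart L v₁ v₂ t p)
    {W : F} (hW : NN v₁ v₂ (W - 1) ≤ γ₀ ^ p) (hU : ∀ c : L, LocPow L t p W c) :
    ∃ G ∈ II L t p W, NN v₁ v₂ (G - 1) ≤ γ₀ := by
  obtain ⟨b, hb⟩ := exists_basis_BB S.G1.inj β (hβ.inj S) hβs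
  have hγ1 : γ₀ ^ p < 1 := D.pow_lt.trans D.γ_lt
  have hT := thick2_of_rcNN hA₁ S β hβ hβs b hb D (rcNN_of_chart S D hC)
  obtain ⟨G₀, hG₀, hG₀1⟩ := near_one2p S β hβ hβs b hb D (lt_of_le_of_lt hW hγ1) hC hU
  exact near_lam2 hA₁ hA₂ D hT hG₀ hG₀1 hW

end Abs

section T1

variable {K F₀ F k Γ' Γ₀ : Type*} [Field K] [Field F₀] [Field F] [Algebra K F₀]
  [Algebra K F] [Field k] [LinearOrderedCommGroupWithZero Γ'] [LinearOrderedCommGroupWithZero Γ₀]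
  {v₀ : Valuation F₀ Γ'} {ρ₀ : v₀.integer →+* LaurentSeries k} {v : Valuation F Γ₀}
  {ρ : v.integer →+* LaurentSeries k} {α β : F₀ →ₐ[K] F} {w : F ≃ₐ[K] F} {q : ℕ} [NeZero q]
  {x x' : F₀} {ξ ξ' : LaurentSeries k} {m : ℕ}

variable [IsAlgClosed K] [CharZero K] [IsFF1 K F₀] [IsFF1 K F]
variable {sK : K ≃+* K} {s₀ : F₀ ≃+* F₀} {s : F ≃+* F}

/-- two-level form. -/
theorem nearLam_T1 [ExpChar k q] (H : Lvl K ρ₀ ρ α β w q) (X : XDat K ρ₀ x x' ξ ξ' m q)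
    (hq : 2 ≤ q) (hA : Arch v) {P₀ : Place K F₀} {P₁ : Place K F} (C : Cusp α β x m q P₀ P₁)
    (hs : Semi ρ₀ ρ α β sK s₀ s (coeffMap (frobenius k q))) (hsw : ∀ z, s (w z) = w (s z))
    (hsx : s₀ x = x) {γ₀ : Γ₀} (D : PData v q γ₀)
    {W : F} (hW1 : v (W - 1) ≤ γ₀ ^ q) (hW2 : v (w W - 1) ≤ γ₀ ^ q)
    (hdiv : ∀ P : Place K F, (q : ℤ) ∣ P.ord W) :
    ∃ G : F, IsInt K (tt α β x) (G ^ q * W) ∧ v (G - 1) ≤ γ₀ ∧ v (w G - 1) ≤ γ₀ := by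
  have hn : 0 < q := by omega
  have htr := transcendental_tt H X
  have hW0 : W ≠ 0 := by
    rintro rfl
    rw [zero_sub, Valuation.map_neg, map_one] at hW1
    exact absurd (lt_of_le_of_lt hW1 (D.pow_lt.trans D.γ_lt)) (lt_irrefl _)
  have hNN : NN v (vw K v w) (W - 1) ≤ γ₀ ^ q := by
    rw [NN_le_iff]
    refine ⟨hW1, ?_⟩
    rw [vw_apply, map_sub, map_one]
    exact hW2
  obtain ⟨G, hG, hG1⟩ := nearLam_abs hA (arch_vw hA w) (setup H X) _ (on2_ee H X hq)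
    (spans_ee H X hq C) D (chart_t H X hq hA C hs hsw hsx hn) hNN
    (fun c => locPow_of_dvd htr hn hW0 hdiv c)
  rw [NN_le_iff] at hG1
  refine ⟨G, hG, hG1.1, ?_⟩
  have h2 := hG1.2
  rwa [vw_apply, map_sub w, map_one w] at h2

end T1

variable (M₁ p : ℕ) [NeZero M₁] [NeZero p]

/-- the chart parameter `t = α x * β x` of level `M₁ p`. -/
abbrev tP : FN (M₁ * p) := T1.tt (alp M₁ p) (bet M₁ p) (xF M₁)

/-- **concrete form, valuations.** -/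
theorem nearLam_val (hM : AdmLevel M₁) (hp : p.Prime) (hpM : ¬ p ∣ M₁)
    (A : ValuationSubring Qb) (hA : A.LiesOverPrime p) {lam : Qb}
    (hlam : A.valuation lam ^ (p - 1) = A.valuation (p : Qb))
    (W : FN (M₁ * p))
    (hW1 : vG A (M₁ * p) (W - 1) ≤ vG A (M₁ * p) (algebraMap Qb (FL Qb (M₁ * p)) lam) ^ p)
    (hW2 : vG A (M₁ * p) (wq M₁ p W - 1) ≤ vG A (M₁ * p) (algebraMap Qb (FL Qb (M₁ * p)) lam) ^ p)
    (hdiv : ∀ P : Place Qb (FL Qb (M₁ * p)), (p : ℤ) ∣ P.ord W) :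
    ∃ G : FN (M₁ * p), IsInt Qb (tP M₁ p) (G ^ p * W) ∧
      vG A (M₁ * p) (G - 1) ≤ vG A (M₁ * p) (algebraMap Qb (FL Qb (M₁ * p)) lam) ∧
      vG A (M₁ * p) (wq M₁ p G - 1) ≤ vG A (M₁ * p) (algebraMap Qb (FL Qb (M₁ * p)) lam) := by
  have hchar : CharP (kA A) p := charP_residueField hp hA
  have : ExpChar (kA A) p := ExpChar.prime hp
  have H := lvl A M₁ p hp hpM
  have X := xDat M₁ p hp A hA (spansStatement M₁) (riStatement M₁) (ctStatement M₁ p hM hp hpM A hA)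
  obtain ⟨P₀, hP₀⟩ := exists_place_Q M₁
  obtain ⟨P₁, hP₁⟩ := exists_place_Q (M₁ * p)
  have C := cusp M₁ p hp hpM P₀ hP₀ P₁ hP₁
  have hArch := arch A (M₁ * p) hp hA
  have hwg : ∀ (σ : GQ) (z : FN (M₁ * p)),
      galF (M₁ * p) σ (wq M₁ p z) = wq M₁ p (galF (M₁ * p) σ z) :=
    fun σ z => (wq_galF hp hpM σ z).symm
  obtain ⟨σ, hσ⟩ := Fermat.Agent.Lib.FrobeniusExists.exists_isFrobeniusAt_rat A hp hA
  exact nearLam_T1 H X hp.two_le hArch C (semi_frob M₁ p hσ) (hwg σ) (galF_xF M₁ σ)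
    (pData_of_val A (M₁ * p) hp hA hlam) hW1 hW2 hdiv

/-- depth `ε` in terms of the Gauss valuation (non strict). -/
theorem vG_sub_one_le_of_dp' (A : ValuationSubring Qb) (N : ℕ) {ε : Qb} (hε : ε ≠ 0) {W : FN N}
    {b : LaurentSeries (kA A)} (h : P2.Dp A ε (W : LaurentSeries Qb) b) :
    vG A N (W - 1) ≤ vG A N (algebraMap Qb (FL Qb N) ε) := by
  have hε' : algebraMap Qb (FL Qb N) ε ≠ 0 := (_root_.map_ne_zero _).2 hε
  have h1 : vG A N (algebraMap Qb (FL Qb N) ε) ≠ 0 := (Valuation.ne_zero_iff _).2 hε'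
  rw [← div_le_one₀ (zero_lt_iff.2 h1), ← map_div₀, ValThm_le_one_iff]
  refine ⟨b, ?_⟩
  have e : (((W - 1) / algebraMap Qb (FL Qb N) ε : FL Qb N) : LaurentSeries Qb)
      = ((W : LaurentSeries Qb) - 1) / HahnSeries.C ε := by
    rw [← ValThm_coe_algebraMap N ε]
    rfl
  rw [e]
  exact h

/-- conversely. -/
theorem exists_dp_of_vG_le (A : ValuationSubring Qb) (N : ℕ) {ε : Qb} (hε : ε ≠ 0) {W : FN N}
    (h : vG A N (W - 1) ≤ vG A N (algebraMap Qb (FL Qb N) ε)) :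
    ∃ b : LaurentSeries (kA A), P2.Dp A ε (W : LaurentSeries Qb) b := by
  have hε' : algebraMap Qb (FL Qb N) ε ≠ 0 := (_root_.map_ne_zero _).2 hε
  have h1 : vG A N (algebraMap Qb (FL Qb N) ε) ≠ 0 := (Valuation.ne_zero_iff _).2 hε'
  rw [← div_le_one₀ (zero_lt_iff.2 h1), ← map_div₀, ValThm_le_one_iff] at h
  obtain ⟨b, hb⟩ := h
  refine ⟨b, ?_⟩
  have e : (((W - 1) / algebraMap Qb (FL Qb N) ε : FL Qb N) : LaurentSeries Qb)
      = ((W : LaurentSeries Qb) - 1) / HahnSeries.C ε := by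
    rw [← ValThm_coe_algebraMap N ε]
    rfl
  rw [e] at hb
  exact hb

/-- **concrete form, depth language.**  `H ≡ 1 mod λ^p` at both cusps, `p ∣ div H`  ⟹  `G` with `G^p H` integral over `ℚ̄[t]` and
`G = 1 + λ θ_∞`, `w_p G = 1 + λ θ_0` with `θ_∞, θ_0` Gauss-integral. -/
theorem nearLam (hM : AdmLevel M₁) (hp : p.Prime) (hpM : ¬ p ∣ M₁)
    (A : ValuationSubring Qb) (hA : A.LiesOverPrime p) {ζ : Qbˣ} (hζ : IsPrimitiveRoot ζ p)
    (W : FN (M₁ * p)) {b b' : LaurentSeries (kA A)}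
    (hW1 : P2.Dp A (P2.lam ζ ^ p) (W : LaurentSeries Qb) b)
    (hW2 : P2.Dp A (P2.lam ζ ^ p) ((wq M₁ p W : FN (M₁ * p)) : LaurentSeries Qb) b')
    (hdiv : ∀ P : Place Qb (FL Qb (M₁ * p)), (p : ℤ) ∣ P.ord W) :
    ∃ (G : FN (M₁ * p)) (θ θ' : LaurentSeries (kA A)), IsInt Qb (tP M₁ p) (G ^ p * W) ∧
      P2.Dp A (P2.lam ζ) (G : LaurentSeries Qb) θ ∧
      P2.Dp A (P2.lam ζ) ((wq M₁ p G : FN (M₁ * p)) : LaurentSeries Qb) θ' := by
  have hl : P2.lam ζ ≠ 0 := P2.lam_ne_zero hp hζ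
  have hlp : P2.lam ζ ^ p ≠ 0 := pow_ne_zero p hl
  have hζ' : IsPrimitiveRoot (ζ : Qb) p := IsPrimitiveRoot.coe_units_iff.2 hζ
  have hlam : A.valuation (P2.lam ζ) ^ (p - 1) = A.valuation (p : Qb) :=
    (P3.valuation_natCast_eq A hp hA hζ').symm
  obtain ⟨G, hG, h1, h2⟩ := nearLam_val M₁ p hM hp hpM A hA hlam W
    (by have := vG_sub_one_le_of_dp' A (M₁ * p) hlp hW1; rwa [map_pow, map_pow] at this)
    (by have := vG_sub_one_le_of_dp' A (M₁ * p) hlp hW2; rwa [map_pow, map_pow] at this) hdiv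
  obtain ⟨θ, hθ⟩ := exists_dp_of_vG_le A (M₁ * p) hl h1
  obtain ⟨θ', hθ'⟩ := exists_dp_of_vG_le A (M₁ * p) hl h2
  exact ⟨G, θ, θ', hG, hθ, hθ'⟩

end Fermat.Agent.MR.C
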