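import Fermat.Agent.TOR.GBB.OrdNm
import Fermat.Agent.TOR.T1C.Cusp

/-!
# MR / C : existence of `n`-th roots in `k((q))`

`exists_pow_eq_of_dvd_order` : over an algebraically closed field of characteristic zero a nonzero
Laurent series whose order is divisible by `n` is an `n`-th power.

`exists_root_wq` : for `H ∈ FN (M₁ p)` with all orders divisible by `n`, the series `w_p H` has an
`n`-th root in `ℚ̄((q))`; `IsKum.exists_root_wq` is the form used for `h10`, `u0`.
-/

set_option autoImplicit false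

open ModularCurve AlgebraicCurve

noncomputable section

namespace Fermat.Agent.MR.C

open Fermat.Agent.GAL Fermat.Agent.S24 Fermat.Agent.GR.HeckeField Fermat.Agent.TOR

theorem rootEx_binomialSeries_mul {k : Type*} [Field k] [CharZero k] (r : ℚ) (n : ℕ) :
    PowerSeries.binomialSeries k ((n : ℚ) * r) = (PowerSeries.binomialSeries k r) ^ n := by
  induction n with
  | zero => simp
  | succ m ih =>
    rw [Nat.cast_succ, add_mul, one_mul, PowerSeries.binomialSeries_add, ih, pow_succ]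

/-- `1 + Y` (`Y` without constant term) is an `n`-th power in `k[[q]]`. -/
theorem rootEx_powerSeries {k : Type*} [Field k] [CharZero k] {n : ℕ} (hn : n ≠ 0)
    (Y : PowerSeries k) (hY : PowerSeries.constantCoeff Y = 0) :
    ∃ Z : PowerSeries k, Z ^ n = 1 + Y := by
  have hs : PowerSeries.HasSubst Y := PowerSeries.HasSubst.of_constantCoeff_zero' hY
  refine ⟨(PowerSeries.binomialSeries k (1 / (n : ℚ))).subst Y, ?_⟩
  rw [← PowerSeries.subst_pow hs, ← rootEx_binomialSeries_mul]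
  have : (n : ℚ) * (1 / (n : ℚ)) = ((1 : ℕ) : ℚ) := by
    field_simp
    simp
  rw [this, PowerSeries.binomialSeries_nat, pow_one, PowerSeries.subst_add hs,
    PowerSeries.subst_X hs]
  congr 1
  rw [← PowerSeries.coe_substAlgHom hs, map_one]

/-- **`n`-th roots in `k((q))`.** -/
theorem exists_pow_eq_of_dvd_order {k : Type*} [Field k] [IsAlgClosed k] [CharZero k] {n : ℕ}
    (hn : n ≠ 0) {X : LaurentSeries k} (hX : X ≠ 0) (h : (n : ℤ) ∣ X.order) :
    ∃ b : LaurentSeries k, b ^ n = X := by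
  obtain ⟨m, hm⟩ := h
  have h1 := LaurentSeries.single_order_mul_powerSeriesPart X
  set P := X.powerSeriesPart with hP
  have ha : PowerSeries.constantCoeff P ≠ 0 := by
    rw [hP, ← PowerSeries.coeff_zero_eq_constantCoeff_apply, LaurentSeries.powerSeriesPart_coeff]
    simpa using (HahnSeries.coeff_order_eq_zero.not.2 hX)
  set a := PowerSeries.constantCoeff P with haa
  obtain ⟨c, hc⟩ := IsAlgClosed.exists_pow_nat_eq a (Nat.pos_of_ne_zero hn)
  obtain ⟨Z, hZ⟩ := rootEx_powerSeries hn (PowerSeries.C a⁻¹ * P - 1) (by simp [← haa, ha])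
  refine ⟨HahnSeries.single m (1 : k) * HahnSeries.C c * (Z : LaurentSeries k), ?_⟩
  rw [mul_pow, mul_pow, ← h1, HahnSeries.single_pow, ← map_pow, hc]
  have h2 : ((Z : LaurentSeries k)) ^ n = HahnSeries.C a⁻¹ * (P : LaurentSeries k) := by
    rw [← PowerSeries.coe_pow, hZ]
    simp
  rw [h2, hm]
  have h3 : ((HahnSeries.C a : LaurentSeries k) *
      ((HahnSeries.C a⁻¹ : LaurentSeries k) * (P : LaurentSeries k))) = P := by
    rw [← mul_assoc, ← map_mul, mul_inv_cancel₀ ha, map_one, one_mul]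
  rw [mul_assoc, h3, one_pow, nsmul_eq_mul]

variable {M₁ p : ℕ} [NeZero M₁] [NeZero p]

/-- the series of `w_p H` is an `n`-th power as soon as all orders of `H` are divisible by `n`. -/
theorem exists_root_wq {n : ℕ} (hn : n ≠ 0) {H : FN (M₁ * p)} (hH : H ≠ 0)
    (hd : ∀ P : Place Qb (FN (M₁ * p)), (n : ℤ) ∣ P.ord H) :
    ∃ b : LaurentSeries Qb, b ≠ 0 ∧ b ^ n = ((GB.wq M₁ p H : FN (M₁ * p)) : LaurentSeries Qb) := by
  obtain ⟨P, hP⟩ := T1C.exists_place_Q (M₁ * p)
  have hw : GB.wq M₁ p H ≠ 0 := (map_ne_zero (GB.wq M₁ p)).2 hH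
  have hw' : ((GB.wq M₁ p H : FN (M₁ * p)) : LaurentSeries Qb) ≠ 0 := fun h =>
    hw (Subtype.ext h)
  have h1 : (n : ℤ) ∣ ((GB.wq M₁ p H : FN (M₁ * p)) : LaurentSeries Qb).order := by
    rw [← hP]
    exact GBB.dvd_ord_wq (n : ℤ) H hd P
  obtain ⟨b, hb⟩ := exists_pow_eq_of_dvd_order hn hw' h1
  refine ⟨b, ?_, hb⟩
  rintro rfl
  rw [zero_pow hn] at hb
  exact hw' hb.symm

/-- the form used for `h10`, `u0` (hypothesis `hb0` of `Pairs.exists_good`). -/
theorem _root_.Fermat.Agent.GAL.IsKum.exists_root_wq {n : ℕ} (hn : n ≠ 0)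
    {u : LaurentSeries Qb} (hu : IsKum Qb (M₁ * p) n u) :
    ∃ b : LaurentSeries Qb, b ≠ 0 ∧
      b ^ n = ((GB.wq M₁ p ⟨u ^ n, hu.2.choose⟩ : FN (M₁ * p)) : LaurentSeries Qb) := by
  refine Fermat.Agent.MR.C.exists_root_wq hn ?_ hu.2.choose_spec
  intro h
  exact pow_ne_zero n hu.1 (congrArg Subtype.val h)

/-- same statement for an arbitrary proof of membership. -/
theorem _root_.Fermat.Agent.GAL.IsKum.exists_root_wq' {n : ℕ} (hn : n ≠ 0)
    {u : LaurentSeries Qb} (hu : IsKum Qb (M₁ * p) n u) (hf : u ^ n ∈ FL Qb (M₁ * p)) :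
    ∃ b : LaurentSeries Qb, b ≠ 0 ∧
      b ^ n = ((GB.wq M₁ p ⟨u ^ n, hf⟩ : FN (M₁ * p)) : LaurentSeries Qb) :=
  hu.exists_root_wq hn

end Fermat.Agent.MR.C
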