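import Mathlib

/-!
# MR / C / RootExH : `n`-th roots of Laurent series (Hensel's lemma in `k⟦X⟧`)

`k` algebraically closed, `n ≠ 0` in `k`: a non-zero Laurent series whose order is divisible by `n` is an `n`-th power.
-/

set_option autoImplicit false

open Polynomial

namespace Fermat.Agent.MR.C

/-- a power series with non-zero constant coefficient is an `n`-th power. -/
theorem rootExH_powerSeries {k : Type*} [Field k] [IsAlgClosed k] {n : ℕ} (hn : (n : k) ≠ 0)
    (a : PowerSeries k) (ha : PowerSeries.constantCoeff a ≠ 0) : ∃ b : PowerSeries k, b ^ n = a := by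
  have hn0 : 0 < n := by
    rcases Nat.eq_zero_or_pos n with h | h
    · rw [h, Nat.cast_zero] at hn
      exact absurd rfl hn
    · exact h
  obtain ⟨c, hc⟩ := IsAlgClosed.exists_pow_nat_eq (PowerSeries.constantCoeff a) hn0
  have hc0 : c ≠ 0 := by
    rintro rfl
    rw [zero_pow hn0.ne'] at hc
    exact ha hc.symm
  have hH := HenselianRing.is_henselian (R := PowerSeries k)
    (I := Ideal.span {(PowerSeries.X : PowerSeries k)})
    (X ^ n - C a : (PowerSeries k)[X]) (monic_X_pow_sub_C a hn0.ne') (PowerSeries.C c) ?_ ?_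
  · obtain ⟨b, hb, -⟩ := hH
    refine ⟨b, ?_⟩
    rw [IsRoot, eval_sub, eval_pow, eval_X, eval_C, sub_eq_zero] at hb
    exact hb
  · rw [eval_sub, eval_pow, eval_X, eval_C, Ideal.mem_span_singleton, PowerSeries.X_dvd_iff,
      map_sub, map_pow, PowerSeries.constantCoeff_C, hc, sub_self]
  · apply IsUnit.map
    rw [derivative_sub, derivative_X_pow, derivative_C, sub_zero, eval_mul, eval_pow, eval_X,
      PowerSeries.isUnit_iff_constantCoeff]
    simp only [eval_natCast, map_mul, map_pow, PowerSeries.constantCoeff_C, map_natCast]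
    exact isUnit_iff_ne_zero.2 (mul_ne_zero hn (pow_ne_zero _ hc0))

/-- **`n`-th roots of Laurent series.** -/
theorem rootExH_exists_pow_eq_of_dvd_order {k : Type*} [Field k] [IsAlgClosed k] {n : ℕ}
    (hn : (n : k) ≠ 0) {x : LaurentSeries k} (hx : x ≠ 0) (h : (n : ℤ) ∣ x.order) :
    ∃ b : LaurentSeries k, b ^ n = x := by
  obtain ⟨m, hm⟩ := h
  have hc : PowerSeries.constantCoeff x.powerSeriesPart ≠ 0 := by
    rw [← PowerSeries.coeff_zero_eq_constantCoeff_apply, LaurentSeries.powerSeriesPart_coeff,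
      Nat.cast_zero, add_zero]
    exact fun h0 => hx (HahnSeries.coeff_order_eq_zero.1 h0)
  obtain ⟨b, hb⟩ := rootExH_powerSeries hn x.powerSeriesPart hc
  refine ⟨HahnSeries.single m 1 * (b : LaurentSeries k), ?_⟩
  rw [mul_pow, HahnSeries.single_pow, one_pow, ← PowerSeries.coe_pow, hb, nsmul_eq_mul, ← hm]
  exact LaurentSeries.single_order_mul_powerSeriesPart x

end Fermat.Agent.MR.C
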