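import Fermat.Agent.MR.C.RootExH
import Fermat.Agent.TOR.GBB.OrdNm
import Fermat.Agent.TOR.T1C.Cusp
import Fermat.Agent.GAL.Mod.Kum

/-!
# MR / C / RootExW : `w_p (u ^ p)` has a `p`-th root in `ℚ̄((q))` for a Kummer element `u`
-/

set_option autoImplicit false

open ModularCurve AlgebraicCurve

noncomputable section

namespace Fermat.Agent.MR.C

open Fermat.Agent.GAL Fermat.Agent.S24 Fermat.Agent.TOR.GB

variable {M₁ p : ℕ} [NeZero M₁] [NeZero p]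

/-- an element of `FN N`, all of whose orders are divisible by `n ≠ 0`, is an `n`-th power in `ℚ̄((q))`. -/
theorem rootExW_exists_root {N : ℕ} [NeZero N] {n : ℕ} (hn : n ≠ 0) {z : FN N} (hz0 : z ≠ 0)
    (hz : ∀ P : Place Kb (FN N), (n : ℤ) ∣ P.ord z) :
    ∃ b : LaurentSeries Qb, b ≠ 0 ∧ b ^ n = (z : LaurentSeries Qb) := by
  obtain ⟨P, hP⟩ := TOR.T1C.exists_place_Q N
  have hz0' : (z : LaurentSeries Qb) ≠ 0 := fun h => hz0 (Subtype.ext h)
  have hd : (n : ℤ) ∣ (z : LaurentSeries Qb).order := by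
    rw [← hP]
    exact hz P
  obtain ⟨b, hb⟩ := rootExH_exists_pow_eq_of_dvd_order (k := Qb) (Nat.cast_ne_zero.2 hn) hz0' hd
  refine ⟨b, ?_, hb⟩
  rintro rfl
  rw [zero_pow hn] at hb
  exact hz0' hb.symm

/-- **the root at the cusp `0`.** -/
theorem rootExW_exists_root_wq {u : LaurentSeries Qb} (hp0 : p ≠ 0)
    (hu : IsKum Qb (M₁ * p) p u) :
    ∃ b : LaurentSeries Qb, b ≠ 0 ∧
      b ^ p = ((wq M₁ p ⟨u ^ p, hu.pow_mem⟩ : FN (M₁ * p)) : LaurentSeries Qb) := by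
  have hz0 : (⟨u ^ p, hu.pow_mem⟩ : FN (M₁ * p)) ≠ 0 := fun h =>
    pow_ne_zero p hu.1 (congrArg Subtype.val h)
  refine rootExW_exists_root hp0 ((map_ne_zero (wq M₁ p)).2 hz0) fun P => ?_
  exact TOR.GBB.dvd_ord_wq (p : ℤ) _ hu.2.2 P

end Fermat.Agent.MR.C
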