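import Mathlib

/-!
# MR / C : formal coefficient Hensel lemma (Mathlib only).

`R ∈ A[T]`, `z ∈ L[[q]]`, `R(z) = f ∈ A[[q]]`, `z₀ ∈ A`, `R'(z₀) ∈ Aˣ`  ⟹  `z ∈ A[[q]]`.
-/

set_option autoImplicit false

open Polynomial

namespace Fermat.Agent.MR.C

variable {L : Type*} [Field L] (A : Subring L)

/-- power series with coefficients in `A`. -/
def rootIntS : Subring (PowerSeries L) where
  carrier := {f | ∀ n, PowerSeries.coeff n f ∈ A}
  mul_mem' := by
    intro a b ha hb n
    rw [PowerSeries.coeff_mul]
    exact A.sum_mem fun i _ => A.mul_mem (ha _) (hb _)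
  one_mem' := by
    intro n
    rw [PowerSeries.coeff_one]
    split_ifs
    · exact A.one_mem
    · exact A.zero_mem
  add_mem' := by
    intro a b ha hb n
    rw [map_add]
    exact A.add_mem (ha _) (hb _)
  zero_mem' := by
    intro n
    rw [map_zero]
    exact A.zero_mem
  neg_mem' := by
    intro a ha n
    rw [map_neg]
    exact A.neg_mem (ha _)

theorem mem_rootIntS {f : PowerSeries L} : f ∈ rootIntS A ↔ ∀ n, PowerSeries.coeff n f ∈ A :=
  Iff.rfl

theorem rootIntS_C {c : L} (hc : c ∈ A) : PowerSeries.C c ∈ rootIntS A := by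
  intro n
  rw [PowerSeries.coeff_C]
  split_ifs
  · exact hc
  · exact A.zero_mem

/-- **coefficient Hensel.** -/
theorem hensel_coeff (R : L[X]) (hR : ∀ i, R.coeff i ∈ A) (z f : PowerSeries L)
    (hf : ∀ n, PowerSeries.coeff n f ∈ A) (h : R.eval₂ PowerSeries.C z = f)
    (hz0 : PowerSeries.constantCoeff z ∈ A) (u : L) (hu : u ∈ A)
    (hu1 : u * R.derivative.eval (PowerSeries.constantCoeff z) = 1) :
    ∀ n, PowerSeries.coeff n z ∈ A := by
  intro n
  induction n using Nat.strong_induction_on with
  | _ n ih =>
    rcases Nat.eq_zero_or_pos n with rfl | hn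
    · rwa [PowerSeries.coeff_zero_eq_constantCoeff_apply]
    set a : PowerSeries L := ((PowerSeries.trunc n z : L[X]) : PowerSeries L) with ha
    have hac : ∀ m, PowerSeries.coeff m a = if m < n then PowerSeries.coeff m z else 0 := by
      intro m
      rw [ha, Polynomial.coeff_coe, PowerSeries.coeff_trunc]
    have haS : a ∈ rootIntS A := by
      intro m
      rw [hac]
      split_ifs with hm
      · exact ih m hm
      · exact A.zero_mem
    have hy : (PowerSeries.X : PowerSeries L) ^ n ∣ z - a := by
      rw [PowerSeries.X_pow_dvd_iff]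
      intro m hm
      rw [map_sub, hac, if_pos hm, sub_self]
    obtain ⟨y', hy'⟩ := hy
    have hy0 : PowerSeries.constantCoeff y' = PowerSeries.coeff n z := by
      have h1 : PowerSeries.coeff n (z - a) = PowerSeries.coeff n z := by
        rw [map_sub, hac, if_neg (lt_irrefl n), sub_zero]
      rw [hy', PowerSeries.coeff_X_pow_mul', if_pos le_rfl, Nat.sub_self,
        PowerSeries.coeff_zero_eq_constantCoeff_apply] at h1
      exact h1
    have ha0 : PowerSeries.constantCoeff a = PowerSeries.constantCoeff z := by
      rw [← PowerSeries.coeff_zero_eq_constantCoeff_apply, hac, if_pos hn,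
        PowerSeries.coeff_zero_eq_constantCoeff_apply]
    set P : (PowerSeries L)[X] := R.map PowerSeries.C with hP
    obtain ⟨k, hk⟩ := Polynomial.binomExpansion P a (z - a)
    have hz : a + (z - a) = z := by ring
    rw [hz] at hk
    have hPz : P.eval z = f := by rw [hP, Polynomial.eval_map, h]
    have hPa : P.eval a ∈ rootIntS A := by
      rw [hP, Polynomial.eval_map, Polynomial.eval₂_eq_sum_range]
      exact Subring.sum_mem _ fun i _ =>
        Subring.mul_mem _ (rootIntS_C A (hR i)) (Subring.pow_mem _ haS i)
    have hD0 : PowerSeries.constantCoeff (P.derivative.eval a)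
        = R.derivative.eval (PowerSeries.constantCoeff z) := by
      rw [hP, Polynomial.derivative_map, Polynomial.eval_map, Polynomial.hom_eval₂, ha0]
      have : (PowerSeries.constantCoeff (R := L)).comp PowerSeries.C = RingHom.id L := by
        ext c
        simp
      rw [this, Polynomial.eval₂_id]
    have c2 : PowerSeries.coeff n (k * (z - a) ^ 2) = 0 := by
      have hdvd : (PowerSeries.X : PowerSeries L) ^ (n + 1) ∣ k * (z - a) ^ 2 := by
        rw [hy']
        refine Dvd.dvd.mul_left ?_ k
        rw [mul_pow, ← pow_mul]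
        exact Dvd.dvd.mul_right (pow_dvd_pow _ (by omega)) _
      exact (PowerSeries.X_pow_dvd_iff.1 hdvd) n (Nat.lt_succ_self n)
    have c1 : PowerSeries.coeff n (P.derivative.eval a * (z - a))
        = R.derivative.eval (PowerSeries.constantCoeff z) * PowerSeries.coeff n z := by
      rw [hy', mul_left_comm, PowerSeries.coeff_X_pow_mul', if_pos le_rfl, Nat.sub_self,
        PowerSeries.coeff_zero_eq_constantCoeff_apply, map_mul, hD0, hy0]
    have hcoef := congrArg (PowerSeries.coeff n) hk
    rw [hPz, map_add, map_add, c1, c2, add_zero] at hcoef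
    have hfin : PowerSeries.coeff n z
        = u * (PowerSeries.coeff n f - PowerSeries.coeff n (P.eval a)) := by
      rw [hcoef, add_sub_cancel_left, ← mul_assoc, hu1, one_mul]
    rw [hfin]
    exact A.mul_mem hu (A.sub_mem (hf n) (hPa n))

end Fermat.Agent.MR.C
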