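import Fermat.Agent.MR.C.ASLift
import Fermat.Agent.MR.C.SepOrb
import Fermat.Agent.MR.TH.Conc

/-!
# MR / C / SepB : (SEP) = the field `Cov.sep`, assembled   (helper18)

`W = h₁^p` deep at both cusps, `p ∣ div W`.  `sepData` (helper13): `G`, `f`, lifts `θ`, `θ'`.  `z_Q = (G h₁ - 1)/λ` is integral over `ℚ̄[t]` and
`y_∞ = z_Q - θ`, `y_0 = z_Q - θ'` reduce to the CONSTANT `m + c_i` on the branch `(i, m)`; `sepOrb_of_const` (helper78) concludes.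

INPUT from [F1]: `Dp A λ h₁ (C c₁)`, `Dp A λ h₁₀ (C c₁₀)`.
-/

set_option autoImplicit false
set_option linter.unusedSectionVars false

open ModularCurve AlgebraicCurve

noncomputable section

namespace Fermat.Agent.MR.C

open Fermat.Agent.GR Fermat.Agent.GAL Fermat.Agent.GAL.KL Fermat.Agent.GAL.KLC Fermat.Agent.S24
open Fermat.Agent.GR.HeckeField Fermat.Agent.TOR Fermat.Agent.TOR.GB Fermat.Agent.TOR.T1C
open Fermat.Agent.CAR Fermat.Agent.CAR.BK Fermat.Agent.CAR.ON Fermat.Agent.CAR.CNT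
open Fermat.Agent.CAR.DESC Fermat.Agent.ORD Fermat.Agent.MR.TH Fermat.Agent.DSC

local notation "Λ" => LaurentSeries Qb

section Series

variable {p : ℕ} {A : ValuationSubring Qb} {ζ : Qbˣ}

/-- the reduction of `(G ζ^m y - 1)/λ`. -/
theorem sepB_branch (hp : p.Prime) (hA : A.LiesOverPrime p) (hζ : IsPrimitiveRoot ζ p)
    {G y : Λ} {θ : LaurentSeries (kA A)} {c : kA A}
    (hG : P2.Dp A (P2.lam ζ) G θ) (hy : P2.Dp A (P2.lam ζ) y (HahnSeries.C c)) (m : ℕ) :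
    HasRed A ((G * (HahnSeries.C ((ζ : Qb) ^ m) * y) - 1) / HahnSeries.C (P2.lam ζ))
      (θ + HahnSeries.C ((m : kA A) + c)) := by
  have hl : P2.lam ζ ≠ 0 := P2.lam_ne_zero hp hζ
  have hlm : P2.lam ζ ∈ A.nonunits := P2.lam_mem_nonunits hp hA hζ.pow_eq_one
  have hz : P2.Dp A (P2.lam ζ) (HahnSeries.C ((ζ : Qb) ^ m) : Λ) (HahnSeries.C (m : kA A)) := by
    have h := P2.Dp.const (A := A) hl (P2.cRed_geom hp hA hζ m)
    rwa [mul_div_cancel₀ _ hl, add_sub_cancel] at h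
  have h := hG.mul hl hlm (hz.mul hl hlm hy)
  rw [← map_add] at h
  exact h

/-- integrality of `(X - 1)/λ` from the integrality of `X ^ p`. -/
theorem sepB_isInt {t X : Λ} (hp : 0 < p) (c : Qb) (h : IsInt Qb t (X ^ p)) :
    IsInt Qb t ((X - 1) / HahnSeries.C c) := by
  have hC : IsInt Qb t ((HahnSeries.C c : Λ)⁻¹) := by
    rw [← map_inv₀, ← hgc_algebraMap]
    exact IsInt.algebraMap _
  rw [div_eq_mul_inv]
  exact ((IsInt.of_pow hp h).sub IsInt.one).mul hC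

end Series

/-! ### the branches of `z_Q - x` -/

section Br

variable {M₁ p : ℕ} [NeZero M₁] [NeZero p] {I : Subgroup GQ} {ζ : Qb} {h1 h10 : Λ}
  {w : FS (M₁ * p) →+* Λ}

/-- `F ⊆ F1`. -/
def sepB_emb (h1 : Λ) (f : FN (M₁ * p)) : adjF (FS (M₁ * p)) h1 :=
  ⟨(f : Λ), le_adjF _ _ f.2⟩

/-- `z_Q - x = (G h₁ - 1)/c - x ∈ F1`. -/
def sepB_y (h1 : Λ) (c : Qb) (G x : FN (M₁ * p)) : adjF (FS (M₁ * p)) h1 :=
  (sepB_emb h1 G * ⟨h1, self_mem_adjF _ _⟩ - 1) / sepB_emb h1 (algebraMap Qb (FN (M₁ * p)) c)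
    - sepB_emb h1 x

theorem sepB_coe_y (c : Qb) (G x : FN (M₁ * p)) :
    ((sepB_y h1 c G x : adjF (FS (M₁ * p)) h1) : Λ)
      = ((G : Λ) * h1 - 1) / HahnSeries.C c - (x : Λ) := by
  rw [← ValThm_coe_algebraMap (M₁ * p) c]
  rfl

theorem sepB_deck_emb (H : CovHyp I (FS (M₁ * p)) w p ζ h1 h10) (m : ℕ) (f : FN (M₁ * p)) :
    (H.kum.deck ^ m) (sepB_emb h1 f) = sepB_emb h1 f :=
  H.kum.deck_pow_F m ⟨(f : Λ), f.2⟩

theorem sepB_deck_h (H : CovHyp I (FS (M₁ * p)) w p ζ h1 h10) (m : ℕ) :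
    (H.kum.deck ^ m) ⟨h1, self_mem_adjF _ _⟩
      = sepB_emb h1 (algebraMap Qb (FN (M₁ * p)) (ζ ^ m)) * ⟨h1, self_mem_adjF _ _⟩ := by
  apply Subtype.ext
  rw [H.kum.deck_pow_h m]
  show _ = ((algebraMap Qb (FN (M₁ * p)) (ζ ^ m) : FN (M₁ * p)) : Λ) * h1
  rw [ValThm_coe_algebraMap, map_pow]

theorem sepB_deck_y (H : CovHyp I (FS (M₁ * p)) w p ζ h1 h10) (m : ℕ) (c : Qb)
    (G x : FN (M₁ * p)) :
    (H.kum.deck ^ m) (sepB_y h1 c G x)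
      = (sepB_emb h1 G * (sepB_emb h1 (algebraMap Qb (FN (M₁ * p)) (ζ ^ m))
          * ⟨h1, self_mem_adjF _ _⟩) - 1) / sepB_emb h1 (algebraMap Qb (FN (M₁ * p)) c)
        - sepB_emb h1 x := by
  rw [sepB_y, map_sub, map_div₀, map_sub, map_mul, map_one, sepB_deck_emb H, sepB_deck_emb H,
    sepB_deck_emb H, sepB_deck_h H]

/-- the branch `(∞, m)`. -/
theorem sepB_coe_deck_y (H : CovHyp I (FS (M₁ * p)) w p ζ h1 h10) (m : ℕ) (c : Qb)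
    (G x : FN (M₁ * p)) :
    (((H.kum.deck ^ m) (sepB_y h1 c G x) : adjF (FS (M₁ * p)) h1) : Λ)
      = ((G : Λ) * (HahnSeries.C (ζ ^ m) * h1) - 1) / HahnSeries.C c - (x : Λ) := by
  rw [sepB_deck_y H, ← ValThm_coe_algebraMap (M₁ * p) c,
    ← ValThm_coe_algebraMap (M₁ * p) (ζ ^ m)]
  rfl

theorem sepB_ι0_emb (H : CovHyp I (FS (M₁ * p)) w p ζ h1 h10)
    (hw : ∀ f : FN (M₁ * p), w ⟨(f : Λ), f.2⟩ = ((wq M₁ p f : FN (M₁ * p)) : Λ))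
    (f : FN (M₁ * p)) : H.ι0 (sepB_emb h1 f) = ((wq M₁ p f : FN (M₁ * p)) : Λ) :=
  (H.ι0_F ⟨(f : Λ), f.2⟩).trans (hw f)

theorem sepB_ι0_C (H : CovHyp I (FS (M₁ * p)) w p ζ h1 h10)
    (hw : ∀ f : FN (M₁ * p), w ⟨(f : Λ), f.2⟩ = ((wq M₁ p f : FN (M₁ * p)) : Λ))
    (c : Qb) : H.ι0 (sepB_emb h1 (algebraMap Qb (FN (M₁ * p)) c)) = HahnSeries.C c := by
  rw [sepB_ι0_emb H hw, AlgEquiv.commutes, ValThm_coe_algebraMap]

/-- the branch `(0, m)`. -/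
theorem sepB_ι0_deck_y (H : CovHyp I (FS (M₁ * p)) w p ζ h1 h10)
    (hw : ∀ f : FN (M₁ * p), w ⟨(f : Λ), f.2⟩ = ((wq M₁ p f : FN (M₁ * p)) : Λ))
    (m : ℕ) (c : Qb) (G x : FN (M₁ * p)) :
    H.ι0 ((H.kum.deck ^ m) (sepB_y h1 c G x))
      = (((wq M₁ p G : FN (M₁ * p)) : Λ) * (HahnSeries.C (ζ ^ m) * h10) - 1) / HahnSeries.C c
        - ((wq M₁ p x : FN (M₁ * p)) : Λ) := by
  rw [sepB_deck_y H, map_sub, map_div₀, map_sub, map_mul, map_mul, map_one, sepB_ι0_C H hw,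
    sepB_ι0_C H hw, sepB_ι0_emb H hw, sepB_ι0_emb H hw, H.ι0_h]

end Br

/-! ### (SEP) -/

section Main

variable {M₁ p : ℕ} [NeZero M₁] [NeZero p] {A : ValuationSubring Qb} {ζ : Qbˣ} {h1 h10 : Λ}
  {w : FS (M₁ * p) →+* Λ}

/-- **[SEP-B], the elements.**  `y_∞ = z_Q - θ`, `y_0 = z_Q - θ'` : integral over `ℚ̄[t]`, with a reduction on all `2p` branches, and the reduction of
`y_i` on the branch `(i, m)` is the constant `m + c_i`. -/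
theorem sepB_elt (hM : AdmLevel M₁) (hp : p.Prime) (hp2 : p ≠ 2) (hpM : ¬ p ∣ M₁)
    (hA : A.LiesOverPrime p) (hζ : IsPrimitiveRoot ζ p) {I : Subgroup GQ}
    (H : CovHyp I (FS (M₁ * p)) w p (ζ : Qb) h1 h10)
    (hw : ∀ f : FN (M₁ * p), w ⟨(f : Λ), f.2⟩ = ((wq M₁ p f : FN (M₁ * p)) : Λ))
    (W : FN (M₁ * p)) (hW : h1 ^ p = (W : Λ))
    (hW1 : P2.Dp A (P2.lam ζ ^ p) (W : Λ) 0)
    (hW2 : P2.Dp A (P2.lam ζ ^ p) ((wq M₁ p W : FN (M₁ * p)) : Λ) 0)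
    (hdiv : ∀ P : Place Qb (FL Qb (M₁ * p)), (p : ℤ) ∣ P.ord W)
    {c₁ c₁₀ : kA A} (hd1 : P2.Dp A (P2.lam ζ) h1 (HahnSeries.C c₁))
    (hd10 : P2.Dp A (P2.lam ζ) h10 (HahnSeries.C c₁₀)) :
    ∃ yo yz : adjF (FS (M₁ * p)) h1,
      IsInt Qb ((tP M₁ p : FN (M₁ * p)) : Λ) (yo : Λ) ∧
      IsInt Qb ((tP M₁ p : FN (M₁ * p)) : Λ) (yz : Λ) ∧
      (∀ m : ℕ, HasRed A (((H.kum.deck ^ m) yo : adjF (FS (M₁ * p)) h1) : Λ)
        (HahnSeries.C ((m : kA A) + c₁))) ∧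
      (∀ m : ℕ, ∃ φ, HasRed A (H.ι0 ((H.kum.deck ^ m) yo)) φ) ∧
      (∀ m : ℕ, ∃ φ, HasRed A (((H.kum.deck ^ m) yz : adjF (FS (M₁ * p)) h1) : Λ) φ) ∧
      (∀ m : ℕ, HasRed A (H.ι0 ((H.kum.deck ^ m) yz)) (HahnSeries.C ((m : kA A) + c₁₀))) := by
  obtain ⟨G, f, θ, θ', a, a', -, hGf, hfi, -, -, hGa, hGa', hθi, hθ, hθw, hθ'i, hθ', hθ'v⟩ :=
    sepData M₁ p hM hp hp2 hpM A hA hζ W hW1 hW2 hdiv
  obtain ⟨φ, hφ⟩ := (ValThm_le_one_iff A (M₁ * p)).1 hθw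
  obtain ⟨φ', hφ'⟩ := (ValThm_le_one_iff A (M₁ * p)).1 hθ'v
  -- integrality of `z_Q`
  have hz : IsInt Qb ((tP M₁ p : FN (M₁ * p)) : Λ)
      (((G : Λ) * h1 - 1) / HahnSeries.C (P2.lam ζ)) := by
    refine sepB_isInt hp.pos _ ?_
    have e : ((G : Λ) * h1) ^ p = ((G ^ p * W : FN (M₁ * p)) : Λ) := by
      rw [mul_pow, hW]
      rfl
    rw [e, hGf]
    exact covEC_isInt_coe_iff.2 (IsInt.one.add ((IsInt.algebraMap _).mul hfi))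
  refine ⟨sepB_y h1 (P2.lam ζ) G θ, sepB_y h1 (P2.lam ζ) G θ', ?_, ?_, ?_, ?_, ?_, ?_⟩
  · rw [sepB_coe_y]
    exact hz.sub (covEC_isInt_coe_iff.2 hθi)
  · rw [sepB_coe_y]
    exact hz.sub (covEC_isInt_coe_iff.2 hθ'i)
  · intro m
    rw [sepB_coe_deck_y H]
    have := (sepB_branch hp hA hζ hGa hd1 m).add (hasRed_neg hθ)
    rwa [← sub_eq_add_neg, add_comm a, add_neg_cancel_right] at this
  · intro m
    rw [sepB_ι0_deck_y H hw]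
    have := (sepB_branch hp hA hζ hGa' hd10 m).add (hasRed_neg hφ)
    rw [← sub_eq_add_neg] at this
    exact ⟨_, this⟩
  · intro m
    rw [sepB_coe_deck_y H]
    have := (sepB_branch hp hA hζ hGa hd1 m).add (hasRed_neg hφ')
    rw [← sub_eq_add_neg] at this
    exact ⟨_, this⟩
  · intro m
    rw [sepB_ι0_deck_y H hw]
    have := (sepB_branch hp hA hζ hGa' hd10 m).add (hasRed_neg hθ')
    rwa [← sub_eq_add_neg, add_comm a', add_neg_cancel_right] at this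

theorem sepB_cast_ne (hp : p.Prime) (hA : A.LiesOverPrime p) (c : kA A) {k l : ZMod p}
    (hkl : k ≠ l) : ((k.val : ℕ) : kA A) + c ≠ ((l.val : ℕ) : kA A) + c := by
  have hchar : CharP (kA A) p := charP_residueField hp hA
  intro h
  have h1 := (CharP.natCast_eq_natCast (kA A) p).1 (add_right_cancel h)
  have h2 : k.val = l.val := Nat.ModEq.eq_of_lt_of_lt h1 (ZMod.val_lt k) (ZMod.val_lt l)
  exact hkl (ZMod.val_injective p h2)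

/-- **(SEP)** `=` the field `Cov.sep` for `E = F1^I`, `vt = vtOf p H.δC V`; `ε ∞ =` inclusion, `ε 0 = H.ι0`; `V j` the valuation attached to `ε j`
(`hle`, `hlt` `=` `gaussV_le_one_iff`, `gaussV_lt_one_iff`). -/
theorem sepB_sep (hM : AdmLevel M₁) (hp : p.Prime) (hp2 : p ≠ 2) (hpM : ¬ p ∣ M₁)
    (hA : A.LiesOverPrime p) (hζ : IsPrimitiveRoot ζ p)
    (H : CovHyp (IA A) (FS (M₁ * p)) w p (ζ : Qb) h1 h10)
    (hw : ∀ f : FN (M₁ * p), w ⟨(f : Λ), f.2⟩ = ((wq M₁ p f : FN (M₁ * p)) : Λ))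
    (W : FN (M₁ * p)) (hW : h1 ^ p = (W : Λ))
    (hW1 : P2.Dp A (P2.lam ζ ^ p) (W : Λ) 0)
    (hW2 : P2.Dp A (P2.lam ζ ^ p) ((wq M₁ p W : FN (M₁ * p)) : Λ) 0)
    (hdiv : ∀ P : Place Qb (FL Qb (M₁ * p)), (p : ℤ) ∣ P.ord W)
    {c₁ c₁₀ : kA A} (hd1 : P2.Dp A (P2.lam ζ) h1 (HahnSeries.C c₁))
    (hd10 : P2.Dp A (P2.lam ζ) h10 (HahnSeries.C c₁₀))
    (ε : I2 → adjF (FS (M₁ * p)) h1 →+* Λ) (hoo : ∀ x, ε oo x = (x : Λ))
    (hzr : ∀ x, ε zr x = H.ι0 x)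
    {Γ₀ : Type*} [LinearOrderedCommGroupWithZero Γ₀]
    {B₀ : Subring (EF (IA A) (M₁ * p))} {v₀ : I2 → Valuation (EF (IA A) (M₁ * p)) Γ₀}
    (V : I2 → Valuation (fixS (IA A) (adjF (FS (M₁ * p)) h1)) Γ₀)
    (hV : ∀ (j : I2) (x : EF (IA A) (M₁ * p)),
      V j (algebraMap (EF (IA A) (M₁ * p)) (fixS (IA A) (adjF (FS (M₁ * p)) h1)) x) = v₀ j x)
    (hle : ∀ (j : I2) (x : fixS (IA A) (adjF (FS (M₁ * p)) h1)),
      (∃ φ, HasRed A (ε j (toF1 x)) φ) → V j x ≤ 1)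
    (hlt : ∀ (j : I2) (x : fixS (IA A) (adjF (FS (M₁ * p)) h1)),
      HasRed A (ε j (toF1 x)) 0 → V j x < 1)
    (hB₀ : ∀ z : EF (IA A) (M₁ * p), IsInt Qb (tP M₁ p) (z : FL Qb (M₁ * p)) →
      (∀ i, v₀ i z ≤ 1) → z ∈ B₀)
    (i : I2) (k l : ZMod p) (hkl : k ≠ l) :
    ∃ b : fixS (IA A) (adjF (FS (M₁ * p)) h1), IsIntegral B₀ b ∧
      vtOf p H.δC V (i, l) b < 1 ∧ vtOf p H.δC V (i, k) (b - 1) < 1 := by
  have : Fact p.Prime := ⟨hp⟩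
  obtain ⟨yo, yz, hyo, hyz, h1o, h2o, h1z, h2z⟩ :=
    sepB_elt hM hp hp2 hpM hA hζ H hw W hW hW1 hW2 hdiv hd1 hd10
  have hεC : ∀ (j : I2) (c : Qb),
      ε j ⟨HahnSeries.C c, le_adjF _ _ (H.C_mem c)⟩ = HahnSeries.C c := by
    intro j c
    rcases I2_cases j with rfl | rfl
    · rw [hoo]
    · rw [hzr]
      have e : (⟨HahnSeries.C c, le_adjF _ _ (H.C_mem c)⟩ : adjF (FS (M₁ * p)) h1)
          = sepB_emb h1 (algebraMap Qb (FN (M₁ * p)) c) :=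
        Subtype.ext (ValThm_coe_algebraMap (M₁ * p) c).symm
      rw [e, sepB_ι0_C H hw]
  have hε : ∀ (j : I2) (τ : GQ) (hτ : τ ∈ IA A) (x : adjF (FS (M₁ * p)) h1),
      galS τ (ε j x) = ε j ⟨galS τ x, H.gal_mem τ hτ x⟩ := by
    intro j τ hτ x
    rcases I2_cases j with rfl | rfl
    · rw [hoo, hoo]
    · rw [hzr, hzr]
      exact H.gal_ι τ hτ x
  have htfix : FixS ((IA A : Subgroup GQ) : Set GQ) ((tP M₁ p : FN (M₁ * p)) : Λ) :=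
    tQ_mem_EC (M₁ := M₁) (p := p) A
  rcases I2_cases i with rfl | rfl
  · refine H.sepOrb_of_const le_rfl ε hεC hε V hV hle hlt htfix hB₀ yo hyo ?_ oo
      (fun m => (m : kA A) + c₁) ?_ k l (sepB_cast_ne hp hA c₁ hkl)
    · intro j m
      rcases I2_cases j with rfl | rfl
      · rw [hoo]
        exact ⟨_, h1o m⟩
      · rw [hzr]
        exact h2o m
    · intro m
      rw [hoo]
      exact h1o m
  · refine H.sepOrb_of_const le_rfl ε hεC hε V hV hle hlt htfix hB₀ yz hyz ?_ zr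
      (fun m => (m : kA A) + c₁₀) ?_ k l (sepB_cast_ne hp hA c₁₀ hkl)
    · intro j m
      rcases I2_cases j with rfl | rfl
      · rw [hoo]
        exact h1z m
      · rw [hzr]
        exact ⟨_, h2z m⟩
    · intro m
      rw [hzr]
      exact h2z m

/-- **(SEP) over the chart ring** `B₀ = BT M₁ p A`, `v₀ = vT M₁ p A` : the field `Cov.sep`, verbatim. -/
theorem sepB_sepT (hM : AdmLevel M₁) (hp : p.Prime) (hp2 : p ≠ 2) (hpM : ¬ p ∣ M₁)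
    (hA : A.LiesOverPrime p) (hζ : IsPrimitiveRoot ζ p)
    (H : CovHyp (IA A) (FS (M₁ * p)) w p (ζ : Qb) h1 h10)
    (hw : ∀ f : FN (M₁ * p), w ⟨(f : Λ), f.2⟩ = ((wq M₁ p f : FN (M₁ * p)) : Λ))
    (W : FN (M₁ * p)) (hW : h1 ^ p = (W : Λ))
    (hW1 : P2.Dp A (P2.lam ζ ^ p) (W : Λ) 0)
    (hW2 : P2.Dp A (P2.lam ζ ^ p) ((wq M₁ p W : FN (M₁ * p)) : Λ) 0)
    (hdiv : ∀ P : Place Qb (FL Qb (M₁ * p)), (p : ℤ) ∣ P.ord W)
    {c₁ c₁₀ : kA A} (hd1 : P2.Dp A (P2.lam ζ) h1 (HahnSeries.C c₁))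
    (hd10 : P2.Dp A (P2.lam ζ) h10 (HahnSeries.C c₁₀))
    (ε : I2 → adjF (FS (M₁ * p)) h1 →+* Λ) (hoo : ∀ x, ε oo x = (x : Λ))
    (hzr : ∀ x, ε zr x = H.ι0 x)
    (V : I2 → Valuation (fixS (IA A) (adjF (FS (M₁ * p)) h1)) (Ov A (M₁ * p)).ValueGroup)
    (hV : ∀ (j : I2) (x : EC A (M₁ * p)),
      V j (algebraMap (EC A (M₁ * p)) (fixS (IA A) (adjF (FS (M₁ * p)) h1)) x) = vT M₁ p A j x)
    (hle : ∀ (j : I2) (x : fixS (IA A) (adjF (FS (M₁ * p)) h1)),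
      (∃ φ, HasRed A (ε j (toF1 x)) φ) → V j x ≤ 1)
    (hlt : ∀ (j : I2) (x : fixS (IA A) (adjF (FS (M₁ * p)) h1)),
      HasRed A (ε j (toF1 x)) 0 → V j x < 1) :
    ∀ (i : I2) (k l : ZMod p), k ≠ l →
      ∃ b : fixS (IA A) (adjF (FS (M₁ * p)) h1), IsIntegral (BT M₁ p A) b ∧
        vtOf p H.δC V (i, l) b < 1 ∧ vtOf p H.δC V (i, k) (b - 1) < 1 :=
  fun i k l hkl => sepB_sep hM hp hp2 hpM hA hζ H hw W hW hW1 hW2 hdiv hd1 hd10 ε hoo hzr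
    (B₀ := BT M₁ p A) (v₀ := vT M₁ p A) V hV hle hlt
    (fun _ hz hv => mem_B2.2 ⟨hz, hv oo, hv zr⟩) i k l hkl

end Main

end Fermat.Agent.MR.C
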