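import Fermat.Agent.MR.C.NearLamInf
import Fermat.Agent.MR.C.CovEC
import Fermat.Agent.ORD.P4.Count
import Fermat.Agent.ORD.P2.LamDp

/-!
# MR / C / SepB : (SEP), concrete half, at the level of series

`F = FL ℚ̄ (M₁ p)`, `F1 = F(h₁)`, `W = h₁^p` deep at both valuations, `p ∣ div W`.  `G`, `f` from `nearLam_rem`
(`G^p W = 1 + λ^p f`), `z_Q = (G h₁ - 1)/λ`.  On the branch `(∞, m)` (expansion `deck^m`) `z_Q` reduces to `θ + m + c₁`, on the branch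
`(0, m)` (expansion `ι0 ∘ deck^m`) to `θ' + m + c₁₀`.  `θ`, `θ'` are roots of `T^p - T - red f`, hence regular on the reduced chart and can
be lifted to the chart ring.  `a' = c (z_Q - Θ - const)` separates the branches `(i, k)`, `(i, l)`.
-/

set_option autoImplicit false

open Polynomial ModularCurve AlgebraicCurve

noncomputable section

namespace Fermat.Agent.MR.C

open Fermat.Agent.GR Fermat.Agent.GAL Fermat.Agent.GAL.KL Fermat.Agent.GAL.KLC Fermat.Agent.S24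
open Fermat.Agent.GR.HeckeField Fermat.Agent.TOR.GB Fermat.Agent.TOR Fermat.Agent.TOR.T1C
open Fermat.Agent.TOR.KL2 Fermat.Agent.TOR.T1 Fermat.Agent.ORD Fermat.Agent.ORD.P4 Fermat.Agent.ORD.P5
open Fermat.Agent.S24.FF

local notation "Λ" => LaurentSeries Qb

section T1

variable {K F₀ F k Γ' Γ₀ : Type*} [Field K] [Field F₀] [Field F] [Algebra K F₀]
  [Algebra K F] [Field k] [LinearOrderedCommGroupWithZero Γ'] [LinearOrderedCommGroupWithZero Γ₀]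
  {v₀ : Valuation F₀ Γ'} {ρ₀ : v₀.integer →+* LaurentSeries k} {v : Valuation F Γ₀}
  {ρ : v.integer →+* LaurentSeries k} {α β : F₀ →ₐ[K] F} {w : F ≃ₐ[K] F} {q : ℕ} [NeZero q]

/-- Artin–Schreier lifting on a chart (abstract two-level form). -/
theorem sepB2_lift_T1 (H : Lvl K ρ₀ ρ α β w q) {u₀ : F₀} {u : F} {η : LaurentSeries k}
    (I : ChartIn K ρ₀ ρ α w u₀ u η) {n : ℕ} (hn : 2 ≤ n) {X b : F} {φ : LaurentSeries k}
    (hb : IsInt K u b) (hb1 : Rd ρ b (φ ^ n - φ)) (hb2 : v (w b) ≤ 1) (hX : Rd ρ X φ) :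
    ∃ c' : F₀, IsInt K u (α c') ∧ Rd ρ (α c') φ ∧ Rd ρ (β c') (qExpand k q φ) := by
  have h1 : IsInt k η (φ ^ n - φ) := I.ir b _ hb hb1 hb2
  have h2 : IsInt k η φ := isInt_of_as hn IsInt.one h1 (by ring)
  obtain ⟨c, hc⟩ := I.res X φ hX
  obtain ⟨c', hc'int, hc'⟩ := I.lift c φ hc h2
  exact ⟨c', I.intα c' hc'int, H.ρα c' φ hc', H.ρβ c' φ hc'⟩

end T1

section Lift

variable (M₁ p : ℕ) [NeZero M₁] [NeZero p]

/-- Artin–Schreier lifting at `∞`. -/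
theorem sepB2_lift (hM : AdmLevel M₁) (hp : p.Prime) (hpM : ¬ p ∣ M₁)
    (A : ValuationSubring Qb) (hA : A.LiesOverPrime p) {X f : FN (M₁ * p)}
    {φ : LaurentSeries (kA A)} (hf : IsInt Qb (tP M₁ p) f)
    (hf1 : HasRed A (f : Λ) (φ ^ p - φ)) (hf2 : vG A (M₁ * p) (wq M₁ p f) ≤ 1)
    (hX : HasRed A (X : Λ) φ) :
    ∃ Θ : FN (M₁ * p), IsInt Qb (tP M₁ p) Θ ∧ HasRed A (Θ : Λ) φ ∧
      ∃ ψ, HasRed A ((wq M₁ p Θ : FN (M₁ * p)) : Λ) ψ := by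
  have H := lvl A M₁ p hp hpM
  have X' := xDat M₁ p hp A hA (spansStatement M₁) (riStatement M₁) (ctStatement M₁ p hM hp hpM A hA)
  obtain ⟨P₀, hP₀⟩ := exists_place_Q M₁
  obtain ⟨P₁, hP₁⟩ := exists_place_Q (M₁ * p)
  have C := cusp M₁ p hp hpM P₀ hP₀ P₁ hP₁
  have hArch := arch A (M₁ * p) hp hA
  obtain ⟨c', h1, h2, h3⟩ := sepB2_lift_T1 H (chartIn_t H X' hp.two_le hArch C) hp.two_le hf
    ((rd_iff (M₁ * p) A).2 hf1) hf2 ((rd_iff (M₁ * p) A).2 hX)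
  refine ⟨alp M₁ p c', h1, (rd_iff (M₁ * p) A).1 h2, qExpand (kA A) p φ, ?_⟩
  rw [H.wα]
  exact (rd_iff (M₁ * p) A).1 h3

/-- Artin–Schreier lifting at `0`. -/
theorem sepB2_lift0 (hM : AdmLevel M₁) (hp : p.Prime) (hpM : ¬ p ∣ M₁)
    (A : ValuationSubring Qb) (hA : A.LiesOverPrime p) {X f : FN (M₁ * p)}
    {φ : LaurentSeries (kA A)} (hf : IsInt Qb (tP M₁ p) f)
    (hf1 : HasRed A ((wq M₁ p f : FN (M₁ * p)) : Λ) (φ ^ p - φ)) (hf2 : vG A (M₁ * p) f ≤ 1)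
    (hX : HasRed A ((wq M₁ p X : FN (M₁ * p)) : Λ) φ) :
    ∃ Θ : FN (M₁ * p), IsInt Qb (tP M₁ p) Θ ∧ HasRed A ((wq M₁ p Θ : FN (M₁ * p)) : Λ) φ ∧
      ∃ ψ, HasRed A (Θ : Λ) ψ := by
  have H := lvl A M₁ p hp hpM
  have hwt : wq M₁ p (tP M₁ p) = tP M₁ p := w_tt H (xF M₁)
  obtain ⟨Θ, h1, h2, ψ, h3⟩ := sepB2_lift M₁ p hM hp hpM A hA (X := wq M₁ p X) (f := wq M₁ p f)
    (isInt_w hwt hf) hf1 (by rw [H.ww]; exact hf2) hX
  refine ⟨wq M₁ p Θ, isInt_w hwt h1, ?_, ψ, h3⟩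
  rw [H.ww]
  exact h2

end Lift

/-! ### elements `f₁ h₁ + f₂` of `F(h₁)` -/

section Lin

variable {I : Subgroup GQ} {F : Subfield Λ} {w : F →+* Λ} {p : ℕ} {ζ : Qb} {h1 h10 : Λ}

/-- `f₁ h₁ + f₂`. -/
def sepB2_lin (F : Subfield Λ) (h1 : Λ) (f₁ f₂ : F) : adjF F h1 :=
  ⟨f₁, le_adjF F h1 f₁.2⟩ * ⟨h1, self_mem_adjF F h1⟩ + ⟨f₂, le_adjF F h1 f₂.2⟩

theorem sepB2_coe_lin (f₁ f₂ : F) : ((sepB2_lin F h1 f₁ f₂ : adjF F h1) : Λ) = f₁ * h1 + f₂ := rfl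

theorem sepB2_deck_lin (H : CovHyp I F w p ζ h1 h10) (m : ℕ) (f₁ f₂ : F) :
    (H.kum.deck ^ m) (sepB2_lin F h1 f₁ f₂)
      = sepB2_lin F h1 (f₁ * ⟨HahnSeries.C ζ, H.C_mem ζ⟩ ^ m) f₂ := by
  apply Subtype.ext
  rw [sepB2_lin, map_add, map_mul, H.kum.deck_pow_F, H.kum.deck_pow_F, Subfield.coe_add,
    Subfield.coe_mul, H.kum.deck_pow_h, sepB2_coe_lin]
  push_cast
  ring

theorem sepB2_ι0_lin (H : CovHyp I F w p ζ h1 h10) (f₁ f₂ : F) :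
    H.ι0 (sepB2_lin F h1 f₁ f₂) = w f₁ * h10 + w f₂ := by
  rw [sepB2_lin, map_add, map_mul, H.ι0_F, H.ι0_F, H.ι0_h]

end Lin

/-! ### reductions -/

section Red

variable {A : ValuationSubring Qb}

/-- the basic computation. -/
theorem sepB2_red {lam c a : Qb} {cb ab : kA A} (hl0 : lam ≠ 0) (hlm : lam ∈ A.nonunits)
    (hc : P2.CRed A c cb) (ha : P2.CRed A a ab) {g h Θ : Λ} {θ ϑ y : LaurentSeries (kA A)}
    (hg : P2.Dp A lam g θ) (hh : P2.Dp A lam h y) (hΘ : HasRed A Θ ϑ) :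
    HasRed A (HahnSeries.C (c * lam⁻¹) * g * h
        + -(HahnSeries.C c * (HahnSeries.C lam⁻¹ + Θ + HahnSeries.C a)))
      (HahnSeries.C cb * (θ + y - ϑ - HahnSeries.C ab)) := by
  have h1 : HasRed A ((g * h - 1) / HahnSeries.C lam) (θ + y) := hg.mul hl0 hlm hh
  have h2 := P2.hasRed_C_mul hc (P2.hasRed_sub' (P2.hasRed_sub' h1 hΘ) ha.hasRed)
  have hC := P2.C_ne_zero' hl0
  have e : HahnSeries.C (c * lam⁻¹) * g * h
        + -(HahnSeries.C c * (HahnSeries.C lam⁻¹ + Θ + HahnSeries.C a))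
      = HahnSeries.C c * ((g * h - 1) / HahnSeries.C lam - Θ - HahnSeries.C a) := by
    rw [map_mul, map_inv₀]
    field_simp
    ring
  rw [e]
  exact h2

variable {p : ℕ}

theorem sepB2_dp_zeta (hp : p.Prime) (hA : A.LiesOverPrime p) {ζ : Qbˣ} (hζ : IsPrimitiveRoot ζ p)
    (m : ℕ) : P2.Dp A (P2.lam ζ) ((HahnSeries.C (ζ : Qb) : Λ) ^ m) (HahnSeries.C (m : kA A)) := by
  have hl0 := P2.lam_ne_zero hp hζ
  have h := P2.Dp.const (A := A) hl0 (P2.cRed_geom hp hA hζ m)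
  have e : 1 + P2.lam ζ * (((ζ : Qb) ^ m - 1) / P2.lam ζ) = (ζ : Qb) ^ m := by
    field_simp
    ring
  rwa [e, map_pow] at h

end Red

/-! ### the separating elements -/

section Main

/-- an element of `FN N` as an element of `FS N`. -/
def sepB2_fs {N : ℕ} (g : FN N) : FS N := ⟨(g : Λ), g.2⟩

variable {N p : ℕ} {I : Subgroup GQ} {w : FS N →+* Λ} {ζ : Qb} {h1 h10 : Λ}

theorem sepB2_build (A : ValuationSubring Qb) (H : CovHyp I (FS N) w p ζ h1 h10)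
    (W : FN N ≃ₐ[Qb] FN N) (hw : ∀ g : FN N, w (sepB2_fs g) = ((W g : FN N) : Λ))
    {lam c a : Qb} {cb ab : kA A} (hl0 : lam ≠ 0) (hlm : lam ∈ A.nonunits)
    (hc : P2.CRed A c cb) (ha : P2.CRed A a ab) (G Θ : FN N)
    {θ θ' ϑ ϑ' y y0 : LaurentSeries (kA A)}
    (hG : P2.Dp A lam (G : Λ) θ) (hG' : P2.Dp A lam ((W G : FN N) : Λ) θ')
    (hΘ : HasRed A (Θ : Λ) ϑ) (hΘ' : HasRed A ((W Θ : FN N) : Λ) ϑ')
    (hz : ∀ m : ℕ, P2.Dp A lam ((HahnSeries.C ζ : Λ) ^ m) (HahnSeries.C (m : kA A)))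
    (hy : P2.Dp A lam h1 y) (hy0 : P2.Dp A lam h10 y0) {t : FN N}
    (hGi : IsInt Qb t (G ^ p * ⟨h1 ^ p, H.pow_mem⟩)) (hΘi : IsInt Qb t Θ) :
    ∃ a' : adjF (FS N) h1, IsInt Qb (t : Λ) (a' : Λ) ∧
      (∀ m : ℕ, HasRed A (((H.kum.deck ^ m) a' : adjF (FS N) h1) : Λ)
        (HahnSeries.C cb * (θ + (HahnSeries.C (m : kA A) + y) - ϑ - HahnSeries.C ab))) ∧
      (∀ m : ℕ, HasRed A (H.ι0 ((H.kum.deck ^ m) a'))
        (HahnSeries.C cb * (θ' + (HahnSeries.C (m : kA A) + y0) - ϑ' - HahnSeries.C ab))) := by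
  have hwC : ∀ x : Qb, w ⟨HahnSeries.C x, H.C_mem x⟩ = HahnSeries.C x := by
    intro x
    have h1' := hw (algebraMap Qb (FN N) x)
    rw [AlgEquiv.commutes, ValThm_coe_algebraMap] at h1'
    have e : (⟨HahnSeries.C x, H.C_mem x⟩ : FS N) = sepB2_fs (algebraMap Qb (FN N) x) :=
      Subtype.ext (ValThm_coe_algebraMap N x).symm
    rw [e, h1']
  set f₁ : FS N := ⟨HahnSeries.C (c * lam⁻¹), H.C_mem _⟩ * sepB2_fs G with hf₁
  set f₂ : FS N := -(⟨HahnSeries.C c, H.C_mem _⟩ * (⟨HahnSeries.C lam⁻¹, H.C_mem _⟩ + sepB2_fs Θ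
    + ⟨HahnSeries.C a, H.C_mem _⟩)) with hf₂
  have hcf₁ : (f₁ : Λ) = HahnSeries.C (c * lam⁻¹) * (G : Λ) := rfl
  have hcf₂ : (f₂ : Λ) = -(HahnSeries.C c * (HahnSeries.C lam⁻¹ + (Θ : Λ) + HahnSeries.C a)) := rfl
  refine ⟨sepB2_lin (FS N) h1 f₁ f₂, ?_, fun m => ?_, fun m => ?_⟩
  · rw [sepB2_coe_lin, hcf₁, hcf₂]
    have hx : IsInt Qb (t : Λ) ((G : Λ) * h1) := by
      refine IsInt.of_pow H.prime.pos ?_
      have := hgc_isInt_coe hGi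
      rw [mul_pow]
      exact this
    have hC : ∀ x : Qb, IsInt Qb (t : Λ) (HahnSeries.C x : Λ) := fun x => by
      rw [← hgc_algebraMap]; exact IsInt.algebraMap x
    rw [mul_assoc]
    exact ((hC _).mul hx).add ((hC _).mul (((hC _).add (hgc_isInt_coe hΘi)).add (hC _))).neg
  · rw [sepB2_deck_lin H, sepB2_coe_lin]
    have e : (((f₁ * ⟨HahnSeries.C ζ, H.C_mem ζ⟩ ^ m : FS N) : Λ)) * h1 + (f₂ : Λ)
        = HahnSeries.C (c * lam⁻¹) * (G : Λ) * ((HahnSeries.C ζ : Λ) ^ m * h1)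
          + -(HahnSeries.C c * (HahnSeries.C lam⁻¹ + (Θ : Λ) + HahnSeries.C a)) := by
      rw [hcf₂]
      push_cast
      rw [hcf₁]
      ring
    rw [e]
    exact sepB2_red hl0 hlm hc ha hG ((hz m).mul hl0 hlm hy) hΘ
  · rw [sepB2_deck_lin H, sepB2_ι0_lin H]
    have e : w (f₁ * ⟨HahnSeries.C ζ, H.C_mem ζ⟩ ^ m) * h10 + w f₂
        = HahnSeries.C (c * lam⁻¹) * ((W G : FN N) : Λ) * ((HahnSeries.C ζ : Λ) ^ m * h10)
          + -(HahnSeries.C c * (HahnSeries.C lam⁻¹ + ((W Θ : FN N) : Λ) + HahnSeries.C a)) := by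
      rw [hf₁, hf₂, map_mul w, map_mul w, map_pow w, map_neg w, map_mul w, map_add w, map_add w,
        hwC, hwC, hwC, hwC, hwC, hw, hw]
      ring
    rw [e]
    exact sepB2_red hl0 hlm hc ha hG' ((hz m).mul hl0 hlm hy0) hΘ'

end Main

section Top

variable {M₁ p : ℕ} [NeZero M₁] [NeZero p] {I : Subgroup GQ} {w : FS (M₁ * p) →+* Λ} {h1 h10 : Λ}

/-- `HasRed` of the remainder. -/
theorem sepB2_rem (A : ValuationSubring Qb) {N : ℕ} {ε : Qb} (hε : ε ≠ 0) {Y f : FN N}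
    {b : LaurentSeries (kA A)} (hY : Y = 1 + algebraMap Qb (FL Qb N) ε * f)
    (h : P2.Dp A ε (Y : Λ) b) : HasRed A (f : Λ) b := by
  have e : ((Y : Λ) - 1) / HahnSeries.C ε = (f : Λ) := by
    rw [hY]
    have : (((1 + algebraMap Qb (FL Qb N) ε * f : FL Qb N)) : Λ) = 1 + HahnSeries.C ε * (f : Λ) := by
      rw [← ValThm_coe_algebraMap N ε]
      rfl
    rw [this, add_sub_cancel_left, mul_div_cancel_left₀ _ (P2.C_ne_zero' hε)]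
  unfold P2.Dp at h
  rwa [e] at h

/-- **(SEP), concrete half.** -/
theorem sepB2_main (hM : AdmLevel M₁) (hp : p.Prime) (hp2 : p ≠ 2) (hpM : ¬ p ∣ M₁)
    (A : ValuationSubring Qb) (hA : A.LiesOverPrime p) {ζ : Qbˣ} (hζ : IsPrimitiveRoot ζ p)
    (H : CovHyp I (FS (M₁ * p)) w p (ζ : Qb) h1 h10)
    (hw : ∀ g : FN (M₁ * p), w (sepB2_fs g) = ((wq M₁ p g : FN (M₁ * p)) : Λ))
    (hW1 : P2.Dp A (P2.lam ζ ^ p) (h1 ^ p) 0)
    (hW2 : P2.Dp A (P2.lam ζ ^ p) ((wq M₁ p ⟨h1 ^ p, H.pow_mem⟩ : FN (M₁ * p)) : Λ) 0)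
    (hdiv : ∀ P : Place Qb (FL Qb (M₁ * p)),
      (p : ℤ) ∣ P.ord (⟨h1 ^ p, H.pow_mem⟩ : FL Qb (M₁ * p)))
    {c1 c10 : kA A} (hy : P2.Dp A (P2.lam ζ) h1 (HahnSeries.C c1))
    (hy0 : P2.Dp A (P2.lam ζ) h10 (HahnSeries.C c10)) {k l : ℕ} (hkl : (k : ZMod p) ≠ l) :
    (∃ a : adjF (FS (M₁ * p)) h1, IsInt Qb ((tP M₁ p : FN (M₁ * p)) : Λ) (a : Λ) ∧
      (∀ m : ℕ, ∃ φ, HasRed A (((H.kum.deck ^ m) a : adjF (FS (M₁ * p)) h1) : Λ) φ) ∧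
      (∀ m : ℕ, ∃ φ, HasRed A (H.ι0 ((H.kum.deck ^ m) a)) φ) ∧
      HasRed A (((H.kum.deck ^ l) a : adjF (FS (M₁ * p)) h1) : Λ) 0 ∧
      HasRed A (((H.kum.deck ^ k) a : adjF (FS (M₁ * p)) h1) : Λ) 1) ∧
    (∃ a : adjF (FS (M₁ * p)) h1, IsInt Qb ((tP M₁ p : FN (M₁ * p)) : Λ) (a : Λ) ∧
      (∀ m : ℕ, ∃ φ, HasRed A (((H.kum.deck ^ m) a : adjF (FS (M₁ * p)) h1) : Λ) φ) ∧
      (∀ m : ℕ, ∃ φ, HasRed A (H.ι0 ((H.kum.deck ^ m) a)) φ) ∧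
      HasRed A (H.ι0 ((H.kum.deck ^ l) a)) 0 ∧
      HasRed A (H.ι0 ((H.kum.deck ^ k) a)) 1) := by
  have hchar : CharP (kA A) p := charP_residueField hp hA
  have : ExpChar (kA A) p := ExpChar.prime hp
  have hl0 : P2.lam ζ ≠ 0 := P2.lam_ne_zero hp hζ
  have hlm : P2.lam ζ ∈ A.nonunits := P2.lam_mem_nonunits hp hA hζ.pow_eq_one
  have hlp0 : P2.lam ζ ^ p ≠ 0 := pow_ne_zero p hl0
  have hlpm : P2.lam ζ ^ p ∈ A.nonunits := by
    rw [← P2.cRed_zero_iff]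
    have := (P2.cRed_zero_iff.2 hlm).pow p
    rwa [zero_pow hp.ne_zero] at this
  set Wf : FN (M₁ * p) := ⟨h1 ^ p, H.pow_mem⟩ with hWf
  obtain ⟨G, f, θ, θ', -, hGf, hfi, hf1, hf2, hθ, hθ'⟩ :=
    nearLam_rem M₁ p hM hp hpM A hA hζ Wf (b := 0) (b' := 0) hW1 hW2 hdiv
  -- reductions of the remainder
  have hrf : HasRed A (f : Λ) (θ ^ p - θ) := by
    refine sepB2_rem A hlp0 hGf ?_
    have := (P2.Dp.pow_p_lam_one hp hp2 hA hζ hθ).mul hlp0 hlpm hW1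
    rwa [add_zero] at this
  have hrf' : HasRed A ((wq M₁ p f : FN (M₁ * p)) : Λ) (θ' ^ p - θ') := by
    have hGf' : wq M₁ p (G ^ p * Wf)
        = 1 + algebraMap Qb (FL Qb (M₁ * p)) (P2.lam ζ ^ p) * wq M₁ p f := by
      rw [hGf, map_add, map_one, map_mul, AlgEquiv.commutes]
    refine sepB2_rem A hlp0 hGf' ?_
    have := (P2.Dp.pow_p_lam_one hp hp2 hA hζ hθ').mul hlp0 hlpm hW2
    rw [add_zero] at this
    rw [map_mul, map_pow]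
    exact this
  -- `X = (G - 1)/λ`
  set X : FN (M₁ * p) := (G - 1) / algebraMap Qb (FL Qb (M₁ * p)) (P2.lam ζ) with hX
  have hXr : HasRed A (X : Λ) θ := by
    have e : (X : Λ) = ((G : Λ) - 1) / HahnSeries.C (P2.lam ζ) := by
      rw [← ValThm_coe_algebraMap (M₁ * p) (P2.lam ζ)]
      rfl
    rw [e]
    exact hθ
  have hXr' : HasRed A ((wq M₁ p X : FN (M₁ * p)) : Λ) θ' := by
    have e : ((wq M₁ p X : FN (M₁ * p)) : Λ)
        = (((wq M₁ p G : FN (M₁ * p)) : Λ) - 1) / HahnSeries.C (P2.lam ζ) := by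
      rw [hX, map_div₀, map_sub, map_one, AlgEquiv.commutes,
        ← ValThm_coe_algebraMap (M₁ * p) (P2.lam ζ)]
      rfl
    rw [e]
    exact hθ'
  obtain ⟨Θ, hΘi, hΘ, ψ, hΘψ⟩ := sepB2_lift M₁ p hM hp hpM A hA hfi hrf hf2 hXr
  obtain ⟨Θ', hΘi', hΘ', ψ', hΘψ'⟩ := sepB2_lift0 M₁ p hM hp hpM A hA hfi hrf' hf1 hXr'
  -- constants
  have hkl' : (k : kA A) - (l : kA A) ≠ 0 := by
    intro h
    apply hkl
    rw [sub_eq_zero, CharP.natCast_eq_natCast (kA A) p] at h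
    exact (ZMod.natCast_eq_natCast_iff k l p).2 h
  obtain ⟨c, hc⟩ := IsLocalRing.residue_surjective (R := A) ((k : kA A) - (l : kA A))⁻¹
  have hc' : P2.CRed A (c : Qb) ((k : kA A) - (l : kA A))⁻¹ := hc ▸ P2.CRed.mk c
  obtain ⟨a, ha⟩ := IsLocalRing.residue_surjective (R := A) (c1 + (l : kA A))
  have ha' : P2.CRed A (a : Qb) (c1 + (l : kA A)) := ha ▸ P2.CRed.mk a
  obtain ⟨a0, ha0⟩ := IsLocalRing.residue_surjective (R := A) (c10 + (l : kA A))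
  have ha0' : P2.CRed A (a0 : Qb) (c10 + (l : kA A)) := ha0 ▸ P2.CRed.mk a0
  have hGi : IsInt Qb (tP M₁ p) (G ^ p * ⟨h1 ^ p, H.pow_mem⟩) := by
    rw [← hWf, hGf]
    exact IsInt.one.add ((IsInt.algebraMap _).mul hfi)
  have hz := sepB2_dp_zeta hp hA hζ
  have key : ∀ (x : kA A) (m : ℕ) (τ : LaurentSeries (kA A)),
      HahnSeries.C ((k : kA A) - (l : kA A))⁻¹ * (τ + (HahnSeries.C (m : kA A) + HahnSeries.C x) - τ
        - HahnSeries.C (x + (l : kA A)))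
      = HahnSeries.C (((k : kA A) - (l : kA A))⁻¹ * ((m : kA A) - (l : kA A))) := by
    intro x m τ
    rw [map_mul, map_sub, map_add]
    ring
  constructor
  · obtain ⟨a', h1', h2', h3'⟩ := sepB2_build A H (wq M₁ p) hw hl0 hlm hc' ha' G Θ hθ hθ' hΘ hΘψ hz
      hy hy0 hGi hΘi
    refine ⟨a', h1', fun m => ⟨_, h2' m⟩, fun m => ⟨_, h3' m⟩, ?_, ?_⟩
    · have := h2' l
      rwa [key, sub_self, mul_zero, map_zero] at this
    · have := h2' k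
      rwa [key, inv_mul_cancel₀ hkl', map_one] at this
  · obtain ⟨a', h1', h2', h3'⟩ := sepB2_build A H (wq M₁ p) hw hl0 hlm hc' ha0' G Θ' hθ hθ' hΘψ' hΘ'
      hz hy hy0 hGi hΘi'
    refine ⟨a', h1', fun m => ⟨_, h2' m⟩, fun m => ⟨_, h3' m⟩, ?_, ?_⟩
    · have := h3' l
      rwa [key, sub_self, mul_zero, map_zero] at this
    · have := h3' k
      rwa [key, inv_mul_cancel₀ hkl', map_one] at this

end Top

end Fermat.Agent.MR.C
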