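import Fermat.Agent.ORD.P2.Bridge
import Fermat.Agent.ORD.P2.LamDp
import Fermat.Agent.ORD.P2.DepU
import Fermat.Agent.TOR.GoalAFinal
import Fermat.Agent.TOR.GB.Norm

/-!
# MR / C : the branch `0` splits (`split0`), and a generator which is deep at both valuations
(`deep_both`).

Level `N = M₁ p`.  `H₁` a Kummer generator with `Dp A (λ^p) H₁ 0`, `Dp A (λ^p) (w H₁) b`
(the output of `ORD.P2.core_field_gen`).  The NORM FORM of newness
`(R2) : w H₁ * U_p H₁ = c g^p`, `g` of level `M₁`, forces `b = a^p - a` with `a` the reduction of a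
function of level `M₁`; dividing `H₁` by a `p`-th power we get `b = 0`.
-/

set_option autoImplicit false
noncomputable section

namespace Fermat.Agent.MR.C

open ModularCurve AlgebraicCurve HahnSeries Fermat.Agent.GR Fermat.Agent.GAL Fermat.Agent.GAL.KLC
open Fermat.Agent.S24 Fermat.Agent.TOR.GB Fermat.Agent.ORD.P2 Fermat.Agent.GR.HeckeField

variable {A : ValuationSubring Qb} {M M₁ p : ℕ}

/-- every `p`-th root of unity is `≡ 1 mod λ`. -/
theorem Split0_vG_root (hp : p.Prime) (hA : A.LiesOverPrime p) {ζ : Qbˣ}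
    (hζ : IsPrimitiveRoot ζ p) {μ : FL Qb M} (hμ : μ ^ p = 1) :
    vG A M (μ - 1) ≤ vG A M (algebraMap Qb (FL Qb M) (lam ζ)) := by
  have hζ' : IsPrimitiveRoot (algebraMap Qb (FL Qb M) (ζ : Qb)) p :=
    (IsPrimitiveRoot.coe_units_iff.2 hζ).map_of_injective (algebraMap Qb (FL Qb M)).injective
  have : NeZero p := ⟨hp.ne_zero⟩
  obtain ⟨i, -, hi⟩ := hζ'.eq_pow_of_pow_eq_one hμ
  have hl := lam_ne_zero hp hζ
  have e : μ - 1 = algebraMap Qb (FL Qb M) (((ζ : Qb) ^ i - 1) / lam ζ)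
      * algebraMap Qb (FL Qb M) (lam ζ) := by
    rw [← map_mul, div_mul_cancel₀ _ hl, map_sub, map_pow, map_one, hi]
  rw [e, map_mul]
  exact mul_le_of_le_one_left' (Bridge_vG_const_le (cRed_geom hp hA hζ i))

/-- **root extraction**: if `x^p ≡ 1 mod λ^p` then `x ≡ 1 mod λ`. -/
theorem Split0_vG_sub_one (hp : p.Prime) (hA : A.LiesOverPrime p) {ζ : Qbˣ}
    (hζ : IsPrimitiveRoot ζ p) {X : FL Qb M}
    (h : vG A M (X ^ p - 1) ≤ vG A M (algebraMap Qb (FL Qb M) (lam ζ)) ^ p) :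
    vG A M (X - 1) ≤ vG A M (algebraMap Qb (FL Qb M) (lam ζ)) := by
  by_contra hlt
  rw [not_le] at hlt
  have hζ' : IsPrimitiveRoot (algebraMap Qb (FL Qb M) (ζ : Qb)) p :=
    (IsPrimitiveRoot.coe_units_iff.2 hζ).map_of_injective (algebraMap Qb (FL Qb M)).injective
  have h1 := hζ'.pow_sub_pow_eq_prod_sub_mul X 1 hp.pos
  rw [one_pow] at h1
  have h2 : vG A M (X ^ p - 1) = vG A M (X - 1) ^ p := by
    rw [h1, map_prod]
    have h3 : ∀ μ ∈ Polynomial.nthRootsFinset p (1 : FL Qb M),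
        vG A M (X - μ * 1) = vG A M (X - 1) := by
      intro μ hμ
      have hμ1 : μ ^ p = 1 := (Polynomial.mem_nthRootsFinset hp.pos 1).1 hμ
      have h4 := Split0_vG_root (A := A) hp hA hζ hμ1
      have e : X - μ * 1 = (X - 1) - (μ - 1) := by ring
      rw [e]
      exact Valuation.map_sub_eq_of_lt_left _ (lt_of_le_of_lt h4 hlt)
    rw [Finset.prod_congr rfl h3, Finset.prod_const, hζ'.card_nthRootsFinset]
  rw [h2] at h
  exact absurd h (not_le.2 (pow_lt_pow_left₀ hlt zero_le hp.ne_zero))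

variable [NeZero p]

/-- **root extraction in `Dp` form**: if `x` lies in a modular function field and
`x^p = 1 + λ^p b` then `x = 1 + λ a` with `a^p - a = b`. -/
theorem root_dp (hp : p.Prime) (hp2 : p ≠ 2) (hA : A.LiesOverPrime p) {ζ : Qbˣ}
    (hζ : IsPrimitiveRoot ζ p) {x : LaurentSeries Qb} (hx : x ∈ FL Qb M)
    {b : LaurentSeries (kk A)} (h : Dp A (lam ζ ^ p) (x ^ p) b) :
    ∃ a, Dp A (lam ζ) x a ∧ a ^ p - a = b := by
  have hchar : CharP (kk A) p := charP_residueField hp hA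
  have : ExpChar (kk A) p := ExpChar.prime hp
  have hl := lam_ne_zero hp hζ
  set X : FL Qb M := ⟨x, hx⟩ with hX
  have h1 : vG A M (X ^ p - 1) ≤ vG A M (algebraMap Qb (FL Qb M) (lam ζ)) ^ p := by
    rw [← map_pow, ← map_pow]
    exact vG_sub_one_le_of_dp (W := X ^ p) (pow_ne_zero p hl) h
  have h2 := Split0_vG_sub_one hp hA hζ h1
  have h0 : 0 < vG A M (algebraMap Qb (FL Qb M) (lam ζ)) :=
    zero_lt_iff.2 ((Valuation.ne_zero_iff _).2 (Bridge_algebraMap_ne_zero hl))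
  have h3 : vG A M ((X - 1) / algebraMap Qb (FL Qb M) (lam ζ)) ≤ 1 := by
    rw [map_div₀, div_le_one₀ h0]
    exact h2
  obtain ⟨a, ha⟩ := (ValThm_le_one_iff A M).1 h3
  rw [Bridge_coe_div] at ha
  have ha' : Dp A (lam ζ) x a := ha
  exact ⟨a, ha', (ha'.pow_p_lam_one hp hp2 hA hζ).unique h⟩

/-- **(split0)**  the branch `0` of the Kummer cover of a NEW class splits. -/
theorem split0 [NeZero M₁] (hp : p.Prime) (hp2 : p ≠ 2) (hA : A.LiesOverPrime p) {ζ : Qbˣ}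
    (hζ : IsPrimitiveRoot ζ p) (H : FN (M₁ * p))
    (h1 : Dp A (lam ζ ^ p) (H : LaurentSeries Qb) 0) {b : LaurentSeries (kk A)}
    (h2 : Dp A (lam ζ ^ p) ((wq M₁ p H : FN (M₁ * p)) : LaurentSeries Qb) b)
    {c : Qb} {g : LaurentSeries Qb} (hg : g ∈ FL Qb M₁)
    (hR2 : ((wq M₁ p H : FN (M₁ * p)) : LaurentSeries Qb) * NmL Qb p (H : LaurentSeries Qb)
      = HahnSeries.C c * g ^ p) :
    ∃ y ∈ FL Qb M₁, ∃ a, Dp A (lam ζ) y a ∧ a ^ p - a = b := by
  have hchar : CharP (kk A) p := charP_residueField hp hA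
  have : ExpChar (kk A) p := ExpChar.prime hp
  have hl := lam_ne_zero hp hζ
  have hlp : lam ζ ^ p ≠ 0 := pow_ne_zero p hl
  have hlm : lam ζ ^ p ∈ A.nonunits :=
    LamDp_pow_mem_nonunits (lam_mem_nonunits hp hA hζ.pow_eq_one) hp.ne_zero
  have h0 := natCast_ne_zero_of_isPrimitiveRoot hp hζ
  have h3 : Dp A (lam ζ ^ p) (NmL Qb p (H : LaurentSeries Qb)) 0 := by
    rw [NmL_eq_normU p hζ]
    exact h1.normU_zero hp hA h0 hζ hlp hlm
  have h4 := h2.mul hlp hlm h3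
  rw [add_zero, hR2] at h4
  obtain ⟨c', hc'⟩ := IsAlgClosed.exists_pow_nat_eq c hp.pos
  have hx : HahnSeries.C c' * g ∈ FL Qb M₁ := by
    rw [← ValThm_coe_algebraMap M₁ c']
    exact mul_mem (algebraMap Qb (FL Qb M₁) c').2 hg
  have e : HahnSeries.C c * g ^ p = (HahnSeries.C c' * g) ^ p := by
    rw [mul_pow, ← map_pow, hc']
  rw [e] at h4
  obtain ⟨a, ha, hab⟩ := root_dp hp hp2 hA hζ hx h4
  exact ⟨_, hx, a, ha, hab⟩

/-- **(deep_both)**  a NEW class which is deep at `∞` has a generator which is `≡ 1 mod λ^p 𝔪` at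
BOTH valuations. -/
theorem deep_both [NeZero M₁] (hM : AdmLevel M₁) (hp : p.Prime) (hp2 : p ≠ 2) (hpM : ¬ p ∣ M₁)
    (hA : A.LiesOverPrime p) {ζ : Qbˣ}
    (hζ : IsPrimitiveRoot ζ p) (H : FN (M₁ * p))
    (h1 : Dp A (lam ζ ^ p) (H : LaurentSeries Qb) 0) {b : LaurentSeries (kk A)}
    (h2 : Dp A (lam ζ ^ p) ((wq M₁ p H : FN (M₁ * p)) : LaurentSeries Qb) b)
    {c : Qb} {g : LaurentSeries Qb} (hg : g ∈ FL Qb M₁)
    (hR2 : ((wq M₁ p H : FN (M₁ * p)) : LaurentSeries Qb) * NmL Qb p (H : LaurentSeries Qb)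
      = HahnSeries.C c * g ^ p) :
    ∃ Y : FN (M₁ * p), Y ≠ 0 ∧ Dp A (lam ζ) (Y : LaurentSeries Qb) 0 ∧
      Dp A (lam ζ ^ p) ((H / Y ^ p : FN (M₁ * p)) : LaurentSeries Qb) 0 ∧
      Dp A (lam ζ ^ p) ((wq M₁ p (H / Y ^ p) : FN (M₁ * p)) : LaurentSeries Qb) 0 := by
  have hchar : CharP (kk A) p := charP_residueField hp hA
  have : ExpChar (kk A) p := ExpChar.prime hp
  have hl := lam_ne_zero hp hζ
  have hlm1 := lam_mem_nonunits (A := A) hp hA hζ.pow_eq_one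
  have hlp : lam ζ ^ p ≠ 0 := pow_ne_zero p hl
  have hlm : lam ζ ^ p ∈ A.nonunits := LamDp_pow_mem_nonunits hlm1 hp.ne_zero
  obtain ⟨y, hy, a, ha, hab⟩ := split0 hp hp2 hA hζ H h1 h2 hg hR2
  obtain ⟨θ, hθ1, hθ0⟩ := TOR.thetaC M₁ p hM hp hpM A hA
  -- `G = (y - 1)/λ` of level `M₁`
  set G : FN M₁ := (⟨y, hy⟩ - 1) / algebraMap Qb (FL Qb M₁) (lam ζ) with hG
  have hGc : HasRed A (G : LaurentSeries Qb) a := by
    rw [hG, Bridge_coe_div]
    exact ha
  set Lm : FN (M₁ * p) := algebraMap Qb (FL Qb (M₁ * p)) (lam ζ) with hLm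
  set Y : FN (M₁ * p) := 1 + Lm * (wq M₁ p θ * bet M₁ p G) with hY
  have hwY : wq M₁ p Y = 1 + Lm * (θ * alp M₁ p G) := by
    rw [hY, map_add, map_one, map_mul, map_mul, wq_wq hp hpM, wq_bet hp hpM, hLm]
    congr 2
    exact (wq M₁ p).commutes (lam ζ)
  have hLc : (Lm : LaurentSeries Qb) = HahnSeries.C (lam ζ) := ValThm_coe_algebraMap _ _
  have hYd : Dp A (lam ζ) (Y : LaurentSeries Qb) 0 := by
    refine (dp_iff hl).mpr ⟨((wq M₁ p θ * bet M₁ p G : FN (M₁ * p)) : LaurentSeries Qb), ?_, ?_⟩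
    · have hb : HasRed A ((bet M₁ p G : FN (M₁ * p)) : LaurentSeries Qb) (qExpand (kk A) p a) := by
        rw [coe_heckeBetaBar]
        exact hGc.map (qExpand A p) (qExpand Qb p) (qExpand (kk A) p) (map_mul _) (map_mul _)
          (fun y => GR.coeffMap_qExpand _ p y) (fun y => GR.coeffMap_qExpand _ p y)
          (fun w hw e => hw (qExpand_injective p (by rw [e, map_zero])))
      have := hθ0.mul hb
      rwa [zero_mul] at this
    · rw [← hLc]; rfl
  have hwYd : Dp A (lam ζ) ((wq M₁ p Y : FN (M₁ * p)) : LaurentSeries Qb) a := by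
    rw [hwY]
    refine (dp_iff hl).mpr ⟨((θ * alp M₁ p G : FN (M₁ * p)) : LaurentSeries Qb), ?_, ?_⟩
    · have hb : HasRed A ((alp M₁ p G : FN (M₁ * p)) : LaurentSeries Qb) a := by
        rw [coe_heckeAlphaBar]
        exact hGc
      have := hθ1.mul hb
      rwa [one_mul] at this
    · rw [← hLc]; rfl
  have hY0 : Y ≠ 0 := by
    intro h0
    exact (hYd.ne_zero hl hlm1) (by rw [h0]; rfl)
  refine ⟨Y, hY0, hYd, ?_, ?_⟩
  · have h5 := hYd.pow_p_lam_one hp hp2 hA hζ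
    rw [zero_pow hp.ne_zero, sub_zero] at h5
    have h6 := h1.div hlp hlm h5
    rw [sub_zero] at h6
    exact h6
  · have h5 := hwYd.pow_p_lam_one hp hp2 hA hζ
    rw [hab] at h5
    have h6 := h2.div hlp hlm h5
    rw [sub_self] at h6
    rw [map_div₀, map_pow]
    exact h6

end Fermat.Agent.MR.C
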