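import Fermat.Agent.MR.C.J.R0
import Fermat.Agent.MR.C.J.F1
import Fermat.Agent.MR.C.SepH
import Fermat.Agent.MR.C.PrepIn
import Fermat.Agent.MR.C.ValHt
import Fermat.Agent.MR.C.ValInd
import Fermat.Agent.MR.C.AbsValW
import Fermat.Agent.MR.Contracts
import Fermat.Agent.GAL.ESR.Gauss

/-!
# MR / C / Top77 : `MR.CStatement` (assembly; hedge of `Top.lean`)

`exists_prepIn` + `PrepIn.out` + `J/F1` (`he`, `Dp`) + `SepH.sepH_sep` + `ValHt.valHt_good` + `AbsValW.exists_norm_of_deck` + `J/R0.pdivT`.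
-/

set_option autoImplicit false

open ModularCurve AlgebraicCurve

noncomputable section

namespace Fermat.Agent.MR.C

open Fermat.Agent.GR Fermat.Agent.GAL Fermat.Agent.GAL.KL Fermat.Agent.GAL.KLC Fermat.Agent.S24
open Fermat.Agent.TOR Fermat.Agent.TOR.GB
open Fermat.Agent.CAR Fermat.Agent.CAR.BK Fermat.Agent.CAR.ON
open Fermat.Agent.CAR.DESC Fermat.Agent.MR.TH Fermat.Agent.MR.A Fermat.Agent.DSC
open Fermat.Agent.ORD.P2

local notation "Λ" => LaurentSeries Qb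

variable {M₁ p : ℕ} [NeZero M₁] [NeZero p] {A : ValuationSubring Qb} {ℓ : ℕ} [NeZero ℓ] {e : ℕ}
  {ζ : Qbˣ} {u h1 : Λ}

theorem top77_natCast (n : ℕ) : ((n : ℕ) : Λ) = HahnSeries.C (n : Qb) := (map_natCast _ n).symm

/-- **the upper half of block C.** -/
theorem top77_main (P : PrepIn A M₁ p ℓ e ζ u h1) {c : Qb} {ab : LaurentSeries (kA A)}
    (hab : HasRed A (HahnSeries.C c * u ^ p) ab) (hab0 : ab ≠ 0) : PDiv (Rb A M₁) p ab := by
  have hFact : Fact p.Prime := ⟨P.hp⟩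
  obtain ⟨h10, u0, H, a1, S, S0, g, η, m, hG, hGu, ha1, hη, hS, hS0, hSne, hS0ne, hSfix, hS0fix,
    hg, hg0, hgfix, hδ, hm⟩ := P.out
  have he : ∀ (j : I2) (x : adjF (FS (M₁ * p)) h1), x ≠ 0 → Nrm A (epsT H j x) := by
    intro j x hx
    rcases I2_cases j with rfl | rfl
    · exact P.jF1_nrm_oo hG x hx
    · exact P.jF1_nrm_zr hG H x hx
  have hw : ∀ f : FS (M₁ * p),
      wS M₁ p f = ((wq M₁ p (⟨f.1, f.2⟩ : FN (M₁ * p)) : FN (M₁ * p)) : Λ) := fun f => rfl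
  obtain ⟨j, j0, hj, hj0⟩ := P.jF1_dp hG
  have hε : ∀ (i : I2) (x : adjF (FS (M₁ * p)) h1), H.sepH_eps i x = epsT H i x := by
    intro i x
    rcases I2_cases i with rfl | rfl <;> rfl
  obtain ⟨-, hmem, hdiv⟩ := P.kh
  have sep : ∀ (i : I2) (k l : ZMod p), k ≠ l →
      ∃ b : fixS (IA A) (adjF (FS (M₁ * p)) h1), IsIntegral (BT M₁ p A) b ∧
        vtT A H he (i, l) b < 1 ∧ vtT A H he (i, k) (b - 1) < 1 := by
    intro i k l hkl
    exact sepH_sep P.hM P.hp P.hp2 P.hpM A P.hA P.hζ (fun f => rfl) H hdiv P.deep P.deep0 hj hj0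
      (VT A H he) (VT_algebraMap A H he hw)
      (fun i x h => (VT_le_one_iff A H he i).2 (by simpa only [hε] using h))
      (fun i x h => (VT_lt_one_iff A H he i).2 (by simpa only [hε] using h)) i k l hkl
  have C := covT A H he P.hA hw sep
  have hB := TH.base A P.hM P.hp P.hpM P.hA
  have hGu' := hGu
  obtain ⟨hu0, hu00, ⟨U, hU, hU0⟩, -⟩ := hGu
  -- the elements of `E`
  have hSp : S ^ p = u ^ p * (a1 : Λ) ^ p := by rw [hS, mul_pow]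
  have hSpF1 : S ^ p ∈ adjF (FS (M₁ * p)) h1 := by
    rw [hSp, hU]
    exact mul_mem (le_adjF _ h1 U.2) (pow_mem a1.2 p)
  let Ht : fixS (IA A) (adjF (FS (M₁ * p)) h1) :=
    ⟨S ^ p, hSpF1, fun τ hτ => by rw [map_pow, hSfix τ hτ]⟩
  let gE : fixS (IA A) (adjF (FS (M₁ * p)) h1) := ⟨g, hg, hgfix⟩
  have hHt0 : Ht ≠ 0 := fun h => pow_ne_zero p hSne (congrArg Subtype.val h)
  have hgE0 : gE ≠ 0 := fun h => hg0 (congrArg Subtype.val h)
  have hto : toF1 Ht = ⟨U, le_adjF _ h1 U.2⟩ * a1 ^ p := by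
    apply Subtype.ext
    show S ^ p = (U : Λ) * (a1 : Λ) ^ p
    rw [hSp, hU]
  have hδHt : ((H.δC Ht : fixS (IA A) (adjF (FS (M₁ * p)) h1)) : Λ)
      = HahnSeries.C (η ^ p) * g ^ p * S ^ p := by
    rw [H.coe_δC, hto, map_mul, map_pow, hδ]
    have h1' : H.δ ⟨U, le_adjF _ h1 U.2⟩ = U := H.coverDat.δ_F U
    rw [h1', hSp, hU, map_pow]
    ring
  -- the constant
  have hCmem : (HahnSeries.C (η ^ p) : Λ) ∈ FL Qb (M₁ * p) := GAL.C_mem_FL _ _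
  have hCeq : (HahnSeries.C (η ^ p) : Λ)
      = ((H.δC Ht / (gE ^ p * Ht) : fixS (IA A) (adjF (FS (M₁ * p)) h1)) : Λ) := by
    have h2 : (g ^ p * S ^ p : Λ) ≠ 0 := mul_ne_zero (pow_ne_zero p hg0) (pow_ne_zero p hSne)
    show _ = ((H.δC Ht : fixS (IA A) (adjF (FS (M₁ * p)) h1)) : Λ) / (g ^ p * S ^ p)
    rw [hδHt, mul_assoc, mul_div_cancel_right₀ _ h2]
  have hCfix : ∀ τ ∈ IA A, galS τ (HahnSeries.C (η ^ p) : Λ) = HahnSeries.C (η ^ p) := by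
    rw [hCeq]
    exact (H.δC Ht / (gE ^ p * Ht)).2.2
  let c₀ : EC A (M₁ * p) := ⟨⟨HahnSeries.C (η ^ p), hCmem⟩, hCfix⟩
  let cE : fixS (IA A) (adjF (FS (M₁ * p)) h1) :=
    algebraMap (EC A (M₁ * p)) (fixS (IA A) (adjF (FS (M₁ * p)) h1)) c₀
  have hδE : H.δC Ht = cE * gE ^ p * Ht := Subtype.ext hδHt
  have hc₀ : (c₀ : FN (M₁ * p)) = algebraMap Qb (FN (M₁ * p)) (η ^ p) := by
    apply Subtype.ext
    exact (ValThm_coe_algebraMap (M₁ * p) (η ^ p)).symm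
  have hvc : ∀ i : I2, vT M₁ p A i c₀ = vT M₁ p A i ((piT M₁ p A : BT M₁ p A) : EC A (M₁ * p)) ^ ((p : ℤ) * m) := by
    intro i
    have e1 : vT M₁ p A i c₀ = vcG A (M₁ * p) (η ^ p) := by
      show vG A (M₁ * p) (wj (wq M₁ p) i (c₀ : FN (M₁ * p))) = _
      rw [hc₀, AlgEquiv.commutes]
      rfl
    have e2 : vT M₁ p A i ((piT M₁ p A : BT M₁ p A) : EC A (M₁ * p)) = vcG A (M₁ * p) (p : Qb) := by
      show vG A (M₁ * p) (wj (wq M₁ p) i (((piT M₁ p A : BT M₁ p A) : EC A (M₁ * p)) : FN (M₁ * p))) = _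
      rw [coe_piT, AlgEquiv.commutes]
      rfl
    rw [e1, e2]
    exact vi_vc_eta (vcG_le_one_iff (M₁ * p)) P.hp hm
  have hc : ∀ b, ∃ m : ℤ, vtT A H he b cE
      = vtT A H he b (algebraMap (EC A (M₁ * p)) _ ((piT M₁ p A : BT M₁ p A) : EC A (M₁ * p))) ^ ((p : ℤ) * m) := by
    rintro ⟨i, k⟩
    exact ⟨m, by rw [C.ext, C.ext]; exact hvc i⟩
  -- the two base branches
  have hF : FS (M₁ * p) ≤ KIH.KF A (A.inertiaSubgroupIn ℚ) := fun x hx => KIH.FL_le_KF (M₁ * p) hx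
  have hwK : ∀ f : FS (M₁ * p), wS M₁ p f ∈ KIH.KF A (A.inertiaSubgroupIn ℚ) :=
    fun f => KIH.FL_le_KF (M₁ * p) (wS_mem f)
  obtain ⟨hh1, hh10⟩ := P.jF1_KIH hG (A.inertiaSubgroupIn ℚ)
  obtain ⟨⟨m1, φ1, hφ1, r1⟩, ⟨m2, φ2, hφ2, r2⟩⟩ := valHt_good P.hp P.hA H hF hwK hh1 hh10 ℓ e P.he
    hGu' hS hS0 hSne hS0ne hSfix hS0fix
  have hϖ : ∀ i : I2, eT H i (algebraMap (EC A (M₁ * p)) (fixS (IA A) (adjF (FS (M₁ * p)) h1))
      ((piT M₁ p A : BT M₁ p A) : EC A (M₁ * p))) = HahnSeries.C (p : Qb) := by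
    intro i
    have e1 : algebraMap (EC A (M₁ * p)) (fixS (IA A) (adjF (FS (M₁ * p)) h1))
        ((piT M₁ p A : BT M₁ p A) : EC A (M₁ * p))
        = ((p : ℕ) : fixS (IA A) (adjF (FS (M₁ * p)) h1)) := by
      have e2 : ((piT M₁ p A : BT M₁ p A) : EC A (M₁ * p)) = ((p : ℕ) : EC A (M₁ * p)) := by
        simp
      rw [e2, map_natCast]
    rw [e1, map_natCast, top77_natCast]
  have h0 : ∀ i, ∃ m : ℤ, vtT A H he (i, 0) Ht
      = vtT A H he (i, 0) (algebraMap (EC A (M₁ * p)) _ ((piT M₁ p A : BT M₁ p A) : EC A (M₁ * p))) ^ ((p : ℤ) * m) := by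
    intro i
    rcases I2_cases i with rfl | rfl
    · refine ⟨-m1, ?_⟩
      rw [vtT_zero, vtT_zero]
      exact valHt_gaussV (vcG_le_one_iff (M₁ * p)) (eT H oo) (nrm_eT A H he oo) P.hp (hϖ oo) hφ1 r1
    · refine ⟨-m2, ?_⟩
      rw [vtT_zero, vtT_zero]
      refine valHt_gaussV (vcG_le_one_iff (M₁ * p)) (eT H zr) (nrm_eT A H he zr) P.hp (hϖ zr) hφ2 ?_
      have e3 : eT H zr Ht = S0 ^ p := by
        show H.ι0 (toF1 Ht) = _
        rw [hto, map_mul, map_pow, H.ι0_F, hS0, mul_pow, hU0]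
      rw [e3]
      exact r2
  obtain ⟨e', he', hW⟩ := exists_norm_of_deck hB C p hgE0 hc hδE h0
  refine pdivT A H he P.hM P.hpM P.hA hw sep (W := Ht * e' ^ p) hW (u := u)
    (b := (a1 : Λ) * (e' : Λ)) P.ku ?_ ?_ ?_ hab hab0
  · exact mul_mem a1.2 e'.2.1
  · exact mul_ne_zero (fun h => ha1 (Subtype.ext h)) (fun h => he' (Subtype.ext h))
  · show S ^ p * (e' : Λ) ^ p = _
    rw [hSp, mul_pow]
    ring

/-- **`MR.CStatement`.** -/
theorem cStatement77 : MR.CStatement := by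
  intro M₁ p _ _ hM hp hp5 hpM A hA u u₁ hu hu1 _ hu1n g1 g2 g3 g4 _ hU1 _ hnew1 c ab hab hab0
  have hp2 : p ≠ 2 := by omega
  obtain ⟨ζ, hζ⟩ := Fermat.Agent.GAL.exists_primitiveRoot_Qb p
  obtain ⟨ℓ, _, e, c0, h1, hc0, P⟩ := exists_prepIn hM hp hp2 hpM A hA hζ hu hu1 hu1n g1 g2 g3 g4 hU1
    (hnew1 hu1.pow_mem)
  refine top77_main P (c := c / c0 ^ p) ?_ hab0
  have e1 : HahnSeries.C (c / c0 ^ p) * (HahnSeries.C c0 * u) ^ p = HahnSeries.C c * u ^ p := by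
    rw [mul_pow, ← map_pow, ← mul_assoc, ← map_mul, div_mul_cancel₀ _ (pow_ne_zero p hc0)]
  rw [e1]
  exact hab

end Fermat.Agent.MR.C
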