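import Fermat.Agent.MR.Contracts
import Fermat.Agent.MR.C.PrepIn
import Fermat.Agent.MR.C.J.R0
import Fermat.Agent.MR.C.J.F1
import Fermat.Agent.MR.C.SepH
import Fermat.Agent.MR.C.ValHt
import Fermat.Agent.MR.C.ValInd
import Fermat.Agent.MR.C.AbsValW
import Fermat.Agent.MR.C.HtE

/-!
# MR / C / TopQ : the contract `MR.CStatement` (assembly; helper55)

`exists_prepIn` + `hte_main` + `vi_eta` + `J/F1` (bounded type) + `SepH.sepH_sep` (SEP) + `ValHt` (Hecke-Gauss) + `AbsValW.exists_norm_of_deck`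
+ `J/R0.pdivT`.
-/

set_option autoImplicit false

open ModularCurve AlgebraicCurve

noncomputable section

namespace Fermat.Agent.MR.C

open Fermat.Agent.GR Fermat.Agent.GAL Fermat.Agent.GAL.KL Fermat.Agent.GAL.KLC Fermat.Agent.S24
open Fermat.Agent.GR.HeckeField Fermat.Agent.TOR Fermat.Agent.TOR.GB Fermat.Agent.TOR.T1C
open Fermat.Agent.CAR Fermat.Agent.CAR.BK Fermat.Agent.CAR.ON Fermat.Agent.CAR.CNT
open Fermat.Agent.CAR.DESC Fermat.Agent.MR.TH Fermat.Agent.MR.A Fermat.Agent.DSC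
open Fermat.Agent.ORD.P2 Fermat.Agent.ORD.P3

local notation "Λ" => LaurentSeries Qb

variable {M₁ p : ℕ} [NeZero M₁] [NeZero p]

/-- **the upper half of block C.** -/
theorem topQ_of_prepIn {A : ValuationSubring Qb} {ℓ : ℕ} [NeZero ℓ] {e : ℕ} {ζ : Qbˣ} {u h1 : Λ}
    (P : PrepIn A M₁ p ℓ e ζ u h1) {c : Qb} {ab : LaurentSeries (kA A)}
    (hab : HasRed A (HahnSeries.C c * u ^ p) ab) (hab0 : ab ≠ 0) : PDiv (Rb A M₁) p ab := by
  have hp := P.hp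
  have : Fact p.Prime := ⟨hp⟩
  have hA := P.hA
  obtain ⟨h10, hG⟩ := exists_partner P.hp P.hpM P.hℓ P.hℓN P.he P.kh P.Th
  obtain ⟨u0, hGu⟩ := exists_partner P.hp P.hpM P.hℓ P.hℓN P.he P.ku P.Tu
  have H : CovHyp (IA A) (FS (M₁ * p)) (wS M₁ p) p (ζ : Qb) h1 h10 := P.covHyp hG
  obtain ⟨L0, hfd, -, -, hL0⟩ := exists_galois_level (M₁ * p) P.hp.ne_zero P.ku.pow_mem ⊥
  rw [mem_coeffField_toSubfield_iff] at hL0
  have hζp : (ζ : Qb) ^ p = 1 := by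
    rw [← Units.val_pow_eq_pow_val, P.hζ.pow_eq_one, Units.val_one]
  obtain ⟨hu0', hu00, ⟨U, hU, hU0⟩, -⟩ := id hGu
  obtain ⟨Ht, gE, cE, S, S0, a1, η, hHt0, hgE0, hcE0, hη, ha1, hSne, hS0ne, hS, hS0, hSfix, hS0fix,
    hHtS, hHtu, hι0Ht, hcE, hδ, hηk⟩ := hte_main H P.lead hu00 U hU hU0 L0 hL0 (P.htau hG hGu)
  obtain ⟨m, hm⟩ := vi_eta (F := FS (M₁ * p)) (h1 := h1) P.hp P.hp2 P.hA hη P.ku.ne_zero hζp hηk
    (fun τ hτ => by
      obtain ⟨k, f, hf, h, -⟩ := P.htau hG hGu τ hτ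
      exact ⟨k, f, hf, h⟩) P.peu
  -- the valuations
  have he : ∀ (j : I2) (x : adjF (FS (M₁ * p)) h1), x ≠ 0 → Nrm A (epsT H j x) := by
    intro j x hx
    rcases I2_cases j with rfl | rfl
    · exact P.jF1_nrm_oo hG x hx
    · exact P.jF1_nrm_zr hG H x hx
  have hw : ∀ f : FS (M₁ * p),
      wS M₁ p f = ((wq M₁ p (⟨f.1, f.2⟩ : FN (M₁ * p)) : FN (M₁ * p)) : Λ) := fun _ => rfl
  -- (SEP)
  obtain ⟨j, j0, hj, hj0⟩ := P.jF1_dp hG
  have sep : ∀ (i : I2) (k l : ZMod p), k ≠ l →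
      ∃ b : fixS (IA A) (adjF (FS (M₁ * p)) h1), IsIntegral (BT M₁ p A) b ∧
        vtT A H he (i, l) b < 1 ∧ vtT A H he (i, k) (b - 1) < 1 := by
    intro i k l hkl
    refine sepH_sep P.hM P.hp P.hp2 P.hpM A P.hA P.hζ (fun _ => rfl) H P.kh.2.2 P.deep P.deep0 hj hj0
      (VT A H he) (VT_algebraMap A H he hw) ?_ ?_ i k l hkl
    · intro i x hx
      rcases I2_cases i with rfl | rfl
      · exact (VT_le_one_iff A H he oo).2 hx
      · exact (VT_le_one_iff A H he zr).2 hx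
    · intro i x hx
      rcases I2_cases i with rfl | rfl
      · exact (VT_lt_one_iff A H he oo).2 hx
      · exact (VT_lt_one_iff A H he zr).2 hx
  have C := covT A H he hA hw sep
  have hB := TH.base A P.hM hp P.hpM hA
  -- the uniformiser
  set ϖ : fixS (IA A) (adjF (FS (M₁ * p)) h1) :=
    algebraMap (EC A (M₁ * p)) (fixS (IA A) (adjF (FS (M₁ * p)) h1))
      ((piT M₁ p A : BT M₁ p A) : EC A (M₁ * p)) with hϖ
  have hϖp : ϖ = (p : fixS (IA A) (adjF (FS (M₁ * p)) h1)) := by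
    rw [hϖ]
    have : ((piT M₁ p A : BT M₁ p A) : EC A (M₁ * p)) = (p : EC A (M₁ * p)) := rfl
    rw [this, map_natCast]
  have heϖ : ∀ i, eT H i ϖ = HahnSeries.C (p : Qb) := by
    intro i
    rw [hϖp, map_natCast, map_natCast]
  have hδk : ∀ (k : ℕ), (H.δC ^ k) ϖ = ϖ := fun k => (H.δC ^ k).commutes _
  -- the constant
  have hfixη : ∀ τ ∈ A.inertiaSubgroupIn ℚ, τ (η ^ p) = η ^ p := by
    intro τ hτ
    have h1' := cE.2.2 τ hτ
    rw [hcE, DSC.galS_C] at h1'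
    exact HahnSeries.C_injective h1'
  let c₀ : EC A (M₁ * p) := ⟨algebraMap Qb (FN (M₁ * p)) (η ^ p), algebraMap_mem_EC A _ hfixη⟩
  have hcE' : cE = algebraMap (EC A (M₁ * p)) (fixS (IA A) (adjF (FS (M₁ * p)) h1)) c₀ := by
    apply Subtype.ext
    rw [hcE]
    exact (ValThm_coe_algebraMap (M₁ * p) (η ^ p)).symm
  have heC : ∀ i, eT H i cE = HahnSeries.C (η ^ p) := by
    intro i
    have := epsT_C H (fun c => sepH_w_C (fun _ => rfl) c _) i (η ^ p)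
    rw [eT_apply]
    convert this using 2
    exact Subtype.ext hcE
  have hc : ∀ b, ∃ m : ℤ, vtT A H he b cE = vtT A H he b ϖ ^ ((p : ℤ) * m) := by
    rintro ⟨i, k⟩
    refine ⟨m, ?_⟩
    rw [vtT_apply, vtT_apply, hδk, hcE', AlgEquiv.commutes, ← hcE']
    exact vi_gaussV_eta _ _ _ hp hm (heC i) (heϖ i)
  -- the two base branches
  obtain ⟨⟨m1, φ1, hφ1, hr1⟩, ⟨m2, φ2, hφ2, hr2⟩⟩ :=
    valHt_good hp hA H (fun x hx => KIH.FL_le_KF (M₁ * p) hx)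
      (fun f => KIH.FL_le_KF (M₁ * p) (wS_mem f)) (P.jF1_KIH hG _).1 (P.jF1_KIH hG _).2 ℓ e P.he hGu
      hS hS0 hSne hS0ne hSfix hS0fix
  have h0 : ∀ i, ∃ m : ℤ, vtT A H he (i, 0) Ht = vtT A H he (i, 0) ϖ ^ ((p : ℤ) * m) := by
    intro i
    rw [vtT_zero, vtT_zero]
    rcases I2_cases i with rfl | rfl
    · refine ⟨-m1, valHt_gaussV _ _ _ hp (heϖ oo) hφ1 ?_⟩
      rw [eT_oo, hHtS]
      exact hr1
    · refine ⟨-m2, valHt_gaussV _ _ _ hp (heϖ zr) hφ2 ?_⟩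
      rw [eT_apply, epsT_zr, hι0Ht]
      exact hr2
  obtain ⟨e', he'0, hW⟩ := exists_norm_of_deck hB C p hgE0 hc hδ h0
  -- conclusion
  have hb : (a1 : Λ) * (e' : Λ) ∈ adjF (FS (M₁ * p)) h1 := mul_mem a1.2 e'.2.1
  have hb0 : (a1 : Λ) * (e' : Λ) ≠ 0 :=
    mul_ne_zero (fun h => ha1 (Subtype.ext h)) (fun h => he'0 (Subtype.ext h))
  refine pdivT A H he P.hM P.hpM hA hw sep hW P.ku hb hb0 ?_ hab hab0
  show (Ht : Λ) * (e' : Λ) ^ p = _
  rw [hHtu, mul_pow]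
  ring

/-- **block C.** -/
theorem cStatementQ : MR.CStatement := by
  intro M₁ p _ _ hM hp hp5 hpM A hA u u₁ hu hu₁ hun hu₁n g1 g2 g3 g4 hU hU₁ hnew hnew₁ c ab hab hab0
  have hp2 : p ≠ 2 := by omega
  obtain ⟨ζ, hζ⟩ := Fermat.Agent.GAL.exists_primitiveRoot_Qb p
  obtain ⟨ℓ, _, e, c0, h1, hc0, P⟩ := exists_prepIn hM hp hp2 hpM A hA hζ hu hu₁ hu₁n g1 g2 g3 g4 hU₁
    (hnew₁ hu₁.pow_mem)
  refine topQ_of_prepIn P (c := c / c0 ^ p) ?_ hab0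
  have e1 : HahnSeries.C (c / c0 ^ p) * (HahnSeries.C c0 * u) ^ p = HahnSeries.C c * u ^ p := by
    rw [mul_pow, ← map_pow, ← mul_assoc, ← map_mul, div_mul_cancel₀ _ (pow_ne_zero p hc0)]
  rw [e1]
  exact hab

end Fermat.Agent.MR.C
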