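import Fermat.Agent.MR.C.PrepIn
import Fermat.Agent.MR.C.J.R0
import Fermat.Agent.MR.C.Sect
import Fermat.Agent.MR.C.ValHt
import Fermat.Agent.MR.C.ValInd
import Fermat.Agent.MR.C.AbsValW
import Fermat.Agent.MR.C.HtE
import Fermat.Agent.MR.Contracts

/-!
# MR / C / TopZ : the upper half of `MR.CStatement`, from (SEP)

Frame = `MR/C/J/R0.lean` (`epsT`, `VT`, `vtT`, `covT`, `pdivT`).
* `PrepIn.topZ_KF`   : [F1] in the vocabulary of `PrepIn`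
* `PrepIn.topZ_he`   : the hypothesis `he` of `VT`
* `SepZ`             : the statement (SEP) (= hypothesis `sep` of `covT`, `pdivT`)
* `PrepIn.topZ_main` : `PrepIn` + (SEP) ⟹ `PDiv`
* `cStatementZ_of_sep` : (SEP) ⟹ `MR.CStatement`
-/

set_option autoImplicit false
noncomputable section

namespace Fermat.Agent.MR.C

open ModularCurve AlgebraicCurve HahnSeries Fermat.Agent.GR Fermat.Agent.GAL Fermat.Agent.GAL.KLC
open Fermat.Agent.S24 Fermat.Agent.TOR.GB Fermat.Agent.ORD.P2 Fermat.Agent.ORD.P3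
open Fermat.Agent.CAR Fermat.Agent.CAR.BK Fermat.Agent.CAR.ON Fermat.Agent.MR.TH Fermat.Agent.MR.A
open Fermat.Agent.MR.E (HH FixU)

local notation "Λ" => LaurentSeries Qb

variable {M₁ p : ℕ} [NeZero M₁] [NeZero p] {A : ValuationSubring Qb} {ℓ : ℕ} [NeZero ℓ] {e : ℕ}
  {ζ : Qbˣ} {u h1 : Λ}

theorem topZ_hF : FS (M₁ * p) ≤ KIH.KF A (IA A) := fun _ hx => KIH.FL_le_KF (M₁ * p) hx

theorem topZ_hw (f : FS (M₁ * p)) : wS M₁ p f ∈ KIH.KF A (IA A) :=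
  KIH.FL_le_KF (M₁ * p) (wS_mem f)

theorem topZ_wS_C (c : Qb) (h : (HahnSeries.C c : Λ) ∈ FS (M₁ * p)) :
    wS M₁ p ⟨HahnSeries.C c, h⟩ = HahnSeries.C c := by
  rw [wS_apply]
  have e1 : (⟨HahnSeries.C c, h⟩ : FN (M₁ * p)) = algebraMap Qb (FN (M₁ * p)) c := by
    apply Subtype.ext
    exact (hgc_algebraMap c).symm
  rw [e1, AlgEquiv.commutes]
  exact hgc_algebraMap c

/-- **[F1]** for the data of `PrepIn`. -/
theorem PrepIn.topZ_KF (P : PrepIn A M₁ p ℓ e ζ u h1) {h10 : Λ}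
    (hG : Good (FS (M₁ * p)) (wS M₁ p) (heckeS Qb ℓ) p e h1 h10) :
    h1 ∈ KIH.KF A (IA A) ∧ h10 ∈ KIH.KF A (IA A) := by
  have H := P.covHyp hG
  obtain ⟨a, b, -, -⟩ := sect_deep P.hM P.hp P.hp2 P.hpM A P.hA P.hζ (IA A) (h₀ := h10) P.kh P.deep
    P.deep0 H.pow0
  exact ⟨a, b⟩

/-- the hypothesis `he` of `VT`. -/
theorem PrepIn.topZ_he (P : PrepIn A M₁ p ℓ e ζ u h1) {h10 : Λ}
    (hG : Good (FS (M₁ * p)) (wS M₁ p) (heckeS Qb ℓ) p e h1 h10)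
    (H : CovHyp (IA A) (FS (M₁ * p)) (wS M₁ p) p (ζ : Qb) h1 h10) :
    ∀ (j : I2) (x : adjF (FS (M₁ * p)) h1), x ≠ 0 → Nrm A (epsT H j x) := by
  obtain ⟨hK1, hK10⟩ := P.topZ_KF hG
  intro j x hx
  rcases I2_cases j with rfl | rfl
  · exact valHt_nrm_coe P.hp P.hA topZ_hF hK1 x hx
  · exact valHt_nrm_ι0 P.hp P.hA H topZ_hw hK10 x hx

/-- **(SEP)** = the hypothesis `sep` of `covT`, `pdivT`. -/
def SepZ (A : ValuationSubring Qb) {ζ : Qb} {h1 h10 : Λ}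
    (H : CovHyp (IA A) (FS (M₁ * p)) (wS M₁ p) p ζ h1 h10)
    (he : ∀ (j : I2) (x : adjF (FS (M₁ * p)) h1), x ≠ 0 → Nrm A (epsT H j x)) : Prop :=
  ∀ (i : I2) (k l : ZMod p), k ≠ l →
    ∃ b : fixS (IA A) (adjF (FS (M₁ * p)) h1), IsIntegral (BT M₁ p A) b ∧
      vtT A H he (i, l) b < 1 ∧ vtT A H he (i, k) (b - 1) < 1

/-- the uniformiser `ϖ = p` of `E` along the two expansions. -/
theorem topZ_eT_pi {ζ : Qb} {h1 h10 : Λ} (H : CovHyp (IA A) (FS (M₁ * p)) (wS M₁ p) p ζ h1 h10)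
    (j : I2) :
    eT H j (algebraMap (EC A (M₁ * p)) (fixS (IA A) (adjF (FS (M₁ * p)) h1))
      ((piT M₁ p A : BT M₁ p A) : EC A (M₁ * p))) = HahnSeries.C (p : Qb) := by
  have e1 : ((piT M₁ p A : BT M₁ p A) : EC A (M₁ * p)) = (p : EC A (M₁ * p)) := by
    simp
  rw [e1, map_natCast, map_natCast, map_natCast]

/-- a constant of `E` along the two expansions. -/
theorem topZ_eT_C {ζ : Qb} {h1 h10 : Λ} (H : CovHyp (IA A) (FS (M₁ * p)) (wS M₁ p) p ζ h1 h10)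
    (j : I2) {x : fixS (IA A) (adjF (FS (M₁ * p)) h1)} {c : Qb} (hx : (x : Λ) = HahnSeries.C c) :
    eT H j x = HahnSeries.C c := by
  rw [eT_apply]
  have e1 : toF1 x = ⟨HahnSeries.C c, le_adjF _ _ (H.C_mem c)⟩ := Subtype.ext hx
  rw [e1]
  exact epsT_C H (fun c => topZ_wS_C c _) j c

/-- the deck transformation fixes the constants of `E`. -/
theorem topZ_δC_pow_C {ζ : Qb} {h1 h10 : Λ}
    (H : CovHyp (IA A) (FS (M₁ * p)) (wS M₁ p) p ζ h1 h10)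
    {x : fixS (IA A) (adjF (FS (M₁ * p)) h1)} {c : Qb} (hx : (x : Λ) = HahnSeries.C c) (k : ℕ) :
    (H.δC ^ k) x = x := by
  apply Subtype.ext
  rw [H.coe_δC_pow]
  have e1 : toF1 x = ⟨HahnSeries.C c, le_adjF _ _ (H.C_mem c)⟩ := Subtype.ext hx
  rw [e1, H.kum.deck_pow_F k ⟨_, H.C_mem c⟩, hx]

/-- **the upper half of `MR.CStatement`**, from (SEP). -/
theorem PrepIn.topZ_main (P : PrepIn A M₁ p ℓ e ζ u h1)
    (sep : ∀ (h10 : Λ) (_ : Good (FS (M₁ * p)) (wS M₁ p) (heckeS Qb ℓ) p e h1 h10)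
      (H : CovHyp (IA A) (FS (M₁ * p)) (wS M₁ p) p (ζ : Qb) h1 h10)
      (he : ∀ (j : I2) (x : adjF (FS (M₁ * p)) h1), x ≠ 0 → Nrm A (epsT H j x)), SepZ A H he)
    {c : Qb} {ab : LaurentSeries (kA A)} (hab : HasRed A (HahnSeries.C c * u ^ p) ab)
    (hab0 : ab ≠ 0) : PDiv (Rb A M₁) p ab := by
  have : Fact p.Prime := ⟨P.hp⟩
  obtain ⟨h10, hG⟩ := exists_partner P.hp P.hpM P.hℓ P.hℓN P.he P.kh P.Th
  obtain ⟨u0, hGu⟩ := exists_partner P.hp P.hpM P.hℓ P.hℓN P.he P.ku P.Tu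
  have H : CovHyp (IA A) (FS (M₁ * p)) (wS M₁ p) p (ζ : Qb) h1 h10 := P.covHyp hG
  obtain ⟨hK1, hK10⟩ := P.topZ_KF hG
  have he := P.topZ_he hG H
  have hsep := sep h10 hG H he
  obtain ⟨L0, hfd, -, -, hL0⟩ := exists_galois_level (M₁ * p) P.hp.ne_zero P.ku.pow_mem ⊥
  rw [mem_coeffField_toSubfield_iff] at hL0
  obtain ⟨U, hU, hU0⟩ := hGu.2.2.1
  obtain ⟨Ht, gE, cE, S, S0, a1, η, hHt0, hgE0, hcE0, hη0, ha10, hS0', hS00, hS, hS0, hSfix, hS0fix,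
    hHtS, hHtu, hHt0', hcE, hδ, hηk⟩ :=
    hte_main H P.lead hGu.2.1 U hU hU0 L0 hL0 (P.htau hG hGu)
  have hζp : (ζ : Qb) ^ p = 1 := by
    rw [← Units.val_pow_eq_pow_val, P.hζ.pow_eq_one, Units.val_one]
  obtain ⟨m, hm⟩ := vi_eta (F := FS (M₁ * p)) (h1 := h1) P.hp P.hp2 P.hA hη0 P.ku.ne_zero hζp hηk
    (fun τ hτ => by
      obtain ⟨k, f, hf, h, -⟩ := P.htau hG hGu τ hτ
      exact ⟨k, f, hf, h⟩) P.peu
  have hwS : ∀ f : FS (M₁ * p),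
      wS M₁ p f = ((wq M₁ p (⟨f.1, f.2⟩ : FN (M₁ * p)) : FN (M₁ * p)) : Λ) := fun f => rfl
  have C := covT A H he P.hA hwS hsep
  have hB := TH.base A P.hM P.hp P.hpM P.hA
  obtain ⟨⟨m1, φ1, hφ1, hr1⟩, ⟨m2, φ2, hφ2, hr2⟩⟩ := valHt_good P.hp P.hA H topZ_hF topZ_hw hK1 hK10
    ℓ e P.he hGu hS hS0 hS0' hS00 hSfix hS0fix
  obtain ⟨e', he'0, hW⟩ := exists_norm_of_deck hB C p (W := Ht) (g := gE) (c := cE) hgE0
    (by
      rintro ⟨j, k⟩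
      refine ⟨m, ?_⟩
      rw [vtT_apply, vtT_apply, topZ_δC_pow_C H hcE, AlgEquiv.commutes]
      exact vi_gaussV_eta _ _ _ P.hp hm (topZ_eT_C H j hcE) (topZ_eT_pi H j))
    hδ
    (by
      intro i
      rw [vtT_zero, vtT_zero]
      rcases I2_cases i with rfl | rfl
      · refine ⟨-m1, valHt_gaussV _ _ _ P.hp (topZ_eT_pi H oo) hφ1 ?_⟩
        rw [eT_oo, hHtS]
        exact hr1
      · refine ⟨-m2, valHt_gaussV _ _ _ P.hp (topZ_eT_pi H zr) hφ2 ?_⟩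
        rw [eT_apply, epsT_zr, hHt0']
        exact hr2)
  refine pdivT A H he P.hM P.hpM P.hA hwS hsep (W := Ht * e' ^ p) hW P.ku
    (b := (a1 : Λ) * (e' : Λ)) (mul_mem a1.2 e'.2.1) (mul_ne_zero ?_ ?_) ?_ hab hab0
  · exact fun h => ha10 (Subtype.ext h)
  · exact fun h => he'0 (Subtype.ext h)
  · show (Ht : Λ) * (e' : Λ) ^ p = _
    rw [hHtu, mul_pow]
    ring

/-- (SEP) for all data. -/
def SepStatementZ : Prop :=
  ∀ (M₁ p : ℕ) [NeZero M₁] [NeZero p] (A : ValuationSubring Qb) (ℓ : ℕ) [NeZero ℓ] (e : ℕ) (ζ : Qbˣ)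
    (u h1 : Λ), PrepIn A M₁ p ℓ e ζ u h1 →
    ∀ (h10 : Λ) (_ : Good (FS (M₁ * p)) (wS M₁ p) (heckeS Qb ℓ) p e h1 h10)
      (H : CovHyp (IA A) (FS (M₁ * p)) (wS M₁ p) p (ζ : Qb) h1 h10)
      (he : ∀ (j : I2) (x : adjF (FS (M₁ * p)) h1), x ≠ 0 → Nrm A (epsT H j x)), SepZ A H he

/-- **(SEP) ⟹ `MR.CStatement`.** -/
theorem cStatementZ_of_sep (sep : SepStatementZ) : MR.CStatement := by
  intro M₁ p _ _ hM hp hp5 hpM A hA u u₁ hu hu₁ _ hu₁n g1 g2 g3 g4 _ hU₁ _ hnew₁ c ab hab hab0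
  obtain ⟨ζ, hζ⟩ := exists_primRoot p
  obtain ⟨ℓ, _, e, c0, h₁, hc0, P⟩ := exists_prepIn hM hp (by omega) hpM A hA hζ hu hu₁ hu₁n g1 g2 g3
    g4 hU₁ (hnew₁ hu₁.pow_mem)
  refine P.topZ_main (sep M₁ p A ℓ e ζ _ h₁ P) (c := c / c0 ^ p) ?_ hab0
  have e1 : (HahnSeries.C (c / c0 ^ p) : Λ) * (HahnSeries.C c0 * u) ^ p = HahnSeries.C c * u ^ p := by
    have hC0 : (HahnSeries.C c0 : Λ) ≠ 0 := by
      rw [Ne, map_eq_zero_iff _ HahnSeries.C_injective]; exact hc0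
    rw [map_div₀, map_pow, mul_pow]
    field_simp
  rw [e1]
  exact hab

end Fermat.Agent.MR.C
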