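import Fermat.Agent.MR.C.PrepIn
import Fermat.Agent.MR.C.CovEC
import Fermat.Agent.MR.C.GV
import Fermat.Agent.MR.C.KIH
import Fermat.Agent.MR.C.AbsValW
import Fermat.Agent.MR.C.ValHt
import Fermat.Agent.MR.C.ValInd
import Fermat.Agent.MR.C.Sect
import Fermat.Agent.MR.TH.Final
import Fermat.Agent.MR.A.GlueD
import Fermat.Agent.MR.A.GlueE

/-!
# MR / C / UpH : the upper half of block C, assembled.

`PrepIn` + [F1] (`h₁, h₁₀` of bounded type) + [SEP] (sibling separation)  ⟹  the conclusion of `MR.CStatement`.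
-/

set_option autoImplicit false
noncomputable section

namespace Fermat.Agent.MR.C

open ModularCurve AlgebraicCurve HahnSeries Fermat.Agent.GR Fermat.Agent.GAL Fermat.Agent.GAL.KL
  Fermat.Agent.GAL.KLC Fermat.Agent.S24 Fermat.Agent.TOR.GB Fermat.Agent.DSC Fermat.Agent.CAR
  Fermat.Agent.CAR.BK Fermat.Agent.CAR.ON Fermat.Agent.CAR.DESC Fermat.Agent.MR.TH
  Fermat.Agent.TOR.T1C

local notation "Λ" => LaurentSeries Qb

variable {M₁ p : ℕ} [NeZero M₁] [NeZero p] {A : ValuationSubring Qb} {ζ : Qb} {h1 h10 : Λ}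

/-- `F1 ⊆ KF`. -/
theorem upH_adjF_le (N : ℕ) (hK1 : h1 ∈ KIH.KF A (IA A)) :
    adjF (FS N) h1 ≤ KIH.KF A (IA A) :=
  adjF_le _ _ (fun _ hx => KIH.FL_le_KF N hx) hK1

/-- `ι0 (F1) ⊆ KF`. -/
theorem CovHyp.upH_ι0_mem (H : CovHyp (IA A) (FS (M₁ * p)) (wS M₁ p) p ζ h1 h10)
    (hK10 : h10 ∈ KIH.KF A (IA A)) (x : adjF (FS (M₁ * p)) h1) : H.ι0 x ∈ KIH.KF A (IA A) := by
  obtain ⟨x, hx⟩ := x
  refine adjF_induction (P := fun x hx => H.ι0 ⟨x, hx⟩ ∈ KIH.KF A (IA A)) ?_ ?_ ?_ ?_ ?_ hx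
  · rw [H.ι0_h]; exact hK10
  · intro f
    rw [H.ι0_F]
    exact KIH.FL_le_KF (M₁ * p) (wS_mem f)
  · intro x y hx hy h1' h2'
    have e : (⟨x + y, add_mem hx hy⟩ : adjF (FS (M₁ * p)) h1) = ⟨x, hx⟩ + ⟨y, hy⟩ := rfl
    rw [e, map_add]; exact add_mem h1' h2'
  · intro x hx h1'
    have e : (⟨x⁻¹, inv_mem hx⟩ : adjF (FS (M₁ * p)) h1) = (⟨x, hx⟩ : adjF (FS (M₁ * p)) h1)⁻¹ := rfl
    rw [e, map_inv₀]; exact inv_mem h1'
  · intro x y hx hy h1' h2'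
    have e : (⟨x * y, mul_mem hx hy⟩ : adjF (FS (M₁ * p)) h1) = ⟨x, hx⟩ * ⟨y, hy⟩ := rfl
    rw [e, map_mul]; exact mul_mem h1' h2'

/-- the two embeddings `F1 → ℚ̄((q))`: the inclusion at `∞`, `ι0` at `0`. -/
def CovHyp.upH_eps (H : CovHyp (IA A) (FS (M₁ * p)) (wS M₁ p) p ζ h1 h10) :
    I2 → adjF (FS (M₁ * p)) h1 →+* Λ
  | none => (adjF (FS (M₁ * p)) h1).subtype
  | some _ => H.ι0

/-- the two embeddings of `E = F1^I`. -/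
def CovHyp.upH_e (H : CovHyp (IA A) (FS (M₁ * p)) (wS M₁ p) p ζ h1 h10) (j : I2) :
    fixS (IA A) (adjF (FS (M₁ * p)) h1) →+* Λ :=
  (H.upH_eps j).comp (Subfield.inclusion (fixS_le (IA A) (adjF (FS (M₁ * p)) h1)))

theorem CovHyp.upH_e_apply (H : CovHyp (IA A) (FS (M₁ * p)) (wS M₁ p) p ζ h1 h10) (j : I2)
    (x : fixS (IA A) (adjF (FS (M₁ * p)) h1)) : H.upH_e j x = H.upH_eps j (toF1 x) := rfl

theorem CovHyp.upH_eps_mem (H : CovHyp (IA A) (FS (M₁ * p)) (wS M₁ p) p ζ h1 h10)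
    (hK1 : h1 ∈ KIH.KF A (IA A)) (hK10 : h10 ∈ KIH.KF A (IA A)) (j : I2)
    (x : adjF (FS (M₁ * p)) h1) : H.upH_eps j x ∈ KIH.KF A (IA A) := by
  rcases I2_cases j with rfl | rfl
  · exact upH_adjF_le (M₁ * p) hK1 x.2
  · exact H.upH_ι0_mem hK10 x

theorem CovHyp.upH_nrm (H : CovHyp (IA A) (FS (M₁ * p)) (wS M₁ p) p ζ h1 h10)
    (hA : A.LiesOverPrime p)
    (hK1 : h1 ∈ KIH.KF A (IA A)) (hK10 : h10 ∈ KIH.KF A (IA A)) (j : I2)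
    (x : adjF (FS (M₁ * p)) h1) (hx : x ≠ 0) : Nrm A (H.upH_eps j x) :=
  KIH.nrm_of_mem_KF (KIH.isoH_inertia A) (isUnif_p A H.prime hA) (H.upH_eps_mem hK1 hK10 j x)
    ((map_ne_zero _).2 hx)

theorem CovHyp.upH_he (H : CovHyp (IA A) (FS (M₁ * p)) (wS M₁ p) p ζ h1 h10)
    (hA : A.LiesOverPrime p)
    (hK1 : h1 ∈ KIH.KF A (IA A)) (hK10 : h10 ∈ KIH.KF A (IA A)) (j : I2) :
    ∀ x : fixS (IA A) (adjF (FS (M₁ * p)) h1), x ≠ 0 → Nrm A (H.upH_e j x) :=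
  fun x hx => H.upH_nrm hA hK1 hK10 j (toF1 x) (fun h => hx (Subtype.ext (by
    have := congrArg (Subtype.val : adjF (FS (M₁ * p)) h1 → Λ) h
    exact this)))

/-- the two Gauss valuations of `E`. -/
def CovHyp.upH_V (H : CovHyp (IA A) (FS (M₁ * p)) (wS M₁ p) p ζ h1 h10)
    (hA : A.LiesOverPrime p)
    (hK1 : h1 ∈ KIH.KF A (IA A)) (hK10 : h10 ∈ KIH.KF A (IA A)) (j : I2) :
    Valuation (fixS (IA A) (adjF (FS (M₁ * p)) h1)) (Ov A (M₁ * p)).ValueGroup :=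
  gaussV (vcG_le_one_iff (M₁ * p)) (H.upH_e j) (H.upH_he hA hK1 hK10 j)

/-- [J-EXT] -/
theorem CovHyp.upH_ext (H : CovHyp (IA A) (FS (M₁ * p)) (wS M₁ p) p ζ h1 h10)
    (hA : A.LiesOverPrime p)
    (hK1 : h1 ∈ KIH.KF A (IA A)) (hK10 : h10 ∈ KIH.KF A (IA A)) (j : I2) (z : EC A (M₁ * p)) :
    H.upH_V hA hK1 hK10 j (algebraMap (EC A (M₁ * p)) (fixS (IA A) (adjF (FS (M₁ * p)) h1)) z)
      = vT M₁ p A j z := by
  rcases I2_cases j with rfl | rfl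
  · exact gaussV_eq_vG _ (M₁ * p) (z : FL Qb (M₁ * p)) rfl _
  · refine gaussV_eq_vG _ (M₁ * p) (wq M₁ p (z : FN (M₁ * p))) ?_ _
    exact H.ι0_F ⟨((z : FL Qb (M₁ * p)) : Λ), (z : FL Qb (M₁ * p)).2⟩

theorem CovHyp.upH_arch (H : CovHyp (IA A) (FS (M₁ * p)) (wS M₁ p) p ζ h1 h10)
    (hA : A.LiesOverPrime p)
    (hK1 : h1 ∈ KIH.KF A (IA A)) (hK10 : h10 ∈ KIH.KF A (IA A)) (j : I2) :
    Arch (H.upH_V hA hK1 hK10 j) :=
  gaussV_arch _ _ _ (vcG_arch (M₁ * p) H.prime hA)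

/-- **the concrete cover** (sibling separation as a hypothesis). -/
theorem CovHyp.upH_cov (H : CovHyp (IA A) (FS (M₁ * p)) (wS M₁ p) p ζ h1 h10) [Fact p.Prime]
    (hA : A.LiesOverPrime p)
    (hK1 : h1 ∈ KIH.KF A (IA A)) (hK10 : h10 ∈ KIH.KF A (IA A))
    (sep : ∀ (i : I2) (k l : ZMod p), k ≠ l →
      ∃ b : fixS (IA A) (adjF (FS (M₁ * p)) h1), IsIntegral (BT M₁ p A) b ∧
        vtOf p H.δC (H.upH_V hA hK1 hK10) (i, l) b < 1 ∧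
        vtOf p H.δC (H.upH_V hA hK1 hK10) (i, k) (b - 1) < 1) :
    Cov p (BT M₁ p A) (vT M₁ p A) H.δC (vtOf p H.δC (H.upH_V hA hK1 hK10)) where
  pow := H.δC_pow
  fix := H.δC_fix
  ext := vtOf_ext p H.δC (H.upH_ext hA hK1 hK10)
  shift := vtOf_shift H.δC_pow_p _
  arch := vtOf_arch p H.δC (H.upH_arch hA hK1 hK10)
  sep := sep

/-! ### constants -/

theorem CovHyp.upH_e_const (H : CovHyp (IA A) (FS (M₁ * p)) (wS M₁ p) p ζ h1 h10) (j : I2) (k : ℕ)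
    {x : fixS (IA A) (adjF (FS (M₁ * p)) h1)} {c : Qb} (hx : (x : Λ) = HahnSeries.C c) :
    H.upH_e j ((H.δC ^ k) x) = HahnSeries.C c := by
  have h1' : toF1 ((H.δC ^ k) x)
      = ⟨((⟨HahnSeries.C c, H.C_mem c⟩ : FS (M₁ * p)) : Λ), le_adjF _ _ (H.C_mem c)⟩ := by
    apply Subtype.ext
    show (((H.δC ^ k) x : fixS (IA A) (adjF (FS (M₁ * p)) h1)) : Λ) = HahnSeries.C c
    rw [H.coe_δC_pow k x]
    have e : toF1 x
        = ⟨((⟨HahnSeries.C c, H.C_mem c⟩ : FS (M₁ * p)) : Λ), le_adjF _ _ (H.C_mem c)⟩ :=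
      Subtype.ext hx
    rw [e, H.kum.deck_pow_F]
  rw [H.upH_e_apply, h1']
  rcases I2_cases j with rfl | rfl
  · rfl
  · show H.ι0 _ = HahnSeries.C c
    rw [H.ι0_F ⟨HahnSeries.C c, H.C_mem c⟩, wS_apply]
    have e : (⟨HahnSeries.C c, H.C_mem c⟩ : FN (M₁ * p)) = algebraMap Qb (FN (M₁ * p)) c :=
      Subtype.ext (ValThm_coe_algebraMap (M₁ * p) c).symm
    rw [e, AlgEquiv.commutes, ValThm_coe_algebraMap]

theorem CovHyp.upH_vt_const (H : CovHyp (IA A) (FS (M₁ * p)) (wS M₁ p) p ζ h1 h10)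
    (hA : A.LiesOverPrime p)
    (hK1 : h1 ∈ KIH.KF A (IA A)) (hK10 : h10 ∈ KIH.KF A (IA A)) (b : I2 × ZMod p)
    {x : fixS (IA A) (adjF (FS (M₁ * p)) h1)} {c : Qb} (hx : (x : Λ) = HahnSeries.C c) :
    vtOf p H.δC (H.upH_V hA hK1 hK10) b x = vcG A (M₁ * p) c := by
  obtain ⟨i, k⟩ := b
  rw [vtOf_apply]
  exact gaussV_of_C _ _ _ (H.upH_e_const i k.val hx)

/-- `ϖ = p`. -/
theorem upH_coe_pi : ((algebraMap (EC A (M₁ * p)) (fixS (IA A) (adjF (FS (M₁ * p)) h1))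
    ((piT M₁ p A : BT M₁ p A) : EC A (M₁ * p)) : fixS (IA A) (adjF (FS (M₁ * p)) h1)) : Λ)
      = HahnSeries.C (p : Qb) := by
  rw [coe_algebraMap_ec, coe_piT, ValThm_coe_algebraMap]

/-! ### packaging of `desc_main` -/

theorem CovHyp.upH_pack {I : Subgroup GQ} {F : Subfield Λ} {w : F →+* Λ}
    (H : CovHyp I F w p ζ h1 h10) {u u0 S S0 g : Λ} {a1 : adjF F h1} {η : Qb}
    (U : F) (hU : u ^ p = U) (hU0 : u0 ^ p = w U)
    (hS : S = u * a1) (hS0 : S0 = u0 * H.ι0 a1) (hSne : S ≠ 0)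
    (hSfix : ∀ τ ∈ I, galS τ S = S) (hg : g ∈ adjF F h1) (hg0 : g ≠ 0)
    (hgfix : ∀ τ ∈ I, galS τ g = g)
    (hδ : H.δ a1 = HahnSeries.C η * g * (a1 : Λ)) :
    ∃ Ht gE cE : fixS I (adjF F h1), gE ≠ 0 ∧ (Ht : Λ) = S ^ p ∧ H.ι0 (toF1 Ht) = S0 ^ p ∧
      (cE : Λ) = HahnSeries.C (η ^ p) ∧ H.δK Ht = cE * gE ^ p * Ht := by
  have hSp : S ^ p = u ^ p * (a1 : Λ) ^ p := by rw [hS, mul_pow]
  have hSpF1 : S ^ p ∈ adjF F h1 := by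
    rw [hSp, hU]
    exact mul_mem (le_adjF F h1 U.2) (_root_.pow_mem a1.2 p)
  have hSpE : S ^ p ∈ fixS I (adjF F h1) :=
    ⟨hSpF1, fun τ hτI => by rw [map_pow, hSfix τ hτI]⟩
  have hgE : g ∈ fixS I (adjF F h1) := ⟨hg, hgfix⟩
  set Ht : fixS I (adjF F h1) := ⟨S ^ p, hSpE⟩ with hHt
  set gE : fixS I (adjF F h1) := ⟨g, hgE⟩ with hgE'
  have hHt0 : Ht ≠ 0 := fun h => pow_ne_zero p hSne (congrArg Subtype.val h)
  have hgE0 : gE ≠ 0 := fun h => hg0 (congrArg Subtype.val h)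
  have hto : toF1 Ht = ⟨U, le_adjF F h1 U.2⟩ * a1 ^ p := by
    apply Subtype.ext
    show S ^ p = (U : Λ) * (a1 : Λ) ^ p
    rw [hSp, hU]
  have hδHt : ((H.δK Ht : fixS I (adjF F h1)) : Λ) = HahnSeries.C (η ^ p) * g ^ p * S ^ p := by
    rw [H.coe_δK, hto, map_mul, map_pow, hδ]
    have h1' : H.δ ⟨U, le_adjF F h1 U.2⟩ = U := H.coverDat.δ_F U
    rw [h1', hSp, hU, map_pow]
    ring
  have hden : gE ^ p * Ht ≠ 0 := mul_ne_zero (pow_ne_zero p hgE0) hHt0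
  refine ⟨Ht, gE, H.δK Ht / (gE ^ p * Ht), hgE0, rfl, ?_, ?_, ?_⟩
  · rw [hto, map_mul, map_pow, H.ι0_F, hS0, mul_pow, hU0]
  · have h2 : ((H.δK Ht / (gE ^ p * Ht) : fixS I (adjF F h1)) : Λ)
        = ((H.δK Ht : fixS I (adjF F h1)) : Λ) / (g ^ p * S ^ p) := rfl
    rw [h2, hδHt, mul_assoc, mul_div_cancel_right₀]
    exact mul_ne_zero (pow_ne_zero p hg0) (pow_ne_zero p hSne)
  · rw [mul_assoc, div_mul_cancel₀ _ hden]

/-! ### the upper half -/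

/-- **the upper half of block C**: `PrepIn` + [SEP] ⟹ the conclusion of `MR.CStatement` (for the normalised `u`). -/
theorem upH_main {ℓ : ℕ} [NeZero ℓ] {e : ℕ} {ζ : Qbˣ} {u h1 : Λ} (P : PrepIn A M₁ p ℓ e ζ u h1)
    (SEP : ∀ (h10 : Λ) (H : CovHyp (IA A) (FS (M₁ * p)) (wS M₁ p) p (ζ : Qb) h1 h10)
      (hK1 : h1 ∈ KIH.KF A (IA A)) (hK10 : h10 ∈ KIH.KF A (IA A)) (i : I2) (k l : ZMod p), k ≠ l →
      ∃ b : fixS (IA A) (adjF (FS (M₁ * p)) h1), IsIntegral (BT M₁ p A) b ∧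
        vtOf p H.δC (H.upH_V P.hA hK1 hK10) (i, l) b < 1 ∧
        vtOf p H.δC (H.upH_V P.hA hK1 hK10) (i, k) (b - 1) < 1)
    {c : Qb} {ab : LaurentSeries (kA A)} (hab : HasRed A (HahnSeries.C c * u ^ p) ab)
    (hab0 : ab ≠ 0) : MR.A.PDiv (MR.A.Rb A M₁) p ab := by
  obtain ⟨h10, u0, H, a1, S, S0, g, η, m, hG, hGu, ha1, hη, hS, hS0, hSne, hS0ne, hSfix, hS0fix,
    hg, hg0, hgfix, hδ, hm⟩ := P.out
  have : Fact p.Prime := ⟨P.hp⟩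
  -- [F1]
  have hpow0 : h10 ^ p = ((wq M₁ p ⟨h1 ^ p, P.kh.2.choose⟩ : FN (M₁ * p)) : Λ) := H.pow0
  obtain ⟨hK1, hK10, -, -⟩ := sect_deep P.hM P.hp P.hp2 P.hpM A P.hA P.hζ (IA A) P.kh P.deep
    P.deep0 hpow0
  have hB := TH.base A P.hM P.hp P.hpM P.hA
  have C := H.upH_cov P.hA hK1 hK10 (SEP h10 H hK1 hK10)
  set V := H.upH_V P.hA hK1 hK10 with hV
  set ϖ := algebraMap (EC A (M₁ * p)) (fixS (IA A) (adjF (FS (M₁ * p)) h1))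
    ((piT M₁ p A : BT M₁ p A) : EC A (M₁ * p)) with hϖ
  -- the `K`-rational generator
  have hGu' := hGu
  obtain ⟨-, -, ⟨U, hU, hU0⟩, -⟩ := hGu
  obtain ⟨Ht, gE, cE, hgE0, hHt, hHt0, hcE, hδK⟩ :=
    H.upH_pack U hU hU0 hS hS0 hSne hSfix hg hg0 hgfix hδ
  -- valuations
  have hc : ∀ b, ∃ m : ℤ, vtOf p H.δC V b cE = vtOf p H.δC V b ϖ ^ ((p : ℤ) * m) := by
    intro b
    refine ⟨m, ?_⟩
    rw [H.upH_vt_const P.hA hK1 hK10 b hcE, H.upH_vt_const P.hA hK1 hK10 b upH_coe_pi]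
    exact vi_vc_eta (vcG_le_one_iff (M₁ * p)) P.hp hm
  obtain ⟨⟨mo, φo, hφo, hSo⟩, ⟨mz, φz, hφz, hSz⟩⟩ := valHt_good P.hp P.hA H
    (fun _ hx => KIH.FL_le_KF (M₁ * p) hx) (fun f => KIH.FL_le_KF (M₁ * p) (wS_mem f)) hK1 hK10
    ℓ e P.he hGu' hS hS0 hSne hS0ne hSfix hS0fix
  have hϖe : ∀ i, H.upH_e i ϖ = HahnSeries.C (p : Qb) := fun i => by
    have := H.upH_e_const i 0 (x := ϖ) upH_coe_pi
    rwa [pow_zero, AlgEquiv.one_apply] at this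
  have h0 : ∀ i, ∃ m : ℤ, vtOf p H.δC V (i, 0) Ht = vtOf p H.δC V (i, 0) ϖ ^ ((p : ℤ) * m) := by
    intro i
    rw [valHt_vtOf_zero, valHt_vtOf_zero]
    rcases I2_cases i with rfl | rfl
    · refine ⟨-mo, valHt_gaussV _ _ _ P.hp (hϖe oo) hφo ?_⟩
      have e1 : H.upH_e oo Ht = S ^ p := hHt
      rw [e1]; exact hSo
    · refine ⟨-mz, valHt_gaussV _ _ _ P.hp (hϖe zr) hφz ?_⟩
      have e1 : H.upH_e zr Ht = S0 ^ p := hHt0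
      rw [e1]; exact hSz
  have hδC : H.δC Ht = cE * gE ^ p * Ht := hδK
  obtain ⟨en, hen0, hw⟩ := exists_norm_of_deck hB C p hgE0 hc hδC h0
  -- (HG)
  have Hl := lvl A M₁ p P.hp P.hpM
  have X := xDatT A P.hM P.hp P.hpM P.hA
  have htr : Transcendental Qb (CNT.tQ M₁ p) := TOR.T1.transcendental_tt Hl X
  have hb0 : (a1 : Λ) * (en : Λ) ≠ 0 :=
    mul_ne_zero (fun h => ha1 (Subtype.ext h)) (fun h => hen0 (Subtype.ext h))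
  have hW : ((Ht * en ^ p : fixS (IA A) (adjF (FS (M₁ * p)) h1)) : Λ)
      = u ^ p * ((a1 : Λ) * (en : Λ)) ^ p := by
    show (Ht : Λ) * (en : Λ) ^ p = _
    rw [hHt, hS, mul_pow, mul_pow]
    ring
  have HG := H.hg hB C (t := CNT.tQ M₁ p) htr (tQ_mem_EC A)
    (fun z hz hv => mem_B2.2 ⟨hz, hv oo, hv zr⟩)
    (by rw [coe_piT]; exact IsInt.algebraMap _) P.ku (W := Ht * en ^ p)
    (b := (a1 : Λ) * (en : Λ)) (mul_mem a1.2 en.2.1) hb0 hW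
  -- the last step
  obtain ⟨c'', -, ψ, hψ, hb⟩ := H.upH_nrm P.hA hK1 hK10 oo (a1 * toF1 en)
    (mul_ne_zero ha1 (fun h => hen0 (Subtype.ext (by
      have := congrArg (Subtype.val : adjF (FS (M₁ * p)) h1 → Λ) h
      exact this))))
  refine MR.A.pdiv_of_cover M₁ p A hB C hw HG oo 0 (H.upH_e oo) ?_ ?_
    (MR.A.r0T A P.hM P.hp P.hpM P.hA) (MR.A.r0T_surjective A P.hM P.hp P.hpM P.hA)
    (MR.A.hasRed_r0T A P.hM P.hp P.hpM P.hA) (H := u ^ p) (b := (a1 : Λ) * (en : Λ)) (c := c)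
    (c' := 1) (c'' := c'') (ψ := ψ) ?_ hb hψ hab hab0
  · intro x hx
    rw [valHt_vtOf_zero] at hx
    exact (gaussV_le_one_iff _ _ _).1 hx
  · intro x
    rw [valHt_vtOf_zero]
    exact gaussV_lt_one_iff _ _ _
  · rw [map_one, one_mul]
    exact hW

end Fermat.Agent.MR.C
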