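import Mathlib
import Fermat.Agent.GAL.KL.Defs

/-!
# MR / C / ValExt : Hensel type extension of a rank one valuation (no completion)

`v` a rank one valuation of `F`, `L = F[y]`, `y` a root of a monic irreducible `f` with `v`-integral coefficients,
`a ∈ O_v` a simple root of the reduction of `f`.  Then there is exactly one valuation `w` of `L` extending `v` with
`w (y - a) < 1`; it takes its values in the SAME group and it is an immediate extension of `v`.

Construction: `S := {g(y)/h(y) | g h ∈ O_v[X], v (h a) = 1}`; every `x ≠ 0` of `L` is `c * (unit of S)` with `c ∈ F`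
(Newton approximations of the root in `F` + Bezout).
-/

set_option autoImplicit false

open Polynomial

namespace Fermat.Agent.MR.C.VE

open Fermat.Agent.GAL

variable {F L Γ₀ : Type*} [Field F] [Field L] [Algebra F L] [LinearOrderedCommGroupWithZero Γ₀]

/-! ### a valuation from a subring -/

/-- `x = c * unit of S`. -/
def Rel (S : Subring L) (x : L) (c : F) : Prop :=
  c ≠ 0 ∧ x * (algebraMap F L c)⁻¹ ∈ S ∧ x⁻¹ * algebraMap F L c ∈ S

theorem Rel.val_le {v : Valuation F Γ₀} {S : Subring L} (hS1 : ∀ c : F, algebraMap F L c ∈ S → v c ≤ 1)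
    {x : L} (hx : x ≠ 0) {c d : F} (hc : Rel S x c) (hd : Rel S x d) : v c ≤ v d := by
  have h1 : algebraMap F L (c * d⁻¹) ∈ S := by
    have h2 := S.mul_mem hc.2.2 hd.2.1
    have h3 : x⁻¹ * algebraMap F L c * (x * (algebraMap F L d)⁻¹) = algebraMap F L (c * d⁻¹) := by
      rw [map_mul, map_inv₀]
      field_simp
    rwa [h3] at h2
  have h4 := hS1 _ h1
  rw [map_mul, map_inv₀] at h4
  have hd0 : v d ≠ 0 := (Valuation.ne_zero_iff v).2 hd.1
  calc v c = v c * (v d)⁻¹ * v d := by rw [mul_assoc, inv_mul_cancel₀ hd0, mul_one]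
    _ ≤ 1 * v d := by gcongr
    _ = v d := one_mul _

theorem Rel.val_eq {v : Valuation F Γ₀} {S : Subring L} (hS1 : ∀ c : F, algebraMap F L c ∈ S → v c ≤ 1)
    {x : L} (hx : x ≠ 0) {c d : F} (hc : Rel S x c) (hd : Rel S x d) : v c = v d :=
  le_antisymm (hc.val_le hS1 hx hd) (hd.val_le hS1 hx hc)

theorem Rel.mul {S : Subring L} {x x' : L} {c c' : F} (h : Rel S x c) (h' : Rel S x' c') :
    Rel S (x * x') (c * c') := by
  refine ⟨mul_ne_zero h.1 h'.1, ?_, ?_⟩
  · have := S.mul_mem h.2.1 h'.2.1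
    rw [map_mul, mul_inv]
    convert this using 1
    ring
  · have := S.mul_mem h.2.2 h'.2.2
    rw [map_mul, mul_inv]
    convert this using 1
    ring

theorem rel_algebraMap (S : Subring L) {c : F} (hc : c ≠ 0) : Rel S (algebraMap F L c) c := by
  have h0 : algebraMap F L c ≠ 0 := by simpa using hc
  refine ⟨hc, ?_, ?_⟩
  · rw [mul_inv_cancel₀ h0]; exact S.one_mem
  · rw [inv_mul_cancel₀ h0]; exact S.one_mem

/-- the valuation defined by `S`. -/
theorem exists_valuation_of_subring (v : Valuation F Γ₀) (S : Subring L)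
    (hS1 : ∀ c : F, algebraMap F L c ∈ S → v c ≤ 1) (hS1' : ∀ c : F, v c ≤ 1 → algebraMap F L c ∈ S)
    (hS2 : ∀ x : L, x ≠ 0 → ∃ c : F, Rel S x c) :
    ∃ w : Valuation L Γ₀, (∀ c, w (algebraMap F L c) = v c) ∧ (∀ x, w x ≤ 1 ↔ x ∈ S) ∧
      ∀ x c, x ≠ 0 → Rel S x c → w x = v c := by
  classical
  let val : L → Γ₀ := fun x => if h : x = 0 then 0 else v (Classical.choose (hS2 x h))
  have hval : ∀ x c, x ≠ 0 → Rel S x c → val x = v c := by
    intro x c hx hc
    simp only [val, dif_neg hx]
    exact (Classical.choose_spec (hS2 x hx)).val_eq hS1 hx hc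
  have hval0 : val 0 = 0 := by simp [val]
  have hadd : ∀ x y c d, x ≠ 0 → y ≠ 0 → Rel S x c → Rel S y d → v c ≤ v d → val (x + y) ≤ v d := by
    intro x y c d hx hy hc hd hcd
    by_cases hxy : x + y = 0
    · rw [hxy, hval0]; exact zero_le
    obtain ⟨e, he⟩ := hS2 _ hxy
    rw [hval _ _ hxy he]
    have hd0 : v d ≠ 0 := (Valuation.ne_zero_iff v).2 hd.1
    have hdL : algebraMap F L d ≠ 0 := by simpa using hd.1
    have hcL : algebraMap F L c ≠ 0 := by simpa using hc.1
    have h1 : algebraMap F L (c * d⁻¹) ∈ S := by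
      apply hS1'
      rw [map_mul, map_inv₀]
      calc v c * (v d)⁻¹ ≤ v d * (v d)⁻¹ := by gcongr
        _ = 1 := mul_inv_cancel₀ hd0
    have h2 : (x + y) * (algebraMap F L d)⁻¹ ∈ S := by
      have h3 := S.add_mem (S.mul_mem hc.2.1 h1) hd.2.1
      convert h3 using 1
      rw [map_mul, map_inv₀]
      field_simp
    have h4 : algebraMap F L (e * d⁻¹) ∈ S := by
      have h5 := S.mul_mem he.2.2 h2
      convert h5 using 1
      rw [map_mul, map_inv₀]
      field_simp
    have h6 := hS1 _ h4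
    rw [map_mul, map_inv₀] at h6
    calc v e = v e * (v d)⁻¹ * v d := by rw [mul_assoc, inv_mul_cancel₀ hd0, mul_one]
      _ ≤ 1 * v d := by gcongr
      _ = v d := one_mul _
  let w : Valuation L Γ₀ :=
    { toFun := val
      map_zero' := hval0
      map_one' := by
        have := hval 1 1 one_ne_zero (by simpa using rel_algebraMap (F := F) S one_ne_zero)
        simpa using this
      map_mul' := by
        intro x y
        by_cases hx : x = 0
        · simp [hx, hval0]
        by_cases hy : y = 0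
        · simp [hy, hval0]
        obtain ⟨c, hc⟩ := hS2 x hx
        obtain ⟨d, hd⟩ := hS2 y hy
        rw [hval _ _ (mul_ne_zero hx hy) (hc.mul hd), hval _ _ hx hc, hval _ _ hy hd, map_mul]
      map_add_le_max' := by
        intro x y
        by_cases hx : x = 0
        · simp [hx, hval0]
        by_cases hy : y = 0
        · simp [hy, hval0]
        obtain ⟨c, hc⟩ := hS2 x hx
        obtain ⟨d, hd⟩ := hS2 y hy
        rw [hval _ _ hx hc, hval _ _ hy hd]
        rcases le_total (v c) (v d) with h | h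
        · exact (hadd x y c d hx hy hc hd h).trans (le_max_right _ _)
        · rw [add_comm]
          exact (hadd y x d c hy hx hd hc h).trans (le_max_left _ _) }
  have hw : ∀ x, w x = val x := fun _ => rfl
  refine ⟨w, ?_, ?_, fun x c hx hc => hval x c hx hc⟩
  · intro c
    by_cases hc : c = 0
    · simp [hc]
    · have h0 : algebraMap F L c ≠ 0 := by simpa using hc
      exact hval _ _ h0 (rel_algebraMap S hc)
  · intro x
    by_cases hx : x = 0
    · simp [hx, S.zero_mem]
    obtain ⟨c, hc⟩ := hS2 x hx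
    have hcL : algebraMap F L c ≠ 0 := by simpa using hc.1
    rw [hw, hval _ _ hx hc]
    constructor
    · intro h
      have := S.mul_mem hc.2.1 (hS1' c h)
      rwa [mul_assoc, inv_mul_cancel₀ hcL, mul_one] at this
    · intro h
      apply hS1
      have := S.mul_mem hc.2.2 h
      convert this using 1
      field_simp

/-! ### polynomials over the valuation ring -/

/-- evaluation at `y` of a polynomial with coefficients in `O_v`. -/
noncomputable def phi (v : Valuation F Γ₀) (y : L) : (v.integer)[X] →+* L :=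
  ((aeval y : F[X] →ₐ[F] L) : F[X] →+* L).comp (mapRingHom v.integer.subtype)

theorem phi_apply (v : Valuation F Γ₀) (y : L) (g : (v.integer)[X]) :
    phi v y g = aeval y (g.map v.integer.subtype) := rfl

@[simp] theorem phi_C (v : Valuation F Γ₀) (y : L) (c : v.integer) :
    phi v y (C c) = algebraMap F L (c : F) := by
  rw [phi_apply, map_C, aeval_C]; rfl

@[simp] theorem phi_X (v : Valuation F Γ₀) (y : L) : phi v y X = y := by
  rw [phi_apply, map_X, aeval_X]

/-- the value (in `F`) of `g` at `b`. -/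
def ev (v : Valuation F Γ₀) (g : (v.integer)[X]) (b : v.integer) : F := ((g.eval b : v.integer) : F)

theorem ev_def (v : Valuation F Γ₀) (g : (v.integer)[X]) (b : v.integer) :
    ev v g b = ((g.eval b : v.integer) : F) := rfl

@[simp] theorem ev_add (v : Valuation F Γ₀) (g h : (v.integer)[X]) (b : v.integer) :
    ev v (g + h) b = ev v g b + ev v h b := by simp [ev]

@[simp] theorem ev_sub (v : Valuation F Γ₀) (g h : (v.integer)[X]) (b : v.integer) :
    ev v (g - h) b = ev v g b - ev v h b := by simp [ev]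

@[simp] theorem ev_mul (v : Valuation F Γ₀) (g h : (v.integer)[X]) (b : v.integer) :
    ev v (g * h) b = ev v g b * ev v h b := by simp [ev]

@[simp] theorem ev_C (v : Valuation F Γ₀) (c b : v.integer) : ev v (C c) b = (c : F) := by simp [ev]

@[simp] theorem ev_X (v : Valuation F Γ₀) (b : v.integer) : ev v X b = (b : F) := by simp [ev]

@[simp] theorem ev_one (v : Valuation F Γ₀) (b : v.integer) : ev v 1 b = 1 := by simp [ev]

@[simp] theorem ev_zero (v : Valuation F Γ₀) (b : v.integer) : ev v 0 b = 0 := by simp [ev]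

theorem ev_eq_eval_map (v : Valuation F Γ₀) (g : (v.integer)[X]) (a : v.integer) :
    ev v g a = (g.map v.integer.subtype).eval (a : F) := by
  have := (eval₂_at_apply (p := g) v.integer.subtype a)
  rw [eval_map]
  exact this.symm

theorem val_le_one (v : Valuation F Γ₀) (c : v.integer) : v (c : F) ≤ 1 := c.2

theorem val_ev_le_one (v : Valuation F Γ₀) (g : (v.integer)[X]) (b : v.integer) : v (ev v g b) ≤ 1 :=
  val_le_one v _

/-- `v (g b - g a) ≤ v (b - a)`. -/
theorem val_ev_sub_le (v : Valuation F Γ₀) (g : (v.integer)[X]) (b a : v.integer) :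
    v (ev v g b - ev v g a) ≤ v ((b : F) - (a : F)) := by
  obtain ⟨k, hk⟩ := sub_dvd_eval_sub b a g
  have h1 : ev v g b - ev v g a = ((b : F) - (a : F)) * (k : F) := by
    have := congrArg (Subtype.val) hk
    simpa [ev] using this
  rw [h1, map_mul]
  exact mul_le_of_le_one_right' (val_le_one v k)

theorem val_ev_eq_one (v : Valuation F Γ₀) (g : (v.integer)[X]) {b a : v.integer}
    (hba : v ((b : F) - (a : F)) < 1) (h : v (ev v g a) = 1) : v (ev v g b) = 1 := by
  have h1 := (val_ev_sub_le v g b a).trans_lt hba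
  have h2 : ev v g b = ev v g a + (ev v g b - ev v g a) := by ring
  rw [h2, Valuation.map_add_eq_of_lt_left v (by rw [h]; exact h1), h]

theorem val_ev_lt_one (v : Valuation F Γ₀) (g : (v.integer)[X]) {b a : v.integer}
    (hba : v ((b : F) - (a : F)) < 1) (h : v (ev v g a) < 1) : v (ev v g b) < 1 := by
  have h1 := (val_ev_sub_le v g b a).trans_lt hba
  have h2 : ev v g b = ev v g a + (ev v g b - ev v g a) := by ring
  rw [h2]
  exact v.map_add_lt h h1

/-- clearing denominators. -/
theorem exists_clear (v : Valuation F Γ₀) (G : F[X]) :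
    ∃ d : v.integer, d ≠ 0 ∧ ∃ g : (v.integer)[X], g.map v.integer.subtype = C (d : F) * G := by
  induction G using Polynomial.induction_on' with
  | add p q hp hq =>
    obtain ⟨d, hd, g, hg⟩ := hp
    obtain ⟨e, he, k, hk⟩ := hq
    refine ⟨d * e, mul_ne_zero hd he, C e * g + C d * k, ?_⟩
    rw [Polynomial.map_add, Polynomial.map_mul, Polynomial.map_mul, hg, hk, map_C, map_C]
    simp only [Subring.subtype_apply, Subring.coe_mul, C_mul]
    ring
  | monomial n c =>
    by_cases hc : v c ≤ 1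
    · refine ⟨1, one_ne_zero, monomial n ⟨c, hc⟩, ?_⟩
      rw [map_monomial]
      simp
    · have hc0 : c ≠ 0 := by
        rintro rfl
        exact hc (by simp)
      have hc1 : v c⁻¹ ≤ 1 := by
        rw [map_inv₀]
        exact inv_le_one_of_one_le₀ (le_of_lt (not_le.1 hc))
      refine ⟨⟨c⁻¹, hc1⟩, ?_, monomial n 1, ?_⟩
      · intro h
        have := congrArg Subtype.val h
        simp at this
        exact hc0 this
      · rw [map_monomial, C_mul_monomial]
        simp [inv_mul_cancel₀ hc0]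

/-! ### the data -/

/-- the hypotheses. -/
structure Dat (v : Valuation F Γ₀) (y : L) (f : (v.integer)[X]) (a : v.integer) : Prop where
  arch : KL.Arch v
  monic : f.Monic
  irr : Irreducible (f.map v.integer.subtype)
  root : phi v y f = 0
  gen : ∀ x : L, ∃ g : F[X], aeval y g = x
  fa : v (ev v f a) < 1
  f'a : v (ev v (derivative f) a) = 1

variable {v : Valuation F Γ₀} {y : L} {f : (v.integer)[X]} {a : v.integer}

theorem Dat.dvd_of_phi_eq_zero (D : Dat v y f a) {h : (v.integer)[X]} (hh : phi v y h = 0) :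
    f ∣ h := by
  rw [← modByMonic_eq_zero_iff_dvd D.monic]
  by_contra hr
  have hr0 : phi v y (h %ₘ f) = 0 := by
    have h1 := modByMonic_add_div h f
    have h2 := congrArg (phi v y) h1
    rw [map_add, map_mul, D.root, zero_mul, add_zero, hh] at h2
    exact h2
  have hinj : Function.Injective v.integer.subtype := Subtype.val_injective
  have hrm : (h %ₘ f).map v.integer.subtype ≠ 0 := (Polynomial.map_ne_zero_iff hinj).2 hr
  have hmin : minpoly F y = f.map v.integer.subtype :=
    (minpoly.eq_of_irreducible_of_monic D.irr D.root (D.monic.map _)).symm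
  have hdeg := minpoly.degree_le_of_ne_zero F y hrm hr0
  rw [hmin, degree_map_eq_of_injective hinj, degree_map_eq_of_injective hinj] at hdeg
  exact absurd (degree_modByMonic_lt h D.monic) (not_lt.2 hdeg)

theorem Dat.val_lt_of_phi_eq_zero (D : Dat v y f a) {h : (v.integer)[X]} (hh : phi v y h = 0) :
    v (ev v h a) < 1 := by
  obtain ⟨q, rfl⟩ := D.dvd_of_phi_eq_zero hh
  rw [ev_mul, map_mul]
  exact (mul_le_of_le_one_right' (val_ev_le_one v q a)).trans_lt D.fa

theorem Dat.phi_ne_zero (D : Dat v y f a) {h : (v.integer)[X]} (hh : v (ev v h a) = 1) :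
    phi v y h ≠ 0 := fun h0 => (D.val_lt_of_phi_eq_zero h0).ne hh

/-- one Newton step. -/
theorem Dat.newton_step (D : Dat v y f a) {b : v.integer} (hb : v ((b : F) - (a : F)) < 1) :
    ∃ b' : v.integer, v ((b' : F) - (a : F)) < 1 ∧ v (ev v f b') ≤ v (ev v f b) ^ 2 := by
  have h1 : v (ev v f b) < 1 := val_ev_lt_one v f hb D.fa
  have h2 : v (ev v (derivative f) b) = 1 := val_ev_eq_one v _ hb D.f'a
  have hu0 : ev v (derivative f) b ≠ 0 := by
    intro h0
    rw [h0, map_zero] at h2
    exact zero_ne_one h2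
  have hs : v (-ev v f b * (ev v (derivative f) b)⁻¹) = v (ev v f b) := by
    rw [map_mul, map_inv₀, h2, inv_one, mul_one, Valuation.map_neg]
  let s : v.integer := ⟨-ev v f b * (ev v (derivative f) b)⁻¹, by
    rw [Valuation.mem_integer_iff, hs]; exact h1.le⟩
  have hsc : (s : F) = -ev v f b * (ev v (derivative f) b)⁻¹ := rfl
  obtain ⟨k, hk⟩ := binomExpansion f b s
  have hk' : ev v f (b + s) = ev v f b + ev v (derivative f) b * (s : F) + (k : F) * (s : F) ^ 2 := by
    have := congrArg Subtype.val hk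
    simpa [ev] using this
  have hk2 : ev v f (b + s) = (k : F) * (s : F) ^ 2 := by
    rw [hk', hsc]
    field_simp
    ring
  refine ⟨b + s, ?_, ?_⟩
  · have h3 : ((b + s : v.integer) : F) - (a : F) = ((b : F) - (a : F)) + (s : F) := by
      push_cast; ring
    rw [h3]
    exact v.map_add_lt hb (by rw [hsc, hs]; exact h1)
  · rw [hk2, map_mul, map_pow, hsc, hs]
    exact mul_le_of_le_one_left' (val_le_one v k)

/-- approximate roots. -/
theorem Dat.exists_approx (D : Dat v y f a) (γ : Γ₀) (hγ : γ ≠ 0) :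
    ∃ b : v.integer, v ((b : F) - (a : F)) < 1 ∧ v (ev v f b) < γ := by
  have key : ∀ n : ℕ, ∃ b : v.integer, v ((b : F) - (a : F)) < 1 ∧
      v (ev v f b) ≤ v (ev v f a) ^ (n + 1) := by
    intro n
    induction n with
    | zero => exact ⟨a, by simp, by simp⟩
    | succ n ih =>
      obtain ⟨b, hb1, hb2⟩ := ih
      obtain ⟨b', hb1', hb2'⟩ := D.newton_step hb1
      refine ⟨b', hb1', hb2'.trans ?_⟩
      calc v (ev v f b) ^ 2 ≤ (v (ev v f a) ^ (n + 1)) ^ 2 := by gcongr
        _ = v (ev v f a) ^ (2 * n + 2) := by rw [← pow_mul]; congr 1; ring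
        _ ≤ v (ev v f a) ^ (n + 1 + 1) := pow_le_pow_right_of_le_one' D.fa.le (by omega)
  obtain ⟨m, hm⟩ := D.arch _ D.fa γ hγ
  obtain ⟨b, hb1, hb2⟩ := key m
  exact ⟨b, hb1, (hb2.trans (pow_le_pow_right_of_le_one' D.fa.le (by omega))).trans_lt hm⟩

/-- approximate roots at which `g` is much bigger than `f`. -/
theorem Dat.exists_approx_lt (D : Dat v y f a) {g : (v.integer)[X]} (hg : phi v y g ≠ 0) :
    ∃ b : v.integer, v ((b : F) - (a : F)) < 1 ∧ v (ev v f b) < v (ev v g b) := by
  have hnd : ¬ f.map v.integer.subtype ∣ g.map v.integer.subtype := by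
    rintro ⟨q, hq⟩
    apply hg
    rw [phi_apply, hq, map_mul, ← phi_apply, D.root, zero_mul]
  obtain ⟨s, t, hst⟩ := D.irr.coprime_iff_not_dvd.2 hnd
  obtain ⟨d, hd, s', hs'⟩ := exists_clear v s
  obtain ⟨e, he, t', ht'⟩ := exists_clear v t
  have hid : C e * s' * f + C d * t' * g = C (d * e) := by
    apply Polynomial.map_injective v.integer.subtype Subtype.val_injective
    simp only [Polynomial.map_add, Polynomial.map_mul, hs', ht', map_C, Subring.subtype_apply,
      C_mul]
    calc C (e : F) * (C (d : F) * s) * f.map v.integer.subtype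
          + C (d : F) * (C (e : F) * t) * g.map v.integer.subtype
        = C (d : F) * C (e : F) * (s * f.map v.integer.subtype + t * g.map v.integer.subtype) := by
          ring
      _ = C (d : F) * C (e : F) := by rw [hst, mul_one]
  have hde : v ((d : F) * (e : F)) ≠ 0 := by
    rw [Valuation.ne_zero_iff]
    exact mul_ne_zero (fun h => hd (Subtype.ext h)) (fun h => he (Subtype.ext h))
  obtain ⟨b, hb1, hb2⟩ := D.exists_approx _ hde
  refine ⟨b, hb1, ?_⟩
  by_contra hcon
  rw [not_lt] at hcon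
  have h3 : (d : F) * (e : F) = (e : F) * ev v s' b * ev v f b + (d : F) * ev v t' b * ev v g b := by
    have := congrArg (fun p => ev v p b) hid
    simpa using this.symm
  have h4 : v ((d : F) * (e : F)) ≤ v (ev v f b) := by
    rw [h3]
    refine (v.map_add _ _).trans (max_le ?_ ?_)
    · rw [map_mul, map_mul]
      exact mul_le_of_le_one_left' (mul_le_one' (val_le_one v e) (val_ev_le_one v s' b))
    · rw [map_mul, map_mul]
      exact (mul_le_of_le_one_left' (mul_le_one' (val_le_one v d) (val_ev_le_one v t' b))).trans hcon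
  exact absurd hb2 (not_lt.2 h4)

/-! ### the ring `S` -/

/-- `S = {g(y)/h(y) | v (h a) = 1}`. -/
def ringS (v : Valuation F Γ₀) (y : L) (a : v.integer) : Subring L where
  carrier := {x | ∃ g h : (v.integer)[X], v (ev v h a) = 1 ∧ x * phi v y h = phi v y g}
  mul_mem' := by
    rintro x x' ⟨g, h, hh, e⟩ ⟨g', h', hh', e'⟩
    refine ⟨g * g', h * h', by rw [ev_mul, map_mul, hh, hh', one_mul], ?_⟩
    rw [map_mul, map_mul, ← e, ← e']
    ring
  one_mem' := ⟨1, 1, by simp, by simp⟩
  add_mem' := by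
    rintro x x' ⟨g, h, hh, e⟩ ⟨g', h', hh', e'⟩
    refine ⟨g * h' + g' * h, h * h', by rw [ev_mul, map_mul, hh, hh', one_mul], ?_⟩
    rw [map_add, map_mul, map_mul, map_mul, ← e, ← e']
    ring
  zero_mem' := ⟨0, 1, by simp, by simp⟩
  neg_mem' := by
    rintro x ⟨g, h, hh, e⟩
    exact ⟨-g, h, hh, by rw [map_neg, ← e]; ring⟩

theorem mem_ringS {x : L} : x ∈ ringS v y a ↔
    ∃ g h : (v.integer)[X], v (ev v h a) = 1 ∧ x * phi v y h = phi v y g := Iff.rfl

theorem phi_mem_ringS (g : (v.integer)[X]) : phi v y g ∈ ringS v y a :=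
  ⟨g, 1, by simp, by simp⟩

theorem Dat.inv_phi_mem_ringS (D : Dat v y f a) {h : (v.integer)[X]} (hh : v (ev v h a) = 1) :
    (phi v y h)⁻¹ ∈ ringS v y a :=
  ⟨1, h, hh, by rw [inv_mul_cancel₀ (D.phi_ne_zero hh), map_one]⟩

theorem algebraMap_mem_ringS {c : F} (hc : v c ≤ 1) : algebraMap F L c ∈ ringS v y a := by
  have := phi_mem_ringS (v := v) (y := y) (a := a) (C ⟨c, hc⟩)
  rwa [phi_C] at this

theorem Dat.val_le_one_of_mem (D : Dat v y f a) {c : F} (hc : algebraMap F L c ∈ ringS v y a) :
    v c ≤ 1 := by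
  by_contra hcon
  rw [not_le] at hcon
  obtain ⟨g, h, hh, e⟩ := hc
  have hc0 : c ≠ 0 := by
    rintro rfl
    simp at hcon
  have hci : v c⁻¹ < 1 := by
    rw [map_inv₀]
    exact inv_lt_one_of_one_lt₀ hcon
  have h1 : phi v y (h - C ⟨c⁻¹, hci.le⟩ * g) = 0 := by
    rw [map_sub, map_mul, phi_C, ← e, map_inv₀]
    have : algebraMap F L c ≠ 0 := by simpa using hc0
    field_simp
    ring
  have h2 := D.val_lt_of_phi_eq_zero h1
  rw [ev_sub, ev_mul, ev_C] at h2
  have h3 : v (c⁻¹ * ev v g a) < 1 := by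
    rw [map_mul]
    exact (mul_le_of_le_one_right' (val_ev_le_one v g a)).trans_lt hci
  have h4 : v (ev v h a - c⁻¹ * ev v g a) = 1 := by
    rw [Valuation.map_sub_eq_of_lt_left v (by rw [hh]; exact h3), hh]
  exact h2.ne h4

/-- every nonzero value `g(y)`, `g ∈ O_v[X]`, is a constant times a unit of `S`. -/
theorem Dat.rel_phi (D : Dat v y f a) {g : (v.integer)[X]} (hg : phi v y g ≠ 0) :
    ∃ c : F, Rel (ringS v y a) (phi v y g) c := by
  obtain ⟨b, hb1, hb2⟩ := D.exists_approx_lt hg
  obtain ⟨G, hG⟩ := X_sub_C_dvd_sub_C_eval (a := b) (p := g)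
  obtain ⟨f₁, hf₁⟩ := X_sub_C_dvd_sub_C_eval (a := b) (p := f)
  -- `f₁ b = f' b`
  have hder : ev v f₁ b = ev v (derivative f) b := by
    have h1 := congrArg derivative hf₁
    rw [derivative_sub, derivative_C, sub_zero, derivative_mul, derivative_sub, derivative_X,
      derivative_C, sub_zero, one_mul] at h1
    have h2 := congrArg (fun p => ev v p b) h1
    simp only [ev_add, ev_mul, ev_sub, ev_X, ev_C, sub_self, zero_mul, add_zero] at h2
    exact h2.symm
  have hab : v ((a : F) - (b : F)) < 1 := by rw [Valuation.map_sub_swap]; exact hb1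
  have hf₁b : v (ev v f₁ b) = 1 := by rw [hder]; exact val_ev_eq_one v _ hb1 D.f'a
  have hf₁a : v (ev v f₁ a) = 1 := val_ev_eq_one v _ hab hf₁b
  have hc0 : ev v g b ≠ 0 := by
    intro h0
    rw [h0, map_zero] at hb2
    exact not_lt_zero hb2
  have hvc0 : v (ev v g b) ≠ 0 := (Valuation.ne_zero_iff v).2 hc0
  have he : v (ev v f b * (ev v g b)⁻¹) < 1 := by
    rw [map_mul, map_inv₀]
    calc v (ev v f b) * (v (ev v g b))⁻¹ < v (ev v g b) * (v (ev v g b))⁻¹ :=
          mul_lt_mul_of_pos_right hb2 (by rw [zero_lt_iff]; exact inv_ne_zero hvc0)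
      _ = 1 := mul_inv_cancel₀ hvc0
  -- the two identities at `y`
  have e1 : phi v y g - algebraMap F L (ev v g b) = (y - algebraMap F L (b : F)) * phi v y G := by
    have := congrArg (phi v y) hG
    simpa [ev] using this
  have e2 : - algebraMap F L (ev v f b) = (y - algebraMap F L (b : F)) * phi v y f₁ := by
    have := congrArg (phi v y) hf₁
    simpa [ev, D.root] using this
  set h₁ : (v.integer)[X] := f₁ - C ⟨ev v f b * (ev v g b)⁻¹, he.le⟩ * G with hh₁
  have hcL : algebraMap F L (ev v g b) ≠ 0 := by simpa using hc0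
  have e3 : phi v y g * phi v y f₁ = algebraMap F L (ev v g b) * phi v y h₁ := by
    rw [hh₁, map_sub, map_mul, phi_C, map_mul, map_inv₀]
    have e4 : phi v y g = algebraMap F L (ev v g b) + (y - algebraMap F L (b : F)) * phi v y G := by
      rw [← e1]; ring
    have e5 : algebraMap F L (ev v g b) * (phi v y f₁ -
        algebraMap F L (ev v f b) * (algebraMap F L (ev v g b))⁻¹ * phi v y G) =
        algebraMap F L (ev v g b) * phi v y f₁ - algebraMap F L (ev v f b) * phi v y G := by
      field_simp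
    rw [e5, e4]
    linear_combination (- phi v y G) * e2
  have hh₁a : v (ev v h₁ a) = 1 := by
    rw [hh₁, ev_sub, ev_mul, ev_C]
    have h3 : v (ev v f b * (ev v g b)⁻¹ * ev v G a) < 1 := by
      rw [map_mul]
      exact (mul_le_of_le_one_right' (val_ev_le_one v G a)).trans_lt he
    rw [Valuation.map_sub_eq_of_lt_left v (by rw [hf₁a]; exact h3), hf₁a]
  refine ⟨ev v g b, hc0, ⟨h₁, f₁, hf₁a, ?_⟩, ⟨f₁, h₁, hh₁a, ?_⟩⟩
  · rw [mul_right_comm, e3]
    field_simp
  · have : phi v y h₁ = (algebraMap F L (ev v g b))⁻¹ * (phi v y g * phi v y f₁) := by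
      rw [e3]; field_simp
    rw [this]
    field_simp

theorem Dat.exists_rel (D : Dat v y f a) {x : L} (hx : x ≠ 0) : ∃ c : F, Rel (ringS v y a) x c := by
  obtain ⟨G, rfl⟩ := D.gen x
  obtain ⟨d, hd, g, hg⟩ := exists_clear v G
  have hd0 : (d : F) ≠ 0 := fun h => hd (Subtype.ext h)
  have hdL : algebraMap F L (d : F) ≠ 0 := by simpa using hd0
  have e : phi v y g = algebraMap F L (d : F) * aeval y G := by
    rw [phi_apply, hg, map_mul, aeval_C]
  obtain ⟨c, hc0, hc1, hc2⟩ := D.rel_phi (g := g) (by rw [e]; exact mul_ne_zero hdL hx)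
  have hcL : algebraMap F L c ≠ 0 := by simpa using hc0
  refine ⟨c * (d : F)⁻¹, mul_ne_zero hc0 (inv_ne_zero hd0), ?_, ?_⟩
  · convert hc1 using 1
    rw [e, map_mul, map_inv₀]
    field_simp
  · convert hc2 using 1
    rw [e, map_mul, map_inv₀]
    field_simp

/-! ### valuations of `L` centred at `a` -/

/-- `w` extends `v` and `w (y - a) < 1`. -/
structure Ext (v : Valuation F Γ₀) (y : L) (a : v.integer) (w : Valuation L Γ₀) : Prop where
  ext : ∀ c, w (algebraMap F L c) = v c
  lt : w (y - algebraMap F L (a : F)) < 1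

theorem Ext.val_y_le {w : Valuation L Γ₀} (E : Ext v y a w) : w y ≤ 1 := by
  have h : y = (y - algebraMap F L (a : F)) + algebraMap F L (a : F) := by ring
  rw [h]
  exact (w.map_add _ _).trans (max_le E.lt.le (by rw [E.ext]; exact val_le_one v a))

theorem Ext.val_phi_le {w : Valuation L Γ₀} (E : Ext v y a w) (g : (v.integer)[X]) :
    w (phi v y g) ≤ 1 := by
  induction g using Polynomial.induction_on' with
  | add p q hp hq =>
    rw [map_add]
    exact (w.map_add _ _).trans (max_le hp hq)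
  | monomial n c =>
    rw [phi_apply, map_monomial, aeval_monomial, map_mul, map_pow]
    refine mul_le_one' ?_ (pow_le_one' E.val_y_le n)
    rw [E.ext]
    exact val_le_one v c

/-- `g(y) ≡ g(a)`. -/
theorem Ext.val_phi_sub_lt {w : Valuation L Γ₀} (E : Ext v y a w) (g : (v.integer)[X]) :
    w (phi v y g - algebraMap F L (ev v g a)) < 1 := by
  obtain ⟨G, hG⟩ := X_sub_C_dvd_sub_C_eval (a := a) (p := g)
  have e1 : phi v y g - algebraMap F L (ev v g a) = (y - algebraMap F L (a : F)) * phi v y G := by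
    have := congrArg (phi v y) hG
    simpa [ev] using this
  rw [e1, map_mul]
  exact (mul_le_of_le_one_right' (E.val_phi_le G)).trans_lt E.lt

theorem Ext.val_phi_eq_one {w : Valuation L Γ₀} (E : Ext v y a w) {h : (v.integer)[X]}
    (hh : v (ev v h a) = 1) : w (phi v y h) = 1 := by
  have h1 := E.val_phi_sub_lt h
  have h2 : phi v y h = algebraMap F L (ev v h a) + (phi v y h - algebraMap F L (ev v h a)) := by ring
  rw [h2, Valuation.map_add_eq_of_lt_left w (by rw [E.ext, hh]; exact h1), E.ext, hh]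

theorem Ext.val_le_one_of_mem {w : Valuation L Γ₀} (E : Ext v y a w) {x : L}
    (hx : x ∈ ringS v y a) : w x ≤ 1 := by
  obtain ⟨g, h, hh, e⟩ := hx
  have h1 := E.val_phi_le g
  rwa [← e, map_mul, E.val_phi_eq_one hh, mul_one] at h1

theorem Ext.val_eq_of_rel {w : Valuation L Γ₀} (E : Ext v y a w) {x : L} {c : F} (hx : x ≠ 0)
    (h : Rel (ringS v y a) x c) : w x = v c := by
  have h1 := E.val_le_one_of_mem h.2.1
  have h2 := E.val_le_one_of_mem h.2.2
  rw [map_mul, map_inv₀, E.ext] at h1 h2
  have hc0 : v c ≠ 0 := (Valuation.ne_zero_iff v).2 h.1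
  have hx0 : w x ≠ 0 := (Valuation.ne_zero_iff w).2 hx
  apply le_antisymm
  · calc w x = w x * (v c)⁻¹ * v c := by rw [mul_assoc, inv_mul_cancel₀ hc0, mul_one]
      _ ≤ 1 * v c := by gcongr
      _ = v c := one_mul _
  · calc v c = w x * ((w x)⁻¹ * v c) := by rw [← mul_assoc, mul_inv_cancel₀ hx0, one_mul]
      _ ≤ w x * 1 := by gcongr
      _ = w x := mul_one _

/-- **uniqueness.** -/
theorem Dat.ext_unique (D : Dat v y f a) {w w' : Valuation L Γ₀} (E : Ext v y a w)
    (E' : Ext v y a w') : w = w' := by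
  ext x
  by_cases hx : x = 0
  · simp [hx]
  obtain ⟨c, hc⟩ := D.exists_rel hx
  rw [E.val_eq_of_rel hx hc, E'.val_eq_of_rel hx hc]

/-- **existence.** -/
theorem Dat.exists_ext (D : Dat v y f a) : ∃ w : Valuation L Γ₀, Ext v y a w := by
  obtain ⟨w, hw1, hw2, -⟩ := exists_valuation_of_subring v (ringS v y a)
    (fun c hc => D.val_le_one_of_mem hc) (fun c hc => algebraMap_mem_ringS hc)
    (fun x hx => D.exists_rel hx)
  refine ⟨w, hw1, ?_⟩
  by_contra hcon
  rw [not_lt] at hcon
  have h0 : y - algebraMap F L (a : F) ≠ 0 := by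
    intro h0
    rw [h0, map_zero] at hcon
    exact not_le.2 zero_lt_one hcon
  have h1 : w (y - algebraMap F L (a : F))⁻¹ ≤ 1 := by
    rw [map_inv₀]
    exact inv_le_one_of_one_le₀ hcon
  obtain ⟨g, h, hh, e⟩ := (hw2 _).1 h1
  have h2 : phi v y (h - (X - C a) * g) = 0 := by
    rw [map_sub, map_mul, map_sub, phi_X, phi_C, ← e]
    field_simp
    ring
  have h3 := D.val_lt_of_phi_eq_zero h2
  simp only [ev_sub, ev_mul, ev_X, ev_C, sub_self, zero_mul, sub_zero] at h3
  exact h3.ne hh

/-- the value group does not grow. -/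
theorem Dat.exists_val_eq (D : Dat v y f a) {w : Valuation L Γ₀} (E : Ext v y a w) (x : L) :
    ∃ c : F, w x = v c := by
  by_cases hx : x = 0
  · exact ⟨0, by simp [hx]⟩
  obtain ⟨c, hc⟩ := D.exists_rel hx
  exact ⟨c, E.val_eq_of_rel hx hc⟩

theorem Dat.arch_ext (D : Dat v y f a) {w : Valuation L Γ₀} (E : Ext v y a w) : KL.Arch w := by
  intro x hx γ hγ
  obtain ⟨c, hc⟩ := D.exists_val_eq E x
  rw [hc] at hx ⊢
  exact D.arch c hx γ hγ

theorem Dat.mem_ringS_iff (D : Dat v y f a) {w : Valuation L Γ₀} (E : Ext v y a w) (x : L) :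
    x ∈ ringS v y a ↔ w x ≤ 1 := by
  refine ⟨E.val_le_one_of_mem, fun h => ?_⟩
  by_cases hx : x = 0
  · rw [hx]; exact Subring.zero_mem _
  obtain ⟨c, hc⟩ := D.exists_rel hx
  rw [E.val_eq_of_rel hx hc] at h
  have hcL : algebraMap F L c ≠ 0 := by simpa using hc.1
  have := Subring.mul_mem _ hc.2.1 (algebraMap_mem_ringS (y := y) (a := a) h)
  rwa [mul_assoc, inv_mul_cancel₀ hcL, mul_one] at this

/-- the residue field does not grow. -/
theorem Dat.exists_imm (D : Dat v y f a) {w : Valuation L Γ₀} (E : Ext v y a w) {x : L}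
    (hx : w x ≤ 1) : ∃ c : F, v c ≤ 1 ∧ w (x - algebraMap F L c) < 1 := by
  obtain ⟨g, h, hh, e⟩ := (D.mem_ringS_iff E x).2 hx
  have hh0 : ev v h a ≠ 0 := by
    intro h0
    rw [h0, map_zero] at hh
    exact zero_ne_one hh
  have hhL : algebraMap F L (ev v h a) ≠ 0 := by simpa using hh0
  refine ⟨ev v g a * (ev v h a)⁻¹, ?_, ?_⟩
  · rw [map_mul, map_inv₀, hh, inv_one, mul_one]
    exact val_ev_le_one v g a
  · have h1 : w ((x - algebraMap F L (ev v g a * (ev v h a)⁻¹)) * phi v y h) < 1 := by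
      have e2 : (x - algebraMap F L (ev v g a * (ev v h a)⁻¹)) * phi v y h =
          (phi v y g - algebraMap F L (ev v g a)) -
            algebraMap F L (ev v g a * (ev v h a)⁻¹) * (phi v y h - algebraMap F L (ev v h a)) := by
        rw [sub_mul, e, map_mul, map_inv₀]
        field_simp
        ring
      rw [e2]
      refine w.map_sub_lt (E.val_phi_sub_lt g) ?_
      rw [map_mul, E.ext, map_mul, map_inv₀, hh, inv_one, mul_one]
      exact (mul_le_of_le_one_left' (val_ev_le_one v g a)).trans_lt (E.val_phi_sub_lt h)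
    rwa [map_mul, E.val_phi_eq_one hh, mul_one] at h1

/-! ### the statements in `F[X]` language -/

section wrappers

variable (v : Valuation F Γ₀) (y : L) (f : F[X]) (a : F)

/-- the hypotheses, for `f : F[X]`, `a : F`. -/
structure Hyp : Prop where
  arch : KL.Arch v
  gen : ∀ x : L, ∃ g : F[X], aeval y g = x
  monic : f.Monic
  irr : Irreducible f
  coeff : ∀ n, v (f.coeff n) ≤ 1
  root : aeval y f = 0
  a_le : v a ≤ 1
  fa : v (f.eval a) < 1
  f'a : v (f.derivative.eval a) = 1

variable {v y f a}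

theorem Hyp.coeffs_subset (H : Hyp v y f a) : ((f.coeffs : Finset F) : Set F) ⊆ v.integer := by
  intro c hc
  rw [Finset.mem_coe, mem_coeffs_iff] at hc
  obtain ⟨n, -, rfl⟩ := hc
  exact H.coeff n

theorem Hyp.dat (H : Hyp v y f a) :
    Dat v y (f.toSubring v.integer H.coeffs_subset) ⟨a, H.a_le⟩ where
  arch := H.arch
  monic := (monic_toSubring f v.integer H.coeffs_subset).2 H.monic
  irr := by rw [map_toSubring]; exact H.irr
  root := by rw [phi_apply, map_toSubring]; exact H.root
  gen := H.gen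
  fa := by rw [ev_eq_eval_map, map_toSubring]; exact H.fa
  f'a := by rw [ev_eq_eval_map, ← derivative_map, map_toSubring]; exact H.f'a

/-- **(1) existence** of the extension of `v` centred at `a`: same value group, same residue field, rank one. -/
theorem exists_valExt (H : Hyp v y f a) :
    ∃ w : Valuation L Γ₀, (∀ c, w (algebraMap F L c) = v c) ∧ w (y - algebraMap F L a) < 1 ∧
      KL.Arch w ∧ (∀ x, ∃ c : F, w x = v c) ∧
      (∀ x, w x ≤ 1 → ∃ c : F, v c ≤ 1 ∧ w (x - algebraMap F L c) < 1) := by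
  obtain ⟨w, E⟩ := H.dat.exists_ext
  exact ⟨w, E.ext, E.lt, H.dat.arch_ext E, H.dat.exists_val_eq E, fun x hx => H.dat.exists_imm E hx⟩

/-- **(2) uniqueness.** -/
theorem valExt_unique (H : Hyp v y f a) {w w' : Valuation L Γ₀}
    (hw : ∀ c, w (algebraMap F L c) = v c) (hwy : w (y - algebraMap F L a) < 1)
    (hw' : ∀ c, w' (algebraMap F L c) = v c) (hwy' : w' (y - algebraMap F L a) < 1) : w = w' :=
  H.dat.ext_unique ⟨hw, hwy⟩ ⟨hw', hwy'⟩

/-- every extension of `v` centred at `a` has the properties of (1). -/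
theorem valExt_props (H : Hyp v y f a) {w : Valuation L Γ₀}
    (hw : ∀ c, w (algebraMap F L c) = v c) (hwy : w (y - algebraMap F L a) < 1) :
    KL.Arch w ∧ (∀ x, ∃ c : F, w x = v c) ∧
      (∀ x, w x ≤ 1 → ∃ c : F, v c ≤ 1 ∧ w (x - algebraMap F L c) < 1) :=
  ⟨H.dat.arch_ext ⟨hw, hwy⟩, H.dat.exists_val_eq ⟨hw, hwy⟩, fun _ hx => H.dat.exists_imm ⟨hw, hwy⟩ hx⟩

/-- for `g` with integral coefficients `g(y) ≡ g(a)`. -/
theorem valExt_aeval_sub_lt {w : Valuation L Γ₀} (ha : v a ≤ 1)
    (hw : ∀ c, w (algebraMap F L c) = v c) (hwy : w (y - algebraMap F L a) < 1) (g : F[X])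
    (hg : ∀ n, v (g.coeff n) ≤ 1) : w (aeval y g - algebraMap F L (g.eval a)) < 1 := by
  have hsub : ((g.coeffs : Finset F) : Set F) ⊆ v.integer := by
    intro c hc
    rw [Finset.mem_coe, mem_coeffs_iff] at hc
    obtain ⟨n, -, rfl⟩ := hc
    exact hg n
  have E : Ext v y ⟨a, ha⟩ w := ⟨hw, hwy⟩
  have := E.val_phi_sub_lt (g.toSubring v.integer hsub)
  rwa [phi_apply, ev_eq_eval_map, map_toSubring] at this

/-- transport by an automorphism (for `Cov.shift`): if `w` is centred at `a₂` for `σ y` then `w ∘ σ` is the extension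
centred at `a₂`. -/
theorem valExt_comap_eq {a₂ : F} (H₂ : Hyp v y f a₂) (σ : L ≃ₐ[F] L) {w w₂ : Valuation L Γ₀}
    (hw : ∀ c, w (algebraMap F L c) = v c) (hwσ : w (σ y - algebraMap F L a₂) < 1)
    (hw₂ : ∀ c, w₂ (algebraMap F L c) = v c) (hwy₂ : w₂ (y - algebraMap F L a₂) < 1) :
    w.comap (σ : L →+* L) = w₂ := by
  refine valExt_unique H₂ (fun c => ?_) ?_ hw₂ hwy₂
  · rw [Valuation.comap_apply]
    have : (σ : L →+* L) (algebraMap F L c) = algebraMap F L c := σ.commutes c
    rw [this, hw]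
  · rw [Valuation.comap_apply]
    have : (σ : L →+* L) (y - algebraMap F L a₂) = σ y - algebraMap F L a₂ := by
      rw [map_sub]
      congr 1
      exact σ.commutes a₂
    rw [this]
    exact hwσ

end wrappers

end Fermat.Agent.MR.C.VE
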