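import Fermat.Agent.GAL.KL.Defs

/-!
# MR / C / ValExtB : uniqueness of the extension of a rank one valuation centred at a simple approximate root;
extension of the reduction map along an immediate extension.   (helper50; companion of `ValExt.lean`, helper12)
-/

set_option autoImplicit false

open Polynomial

namespace Fermat.Agent.MR.C

open Fermat.Agent.GAL

section general

variable {R Γ₀ : Type*} [CommRing R] [LinearOrderedCommGroupWithZero Γ₀]

theorem valExtB_eval_coe (u : Valuation R Γ₀) (P : (u.integer)[X]) (X : u.integer) :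
    (P.map u.integer.subtype).eval (X : R) = ((P.eval X : u.integer) : R) := by
  rw [Polynomial.eval_map]
  exact Polynomial.eval₂_at_apply u.integer.subtype X

theorem valExtB_exists_lift (u : Valuation R Γ₀) (F : R[X]) (hF : ∀ i, u (F.coeff i) ≤ 1) :
    ∃ G : (u.integer)[X], G.map u.integer.subtype = F := by
  have hsub : (↑F.coeffs : Set R) ⊆ u.integer := by
    intro c hc
    obtain ⟨i, -, rfl⟩ := Polynomial.mem_coeffs_iff.1 hc
    exact hF i
  exact ⟨F.toSubring u.integer hsub, Polynomial.map_toSubring _ _ _⟩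

/-- Taylor expansion to the second order with integral remainder -/
theorem valExtB_taylor (u : Valuation R Γ₀) (F : R[X]) (hF : ∀ i, u (F.coeff i) ≤ 1) (x h : R)
    (hx : u x ≤ 1) (hh : u h ≤ 1) :
    ∃ k : R, u k ≤ 1 ∧ F.eval (x + h) = F.eval x + F.derivative.eval x * h + k * h ^ 2 := by
  obtain ⟨G, rfl⟩ := valExtB_exists_lift u F hF
  obtain ⟨k, hk⟩ := G.binomExpansion (⟨x, hx⟩ : u.integer) (⟨h, hh⟩ : u.integer)
  refine ⟨k, k.2, ?_⟩
  have h1 := congrArg (fun t : u.integer => (t : R)) hk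
  simp only [Subring.coe_add, Subring.coe_mul, Subring.coe_pow] at h1
  rw [Polynomial.derivative_map]
  have e1 := valExtB_eval_coe u G (⟨x, hx⟩ + ⟨h, hh⟩ : u.integer)
  have e2 := valExtB_eval_coe u G (⟨x, hx⟩ : u.integer)
  have e3 := valExtB_eval_coe u (derivative G) (⟨x, hx⟩ : u.integer)
  simp only [Subring.coe_add] at e1 e2 e3
  rw [e1, e2, e3, h1]

/-- Lipschitz bound -/
theorem valExtB_lip (u : Valuation R Γ₀) (G : R[X]) (C : Γ₀) (hC : ∀ i, u (G.coeff i) ≤ C) (x y : R)
    (hx : u x ≤ 1) (hy : u y ≤ 1) : u (G.eval x - G.eval y) ≤ C * u (x - y) := by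
  rw [Polynomial.eval_eq_sum_range, Polynomial.eval_eq_sum_range, ← Finset.sum_sub_distrib]
  apply Valuation.map_sum_le
  intro i _
  rw [← mul_sub, ← geom_sum₂_mul, map_mul, map_mul]
  refine mul_le_mul' (hC i) ?_
  calc u (∑ j ∈ Finset.range i, x ^ j * y ^ (i - 1 - j)) * u (x - y) ≤ 1 * u (x - y) := by
        refine mul_le_mul_left ?_ _
        apply Valuation.map_sum_le
        intro j _
        rw [map_mul, map_pow, map_pow]
        exact mul_le_one' (pow_le_one' hx _) (pow_le_one' hy _)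
    _ = u (x - y) := one_mul _

theorem valExtB_exists_bound (u : Valuation R Γ₀) (G : R[X]) :
    ∃ C : Γ₀, C ≠ 0 ∧ ∀ i, u (G.coeff i) ≤ C := by
  obtain ⟨M, hM⟩ := (G.support.image fun i => u (G.coeff i)).exists_le
  refine ⟨max M 1, (lt_of_lt_of_le zero_lt_one (le_max_right _ _)).ne', fun i => ?_⟩
  by_cases hi : i ∈ G.support
  · exact (hM _ (Finset.mem_image_of_mem _ hi)).trans (le_max_left _ _)
  · rw [Polynomial.notMem_support_iff.1 hi, map_zero]
    exact zero_le

theorem valExtB_natCast_le (u : Valuation R Γ₀) (n : ℕ) : u (n : R) ≤ 1 :=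
  natCast_mem u.integer n

theorem valExtB_derivative_int (u : Valuation R Γ₀) (F : R[X]) (hF : ∀ i, u (F.coeff i) ≤ 1) (i : ℕ) :
    u (F.derivative.coeff i) ≤ 1 := by
  rw [Polynomial.coeff_derivative, map_mul]
  refine mul_le_one' (hF _) ?_
  have h := valExtB_natCast_le u (i + 1)
  rwa [Nat.cast_add, Nat.cast_one] at h

end general

section newton

variable {F Γ₀ : Type*} [Field F] [LinearOrderedCommGroupWithZero Γ₀]

/-- one Newton step -/
theorem valExtB_step (v : Valuation F Γ₀) (f : F[X]) (hint : ∀ n, v (f.coeff n) ≤ 1) (b : F)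
    (hb : v b ≤ 1) (h0 : v (f.eval b) < 1) (h1 : v (f.derivative.eval b) = 1) :
    ∃ b' : F, v b' ≤ 1 ∧ v (b' - b) = v (f.eval b) ∧ v (f.derivative.eval b') = 1 ∧
      v (f.eval b') ≤ v (f.eval b) ^ 2 := by
  have hd : f.derivative.eval b ≠ 0 := by
    intro h
    rw [h, map_zero] at h1
    exact zero_ne_one h1
  set h : F := - f.eval b / f.derivative.eval b with hh
  have hvh : v h = v (f.eval b) := by rw [hh, map_div₀, Valuation.map_neg, h1, div_one]
  have hh1 : v h ≤ 1 := hvh ▸ h0.le
  have hbh : v (b + h) ≤ 1 := (v.map_add _ _).trans (max_le hb hh1)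
  obtain ⟨k, hk, e⟩ := valExtB_taylor v f hint b h hb hh1
  refine ⟨b + h, hbh, ?_, ?_, ?_⟩
  · rw [add_sub_cancel_left, hvh]
  · have h2 := valExtB_lip v f.derivative 1 (valExtB_derivative_int v f hint) (b + h) b hbh hb
    rw [add_sub_cancel_left, one_mul, hvh] at h2
    rw [← h1]
    apply Valuation.map_eq_of_sub_lt
    rw [h1]
    exact lt_of_le_of_lt h2 h0
  · have h3 : f.eval b + f.derivative.eval b * h = 0 := by
      rw [hh]
      field_simp
      ring
    rw [e, h3, zero_add, map_mul, map_pow, hvh]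
    exact mul_le_of_le_one_left' hk

theorem valExtB_newton (v : Valuation F Γ₀) (hv : KL.Arch v) (f : F[X])
    (hint : ∀ n, v (f.coeff n) ≤ 1) (a : F) (ha : v a ≤ 1) (h0 : v (f.eval a) < 1)
    (h1 : v (f.derivative.eval a) = 1) (γ : Γ₀) (hγ : γ ≠ 0) :
    ∃ b : F, v b ≤ 1 ∧ v (b - a) < 1 ∧ v (f.eval b) < γ := by
  have hpow : ∀ n : ℕ, v (f.eval a) ^ (n + 1) ≤ v (f.eval a) := by
    intro n
    rw [pow_succ]
    exact mul_le_of_le_one_left' (pow_le_one' h0.le _)
  have key : ∀ n : ℕ, ∃ b : F, v b ≤ 1 ∧ v (b - a) < 1 ∧ v (f.derivative.eval b) = 1 ∧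
      v (f.eval b) ≤ v (f.eval a) ^ (n + 1) := by
    intro n
    induction n with
    | zero => exact ⟨a, ha, by rw [sub_self, map_zero]; exact zero_lt_one, h1, by rw [zero_add, pow_one]⟩
    | succ n ih =>
      obtain ⟨b, hb, hba, hb1, hb0⟩ := ih
      have hlt : v (f.eval b) < 1 :=
        lt_of_le_of_lt hb0 (lt_of_le_of_lt (hpow n) h0)
      obtain ⟨b', hb', e1, e2, e3⟩ := valExtB_step v f hint b hb hlt hb1
      refine ⟨b', hb', ?_, e2, ?_⟩
      · have : b' - a = (b' - b) + (b - a) := by ring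
        rw [this]
        exact lt_of_le_of_lt (v.map_add _ _) (max_lt (e1 ▸ hlt) hba)
      · refine e3.trans ?_
        rw [pow_two, pow_succ (v (f.eval a)) (n + 1)]
        exact mul_le_mul' hb0 (hb0.trans (hpow n))
  obtain ⟨m, hm⟩ := hv (f.eval a) h0 γ hγ
  obtain ⟨b, hb, hba, -, hb0⟩ := key m
  refine ⟨b, hb, hba, lt_of_le_of_lt (hb0.trans ?_) hm⟩
  rw [pow_succ]
  exact mul_le_of_le_one_right' h0.le

end newton

section ext

variable {F L Γ₀ : Type*} [Field F] [Field L] [Algebra F L] [LinearOrderedCommGroupWithZero Γ₀]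

theorem valExtB_eval_map_algebraMap (g : F[X]) (b : F) :
    (g.map (algebraMap F L)).eval (algebraMap F L b) = algebraMap F L (g.eval b) := by
  rw [Polynomial.eval_map]
  exact Polynomial.eval₂_at_apply (algebraMap F L) b

/-- the distance from `y` to an approximate root `b` near `a` is `v (f b)` -/
theorem valExtB_center (v : Valuation F Γ₀) (f : F[X]) (hint : ∀ n, v (f.coeff n) ≤ 1)
    (w : Valuation L Γ₀) (hw : ∀ c, w (algebraMap F L c) = v c) (y : L) (hy : aeval y f = 0) (a : F)
    (ha : v a ≤ 1) (h1 : v (f.derivative.eval a) = 1) (hwa : w (y - algebraMap F L a) < 1) (b : F)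
    (hba : v (b - a) < 1) : w (y - algebraMap F L b) = v (f.eval b) := by
  have hint' : ∀ n, w ((f.map (algebraMap F L)).coeff n) ≤ 1 := by
    intro n
    rw [Polynomial.coeff_map, hw]
    exact hint n
  have hwy : w y ≤ 1 := by
    have : y = (y - algebraMap F L a) + algebraMap F L a := by ring
    rw [this]
    exact (w.map_add _ _).trans (max_le hwa.le (by rw [hw]; exact ha))
  have hh : w (algebraMap F L b - y) < 1 := by
    have : algebraMap F L b - y = algebraMap F L (b - a) + (algebraMap F L a - y) := by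
      rw [map_sub]; ring
    rw [this]
    refine lt_of_le_of_lt (w.map_add _ _) (max_lt (by rw [hw]; exact hba) ?_)
    rw [Valuation.map_sub_swap]
    exact hwa
  obtain ⟨k, hk, e⟩ := valExtB_taylor w (f.map (algebraMap F L)) hint' y (algebraMap F L b - y) hwy hh.le
  rw [add_sub_cancel, valExtB_eval_map_algebraMap, Polynomial.eval_map_algebraMap, hy, zero_add] at e
  have hd : w ((f.map (algebraMap F L)).derivative.eval y) = 1 := by
    have h2 := valExtB_lip w (f.map (algebraMap F L)).derivative 1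
      (valExtB_derivative_int w _ hint') y (algebraMap F L a) hwy (by rw [hw]; exact ha)
    rw [one_mul] at h2
    have h3 : w ((f.map (algebraMap F L)).derivative.eval (algebraMap F L a)) = 1 := by
      rw [Polynomial.derivative_map, valExtB_eval_map_algebraMap, hw, h1]
    rw [← h3]
    apply Valuation.map_eq_of_sub_lt
    rw [h3]
    exact lt_of_le_of_lt h2 hwa
  have e' : algebraMap F L (f.eval b) = (algebraMap F L b - y) *
      ((f.map (algebraMap F L)).derivative.eval y + k * (algebraMap F L b - y)) := by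
    rw [e]; ring
  have hu : w ((f.map (algebraMap F L)).derivative.eval y + k * (algebraMap F L b - y)) = 1 := by
    rw [← hd]
    apply Valuation.map_add_eq_of_lt_left
    rw [hd, map_mul]
    exact lt_of_le_of_lt (mul_le_of_le_one_left' hk) hh
  rw [← hw, e', map_mul, hu, mul_one, Valuation.map_sub_swap]

/-- approximation of `g(y)` by `g(b)` -/
theorem valExtB_approx (v : Valuation F Γ₀) (w : Valuation L Γ₀)
    (hw : ∀ c, w (algebraMap F L c) = v c) (y : L) (hwy : w y ≤ 1) (g : F[X]) (C : Γ₀)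
    (hC : ∀ i, v (g.coeff i) ≤ C) (b : F) (hb : v b ≤ 1) :
    w (aeval y g - algebraMap F L (g.eval b)) ≤ C * w (y - algebraMap F L b) := by
  have h := valExtB_lip w (g.map (algebraMap F L)) C
    (fun i => by rw [Polynomial.coeff_map, hw]; exact hC i) y (algebraMap F L b) hwy
    (by rw [hw]; exact hb)
  rwa [valExtB_eval_map_algebraMap, Polynomial.eval_map_algebraMap] at h

/-- **uniqueness** of the extension centred at a simple approximate root. -/
theorem valExt_unique (v : Valuation F Γ₀) (hv : KL.Arch v) (y : L) (f : F[X])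
    (hint : ∀ n, v (f.coeff n) ≤ 1) (hy : aeval y f = 0) (hgen : ∀ x : L, ∃ g : F[X], aeval y g = x)
    (a : F) (ha : v a ≤ 1) (h0 : v (f.eval a) < 1) (h1 : v (f.derivative.eval a) = 1)
    (w w' : Valuation L Γ₀) (hw : ∀ c, w (algebraMap F L c) = v c)
    (hw' : ∀ c, w' (algebraMap F L c) = v c) (hwa : w (y - algebraMap F L a) < 1)
    (hwa' : w' (y - algebraMap F L a) < 1) : w = w' := by
  have hy1 : ∀ u : Valuation L Γ₀, (∀ c, u (algebraMap F L c) = v c) → u (y - algebraMap F L a) < 1 →
      u y ≤ 1 := by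
    intro u hu hua
    have : y = (y - algebraMap F L a) + algebraMap F L a := by ring
    rw [this]
    exact (u.map_add _ _).trans (max_le hua.le (by rw [hu]; exact ha))
  ext x
  by_cases hx : x = 0
  · rw [hx, map_zero, map_zero]
  obtain ⟨g, rfl⟩ := hgen x
  obtain ⟨C, hC0, hC⟩ := valExtB_exists_bound v g
  have hwx : w (aeval y g) ≠ 0 := (Valuation.ne_zero_iff _).2 hx
  have hwx' : w' (aeval y g) ≠ 0 := (Valuation.ne_zero_iff _).2 hx
  have hmin : min (w (aeval y g)) (w' (aeval y g)) ≠ 0 := by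
    rcases min_choice (w (aeval y g)) (w' (aeval y g)) with h | h <;> rw [h] <;> assumption
  obtain ⟨b, hb, hba, hfb⟩ := valExtB_newton v hv f hint a ha h0 h1
    (min (w (aeval y g)) (w' (aeval y g)) / C) (div_ne_zero hmin hC0)
  have hlt : C * v (f.eval b) < min (w (aeval y g)) (w' (aeval y g)) := by
    rw [mul_comm]
    exact (lt_div_iff₀ (zero_lt_iff.2 hC0)).1 hfb
  have main : ∀ u : Valuation L Γ₀, (∀ c, u (algebraMap F L c) = v c) → u (y - algebraMap F L a) < 1 →
      C * v (f.eval b) < u (aeval y g) → u (aeval y g) = v (g.eval b) := by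
    intro u hu hua hlt'
    have e1 := valExtB_center v f hint u hu y hy a ha h1 hua b hba
    have e2 := valExtB_approx v u hu y (hy1 u hu hua) g C hC b hb
    rw [e1] at e2
    rw [← hu]
    symm
    apply Valuation.map_eq_of_sub_lt
    rw [Valuation.map_sub_swap]
    exact lt_of_le_of_lt e2 hlt'
  rw [main w hw hwa (lt_of_lt_of_le hlt (min_le_left _ _)),
    main w' hw' hwa' (lt_of_lt_of_le hlt (min_le_right _ _))]

/-- corollary for `Cov.shift` -/
theorem valExt_comap_eq (v : Valuation F Γ₀) (hv : KL.Arch v) (y : L) (f : F[X])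
    (hint : ∀ n, v (f.coeff n) ≤ 1) (hy : aeval y f = 0) (hgen : ∀ x : L, ∃ g : F[X], aeval y g = x)
    (a₂ : F) (ha : v a₂ ≤ 1) (h0 : v (f.eval a₂) < 1) (h1 : v (f.derivative.eval a₂) = 1)
    (σ : L ≃ₐ[F] L) (w w₂ : Valuation L Γ₀) (hw : ∀ c, w (algebraMap F L c) = v c)
    (hw₂ : ∀ c, w₂ (algebraMap F L c) = v c) (hσ : w (σ y - algebraMap F L a₂) < 1)
    (hwa₂ : w₂ (y - algebraMap F L a₂) < 1) (x : L) : w (σ x) = w₂ x := by
  have h := valExt_unique v hv y f hint hy hgen a₂ ha h0 h1 (w.comap (σ : L →+* L)) w₂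
    (fun c => by
      rw [Valuation.comap_apply]
      show w (σ (algebraMap F L c)) = v c
      rw [σ.commutes, hw]) hw₂
    (by
      rw [Valuation.comap_apply]
      show w (σ (y - algebraMap F L a₂)) < 1
      rw [map_sub, σ.commutes]
      exact hσ) hwa₂
  rw [← h]
  rfl

/-- extension of the reduction map along an immediate extension -/
theorem exists_red_ext {T : Type*} [Ring T] (v : Valuation F Γ₀) (w : Valuation L Γ₀)
    (hw : ∀ c, w (algebraMap F L c) = v c)
    (himm : ∀ x : L, w x ≤ 1 → ∃ c : F, v c ≤ 1 ∧ w (x - algebraMap F L c) < 1)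
    (ρ₀ : v.integer →+* T) (hρ₀ : ∀ z : v.integer, ρ₀ z = 0 ↔ v (z : F) < 1) :
    ∃ ρ : w.integer →+* T, (∀ z : w.integer, ρ z = 0 ↔ w (z : L) < 1) ∧
      ∀ (c : F) (hc : v c ≤ 1) (hc' : w (algebraMap F L c) ≤ 1),
        ρ ⟨algebraMap F L c, hc'⟩ = ρ₀ ⟨c, hc⟩ := by
  choose! r hr1 hr2 using himm
  let φ : w.integer → T := fun x => ρ₀ ⟨r x, hr1 x x.2⟩
  have key : ∀ (x : w.integer) (c : v.integer), w ((x : L) - algebraMap F L c) < 1 → φ x = ρ₀ c := by
    intro x c hxc
    rw [← sub_eq_zero, ← map_sub, hρ₀]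
    show v (r x - c) < 1
    rw [← hw, map_sub]
    have : algebraMap F L (r x) - algebraMap F L c =
        ((x : L) - algebraMap F L c) - ((x : L) - algebraMap F L (r x)) := by ring
    rw [this]
    exact lt_of_le_of_lt (w.map_sub _ _) (max_lt hxc (hr2 x x.2))
  have hφ : ∀ x : w.integer, w ((x : L) - algebraMap F L (r x)) < 1 := fun x => hr2 x x.2
  refine ⟨{ toFun := φ, map_one' := ?_, map_mul' := ?_, map_zero' := ?_, map_add' := ?_ }, ?_, ?_⟩
  · rw [← map_one ρ₀]
    apply key
    rw [Subring.coe_one, Subring.coe_one, map_one, sub_self, map_zero]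
    exact zero_lt_one
  · intro x x'
    show φ (x * x') = ρ₀ ⟨r x, hr1 x x.2⟩ * ρ₀ ⟨r x', hr1 x' x'.2⟩
    rw [← map_mul]
    apply key
    rw [Subring.coe_mul, Subring.coe_mul, map_mul]
    have : (x : L) * (x' : L) - algebraMap F L (r x) * algebraMap F L (r x') =
        (x : L) * ((x' : L) - algebraMap F L (r x')) +
          algebraMap F L (r x') * ((x : L) - algebraMap F L (r x)) := by ring
    rw [this]
    refine lt_of_le_of_lt (w.map_add _ _) (max_lt ?_ ?_)
    · rw [map_mul]
      exact lt_of_le_of_lt (mul_le_of_le_one_left' x.2) (hφ x')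
    · rw [map_mul]
      refine lt_of_le_of_lt (mul_le_of_le_one_left' ?_) (hφ x)
      rw [hw]
      exact hr1 x' x'.2
  · rw [← map_zero ρ₀]
    apply key
    rw [Subring.coe_zero, Subring.coe_zero, map_zero, sub_self, map_zero]
    exact zero_lt_one
  · intro x x'
    show φ (x + x') = ρ₀ ⟨r x, hr1 x x.2⟩ + ρ₀ ⟨r x', hr1 x' x'.2⟩
    rw [← map_add]
    apply key
    rw [Subring.coe_add, Subring.coe_add, map_add]
    have : (x : L) + (x' : L) - (algebraMap F L (r x) + algebraMap F L (r x')) =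
        ((x : L) - algebraMap F L (r x)) + ((x' : L) - algebraMap F L (r x')) := by ring
    rw [this]
    exact lt_of_le_of_lt (w.map_add _ _) (max_lt (hφ x) (hφ x'))
  · intro z
    show ρ₀ ⟨r z, hr1 z z.2⟩ = 0 ↔ _
    rw [hρ₀]
    show v (r z) < 1 ↔ _
    rw [← hw]
    constructor
    · intro h
      have : (z : L) = ((z : L) - algebraMap F L (r z)) + algebraMap F L (r z) := by ring
      rw [this]
      exact lt_of_le_of_lt (w.map_add _ _) (max_lt (hφ z) h)
    · intro h
      have : algebraMap F L (r z) = (z : L) - ((z : L) - algebraMap F L (r z)) := by ring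
      rw [this]
      exact lt_of_le_of_lt (w.map_sub _ _) (max_lt h (hφ z))
  · intro c hc hc'
    apply key
    show w (algebraMap F L c - algebraMap F L c) < 1
    rw [sub_self, map_zero]
    exact zero_lt_one

end ext

end Fermat.Agent.MR.C
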